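import Mathlib

/-! # Systems of absolute values and uniform bounds (Mordell-Weil for `J_0(N)`)

`AV k` : a family of absolute values of a field `k`, all but finitely many of them
nonarchimedean, such that every nonzero element has absolute value one almost everywhere.
`MC` : families of constants `≥ 1`, equal to `1` almost everywhere.
`Bdd V reg g` : `g` is bounded on the region `reg` by such a family. -/

set_option autoImplicit false

noncomputable section

namespace Fermat.Agent.MW

/-- A system of absolute values. -/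
structure AV (k : Type*) [Field k] where
  ι : Type
  v : ι → AbsoluteValue k ℝ
  arch : Set ι
  arch_fin : arch.Finite
  nonarch : ∀ i ∉ arch, IsNonarchimedean (v i)
  fin : ∀ a : k, a ≠ 0 → {i | v i a ≠ 1}.Finite

/-- Families of constants `≥ 1`, almost all equal to `1`. -/
structure MC (ι : Type) where
  c : ι → ℝ
  one_le : ∀ i, 1 ≤ c i
  fin : {i | c i ≠ 1}.Finite

namespace MC

variable {ι : Type}

instance : One (MC ι) := ⟨⟨fun _ => 1, fun _ => le_rfl, by simp⟩⟩

@[simp] lemma one_c (i : ι) : (1 : MC ι).c i = 1 := rfl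

lemma pos (C : MC ι) (i : ι) : 0 < C.c i := zero_lt_one.trans_le (C.one_le i)

instance : Mul (MC ι) := ⟨fun C D => ⟨fun i => C.c i * D.c i,
  fun i => one_le_mul_of_one_le_of_one_le (C.one_le i) (D.one_le i), by
    refine (C.fin.union D.fin).subset fun i hi => ?_
    by_contra h
    simp only [Set.mem_union, Set.mem_setOf_eq, not_or, not_not] at h hi
    exact hi (by rw [h.1, h.2, one_mul])⟩⟩

@[simp] lemma mul_c (C D : MC ι) (i : ι) : (C * D).c i = C.c i * D.c i := rfl

/-- The maximum of two families. -/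
def sup (C D : MC ι) : MC ι := C * D

lemma le_sup_left (C D : MC ι) (i : ι) : C.c i ≤ (C.sup D).c i := by
  rw [sup, mul_c]
  exact le_mul_of_one_le_right (C.pos i).le (D.one_le i)

lemma le_sup_right (C D : MC ι) (i : ι) : D.c i ≤ (C.sup D).c i := by
  rw [sup, mul_c]
  exact le_mul_of_one_le_left (D.pos i).le (C.one_le i)

/-- Powers. -/
def pow (C : MC ι) (n : ℕ) : MC ι := ⟨fun i => C.c i ^ n, fun i => one_le_pow₀ (C.one_le i), by
  refine C.fin.subset fun i hi => ?_
  by_contra h
  simp only [Set.mem_setOf_eq, not_not] at h hi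
  exact hi (by rw [h, one_pow])⟩

@[simp] lemma pow_c (C : MC ι) (n : ℕ) (i : ι) : (C.pow n).c i = C.c i ^ n := rfl

/-- A constant on a finite set. -/
def onFin (s : Set ι) (hs : s.Finite) (x : ℝ) (hx : 1 ≤ x) : MC ι := by
  classical
  exact ⟨fun i => if i ∈ s then x else 1, fun i => by split_ifs <;> simp [hx], by
    refine hs.subset fun i hi => ?_
    by_contra h
    exact hi (by simp [h])⟩

lemma onFin_mem {s : Set ι} {hs : s.Finite} {x : ℝ} {hx : 1 ≤ x} {i : ι} (hi : i ∈ s) :
    (onFin s hs x hx).c i = x := by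
  classical
  simp [onFin, hi]

/-- Finite suprema. -/
lemma exists_ge {α : Type*} (s : Finset α) (C : α → MC ι) :
    ∃ D : MC ι, ∀ a ∈ s, ∀ i, (C a).c i ≤ D.c i := by
  classical
  induction s using Finset.induction with
  | empty => exact ⟨1, by simp⟩
  | insert a s ha ih =>
    obtain ⟨D, hD⟩ := ih
    refine ⟨(C a).sup D, fun b hb i => ?_⟩
    rcases Finset.mem_insert.mp hb with rfl | hb
    · exact le_sup_left _ _ i
    · exact (hD b hb i).trans (le_sup_right _ _ i)

lemma exists_ge_fintype {α : Type*} [Finite α] (C : α → MC ι) :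
    ∃ D : MC ι, ∀ a, ∀ i, (C a).c i ≤ D.c i := by
  classical
  haveI := Fintype.ofFinite α
  obtain ⟨D, hD⟩ := exists_ge (Finset.univ : Finset α) C
  exact ⟨D, fun a => hD a (Finset.mem_univ a)⟩

end MC

variable {k : Type*} [Field k] (V : AV k)

/-- The archimedean factor two. -/
def AV.two : MC V.ι := MC.onFin V.arch V.arch_fin 2 (by norm_num)

lemma AV.add_le (i : V.ι) (a b : k) {x : ℝ} (ha : V.v i a ≤ x) (hb : V.v i b ≤ x) :
    V.v i (a + b) ≤ V.two.c i * x := by
  by_cases hi : i ∈ V.arch
  · rw [AV.two, MC.onFin_mem hi]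
    calc V.v i (a + b) ≤ V.v i a + V.v i b := (V.v i).add_le a b
      _ ≤ 2 * x := by linarith
  · have hx : 0 ≤ x := ((V.v i).nonneg a).trans ha
    refine ((V.nonarch i hi) a b).trans ((max_le ha hb).trans ?_)
    exact le_mul_of_one_le_left hx (V.two.one_le i)

/-- Every element is bounded. -/
lemma AV.exists_bound (a : k) : ∃ C : MC V.ι, ∀ i, V.v i a ≤ C.c i := by
  by_cases ha : a = 0
  · exact ⟨1, fun i => by simp [ha]⟩
  · refine ⟨⟨fun i => max (V.v i a) 1, fun i => le_max_right _ _, ?_⟩, fun i => le_max_left _ _⟩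
    refine (V.fin a ha).subset fun i hi h => ?_
    simp only [Set.mem_setOf_eq] at hi
    exact hi (by rw [h, max_self])

/-- Boundedness of a function on a region. -/
def Bdd {D : Type*} (reg : V.ι → D → Prop) (g : D → k) : Prop :=
  ∃ C : MC V.ι, ∀ i d, reg i d → V.v i (g d) ≤ C.c i

namespace Bdd

variable {V} {D : Type*} {reg : V.ι → D → Prop}

lemma const (a : k) : Bdd V reg (fun _ => a) := by
  obtain ⟨C, hC⟩ := V.exists_bound a
  exact ⟨C, fun i _ _ => hC i⟩

lemma add {f g : D → k} (hf : Bdd V reg f) (hg : Bdd V reg g) :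
    Bdd V reg (fun d => f d + g d) := by
  obtain ⟨C, hC⟩ := hf
  obtain ⟨E, hE⟩ := hg
  refine ⟨V.two * (C.sup E), fun i d hd => ?_⟩
  exact V.add_le i _ _ ((hC i d hd).trans (C.le_sup_left E i))
    ((hE i d hd).trans (C.le_sup_right E i))

lemma mul {f g : D → k} (hf : Bdd V reg f) (hg : Bdd V reg g) :
    Bdd V reg (fun d => f d * g d) := by
  obtain ⟨C, hC⟩ := hf
  obtain ⟨E, hE⟩ := hg
  refine ⟨C * E, fun i d hd => ?_⟩
  rw [map_mul]
  exact mul_le_mul (hC i d hd) (hE i d hd) ((V.v i).nonneg _) (C.pos i).le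

lemma neg {f : D → k} (hf : Bdd V reg f) : Bdd V reg (fun d => - f d) := by
  obtain ⟨C, hC⟩ := hf
  exact ⟨C, fun i d hd => by rw [AbsoluteValue.map_neg]; exact hC i d hd⟩

lemma sub {f g : D → k} (hf : Bdd V reg f) (hg : Bdd V reg g) :
    Bdd V reg (fun d => f d - g d) := by
  simpa only [sub_eq_add_neg] using hf.add hg.neg

lemma pow {f : D → k} (hf : Bdd V reg f) (n : ℕ) : Bdd V reg (fun d => f d ^ n) := by
  induction n with
  | zero => simpa using const (V := V) (reg := reg) (1 : k)
  | succ n ih => simpa only [pow_succ] using ih.mul hf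

lemma sum {α : Type*} (s : Finset α) {f : α → D → k} (hf : ∀ a ∈ s, Bdd V reg (f a)) :
    Bdd V reg (fun d => ∑ a ∈ s, f a d) := by
  classical
  induction s using Finset.induction with
  | empty => simpa using const (V := V) (reg := reg) (0 : k)
  | insert a s ha ih =>
    simp only [Finset.sum_insert ha]
    exact (hf a (by simp)).add (ih fun b hb => hf b (by simp [hb]))

lemma prod {α : Type*} (s : Finset α) {f : α → D → k} (hf : ∀ a ∈ s, Bdd V reg (f a)) :
    Bdd V reg (fun d => ∏ a ∈ s, f a d) := by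
  classical
  induction s using Finset.induction with
  | empty => simpa using const (V := V) (reg := reg) (1 : k)
  | insert a s ha ih =>
    simp only [Finset.prod_insert ha]
    exact (hf a (by simp)).mul (ih fun b hb => hf b (by simp [hb]))

/-- Evaluation of a fixed polynomial. -/
lemma eval {f : D → k} (hf : Bdd V reg f) (p : Polynomial k) :
    Bdd V reg (fun d => p.eval (f d)) := by
  simp only [Polynomial.eval_eq_sum, Polynomial.sum_def]
  exact sum _ fun n _ => (const _).mul (hf.pow n)

/-- Evaluation of a fixed multivariable polynomial. -/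
lemma mvEval {σ : Type*} {f : σ → D → k} (hf : ∀ s, Bdd V reg (f s)) (p : MvPolynomial σ k) :
    Bdd V reg (fun d => MvPolynomial.eval (fun s => f s d) p) := by
  simp only [MvPolynomial.eval_eq]
  exact sum _ fun n _ => (const _).mul (prod _ fun s _ => (hf s).pow _)

lemma det {n : Type*} [Fintype n] [DecidableEq n] {M : D → Matrix n n k}
    (hM : ∀ a b, Bdd V reg (fun d => M d a b)) : Bdd V reg (fun d => (M d).det) := by
  simp only [Matrix.det_apply, Units.smul_def, zsmul_eq_mul]
  refine sum _ fun s _ => (const _).mul (prod _ fun a _ => hM _ _)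

lemma adjugate {n : Type*} [Fintype n] [DecidableEq n] {M : D → Matrix n n k}
    (hM : ∀ a b, Bdd V reg (fun d => M d a b)) (a b : n) :
    Bdd V reg (fun d => (M d).adjugate a b) := by
  simp only [Matrix.adjugate_apply]
  refine det fun x y => ?_
  simp only [Matrix.updateRow_apply]
  split_ifs
  · exact const _
  · exact hM _ _

/-- Boundedness by a common family for finitely many functions. -/
lemma exists_common {α : Type*} [Finite α] {f : α → D → k} (hf : ∀ a, Bdd V reg (f a)) :
    ∃ C : MC V.ι, ∀ a i d, reg i d → V.v i (f a d) ≤ C.c i := by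
  choose C hC using hf
  obtain ⟨E, hE⟩ := MC.exists_ge_fintype C
  exact ⟨E, fun a i d hd => (hC a i d hd).trans (hE a i)⟩

end Bdd

/-- Linear combinations with bounded coefficients. -/
lemma AV.exists_sum_le {D : Type*} {reg : V.ι → D → Prop} {α : Type*} [Fintype α]
    {g : α → D → k} (hg : ∀ a, Bdd V reg (g a)) :
    ∃ C : MC V.ι, ∀ i d, reg i d → ∀ (y : α → k) (x : ℝ), 0 ≤ x → (∀ a, V.v i (y a) ≤ x) →
      V.v i (∑ a, g a d * y a) ≤ C.c i * x := by
  classical
  have key : ∀ s : Finset α, ∃ C : MC V.ι, ∀ i d, reg i d → ∀ (y : α → k) (x : ℝ), 0 ≤ x →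
      (∀ a ∈ s, V.v i (y a) ≤ x) → V.v i (∑ a ∈ s, g a d * y a) ≤ C.c i * x := by
    intro s
    induction s using Finset.induction with
    | empty =>
      refine ⟨1, fun i d _ y x hx _ => ?_⟩
      simpa using hx
    | insert a s ha ih =>
      obtain ⟨C, hC⟩ := ih
      obtain ⟨E, hE⟩ := hg a
      refine ⟨V.two * (E.sup C), fun i d hd y x hx hfx => ?_⟩
      rw [Finset.sum_insert ha, MC.mul_c, mul_assoc]
      refine V.add_le i _ _ ?_ ?_
      · rw [map_mul]
        calc V.v i (g a d) * V.v i (y a) ≤ E.c i * x :=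
              mul_le_mul (hE i d hd) (hfx a (by simp)) ((V.v i).nonneg _) (E.pos i).le
          _ ≤ (E.sup C).c i * x := by
              exact mul_le_mul_of_nonneg_right (E.le_sup_left C i) hx
      · exact (hC i d hd y x hx fun b hb => hfx b (by simp [hb])).trans
          (mul_le_mul_of_nonneg_right (E.le_sup_right C i) hx)
  obtain ⟨C, hC⟩ := key Finset.univ
  exact ⟨C, fun i d hd y x hx hy => hC i d hd y x hx fun a _ => hy a⟩

/-- If `1 = ∑ g_a f_a` with `g_a` bounded, the maximum of the `|f_a|` is bounded below. -/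
lemma AV.exists_lower {D : Type*} {reg : V.ι → D → Prop} {α : Type*}
    {f g : α → D → k} (hg : ∀ a, Bdd V reg (g a)) [Fintype α]
    (h : ∀ i d, reg i d → ∑ a, g a d * f a d = 1) :
    ∃ C : MC V.ι, ∀ i d, reg i d → ∃ a, 1 ≤ C.c i * V.v i (f a d) := by
  classical
  obtain ⟨C, hC⟩ := V.exists_sum_le hg
  refine ⟨V.two * C, fun i d hd => ?_⟩
  by_contra hcon
  push Not at hcon
  have hne : Nonempty α := by
    by_contra hα
    rw [not_nonempty_iff] at hα
    have := h i d hd
    simp at this
  obtain ⟨a0, -, ha0⟩ := Finset.exists_max_image Finset.univ (fun a => V.v i (f a d))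
    ⟨Classical.arbitrary α, Finset.mem_univ _⟩
  have h1 := hC i d hd (fun a => f a d) (V.v i (f a0 d)) ((V.v i).nonneg _)
    (fun a => ha0 a (Finset.mem_univ a))
  rw [h i d hd, map_one] at h1
  have h2 := hcon a0
  rw [MC.mul_c, mul_assoc] at h2
  have h3 : (1 : ℝ) ≤ V.two.c i * (C.c i * V.v i (f a0 d)) :=
    h1.trans (le_mul_of_one_le_left (zero_le_one.trans h1) (V.two.one_le i))
  linarith

/-! ### The pigeonhole principle with Vandermonde determinants -/

/-- The value of the polynomial with coefficients `c`. -/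
def pv {s : ℕ} (c : Fin s → k) (t : k) : k := ∑ j : Fin s, t ^ (j : ℕ) * c j

/-- The coefficients are bounded by the values at `s` distinct points. -/
lemma AV.exists_vdm {s : ℕ} (e : Fin s → k) (he : Function.Injective e) :
    ∃ C : MC V.ι, ∀ i (c : Fin s → k) (x : ℝ), 0 ≤ x → (∀ a, V.v i (pv c (e a)) ≤ x) →
      ∀ j, V.v i (c j) ≤ C.c i * x := by
  classical
  have hdet : IsUnit (Matrix.vandermonde e).det :=
    (Matrix.det_vandermonde_ne_zero_iff.mpr he).isUnit
  have hC : ∀ j : Fin s, ∃ C : MC V.ι, ∀ i (_ : Unit), True → ∀ (y : Fin s → k) (x : ℝ), 0 ≤ x →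
      (∀ a, V.v i (y a) ≤ x) →
        V.v i (∑ a, (Matrix.vandermonde e)⁻¹ j a * y a) ≤ C.c i * x := fun j =>
    V.exists_sum_le (reg := fun _ _ => True)
      (g := fun a (_ : Unit) => (Matrix.vandermonde e)⁻¹ j a) fun a => Bdd.const _
  choose C hC using hC
  obtain ⟨E, hE⟩ := MC.exists_ge_fintype C
  refine ⟨E, fun i c x hx h j => ?_⟩
  have h1 : c j = ∑ a, (Matrix.vandermonde e)⁻¹ j a * pv c (e a) := by
    have h2 : (fun a => pv c (e a)) = Matrix.mulVec (Matrix.vandermonde e) c := by
      ext a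
      simp [pv, Matrix.mulVec, dotProduct, Matrix.vandermonde_apply]
    have h3 : Matrix.mulVec (Matrix.vandermonde e)⁻¹ (fun a => pv c (e a)) = c := by
      rw [h2, Matrix.mulVec_mulVec, Matrix.nonsing_inv_mul _ hdet, Matrix.one_mulVec]
    conv_lhs => rw [← h3]
    rfl
  rw [h1]
  exact (hC j i () trivial _ x hx h).trans (mul_le_mul_of_nonneg_right (hE j i) hx)

/-- **Pigeonhole.** For a finite set `T` with more than `m (s - 1)` elements, any `m` vectors of
length `s` have a common good `t ∈ T`. -/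
theorem AV.exists_pigeon {s : ℕ} (T : Finset k) (m : ℕ) (hT : m * (s - 1) < T.card) :
    ∃ C : MC V.ι, ∀ i {α : Type} (S : Finset α) (c : α → Fin s → k), S.card ≤ m →
      ∃ t ∈ T, ∀ l ∈ S, ∀ j, V.v i (c l j) ≤ C.c i * V.v i (pv (c l) t) := by
  classical
  -- constants for all injective maps into `T`
  have hC : ∀ e : {e : Fin s → T // Function.Injective e}, ∃ C : MC V.ι,
      ∀ i (c : Fin s → k) (x : ℝ), 0 ≤ x → (∀ a, V.v i (pv c (e.1 a : k)) ≤ x) →
      ∀ j, V.v i (c j) ≤ C.c i * x := fun e =>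
    V.exists_vdm (fun a => (e.1 a : k)) fun a b h => e.2 (Subtype.ext h)
  choose C hC using hC
  obtain ⟨E, hE⟩ := MC.exists_ge_fintype C
  refine ⟨V.two * E, fun i α S c hS => ?_⟩
  -- bad sets
  set bad : α → Finset k := fun l => T.filter fun t =>
    ∃ j, (V.two * E).c i * V.v i (pv (c l) t) < V.v i (c l j) with hbad
  have hcard : ∀ l, (bad l).card ≤ s - 1 := by
    intro l
    by_contra hcon
    push Not at hcon
    have hs : s ≤ (bad l).card := by omega
    obtain ⟨B, hBsub, hBcard⟩ := Finset.exists_subset_card_eq hs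
    let f : Fin s ≃ B := (Fintype.equivFinOfCardEq (by simpa using hBcard)).symm
    have hBT : ∀ b : B, (b : k) ∈ T := fun b => (Finset.mem_filter.mp (hBsub b.2)).1
    let e : {e : Fin s → T // Function.Injective e} :=
      ⟨fun a => ⟨(f a : k), hBT _⟩, fun a b h => f.injective (Subtype.ext (by
        simpa using congrArg Subtype.val h))⟩
    have hspos : 0 < s := by
      by_contra h0
      have h0 : s = 0 := by omega
      subst h0
      have : (bad l).Nonempty := Finset.card_pos.mp (by omega)
      obtain ⟨t, ht⟩ := this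
      obtain ⟨j, -⟩ := (Finset.mem_filter.mp ht).2
      exact j.elim0
    haveI : Nonempty (Fin s) := ⟨⟨0, hspos⟩⟩
    obtain ⟨j0, -, hj0⟩ := Finset.exists_max_image Finset.univ (fun j => V.v i (c l j))
      ⟨Classical.arbitrary (Fin s), Finset.mem_univ _⟩
    have h1 : ∀ a, (V.two * E).c i * V.v i (pv (c l) (e.1 a : k)) < V.v i (c l j0) := by
      intro a
      obtain ⟨j, hj⟩ := (Finset.mem_filter.mp (hBsub (f a).2)).2
      exact lt_of_lt_of_le hj (hj0 j (Finset.mem_univ j))
    have hpos : 0 < (V.two * E).c i := (V.two * E).pos i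
    obtain ⟨a0, -, ha0⟩ := Finset.exists_max_image Finset.univ
      (fun a => V.v i (pv (c l) (e.1 a : k))) ⟨Classical.arbitrary (Fin s), Finset.mem_univ _⟩
    have h2 := hC e i (c l) (V.v i (pv (c l) (e.1 a0 : k))) ((V.v i).nonneg _)
      (fun a => ha0 a (Finset.mem_univ a)) j0
    have h3 := h1 a0
    have h4 : (C e).c i * V.v i (pv (c l) (e.1 a0 : k)) ≤
        (V.two * E).c i * V.v i (pv (c l) (e.1 a0 : k)) := by
      refine mul_le_mul_of_nonneg_right ?_ ((V.v i).nonneg _)
      exact (hE e i).trans (MC.le_sup_right V.two E i)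
    linarith
  have hun : (S.biUnion bad).card ≤ m * (s - 1) :=
    (Finset.card_biUnion_le_card_mul S bad (s - 1) fun l _ => hcard l).trans
      (Nat.mul_le_mul_right _ hS)
  obtain ⟨t, htT, ht⟩ := Finset.exists_mem_notMem_of_card_lt_card (hun.trans_lt hT)
  refine ⟨t, htT, fun l hl j => ?_⟩
  by_contra hcon
  push Not at hcon
  exact ht (Finset.mem_biUnion.mpr ⟨l, hl, Finset.mem_filter.mpr ⟨htT, j, hcon⟩⟩)

end Fermat.Agent.MW
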