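import Mathlib
import Fermat.Agent.Flat.Riemann2
import Fermat.Agent.MW.AV

/-! # Curves with a totally ramified function, distance packages -/

set_option autoImplicit false
set_option linter.unusedSectionVars false

noncomputable section

namespace Fermat.Agent.MW

open AlgebraicCurve Module Fermat.Agent.Flat

/-- The norm of a coefficient vector. -/
def nrm {k : Type*} [Field k] (V : AV k) (i : V.ι) {r : ℕ} (c : Fin r → k) : ℝ :=
  ⨆ j, V.v i (c j)

variable (k F : Type*) [Field k] [Field F] [Algebra k F]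

/-- A curve with a function `x` having a single pole, and the derivation `d/dx`. -/
structure XD (g C : ℤ) where
  crv : Flat.Crv k F g C
  inf : Place k F
  x : F
  n0 : ℕ
  n0_pos : 0 < n0
  ord_inf : inf.ord x = -(n0 : ℤ)
  ord_nonneg : ∀ v : Place k F, v ≠ inf → 0 ≤ v.ord x
  sep : Flat.Sep k x
  D : Derivation k F F
  D_x : D x = 1

namespace XD

variable {k F} {g C : ℤ} (X : XD k F g C)

/-- The divisor `m n₀ ∞`. -/
def dm (m : ℕ) : Divisor k F := Finsupp.single X.inf ((m * X.n0 : ℕ) : ℤ)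

/-- The space `L(m n₀ ∞)`. -/
def L (m : ℕ) : Submodule k F := riemannRochSpace (X.dm m)

instance (m : ℕ) : FiniteDimensional k (X.L m) := X.crv.fd _

/-- Its dimension. -/
def d (m : ℕ) : ℕ := finrank k (X.L m)

/-- A basis. -/
def b (m : ℕ) : Basis (Fin (X.d m)) k (X.L m) := finBasis k (X.L m)

/-- The element with given coordinates. -/
def elt (m : ℕ) (c : Fin (X.d m) → k) : F := ∑ j, c j • (X.b m j : F)

/-- The affine zeros (as a divisor). -/
def zs (A : F) : Divisor k F := (dv (K := k) A).erase X.inf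

/-- `max (1, |x(Q)|)`. -/
def sz (V : AV k) (i : V.ι) (Q : Place k F) : ℝ := max 1 (V.v i (evp Q X.x))

/-- The points unramified for `x`. -/
def Unr (Q : Place k F) : Prop := Q ≠ X.inf ∧ Q.ord (X.x - algebraMap k F (evp Q X.x)) = 1

end XD

variable {k F} {g C : ℤ}

/-- The local theory: distance functions with all the properties used in the global part. -/
structure Pkg (V : AV k) (X : XD k F g C) where
  dist : V.ι → Place k F → Place k F → ℝ
  symm : ∀ i P Q, dist i P Q = dist i Q P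
  pos : ∀ i P Q, P ≠ X.inf → Q ≠ X.inf → P ≠ Q → 0 < dist i P Q
  fin : ∀ P Q, P ≠ X.inf → Q ≠ X.inf → P ≠ Q → {i | dist i P Q ≠ 1}.Finite
  bd : ∃ C : MC V.ι, ∀ i P Q, P ≠ X.inf → Q ≠ X.inf → dist i P Q ≤ C.c i
  tri : ∃ C : MC V.ι, ∀ i P Q T, P ≠ X.inf → Q ≠ X.inf → T ≠ X.inf →
    dist i P T ≤ C.c i * max (dist i P Q) (dist i Q T)
  /-- the main estimate `|A(Q)| ≍ |A| max(1,|x(Q)|)^m ∏ dist(P, Q)` -/
  lt : ∀ m : ℕ, ∃ C : MC V.ι, ∀ i (c : Fin (X.d m) → k),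
    X.inf.ord (X.elt m c) = -((m * X.n0 : ℕ) : ℤ) → ∀ Q, Q ≠ X.inf → Q.ord (X.elt m c) = 0 →
      |Real.log (V.v i (evp Q (X.elt m c))) - Real.log (nrm V i c)
        - m * Real.log (X.sz V i Q)
        - (X.zs (X.elt m c)).sum (fun P n => (n : ℝ) * Real.log (dist i P Q))| ≤
      Real.log (C.c i)
  /-- the norm of `A` and its zeros -/
  lc : ∀ m : ℕ, ∃ C : MC V.ι, ∀ i (c : Fin (X.d m) → k),
    X.inf.ord (X.elt m c) = -((m * X.n0 : ℕ) : ℤ) →
      |X.n0 * Real.log (nrm V i c)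
        - X.n0 * Real.log (V.v i (evp X.inf (X.elt m c * X.x⁻¹ ^ m)))
        - (X.zs (X.elt m c)).sum (fun P n => (n : ℝ) * Real.log (X.sz V i P))| ≤
      Real.log (C.c i)
  /-- upper bound -/
  ub : ∀ m : ℕ, ∃ C : MC V.ι, ∀ i (c : Fin (X.d m) → k) (Q : Place k F), Q ≠ X.inf →
    V.v i (evp Q (X.elt m c)) ≤ C.c i * nrm V i c * X.sz V i Q ^ m
  /-- families without common zeros -/
  fx : ∀ (m : ℕ) {α : Type} [Finite α] (A : α → F), (∀ a, A a ∈ X.L m) →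
    (∃ a, X.inf.ord (A a) = -((m * X.n0 : ℕ) : ℤ)) →
    (∀ Q, Q ≠ X.inf → ∃ a, A a ≠ 0 ∧ Q.ord (A a) = 0) →
    ∃ C : MC V.ι, ∀ i Q, Q ≠ X.inf → ∃ a, X.sz V i Q ^ m ≤ C.c i * V.v i (evp Q (A a))
  /-- the size of differentials: `kap i Q * |dx|`, i.e. a differential `φ dx` regular everywhere
  satisfies `|φ(Q)| ≤ C kap i Q` -/
  m1 : ℕ
  m1_pos : 0 < m1
  m1_big : C + 2 ≤ ((m1 * X.n0 : ℕ) : ℤ)
  kap : V.ι → Place k F → ℝ
  kap_pos : ∀ i Q, X.Unr Q → 0 < kap i Q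
  kap_fin : ∀ Q, X.Unr Q → {i | kap i Q ≠ 1}.Finite
  kap_le : ∃ C : MC V.ι, ∀ i Q, X.Unr Q → ∃ a b : Fin (X.d m1),
    kap i Q * X.sz V i Q ^ (2 * m1) ≤ C.c i * V.v i (evp Q
      ((X.b m1 a : F) * X.D (X.b m1 b : F) - (X.b m1 b : F) * X.D (X.b m1 a : F)))
  kap_ge : ∃ C : MC V.ι, ∀ i Q, X.Unr Q → ∀ a b : Fin (X.d m1),
    V.v i (evp Q ((X.b m1 a : F) * X.D (X.b m1 b : F) - (X.b m1 b : F) * X.D (X.b m1 a : F))) ≤
      C.c i * kap i Q * X.sz V i Q ^ (2 * m1)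
  /-- the derivative estimate at a simple zero -/
  dt : ∀ m : ℕ, ∃ C : MC V.ι, ∀ i (c : Fin (X.d m) → k),
    X.inf.ord (X.elt m c) = -((m * X.n0 : ℕ) : ℤ) → ∀ Q, X.Unr Q → Q.ord (X.elt m c) = 1 →
      Real.log (nrm V i c) + m * Real.log (X.sz V i Q) + Real.log (kap i Q)
        + ((X.zs (X.elt m c)).erase Q).sum (fun P n => (n : ℝ) * Real.log (dist i P Q)) ≤
      Real.log (C.c i) + Real.log (V.v i (evp Q (X.D (X.elt m c))))

end Fermat.Agent.MW
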