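import Mathlib
import Fermat.Agent.MW.Defs
import Fermat.Agent.Flat.Ram
import Fermat.Agent.Flat.Points

/-! # The derivation `d/dx` at places -/

set_option autoImplicit false
set_option linter.unusedSectionVars false

noncomputable section

namespace Fermat.Agent.MW

open AlgebraicCurve Module Fermat.Agent.Flat Fermat.Agent.FunField IntermediateField

variable {k F : Type*} [Field k] [IsAlgClosed k] [CharZero k] [Field F] [Algebra k F] {g C : ℤ}

theorem XD.D_const (X : XD k F g C) (a : k) : X.D (algebraMap k F a) = 0 :=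
  Derivation.map_algebraMap _ _

/-- Comparison with the derivation of a uniformizer. -/
theorem XD.unif_der (X : XD k F g C) (v : Place k F) {π : v.toValuationSubring}
    (hπ : Irreducible π) :
    ∃ δ : Derivation k F F, δ (π : F) = 1 ∧ (∀ f, X.D f = δ f * X.D (π : F)) ∧
      X.D (π : F) ≠ 0 ∧ (∀ f, v.ord f ≠ 0 → δ f ≠ 0 ∧ v.ord (δ f) = v.ord f - 1) ∧
      ∀ f ∈ v.toValuationSubring, δ f ∈ v.toValuationSubring := by
  have hord : v.ord (π : F) = 1 := v.ord_coe_irreducible hπ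
  have ht : Transcendental k (π : F) := transcendental_of_ord_ne_zero v (by rw [hord]; decide)
  have h1 := X.sep.fd
  have h2 := finiteDimensional_adjoin X.sep.trans ht
  have h3 : CharZero k⟮(π : F)⟯ :=
    charZero_of_injective_algebraMap (algebraMap k k⟮(π : F)⟯).injective
  have h4 : Algebra.IsSeparable k⟮(π : F)⟯ F := Algebra.IsAlgebraic.isSeparable_of_perfectField
  obtain ⟨δ, hδ, hδ'⟩ := exists_derivation ht
  have h5 : ∀ f, X.D f = δ f * X.D (π : F) := by
    intro f
    have h6 := congrArg X.D.liftKaehlerDifferential (hδ' f)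
    rw [map_smul, Derivation.liftKaehlerDifferential_comp_D,
      Derivation.liftKaehlerDifferential_comp_D, smul_eq_mul] at h6
    exact h6
  refine ⟨δ, hδ, h5, fun h0 => ?_, fun f hf => ord_derivation X.sep.trans v hπ δ hδ hf,
    fun f hf => derivation_mem X.sep.trans v hπ δ hδ hf⟩
  have h6 := h5 X.x
  rw [h0, mul_zero, X.D_x] at h6
  exact one_ne_zero h6

/-- The shift of the order. -/
theorem XD.exists_shift (X : XD k F g C) (v : Place k F) : ∃ e : ℤ,
    (∀ f, v.ord f ≠ 0 → X.D f ≠ 0 ∧ v.ord (X.D f) = v.ord f - 1 + e) ∧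
    (∀ f, 0 ≤ v.ord f → X.D f ≠ 0 → e ≤ v.ord (X.D f)) ∧ (X.Unr v → e = 0) := by
  obtain ⟨π, hπ⟩ := IsDiscreteValuationRing.exists_irreducible v.toValuationSubring
  obtain ⟨δ, hδ, h1, h2, h3, h4⟩ := X.unif_der v hπ
  have h5 : ∀ f, v.ord f ≠ 0 → X.D f ≠ 0 ∧
      v.ord (X.D f) = v.ord f - 1 + v.ord (X.D (π : F)) := by
    intro f hf
    obtain ⟨h6, h7⟩ := h3 f hf
    rw [h1 f]
    exact ⟨mul_ne_zero h6 h2, by rw [v.ord_mul h6 h2, h7]⟩
  refine ⟨v.ord (X.D (π : F)), h5, fun f hf hD => ?_, fun hv => ?_⟩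
  · rw [h1 f] at hD ⊢
    have h6 : δ f ≠ 0 := left_ne_zero_of_mul hD
    rw [v.ord_mul h6 h2]
    have := ord_nonneg_of_mem v (h4 f (mem_of_ord_nonneg v hf))
    omega
  · obtain ⟨-, h7⟩ := h5 (X.x - algebraMap k F (evp v X.x)) (by rw [hv.2]; norm_num)
    rw [hv.2, map_sub, X.D_x, X.D_const, sub_zero, v.ord_one] at h7
    omega

/-- At unramified places. -/
theorem XD.ord_D_of_unr (X : XD k F g C) {v : Place k F} (hv : X.Unr v) {f : F}
    (hf : v.ord f ≠ 0) : X.D f ≠ 0 ∧ v.ord (X.D f) = v.ord f - 1 := by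
  obtain ⟨e, h1, -, h3⟩ := X.exists_shift v
  obtain ⟨h4, h5⟩ := h1 f hf
  refine ⟨h4, ?_⟩
  rw [h5, h3 hv, add_zero]

theorem XD.ord_D_nonneg_of_unr (X : XD k F g C) {v : Place k F} (hv : X.Unr v) {f : F}
    (hf : 0 ≤ v.ord f) : 0 ≤ v.ord (X.D f) := by
  obtain ⟨e, -, h2, h3⟩ := X.exists_shift v
  by_cases h0 : X.D f = 0
  · rw [h0, v.ord_zero]
  · have := h2 f hf h0
    rwa [h3 hv] at this

theorem XD.D_ne_zero (X : XD k F g C) {v : Place k F} {f : F} (hf : v.ord f ≠ 0) :
    X.D f ≠ 0 := by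
  obtain ⟨e, h1, -⟩ := X.exists_shift v
  exact (h1 f hf).1

theorem XD.finite_not_unr (X : XD k F g C) : {v : Place k F | ¬ X.Unr v}.Finite := by
  classical
  obtain ⟨T, hT⟩ := X.sep.finite_ram
  refine Set.Finite.subset (insert X.inf T).finite_toSet fun v hv => ?_
  by_contra hcon
  rw [Finset.mem_coe, Finset.mem_insert, not_or] at hcon
  apply hv
  refine ⟨hcon.1, ?_⟩
  have h0 := X.ord_nonneg v hcon.1
  have hne : X.x - algebraMap k F (evp v X.x) ≠ 0 := (X.sep.sub _).ne_zero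
  have h1 := evp_spec (X.sep.rational v) (mem_of_ord_nonneg v h0)
  rw [adicValuation_lt_one_iff] at h1
  exact hT v hcon.2 _ (h1.resolve_left hne)

/-- The divisor bounding the poles of derivatives. -/
theorem XD.exists_cdiv (X : XD k F g C) : ∃ Cd : Divisor k F, 0 ≤ Cd ∧
    (∀ v, X.Unr v → Cd v = 0) ∧
    ∀ f, X.D f ≠ 0 → X.D f ∈ riemannRochSpace (2 • pol (K := k) f + Cd) := by
  classical
  choose e h1 h2 h3 using X.exists_shift
  let Cd : Divisor k F := Finsupp.onFinset X.finite_not_unr.toFinset (fun v => max 0 (-e v))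
    fun v hv => by
      rw [Set.Finite.mem_toFinset]
      intro h
      apply hv
      rw [h3 v h]
      simp
  have hCd : ∀ v, Cd v = max 0 (-e v) := fun v => rfl
  refine ⟨Cd, fun v => ?_, fun v hv => ?_, fun f hf => ?_⟩
  · rw [hCd]; exact le_max_left _ _
  · rw [hCd, h3 v hv]; simp
  · rw [mem_L' hf]
    intro v
    rw [Finsupp.add_apply, Finsupp.smul_apply, hCd, pol_apply (X.crv.fin f), nsmul_eq_mul]
    have h5 := le_max_right 0 (-e v)
    push_cast
    by_cases hv : v.ord f = 0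
    · have h6 := h2 v f hv.ge hf
      rw [hv, neg_zero, max_self]
      omega
    · obtain ⟨-, h6⟩ := h1 v f hv
      rw [h6]
      rcases lt_or_gt_of_ne hv with h7 | h7
      · rw [max_eq_right (by omega : (0 : ℤ) ≤ -v.ord f)]
        omega
      · rw [max_eq_left (by omega : -v.ord f ≤ (0 : ℤ))]
        omega

theorem dg_nonneg_of_memL (hC : Flat.Crv k F g C) {E : Divisor k F} {f : F} (hf0 : f ≠ 0)
    (hf : f ∈ riemannRochSpace E) : 0 ≤ dg E := by
  have h1 : 0 ≤ E + dv f := by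
    intro v
    have := (mem_L' hf0).mp hf v
    rw [Finsupp.add_apply, dv_apply (hC.fin f), Finsupp.zero_apply]
    linarith
  have h2 := dg_nonneg h1
  rwa [map_add, hC.deg0 f hf0, add_zero] at h2

/-- The number of unramified zeros of the derivative. -/
theorem XD.card_zeros_le (X : XD k F g C) {Cd : Divisor k F} (hCd : ∀ v, X.Unr v → Cd v = 0)
    (hCd2 : ∀ f, X.D f ≠ 0 → X.D f ∈ riemannRochSpace (2 • pol (K := k) f + Cd))
    {f : F} (hf : X.D f ≠ 0) {Z : Finset (Place k F)}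
    (hZ : ∀ v ∈ Z, X.Unr v ∧ 0 ≤ v.ord f ∧ 1 ≤ v.ord (X.D f)) :
    (Z.card : ℤ) ≤ 2 * dg (pol (K := k) f) + dg Cd := by
  classical
  have h1 := (mem_L' hf).mp (hCd2 f hf)
  have h2 : X.D f ∈ riemannRochSpace (2 • pol (K := k) f + Cd -
      ∑ v ∈ Z, Finsupp.single v (1 : ℤ)) := by
    rw [mem_L' hf]
    intro v
    have h3 := h1 v
    rw [Finsupp.sub_apply, Finsupp.finsetSum_apply]
    by_cases hv : v ∈ Z
    · obtain ⟨h4, h5, h6⟩ := hZ v hv
      rw [Finset.sum_eq_single v (fun u _ hu => Finsupp.single_eq_of_ne hu.symm)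
        (fun h => absurd hv h), Finsupp.single_eq_same, Finsupp.add_apply, Finsupp.smul_apply,
        hCd v h4, pol_apply (X.crv.fin f), max_eq_left (by omega), smul_zero]
      omega
    · rw [Finset.sum_eq_zero fun u hu => Finsupp.single_eq_of_ne (by rintro rfl; exact hv hu), sub_zero]
      exact h3
  have h3 := dg_nonneg_of_memL X.crv hf h2
  rw [map_sub, map_add, map_nsmul, nsmul_eq_mul, map_sum] at h3
  simp only [dg_single, Finset.sum_const, nsmul_eq_mul, mul_one] at h3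
  push_cast at h3
  linarith

end Fermat.Agent.MW
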