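import Mathlib
import Fermat.Agent.MW.Der
import Fermat.Agent.ER.Red2

/-! # Translation into general position -/

set_option autoImplicit false
set_option linter.unusedSectionVars false

noncomputable section

namespace Fermat.Agent.MW

open AlgebraicCurve Module Fermat.Agent.Flat Fermat.Agent.FunField IntermediateField
open Fermat.Agent.ER (dvs dvs_cons dvs_add dg_dvs dvs_replicate)

section Dim

variable {k F : Type*} [Field k] [Field F] [Algebra k F] {g C : ℤ}

/-- the dimension -/
def ll (E : Divisor k F) : ℕ := finrank k (riemannRochSpace E)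

theorem single_nonneg' (v : Place k F) : 0 ≤ (Finsupp.single v (1 : ℤ) : Divisor k F) := by
  classical
  intro w
  rw [Finsupp.zero_apply, Finsupp.single_apply]
  split_ifs <;> norm_num

variable (hC : Flat.Crv k F g C)

include hC

/-- removing a point -/
theorem ll_sub_le (E : Divisor k F) (v : Place k F) :
    ll E ≤ ll (E - Finsupp.single v 1) + 1 := by
  have h1 := hC.fd (E - Finsupp.single v 1)
  have h2 := (finrank_add_single (hC.rat v) (E - Finsupp.single v 1)).2
  rw [sub_add_cancel] at h2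
  exact h2

theorem ll_mono {E E' : Divisor k F} (h : E ≤ E') : ll E ≤ ll E' := by
  have h1 := hC.fd E'
  exact Submodule.finrank_mono (L_mono h)

theorem ll_sub_eq {E : Divisor k F} {v : Place k F} {f : F} (hf0 : f ≠ 0)
    (hf : f ∈ riemannRochSpace E) (hv : v.ord f = - E v) :
    ll (E - Finsupp.single v 1) + 1 = ll E := by
  classical
  have h1 := ll_sub_le hC E v
  have h2 : ll (E - Finsupp.single v 1) < ll E := by
    have h3 := hC.fd E
    refine Submodule.finrank_lt_finrank_of_lt (lt_of_le_of_ne (L_mono ?_) ?_)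
    · rw [sub_le_self_iff]
      exact single_nonneg' v
    · intro h4
      rw [← h4] at hf
      have h5 := (mem_L' hf0).mp hf v
      rw [Finsupp.sub_apply, Finsupp.single_eq_same] at h5
      omega
  omega

theorem one_mem_L {E : Divisor k F} (hE : 0 ≤ E) : (1 : F) ∈ riemannRochSpace E := by
  rw [mem_L' one_ne_zero]
  intro v
  rw [v.ord_one]
  have := hE v
  rw [Finsupp.zero_apply] at this
  omega

theorem one_le_ll {E : Divisor k F} {f : F} (hf0 : f ≠ 0) (hf : f ∈ riemannRochSpace E) :
    1 ≤ ll E := by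
  have h1 := hC.fd E
  have : Nontrivial (riemannRochSpace E) := ⟨⟨f, hf⟩, 0, fun h => hf0 (congrArg Subtype.val h)⟩
  exact finrank_pos

theorem exists_mem_of_ll {E : Divisor k F} (h : 1 ≤ ll E) :
    ∃ f ∈ riemannRochSpace E, f ≠ 0 := by
  have h1 := hC.fd E
  have : Nontrivial (riemannRochSpace E) := Module.nontrivial_of_finrank_pos (R := k) h
  obtain ⟨x, hx⟩ := exists_ne (0 : riemannRochSpace E)
  exact ⟨x, x.2, fun h0 => hx (Subtype.ext h0)⟩

/-- one-dimensional spaces -/
theorem eq_const_of_ll {E : Divisor k F} (hE : 0 ≤ E) (h : ll E ≤ 1) {f : F}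
    (hf : f ∈ riemannRochSpace E) : ∃ a : k, algebraMap k F a = f := by
  have h1 := hC.fd E
  have h2 := finrank_le_one_iff.mp h
  obtain ⟨v, hv⟩ := h2
  obtain ⟨a, ha⟩ := hv ⟨1, one_mem_L hC hE⟩
  obtain ⟨b, hb⟩ := hv ⟨f, hf⟩
  have ha' : a • (v : F) = 1 := congrArg Subtype.val ha
  have hb' : b • (v : F) = f := congrArg Subtype.val hb
  have ha0 : a ≠ 0 := by
    rintro rfl
    rw [zero_smul] at ha'
    exact zero_ne_one ha'
  refine ⟨b * a⁻¹, ?_⟩
  rw [Algebra.algebraMap_eq_smul_one, ← ha', smul_smul, mul_assoc, inv_mul_cancel₀ ha0, mul_one,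
    hb']

theorem ll_add_dv (E : Divisor k F) {f : F} (hf : f ≠ 0) : ll (E + dv f) = ll E := by
  have key : ∀ (E : Divisor k F) (f : F), f ≠ 0 → ll (E + dv f) ≤ ll E := by
    intro E f hf
    have h1 := hC.fd E
    have h2 : ∀ z ∈ riemannRochSpace (E + dv f), z * f ∈ riemannRochSpace E := by
      intro z hz
      by_cases hz0 : z = 0
      · rw [hz0, zero_mul]; exact zero_mem _
      rw [mem_L' (mul_ne_zero hz0 hf)]
      intro v
      have h3 := (mem_L' hz0).mp hz v
      rw [Finsupp.add_apply, dv_apply (hC.fin f)] at h3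
      rw [v.ord_mul hz0 hf]
      omega
    let φ : riemannRochSpace (E + dv f) →ₗ[k] riemannRochSpace E :=
      { toFun := fun z => ⟨(z : F) * f, h2 z z.2⟩
        map_add' := fun a b => Subtype.ext (add_mul _ _ _)
        map_smul' := fun c a => Subtype.ext (smul_mul_assoc c (a : F) f) }
    refine LinearMap.finrank_le_finrank_of_injective (f := φ) fun a b hab => ?_
    have := congrArg Subtype.val hab
    exact Subtype.ext (mul_right_cancel₀ hf this)
  apply le_antisymm (key E f hf)
  have h3 := key (E + dv f) f⁻¹ (inv_ne_zero hf)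
  have h4 : E + dv f + dv f⁻¹ = E := by
    ext v
    rw [Finsupp.add_apply, Finsupp.add_apply, dv_apply (hC.fin f), dv_apply (hC.fin _), v.ord_inv]
    ring
  rwa [h4] at h3

theorem card_support_le {E : Divisor k F} (hE : 0 ≤ E) : (E.support.card : ℤ) ≤ dg E := by
  rw [dg_apply, Finset.card_eq_sum_ones]
  push_cast
  refine Finset.sum_le_sum fun v hv => ?_
  have h1 := hE v
  rw [Finsupp.zero_apply] at h1
  have h2 := Finsupp.mem_support_iff.mp hv
  omega

/-- the drop of the dimension -/
theorem exists_drop {E : Divisor k F} (h : 1 ≤ ll E) : ∃ T : Finset (Place k F),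
    (T.card : ℤ) ≤ dg E ∧ ∀ v ∉ T, ll (E - Finsupp.single v 1) + 1 = ll E := by
  obtain ⟨f, hf, hf0⟩ := exists_mem_of_ll hC h
  have hE : 0 ≤ E + dv f := by
    intro v
    have := (mem_L' hf0).mp hf v
    rw [Finsupp.add_apply, dv_apply (hC.fin f), Finsupp.zero_apply]
    linarith
  refine ⟨(E + dv f).support, ?_, fun v hv => ?_⟩
  · have h1 := card_support_le hC hE
    rwa [map_add, hC.deg0 f hf0, add_zero] at h1
  · apply ll_sub_eq hC hf0 hf
    rw [Finsupp.notMem_support_iff, Finsupp.add_apply, dv_apply (hC.fin f)] at hv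
    omega

/-- Step 1 -/
theorem exists_sub {E : Divisor k F} {n : ℕ} (hn : n + 1 ≤ ll E) {R : Finset (Place k F)}
    (hR : dg E < R.card) : ∃ s : Multiset (Place k F), (∀ v ∈ s, v ∈ R) ∧ Multiset.card s = n ∧
      ll (E - dvs s) + n = ll E := by
  induction n with
  | zero => exact ⟨0, fun v hv => absurd hv (Multiset.notMem_zero v), rfl, by
      rw [show dvs (0 : Multiset (Place k F)) = 0 from rfl, sub_zero, add_zero]⟩
  | succ n ih =>
    obtain ⟨s, hs, hcard, hll⟩ := ih (by omega)
    obtain ⟨T, hT, hT'⟩ := exists_drop hC (E := E - dvs s) (by omega)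
    rw [map_sub, dg_dvs] at hT
    obtain ⟨v, hvR, hvT⟩ : ∃ v ∈ R, v ∉ T := by
      by_contra hcon
      push Not at hcon
      have h1 := Finset.card_le_card hcon
      have h2 : (0 : ℤ) ≤ (Multiset.card s : ℤ) := Int.natCast_nonneg _
      omega
    refine ⟨v ::ₘ s, fun w hw => ?_, by rw [Multiset.card_cons, hcard], ?_⟩
    · rcases Multiset.mem_cons.mp hw with rfl | h
      · exact hvR
      · exact hs w h
    · have h1 := hT' v hvT
      rw [dvs_cons, ← sub_sub]
      omega

/-- Step 2: the number of bad points -/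
theorem card_bad {G : Divisor k F} (hG : 0 ≤ G) (hdg : dg G = g - 1) (hll : ll G ≤ 1)
    {Z : Finset (Place k F)} (hZ : ∀ v ∈ Z, 2 ≤ ll (G + Finsupp.single v 1)) :
    (Z.card : ℤ) ≤ max 0 (C + 1 - g) := by
  classical
  have key : ∀ Z' : Finset (Place k F), Z' ⊆ Z →
      Z'.card + 1 ≤ ll (G + ∑ v ∈ Z', Finsupp.single v (1 : ℤ)) := by
    intro Z'
    induction Z' using Finset.induction_on with
    | empty =>
      intro _
      rw [Finset.sum_empty, add_zero, Finset.card_empty, zero_add]
      exact one_le_ll hC one_ne_zero (one_mem_L hC hG)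
    | insert v Z' hv ih =>
      intro hsub
      have h1 := ih ((Finset.subset_insert v Z').trans hsub)
      have h2 := hZ v (hsub (Finset.mem_insert_self v Z'))
      obtain ⟨f, hf, hfG⟩ : ∃ f ∈ riemannRochSpace (G + Finsupp.single v 1),
          f ∉ riemannRochSpace G := by
        by_contra hcon
        push Not at hcon
        have h3 := hC.fd G
        have h4 : ll (G + Finsupp.single v 1) ≤ ll G := Submodule.finrank_mono hcon
        omega
      have hf0 : f ≠ 0 := by
        rintro rfl
        exact hfG (zero_mem _)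
      have h5 := (mem_L' hf0).mp hf
      have h6 : v.ord f = - (G v + 1) := by
        by_contra hne
        apply hfG
        rw [mem_L' hf0]
        intro w
        have h7 := h5 w
        rw [Finsupp.add_apply] at h7
        by_cases hw : w = v
        · subst hw
          rw [Finsupp.single_eq_same] at h7
          omega
        · rw [Finsupp.single_eq_of_ne hw] at h7
          omega
      have hsum0 : ∀ w, 0 ≤ (∑ u ∈ Z', Finsupp.single u (1 : ℤ) : Divisor k F) w := by
        intro w
        rw [Finsupp.finsetSum_apply]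
        exact Finset.sum_nonneg fun u _ => single_nonneg' u w
      have hsumv : (∑ u ∈ Z', Finsupp.single u (1 : ℤ) : Divisor k F) v = 0 := by
        rw [Finsupp.finsetSum_apply]
        exact Finset.sum_eq_zero fun u hu => Finsupp.single_eq_of_ne (by
          rintro rfl; exact hv hu)
      have h8 := ll_sub_eq hC (E := G + ∑ u ∈ insert v Z', Finsupp.single u (1 : ℤ)) (v := v) hf0
        (by
          rw [mem_L' hf0]
          intro w
          have h9 := h5 w
          have h10 := hsum0 w
          rw [Finset.sum_insert hv]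
          simp only [Finsupp.add_apply] at h9 ⊢
          linarith)
        (by
          rw [Finset.sum_insert hv]
          simp only [Finsupp.add_apply]
          rw [hsumv, Finsupp.single_eq_same, h6]
          ring)
      have h11 : G + ∑ u ∈ insert v Z', Finsupp.single u (1 : ℤ) - Finsupp.single v 1 =
          G + ∑ u ∈ Z', Finsupp.single u (1 : ℤ) := by
        rw [Finset.sum_insert hv]
        abel
      rw [h11] at h8
      rw [Finset.card_insert_of_notMem hv]
      omega
  by_contra hcon
  rw [not_le] at hcon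
  have h1 := key Z subset_rfl
  have h2 : dg (G + ∑ v ∈ Z, Finsupp.single v (1 : ℤ)) = g - 1 + Z.card := by
    rw [map_add, hdg, map_sum]
    simp
  have h3 := hC.rr (G + ∑ v ∈ Z, Finsupp.single v (1 : ℤ)) (by
    rw [h2]
    have := le_max_right 0 (C + 1 - g)
    omega)
  rw [h2] at h3
  change ((ll (G + ∑ v ∈ Z, Finsupp.single v (1 : ℤ)) : ℕ) : ℤ) = _ at h3
  omega

/-- Step 2: a base point free pencil -/
theorem exists_pencil {D : Divisor k F} (hD : 0 ≤ D) (hdg : dg D = g) (hll : ll D = 1)
    {R : Finset (Place k F)} (hR : g + g * max 0 (C + 1 - g) < R.card) :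
    ∃ u ∈ R, ∃ φ : F, (∀ v : Place k F, (D + Finsupp.single u 1 : Divisor k F) v ≠ 0 →
        v.ord φ = - (D + Finsupp.single u 1 : Divisor k F) v) ∧
      (∀ v : Place k F, (D + Finsupp.single u 1 : Divisor k F) v = 0 → 0 ≤ v.ord φ) ∧
      ll (D + Finsupp.single u 1) = 2 := by
  classical
  have hg0 : 0 ≤ g := by rw [← hdg]; exact dg_nonneg hD
  have hsupp := card_support_le hC hD
  rw [hdg] at hsupp
  -- the bad points
  let B : Finset (Place k F) := D.support ∪ D.support.biUnion fun v =>
    R.filter fun u => 2 ≤ ll (D - Finsupp.single v 1 + Finsupp.single u 1)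
  have hsub : ∀ v ∈ D.support, 0 ≤ D - Finsupp.single v 1 := by
    intro v hv w
    rw [Finsupp.zero_apply, Finsupp.sub_apply]
    have h1 := hD w
    rw [Finsupp.zero_apply] at h1
    by_cases hw : w = v
    · subst hw
      rw [Finsupp.single_eq_same]
      have := Finsupp.mem_support_iff.mp hv
      omega
    · rw [Finsupp.single_eq_of_ne hw]
      omega
  have hB : (B.card : ℤ) ≤ g + g * max 0 (C + 1 - g) := by
    have h1 : (B.card : ℤ) ≤ D.support.card + (D.support.biUnion fun v =>
      R.filter fun u => 2 ≤ ll (D - Finsupp.single v 1 + Finsupp.single u 1)).card := by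
      exact_mod_cast Finset.card_union_le _ _
    have h2 : ((D.support.biUnion fun v =>
      R.filter fun u => 2 ≤ ll (D - Finsupp.single v 1 + Finsupp.single u 1)).card : ℤ) ≤
        ∑ v ∈ D.support, max 0 (C + 1 - g) := by
      refine le_trans (Nat.cast_le.mpr Finset.card_biUnion_le) ?_
      push_cast
      refine Finset.sum_le_sum fun v hv => ?_
      refine card_bad hC (hsub v hv) (by rw [map_sub, hdg, dg_single]) ?_ fun u hu =>
        (Finset.mem_filter.mp hu).2
      have h3 := ll_mono hC (sub_le_self D (single_nonneg' v))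
      omega
    rw [Finset.sum_const, nsmul_eq_mul] at h2
    have h3 : (0 : ℤ) ≤ max 0 (C + 1 - g) := le_max_left _ _
    nlinarith
  obtain ⟨u, huR, huB⟩ : ∃ u ∈ R, u ∉ B := by
    by_contra hcon
    push Not at hcon
    have h1 := Finset.card_le_card hcon
    omega
  rw [Finset.mem_union, not_or, Finset.mem_biUnion] at huB
  obtain ⟨huD, huB⟩ := huB
  push Not at huB
  set P : Divisor k F := D + Finsupp.single u 1 with hP
  have hP0 : 0 ≤ P := add_nonneg hD (single_nonneg' u)
  have hPu : P - Finsupp.single u 1 = D := add_sub_cancel_right _ _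
  have hdP : dg P = g + 1 := by rw [hP, map_add, hdg, dg_single]
  have hllP : ll P = 2 := by
    have h1 := ll_sub_le hC P u
    rw [hPu, hll] at h1
    have h2 := hC.lb P
    change dg P + 1 - g ≤ ((ll P : ℕ) : ℤ) at h2
    rw [hdP] at h2
    omega
  -- dropping any point of `P`
  have hdrop : ∀ v, P v ≠ 0 → 0 ≤ P - Finsupp.single v 1 ∧ ll (P - Finsupp.single v 1) ≤ 1 := by
    intro v hv
    by_cases hvu : v = u
    · rw [hvu, hPu]
      exact ⟨hD, hll.le⟩
    · have hvD : v ∈ D.support := by
        rw [Finsupp.mem_support_iff]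
        rwa [hP, Finsupp.add_apply, Finsupp.single_eq_of_ne hvu, add_zero] at hv
      have h1 : P - Finsupp.single v 1 = D - Finsupp.single v 1 + Finsupp.single u 1 := by
        rw [hP]; abel
      refine ⟨by rw [h1]; exact add_nonneg (hsub v hvD) (single_nonneg' u), ?_⟩
      have h2 := huB v hvD
      rw [Finset.mem_filter, not_and] at h2
      have h3 := h2 huR
      rw [h1]
      omega
  obtain ⟨φ, hφ, hφc⟩ : ∃ φ ∈ riemannRochSpace P, ∀ a : k, algebraMap k F a ≠ φ := by
    by_contra hcon
    push Not at hcon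
    have h1 : riemannRochSpace P ≤ Submodule.span k {(1 : F)} := by
      intro z hz
      obtain ⟨a, ha⟩ := hcon z hz
      rw [Submodule.mem_span_singleton]
      exact ⟨a, by rw [← ha, Algebra.algebraMap_eq_smul_one]⟩
    have h2 : ll P ≤ 1 := by
      refine (Submodule.finrank_mono h1).trans ?_
      exact (finrank_span_le_card _).trans (by simp)
    omega
  have hφ0 : φ ≠ 0 := by
    rintro rfl
    exact hφc 0 (map_zero _)
  have hφP := (mem_L' hφ0).mp hφ
  refine ⟨u, huR, φ, fun v hv => ?_, fun v hv => ?_, hllP⟩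
  · by_contra hne
    have hne' : ¬ v.ord φ = - P v := hne
    obtain ⟨h1, h2⟩ := hdrop v hv
    obtain ⟨a, ha⟩ := eq_const_of_ll hC h1 h2 (f := φ) (by
      rw [mem_L' hφ0]
      intro w
      have h3 := hφP w
      rw [Finsupp.sub_apply]
      by_cases hw : w = v
      · subst hw
        rw [Finsupp.single_eq_same]
        omega
      · rw [Finsupp.single_eq_of_ne hw]
        omega)
    exact hφc a ha
  · have h1 := hφP v
    have hv' : P v = 0 := hv
    omega

end Dim

section Main

variable {k F : Type*} [Field k] [IsAlgClosed k] [CharZero k] [Field F] [Algebra k F] {g C : ℤ}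

/-- zeros of `φ - λ` -/
theorem card_fiber_le (hC : Flat.Crv k F g C) {P : Divisor k F} (hP : 0 ≤ P) {φ : F}
    (hφ : φ ∈ riemannRochSpace P) {lam : k} (hne : φ - algebraMap k F lam ≠ 0)
    {Z : Finset (Place k F)}
    (hZ : ∀ v ∈ Z, P v = 0 ∧ 0 < v.ord (φ - algebraMap k F lam)) : (Z.card : ℤ) ≤ dg P := by
  classical
  have h1 : φ - algebraMap k F lam ∈ riemannRochSpace P := by
    refine sub_mem hφ ?_
    rw [Algebra.algebraMap_eq_smul_one]
    exact Submodule.smul_mem _ _ (one_mem_L hC hP)
  have h2 := (mem_L' hne).mp h1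
  have h3 : φ - algebraMap k F lam ∈ riemannRochSpace (P - ∑ v ∈ Z, Finsupp.single v (1 : ℤ)) := by
    rw [mem_L' hne]
    intro v
    have h4 := h2 v
    rw [Finsupp.sub_apply, Finsupp.finsetSum_apply]
    by_cases hv : v ∈ Z
    · obtain ⟨h5, h6⟩ := hZ v hv
      rw [Finset.sum_eq_single v (fun u _ hu => Finsupp.single_eq_of_ne hu.symm)
        (fun h => absurd hv h), Finsupp.single_eq_same, h5]
      omega
    · rw [Finset.sum_eq_zero fun u hu => Finsupp.single_eq_of_ne (by rintro rfl; exact hv hu),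
        sub_zero]
      exact h4
  have h4 := dg_nonneg_of_memL hC hne h3
  rw [map_sub, map_sum] at h4
  simp only [dg_single, Finset.sum_const, nsmul_eq_mul, mul_one] at h4
  linarith

/-- Step 3 -/
theorem exists_member (X : XD k F g C) : ∃ n₀ : ℕ, ∀ R : Finset (Place k F), n₀ ≤ R.card →
    ∀ (P : Divisor k F) (φ : F), 0 ≤ P → dg P = g + 1 → ll P = 2 → P ≠ 0 →
      (∀ v, P v ≠ 0 → v.ord φ = - P v) → (∀ v, P v = 0 → 0 ≤ v.ord φ) →
      ∃ w ∈ R, ∃ ψ : F, ψ ≠ 0 ∧ 0 ≤ dv ψ + P - Finsupp.single w 1 ∧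
        ll (P - Finsupp.single w 1) = 1 ∧
        (∀ v, (dv (K := k) ψ + P - Finsupp.single w 1 : Divisor k F) v ≤ 1) ∧
        ∀ v, (dv (K := k) ψ + P - Finsupp.single w 1 : Divisor k F) v ≠ 0 → X.Unr v := by
  classical
  obtain ⟨Cd, hCd0, hCd1, hCd2⟩ := X.exists_cdiv
  have hC := X.crv
  set S := X.finite_not_unr.toFinset with hS
  let b : ℤ := max 0 (g + 1) * (1 + (S.card + (2 * (g + 1) + dg Cd)))
  refine ⟨b.toNat + 1, fun R hR P φ hP0 hdP hllP hPne h1 h2 => ?_⟩
  have hbR : b < R.card := by
    have := Int.self_le_toNat b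
    have h3 : ((b.toNat + 1 : ℕ) : ℤ) ≤ R.card := by exact_mod_cast hR
    push_cast at h3
    omega
  -- a pole
  obtain ⟨u, hu⟩ := Finsupp.ne_iff.mp hPne
  rw [Finsupp.zero_apply] at hu
  have hu1 : 1 ≤ P u := by
    have := hP0 u
    rw [Finsupp.zero_apply] at this
    omega
  have hφu : u.ord φ < 0 := by rw [h1 u hu]; omega
  have hDφ : X.D φ ≠ 0 := X.D_ne_zero (v := u) (by omega)
  have hφ0 : φ ≠ 0 := by
    rintro rfl
    rw [u.ord_zero] at hφu
    omega
  have hφP : φ ∈ riemannRochSpace P := by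
    rw [mem_L' hφ0]
    intro v
    by_cases hv : P v = 0
    · rw [hv]
      simpa using h2 v hv
    · exact (h1 v hv).ge
  have hpol : pol (K := k) φ = P := by
    ext v
    rw [pol_apply (hC.fin φ)]
    by_cases hv : P v = 0
    · have := h2 v hv
      rw [hv, max_eq_left (by omega)]
    · have h3 := hP0 v
      rw [Finsupp.zero_apply] at h3
      rw [h1 v hv, neg_neg, max_eq_right h3]
  have hne : ∀ lam : k, φ - algebraMap k F lam ≠ 0 := by
    intro lam h0
    rw [sub_eq_zero] at h0
    rw [h0, ord_algebraMap] at hφu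
    omega
  -- the critical points
  have hfinZ : {v : Place k F | X.Unr v ∧ 0 ≤ v.ord φ ∧ 1 ≤ v.ord (X.D φ)}.Finite :=
    (hC.fin (X.D φ)).subset fun v hv => by
      have := hv.2.2
      change v.ord (X.D φ) ≠ 0
      omega
  set Z := hfinZ.toFinset with hZ
  have hZcard : (Z.card : ℤ) ≤ 2 * (g + 1) + dg Cd := by
    have h3 := X.card_zeros_le hCd1 hCd2 hDφ (Z := Z) fun v hv => by
      rw [hZ, Set.Finite.mem_toFinset] at hv
      exact hv
    rwa [hpol, hdP] at h3
  -- the bad points
  let T : Finset (Place k F) := P.support ∪ (S ∪ Z).biUnion fun u =>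
    R.filter fun w => P w = 0 ∧ 0 < w.ord (φ - algebraMap k F (evp u φ))
  have hg1 : 0 ≤ g + 1 := by rw [← hdP]; exact dg_nonneg hP0
  have hT : (T.card : ℤ) ≤ b := by
    have h3 : (T.card : ℤ) ≤ P.support.card + ((S ∪ Z).biUnion fun u =>
      R.filter fun w => P w = 0 ∧ 0 < w.ord (φ - algebraMap k F (evp u φ))).card := by
      exact_mod_cast Finset.card_union_le _ _
    have h4 : (((S ∪ Z).biUnion fun u =>
      R.filter fun w => P w = 0 ∧ 0 < w.ord (φ - algebraMap k F (evp u φ))).card : ℤ) ≤
        ∑ u ∈ S ∪ Z, (g + 1) := by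
      refine le_trans (Nat.cast_le.mpr Finset.card_biUnion_le) ?_
      push_cast
      refine Finset.sum_le_sum fun v hv => ?_
      rw [← hdP]
      exact card_fiber_le hC hP0 hφP (hne _) fun w hw => (Finset.mem_filter.mp hw).2
    have h5 := card_support_le hC hP0
    rw [hdP] at h5
    rw [Finset.sum_const, nsmul_eq_mul] at h4
    have h6 : ((S ∪ Z).card : ℤ) ≤ S.card + Z.card := by exact_mod_cast Finset.card_union_le _ _
    have h7 : b = (g + 1) * (1 + (S.card + (2 * (g + 1) + dg Cd))) := by
      change max 0 (g + 1) * _ = _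
      rw [max_eq_right hg1]
    rw [h7]
    nlinarith
  obtain ⟨w, hwR, hwT⟩ : ∃ w ∈ R, w ∉ T := by
    by_contra hcon
    push Not at hcon
    have h3 := Finset.card_le_card hcon
    omega
  rw [Finset.mem_union, not_or, Finset.mem_biUnion, Finsupp.notMem_support_iff] at hwT
  obtain ⟨hwP, hwT⟩ := hwT
  push Not at hwT
  have hwφ : 0 ≤ w.ord φ := h2 w hwP
  set lam := evp w φ with hlam
  set ψ := φ - algebraMap k F lam with hψ
  have hψ0 : ψ ≠ 0 := hne lam
  have hwψ : 0 < w.ord ψ := by
    have h3 := evp_spec (hC.rat w) (mem_of_ord_nonneg w hwφ)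
    rw [adicValuation_lt_one_iff] at h3
    exact h3.resolve_left hψ0
  have hψP : ψ ∈ riemannRochSpace P := by
    refine sub_mem hφP ?_
    rw [Algebra.algebraMap_eq_smul_one]
    exact Submodule.smul_mem _ _ (one_mem_L hC hP0)
  -- the values
  have hval : ∀ v, P v = 0 → 0 < v.ord ψ → evp v φ = lam := by
    intro v hv hv'
    apply evp_unique
    rw [adicValuation_lt_one_iff]
    exact Or.inr hv'
  have hbad : ∀ v ∈ S ∪ Z, P v = 0 → ¬ 0 < v.ord ψ := by
    intro v hv hPv hv'
    have h3 := hwT v hv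
    rw [hval v hPv hv', Finset.mem_filter, not_and] at h3
    exact h3 hwR ⟨hwP, hwψ⟩
  have hnn : ∀ v, 0 ≤ (dv (K := k) ψ + P : Divisor k F) v := by
    intro v
    have := (mem_L' hψ0).mp hψP v
    rw [Finsupp.add_apply, dv_apply (hC.fin ψ)]
    linarith
  -- the support
  have hsupp : ∀ v, (dv (K := k) ψ + P : Divisor k F) v ≠ 0 → P v = 0 ∧ 0 < v.ord ψ ∧
      (dv (K := k) ψ + P : Divisor k F) v = v.ord ψ := by
    intro v hv
    have h3 := hnn v
    rw [Finsupp.add_apply, dv_apply (hC.fin ψ)] at hv h3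
    have hPv : P v = 0 := by
      by_contra hPv
      have h4 := h1 v hPv
      have h5 : v.ord ψ = v.ord φ := ord_sub_of_neg v (by
        have h6 := hP0 v
        rw [Finsupp.zero_apply] at h6
        omega) lam
      rw [h5, h4] at hv
      omega
    refine ⟨hPv, by omega, ?_⟩
    rw [Finsupp.add_apply, dv_apply (hC.fin ψ), hPv, add_zero]
  have hle : ∀ v, (dv (K := k) ψ + P - Finsupp.single w 1 : Divisor k F) v ≤
      (dv (K := k) ψ + P : Divisor k F) v := by
    intro v
    have h3 := single_nonneg' w v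
    rw [Finsupp.sub_apply]
    rw [Finsupp.zero_apply] at h3
    linarith
  have heff : 0 ≤ dv (K := k) ψ + P - Finsupp.single w 1 := by
    intro v
    rw [Finsupp.zero_apply, Finsupp.sub_apply]
    by_cases hv : v = w
    · rw [hv, Finsupp.single_eq_same, Finsupp.add_apply, dv_apply (hC.fin ψ), hwP]
      omega
    · rw [Finsupp.single_eq_of_ne hv, sub_zero]
      exact hnn v
  refine ⟨w, hwR, ψ, hψ0, heff, ?_, fun v => ?_, fun v hv => ?_⟩
  · have h3 := ll_sub_eq hC (E := P) (v := w) one_ne_zero (one_mem_L hC hP0)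
      (by rw [w.ord_one, hwP, neg_zero])
    omega
  · by_contra hcon
    rw [not_le] at hcon
    have h3 := hle v
    obtain ⟨h4, h5, h6⟩ := hsupp v (by omega)
    have h7 : X.Unr v := by
      by_contra h8
      exact hbad v (Finset.mem_union_left _ (by rw [hS, Set.Finite.mem_toFinset]; exact h8)) h4 h5
    have h8 : X.D ψ = X.D φ := by rw [hψ, map_sub, X.D_const, sub_zero]
    have h9 := (X.ord_D_of_unr h7 (f := ψ) (by omega)).2
    rw [h8] at h9
    refine hbad v (Finset.mem_union_right _ ?_) h4 h5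
    rw [hZ, Set.Finite.mem_toFinset]
    exact ⟨h7, h2 v h4, by omega⟩
  · by_contra h8
    have h3 := heff v
    rw [Finsupp.zero_apply] at h3
    have h9 := hle v
    obtain ⟨h4, h5, -⟩ := hsupp v (by omega)
    exact hbad v (Finset.mem_union_left _ (by rw [hS, Set.Finite.mem_toFinset]; exact h8)) h4 h5

/-- **Translation into general position.** -/
theorem exists_gen (X : XD k F g C) : ∃ n₀ : ℕ, ∀ R : Finset (Place k F), n₀ ≤ R.card →
    ∃ m : ℕ, ∀ E : Divisor k F, dg E = g → ∃ s s' : Multiset (Place k F),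
      (∀ v ∈ s, v ∈ R) ∧ (∀ v ∈ s', v ∈ R) ∧ Multiset.card s = m ∧ Multiset.card s' = m ∧
      ∃ D : Divisor k F, 0 ≤ D ∧ dg D = g ∧ Divisor.IsPrincipal (E + dvs s - dvs s' - D) ∧
        (∀ v, D v ≤ 1) ∧ (∀ v, D v ≠ 0 → X.Unr v) ∧ finrank k (riemannRochSpace D) = 1 := by
  classical
  have hC := X.crv
  obtain ⟨n₁, hn₁⟩ := exists_member X
  have hg0 : 0 ≤ g := by
    have h1 := hC.lb 0
    have h2 : ll (0 : Divisor k F) ≤ 1 := by
      have h3 : riemannRochSpace (0 : Divisor k F) ≤ Submodule.span k {(1 : F)} := by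
        intro z hz
        obtain ⟨a, ha⟩ := hC.const z fun v => by
          by_cases hz0 : z = 0
          · rw [hz0, v.ord_zero]
          · simpa using (mem_L' hz0).mp hz v
        rw [Submodule.mem_span_singleton]
        exact ⟨a, by rw [← ha, Algebra.algebraMap_eq_smul_one]⟩
      refine (Submodule.finrank_mono h3).trans ?_
      exact (finrank_span_le_card _).trans (by simp)
    rw [map_zero] at h1
    change (0 : ℤ) + 1 - g ≤ ((ll (0 : Divisor k F) : ℕ) : ℤ) at h1
    omega
  let n := C.toNat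
  refine ⟨n₁ + (g + n).toNat + (g + g * max 0 (C + 1 - g)).toNat + 1, fun R hR => ?_⟩
  refine ⟨n + 1, fun E hE => ?_⟩
  have hR1 : n₁ ≤ R.card := by omega
  have hR2 : g + n < R.card := by
    have := Int.self_le_toNat (g + n)
    omega
  have hR3 : g + g * max 0 (C + 1 - g) < R.card := by
    have := Int.self_le_toNat (g + g * max 0 (C + 1 - g))
    omega
  obtain ⟨r₀, hr₀⟩ : R.Nonempty := by
    rw [← Finset.card_pos]; omega
  -- Step 1
  have hdn : dg (E + dvs (Multiset.replicate n r₀)) = g + n := by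
    rw [map_add, hE, dg_dvs, Multiset.card_replicate]
  have hlln : ll (E + dvs (Multiset.replicate n r₀)) = n + 1 := by
    have h1 := hC.rr (E + dvs (Multiset.replicate n r₀)) (by
      rw [hdn]
      have : C ≤ n := Int.self_le_toNat C
      omega)
    change ((ll (E + dvs (Multiset.replicate n r₀)) : ℕ) : ℤ) = _ at h1
    rw [hdn] at h1
    omega
  obtain ⟨s₁, hs₁, hcs₁, hll₁⟩ := exists_sub hC (n := n) (by omega) (by rw [hdn]; exact hR2)
    (E := E + dvs (Multiset.replicate n r₀)) (R := R)
  set E₁ := E + dvs (Multiset.replicate n r₀) - dvs s₁ with hE₁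
  have hllE₁ : ll E₁ = 1 := by omega
  have hdE₁ : dg E₁ = g := by rw [hE₁, map_sub, hdn, dg_dvs, hcs₁]; ring
  -- Step 2
  obtain ⟨f, hf, hf0⟩ := exists_mem_of_ll hC hllE₁.ge
  set D := E₁ + dv f with hD
  have hD0 : 0 ≤ D := by
    intro v
    have := (mem_L' hf0).mp hf v
    rw [hD, Finsupp.add_apply, dv_apply (hC.fin f), Finsupp.zero_apply]
    linarith
  have hdD : dg D = g := by rw [hD, map_add, hdE₁, hC.deg0 f hf0, add_zero]
  have hllD : ll D = 1 := by rw [hD, ll_add_dv hC E₁ hf0, hllE₁]
  obtain ⟨u, huR, φ, h1, h2, h3⟩ := exists_pencil hC hD0 hdD hllD hR3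
  have hPne : (D + Finsupp.single u 1 : Divisor k F) ≠ 0 := by
    intro h0
    have := congrArg dg h0
    rw [map_add, hdD, dg_single, map_zero] at this
    omega
  obtain ⟨w, hwR, ψ, hψ0, h4, h5, h6, h7⟩ := hn₁ R hR1 (D + Finsupp.single u 1) φ
    (add_nonneg hD0 (single_nonneg' u)) (by rw [map_add, hdD, dg_single]) h3 hPne h1 h2
  refine ⟨u ::ₘ Multiset.replicate n r₀, w ::ₘ s₁, fun v hv => ?_, fun v hv => ?_, ?_, ?_,
    dv ψ + (D + Finsupp.single u 1) - Finsupp.single w 1, h4, ?_, ?_, h6, h7, ?_⟩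
  · rcases Multiset.mem_cons.mp hv with rfl | h
    · exact huR
    · rw [Multiset.eq_of_mem_replicate h]; exact hr₀
  · rcases Multiset.mem_cons.mp hv with rfl | h
    · exact hwR
    · exact hs₁ v h
  · rw [Multiset.card_cons, Multiset.card_replicate]
  · rw [Multiset.card_cons, hcs₁]
  · rw [map_sub, map_add, hC.deg0 ψ hψ0, map_add, hdD, dg_single, dg_single]; ring
  · refine ⟨(f * ψ)⁻¹, inv_ne_zero (mul_ne_zero hf0 hψ0), fun v => ?_⟩
    rw [v.ord_inv, v.ord_mul hf0 hψ0, dvs_cons, dvs_cons, hD, hE₁]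
    simp only [Finsupp.add_apply, Finsupp.sub_apply]
    rw [dv_apply (hC.fin f), dv_apply (hC.fin ψ)]
    ring
  · have h8 := ll_add_dv hC (D + Finsupp.single u 1 - Finsupp.single w 1) hψ0
    rw [h5] at h8
    have h9 : dv ψ + (D + Finsupp.single u 1) - Finsupp.single w 1 =
        D + Finsupp.single u 1 - Finsupp.single w 1 + dv ψ := by abel
    rw [h9]
    exact h8

end Main

end Fermat.Agent.MW
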