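import Fermat.Agent.ER.PicK
import Fermat.Agent.ER.RedMain
import Fermat.Agent.Flat.Fin
import Fermat.Agent.Flat.Gal
import Fermat.Agent.S24

/-!
# The Galois module `J₀(N)`: smoothness, torsion and inertia
-/

set_option autoImplicit false
set_option linter.unusedSectionVars false
set_option linter.style.haveILetI false
set_option synthInstance.maxHeartbeats 400000

noncomputable section

namespace Fermat.Agent.MW

open AlgebraicCurve Fermat.Agent.Flat Fermat.Agent.FunField Fermat.Agent.MZ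
open Fermat.Agent.LG Fermat.Agent.ModFun Fermat.Agent.WP Fermat.Agent.ER
open ModularCurve (qExpand jqModC coeffMap JZero modularFunctionFieldBar modularFunctionFieldFull
  arithmeticGalois)
open scoped Classical Pointwise

/-- The field of algebraic numbers. -/
local notation "Qb" => AlgebraicClosure ℚ
/-- The absolute Galois group. -/
local notation "GQ" => (AlgebraicClosure ℚ ≃ₐ[ℚ] AlgebraicClosure ℚ)

section Smooth

variable {N : ℕ} [NeZero N]

theorem wk_exists_open_finset (S : Finset Qb) : ∃ U : Subgroup GQ, IsOpen (U : Set GQ) ∧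
    ∀ u ∈ U, ∀ a ∈ S, u a = a := by
  haveI : FiniteDimensional ℚ (IntermediateField.adjoin ℚ (S : Set Qb)) :=
    IntermediateField.finiteDimensional_adjoin fun x _ => Algebra.IsIntegral.isIntegral x
  refine ⟨(IntermediateField.adjoin ℚ (S : Set Qb)).fixingSubgroup,
    IntermediateField.fixingSubgroup_isOpen _, fun u hu a ha => ?_⟩
  exact (IntermediateField.mem_fixingSubgroup_iff _ _).mp hu a
    (IntermediateField.subset_adjoin ℚ _ ha)

theorem wk_exists_open_fun (f : F0 Qb N) : ∃ U : Subgroup GQ, IsOpen (U : Set GQ) ∧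
    ∀ u ∈ U, galF0 N u • f = f := by
  obtain ⟨S, hS⟩ := smooth_F0 f
  obtain ⟨U, hU, h⟩ := wk_exists_open_finset S
  exact ⟨U, hU, fun u hu => hS u (h u hu)⟩

theorem wk_exists_open_place (v : Place Qb (F0 Qb N)) : ∃ U : Subgroup GQ, IsOpen (U : Set GQ) ∧
    ∀ u ∈ U, galF0 N u • v = v := by
  -- a function with a zero or a pole at `v`
  obtain ⟨f, hfin, hv⟩ : ∃ f : F0 Qb N, {w : Place Qb (F0 Qb N) | w.ord f ≠ 0}.Finite ∧
      v.ord f ≠ 0 := by
    rcases (sep_F0 N).exists_point v with h | ⟨c, hc⟩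
    · exact ⟨_, (sep_F0 N).finOrd _, h.ne⟩
    · exact ⟨_, (sep_F0 N).finOrd _, hc.ne'⟩
  obtain ⟨U₁, hU₁, h1⟩ := wk_exists_open_fun f
  have hsep : ∀ w : Place Qb (F0 Qb N), ∃ U : Subgroup GQ, IsOpen (U : Set GQ) ∧
      ∀ u ∈ U, galF0 N u • v = w → w = v := by
    intro w
    by_cases hwv : w = v
    · exact ⟨⊤, isOpen_univ, fun _ _ _ => hwv⟩
    · have h2 : ¬ ∀ z : F0 Qb N, z ∈ w.toValuationSubring ↔ z ∈ v.toValuationSubring :=
        fun h => hwv (Place.ext (ValuationSubring.ext _ _ h))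
      push Not at h2
      obtain ⟨z, hz⟩ := h2
      obtain ⟨U, hU, h3⟩ := wk_exists_open_fun z
      refine ⟨U, hU, fun u hu huw => ?_⟩
      exfalso
      have h4 : z ∈ w.toValuationSubring ↔ z ∈ v.toValuationSubring := by
        rw [← huw, SemilinearAut.smul_toValuationSubring]
        conv_lhs => rw [← h3 u hu]
        exact ValuationSubring.smul_mem_pointwise_smul_iff
      tauto
  choose U hU h using hsep
  haveI : Finite {w : Place Qb (F0 Qb N) | w.ord f ≠ 0} := hfin.to_subtype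
  refine ⟨U₁ ⊓ ⨅ w : {w : Place Qb (F0 Qb N) | w.ord f ≠ 0}, U w, ?_, fun u hu => ?_⟩
  · refine hU₁.inter ?_
    change IsOpen ((⨅ w : {w : Place Qb (F0 Qb N) | w.ord f ≠ 0}, U w : Subgroup GQ) : Set GQ)
    rw [Subgroup.coe_iInf]
    exact isOpen_iInter_of_finite fun w => hU w
  · have h5 : (galF0 N u • v).ord f ≠ 0 := by
      conv_lhs => rw [← h1 u hu.1]
      rw [SemilinearAut.ord_smul]
      exact hv
    exact h _ u (Subgroup.mem_iInf.mp hu.2 ⟨_, h5⟩) rfl

theorem wk_exists_open_divisor (D : Divisor Qb (F0 Qb N)) :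
    ∃ U : Subgroup GQ, IsOpen (U : Set GQ) ∧ ∀ u ∈ U, galF0 N u • D = D := by
  choose U hU h using fun v : Place Qb (F0 Qb N) => wk_exists_open_place v
  refine ⟨⨅ v : D.support, U v, ?_, fun u hu => ?_⟩
  · rw [Subgroup.coe_iInf]
    exact isOpen_iInter_of_finite fun w => hU w
  · rw [SemilinearAut.divisor_smul_def]
    have h1 : Finsupp.mapDomain (galF0 N u • ·) D = Finsupp.mapDomain id D :=
      Finsupp.mapDomain_congr fun v hv => h v u (Subgroup.mem_iInf.mp hu ⟨v, hv⟩)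
    rw [h1, Finsupp.mapDomain_id]

theorem wk_exists_open_pic (x : Pic0 Qb (F0 Qb N)) :
    ∃ U : Subgroup GQ, IsOpen (U : Set GQ) ∧ ∀ u ∈ U, galF0 N u • x = x := by
  obtain ⟨D, rfl⟩ := Pic0.mk_surjective x
  obtain ⟨U, hU, h⟩ := wk_exists_open_divisor (D : Divisor Qb (F0 Qb N))
  refine ⟨U, hU, fun u hu => ?_⟩
  rw [SemilinearAut.pic0_smul_mk]
  exact congrArg Pic0.mk (Subtype.ext (h u hu))

end Smooth

section Torsion

variable {N : ℕ} [NeZero N]

theorem wk_ord_pow (v : Place Qb (F0 Qb N)) (u : F0 Qb N) (m : ℕ) :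
    v.ord (u ^ m) = m * v.ord u := by
  rw [← zpow_natCast, Place.ord_zpow]

theorem wk_finite_torsion {m : ℕ} (hm : 0 < m) : {x : Pic0 Qb (F0 Qb N) | m • x = 0}.Finite := by
  obtain ⟨S, hS, h⟩ := exists_finite_sel (N := N) hm
  haveI := hS.to_subtype
  have hm' : (m : ℤ) ≠ 0 := by exact_mod_cast hm.ne'
  have h1 : ∀ x : {x : Pic0 Qb (F0 Qb N) | m • x = 0}, ∃ (D : Divisor.degZero (K := Qb)
      (F := F0 Qb N)) (f' : S) (u : F0 Qb N), Pic0.mk D = (x : Pic0 Qb (F0 Qb N)) ∧ u ≠ 0 ∧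
      (f' : F0 Qb N) ≠ 0 ∧
      ∀ v, (m : ℤ) * (D : Divisor Qb (F0 Qb N)) v = v.ord (f' : F0 Qb N) + m * v.ord u := by
    rintro ⟨x, hx⟩
    obtain ⟨D, rfl⟩ := Pic0.mk_surjective x
    have hx' : m • Pic0.mk D = 0 := hx
    rw [pic_mk_nsmul, pic_mk_eq_zero] at hx'
    obtain ⟨f, hf, hfD⟩ := hx'
    have hfD' : ∀ v, (m : ℤ) * (D : Divisor Qb (F0 Qb N)) v = v.ord f := by
      intro v
      rw [← hfD v]
      change _ = (m • (D : Divisor Qb (F0 Qb N))) v
      rw [Finsupp.smul_apply, nsmul_eq_mul]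
    obtain ⟨f', hf', u, hu, hfu⟩ := h f hf fun v => ⟨_, (hfD' v).symm⟩
    have hf'0 : f' ≠ 0 := by
      rintro rfl
      rw [zero_mul] at hfu
      exact hf hfu
    refine ⟨D, ⟨f', hf'⟩, u, rfl, hu, hf'0, fun v => ?_⟩
    rw [hfD', hfu, Place.ord_mul _ hf'0 (pow_ne_zero _ hu), wk_ord_pow]
  choose D f' u hD hu hf' hval using h1
  have : Finite {x : Pic0 Qb (F0 Qb N) | m • x = 0} := by
    refine Finite.of_injective f' fun x y hxy => Subtype.ext ?_
    rw [← hD x, ← hD y, ← sub_eq_zero, pic_mk_sub, pic_mk_eq_zero]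
    refine ⟨u x * (u y)⁻¹, mul_ne_zero (hu x) (inv_ne_zero (hu y)), fun v => ?_⟩
    rw [Place.ord_mul _ (hu x) (inv_ne_zero (hu y)), Place.ord_inv]
    have h2 := hval x v
    have h3 := hval y v
    rw [← hxy] at h3
    apply mul_left_cancel₀ hm'
    change (m : ℤ) * ((D x : Divisor Qb (F0 Qb N)) v - (D y : Divisor Qb (F0 Qb N)) v) = _
    linarith
  exact Set.toFinite _

end Torsion

section Inertia

/-- the inertia property -/
def PIn (A : ValuationSubring Qb) (N : ℕ) [NeZero N] (m : ℕ) : Prop :=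
  ∀ σ ∈ A.inertiaSubgroupIn ℚ, ∀ D : Divisor Qb (F0 Qb N),
    Divisor.IsPrincipal (m • (galF0 N σ • D - D)) → Divisor.IsPrincipal (galF0 N σ • D - D)

theorem pin_of_two {N q : ℕ} [NeZero N] {A : ValuationSubring Qb} (hq : q.Prime)
    (hA : A.LiesOverPrime q) (hqN : ¬ q ∣ N) (hN : 2 ∣ N) {m : ℕ} (hm : ¬ q ∣ m) : PIn A N m := by
  obtain ⟨red, -, hI, hker⟩ := exists_red2 hq hA hqN hN
  intro σ hσ D hD
  refine hker m hm _ hD ?_
  change (Finsupp.mapDomain.addMonoidHom red : Divisor Qb (F0 Qb N) →+ _) _ = 0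
  rw [map_sub, sub_eq_zero]
  change Finsupp.mapDomain red _ = Finsupp.mapDomain red _
  rw [mapDomain_smul]
  congr 1
  funext v
  exact hI σ hσ v

theorem pin_descend {N r : ℕ} [NeZero N] [NeZero r] {A : ValuationSubring Qb} (hr : r.Prime)
    (hrN : ¬ r ∣ N) {m : ℕ} (hm : m ≠ 0) (h : PIn A (N * r) m) : PIn A N m := by
  rintro σ hσ D ⟨f, hf, hfD⟩
  have hpull : Divisor.pullbackAlong (be N r) (hbe hr hrN) (galF0 N σ • D - D) =
      galF0 (N * r) σ • Divisor.pullbackAlong (be N r) (hbe hr hrN) D -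
        Divisor.pullbackAlong (be N r) (hbe hr hrN) D := by
    rw [map_sub, pullbackAlong_smul _ (be_smul σ)]
  have h1 : Divisor.IsPrincipal
      (m • (galF0 (N * r) σ • Divisor.pullbackAlong (be N r) (hbe hr hrN) D -
        Divisor.pullbackAlong (be N r) (hbe hr hrN) D)) := by
    rw [← hpull, ← map_nsmul]
    exact Divisor.isPrincipal_pullbackAlong _ _ ⟨f, hf, hfD⟩
  obtain ⟨u, hu, huD⟩ := h σ hσ _ h1
  rw [← hpull] at huD
  -- `be f = c u ^ m`
  have hbf : be N r f ≠ 0 := (map_ne_zero _).mpr hf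
  have hum : u ^ m ≠ 0 := pow_ne_zero _ hu
  have h2 : ∀ w : Place Qb (F0 Qb (N * r)), w.ord (be N r f) = m * w.ord u := by
    intro w
    rw [← pullback_ord (hbe hr hrN) hfD w, map_nsmul, Finsupp.smul_apply, huD, nsmul_eq_mul]
  obtain ⟨c, hc⟩ := (sep_F0 (N * r)).const (z := be N r f / u ^ m) fun w => by
    rw [div_eq_mul_inv, Place.ord_mul _ hbf (inv_ne_zero hum), Place.ord_inv, h2]
    have : w.ord (u ^ m) = m * w.ord u := by
      rw [← zpow_natCast, Place.ord_zpow]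
    rw [this]
    omega
  obtain ⟨c', hc'⟩ := IsAlgClosed.exists_pow_nat_eq c (Nat.pos_of_ne_zero hm)
  have h3 : be N r f = (algebraMap Qb (F0 Qb (N * r)) c' * u) ^ m := by
    rw [mul_pow, ← map_pow, hc', hc, div_mul_cancel₀ _ hum]
  have hdvd : ∀ v : Place Qb (F0 Qb N), (m : ℤ) ∣ v.ord f := by
    intro v
    rw [← hfD v, Finsupp.smul_apply, nsmul_eq_mul]
    exact dvd_mul_right _ _
  obtain ⟨u₀, hu₀⟩ := root_descend hr hm hf hdvd h3
  have hu₀0 : u₀ ≠ 0 := by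
    rintro rfl
    rw [zero_pow hm] at hu₀
    exact hf hu₀
  refine ⟨u₀, hu₀0, fun v => ?_⟩
  have h4 := hfD v
  rw [Finsupp.smul_apply, nsmul_eq_mul, hu₀, ← zpow_natCast, Place.ord_zpow] at h4
  have hm' : (m : ℤ) ≠ 0 := by exact_mod_cast hm
  exact mul_left_cancel₀ hm' (by rw [h4])

theorem pin {N q : ℕ} [NeZero N] {A : ValuationSubring Qb} (hq : q.Prime) (hq2 : q ≠ 2)
    (hA : A.LiesOverPrime q) (hqN : ¬ q ∣ N) {m : ℕ} (hm : ¬ q ∣ m) : PIn A N m := by
  by_cases h2 : 2 ∣ N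
  · exact pin_of_two hq hA hqN h2 hm
  · refine pin_descend Nat.prime_two h2 (fun h => hm (h ▸ dvd_zero q)) ?_
    refine pin_of_two hq hA (fun h => ?_) (dvd_mul_left 2 N) hm
    rcases hq.dvd_mul.mp h with h | h
    · exact hqN h
    · exact hq2 ((Nat.prime_dvd_prime_iff_eq hq Nat.prime_two).mp h)

theorem inertia_fix_pic {N q : ℕ} [NeZero N] {A : ValuationSubring Qb} (hq : q.Prime) (hq2 : q ≠ 2)
    (hA : A.LiesOverPrime q) (hqN : ¬ q ∣ N) {m : ℕ} (hm : ¬ q ∣ m) {σ : GQ}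
    (hσ : σ ∈ A.inertiaSubgroupIn ℚ) (y : Pic0 Qb (F0 Qb N)) (h : m • (galF0 N σ • y - y) = 0) :
    galF0 N σ • y = y := by
  obtain ⟨D, rfl⟩ := Pic0.mk_surjective y
  rw [SemilinearAut.pic0_smul_mk] at h ⊢
  rw [pic_mk_sub, pic_mk_nsmul, pic_mk_eq_zero] at h
  rw [← sub_eq_zero, pic_mk_sub, pic_mk_eq_zero]
  exact pin hq hq2 hA hqN hm σ hσ _ h

end Inertia

/-! ### Transport to `J₀(N)` -/

theorem wk_transport_aux {N : ℕ} [NeZero N] {E : IntermediateField Qb (LaurentSeries Qb)}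
    (hE : E = F0 Qb N) (γ : GQ →* SemilinearAut Qb E)
    (hγ : ∀ (σ : GQ) (x : E), ((γ σ • x : E) : LaurentSeries Qb) =
      coeffMap ((σ.toRingEquiv : Qb ≃+* Qb) : Qb →+* Qb) x) :
    ∃ e : Pic0 Qb E ≃+ Pic0 Qb (F0 Qb N), ∀ (σ : GQ) x, e (γ σ • x) = galF0 N σ • e x := by
  subst hE
  have hγ' : γ = galF0 N := by
    apply MonoidHom.ext
    intro σ
    have h1 : ∀ x : F0 Qb N, γ σ • x = galF0 N σ • x := fun x => Subtype.ext (hγ σ x)
    apply Subtype.ext
    refine Prod.ext (RingEquiv.ext h1) (RingEquiv.ext fun a => ?_)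
    apply (algebraMap Qb (F0 Qb N)).injective
    have h2 := SemilinearAut.smul_algebraMap (γ σ) a
    have h3 := SemilinearAut.smul_algebraMap (galF0 N σ) a
    rw [h1, h3] at h2
    exact h2.symm
  subst hγ'
  exact ⟨AddEquiv.refl _, fun _ _ => rfl⟩

variable (N : ℕ) [NeZero N]

/-- `J₀(N)` as a class group of `F0` -/
theorem exists_equiv : ∃ e : JZero N ≃+ Pic0 Qb (F0 Qb N),
    ∀ (σ : GQ) (x : JZero N), e (σ • x) = galF0 N σ • e x :=
  wk_transport_aux (Fermat.Agent.S24.modularFunctionFieldBar_eq N)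
    (arithmeticGalois (modularFunctionFieldFull N)) fun _ _ => rfl

variable {N}

theorem jzero_smooth (x : JZero N) : ∃ U : Subgroup GQ, IsOpen (U : Set GQ) ∧
    ∀ u ∈ U, u • x = x := by
  obtain ⟨e, he⟩ := exists_equiv N
  obtain ⟨U, hU, h⟩ := wk_exists_open_pic (e x)
  exact ⟨U, hU, fun u hu => e.injective (by rw [he, h u hu])⟩

theorem jzero_torsion {m : ℕ} (hm : 0 < m) : {x : JZero N | m • x = 0}.Finite := by
  obtain ⟨e, he⟩ := exists_equiv N
  refine Set.Finite.of_injOn (f := e) (fun x hx => ?_) e.injective.injOn (wk_finite_torsion hm)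
  have hx' : m • x = 0 := hx
  change m • e x = 0
  rw [← map_nsmul, hx', map_zero]

theorem jzero_inertia {q : ℕ} {A : ValuationSubring Qb} (hq : q.Prime) (hq2 : q ≠ 2)
    (hA : A.LiesOverPrime q) (hqN : ¬ q ∣ N) {m : ℕ} (hm : ¬ q ∣ m) {σ : GQ}
    (hσ : σ ∈ A.inertiaSubgroupIn ℚ) (y : JZero N) (h : m • (σ • y - y) = 0) :
    σ • y = y := by
  obtain ⟨e, he⟩ := exists_equiv N
  apply e.injective
  rw [he]
  refine inertia_fix_pic hq hq2 hA hqN hm hσ (e y) ?_
  rw [← he, ← map_sub, ← map_nsmul, h, map_zero]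

end Fermat.Agent.MW
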