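import Fermat.Agent.MW.Defs
import Fermat.Agent.FunField.Differentials

/-!
# Orders of derivatives and base point free families
-/

set_option autoImplicit false
set_option linter.unusedSectionVars false
set_option linter.unusedVariables false

noncomputable section

namespace Fermat.Agent.MW

open AlgebraicCurve Module Fermat.Agent.Flat Fermat.Agent.FunField WithZero

section ge

variable {k F : Type*} [Field k] [Field F] [Algebra k F] (v : Place k F)

/-- `f` has order at least `n`. -/
def Ge (n : ℤ) (f : F) : Prop := f = 0 ∨ n ≤ v.ord f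

variable {v}

theorem ge_iff {n : ℤ} {f : F} : Ge v n f ↔ v.adicValuation f ≤ exp (-n) := by
  rw [v.adicValuation_le_exp_iff, neg_neg, Ge]

theorem Ge.mono {n m : ℤ} {f : F} (h : Ge v n f) (hm : m ≤ n) : Ge v m f :=
  h.imp_right fun h => hm.trans h

theorem Ge.add {n : ℤ} {f g : F} (hf : Ge v n f) (hg : Ge v n g) : Ge v n (f + g) := by
  rw [ge_iff] at *
  exact (Valuation.map_add _ _ _).trans (max_le hf hg)

theorem Ge.neg {n : ℤ} {f : F} (hf : Ge v n f) : Ge v n (-f) := by
  rw [ge_iff] at *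
  rwa [Valuation.map_neg]

theorem Ge.sub {n : ℤ} {f g : F} (hf : Ge v n f) (hg : Ge v n g) : Ge v n (f - g) := by
  rw [sub_eq_add_neg]
  exact hf.add hg.neg

theorem Ge.mul {n m : ℤ} {f g : F} (hf : Ge v n f) (hg : Ge v m g) : Ge v (n + m) (f * g) := by
  by_cases hf0 : f = 0
  · left; rw [hf0, zero_mul]
  by_cases hg0 : g = 0
  · left; rw [hg0, mul_zero]
  right
  rw [v.ord_mul hf0 hg0]
  exact add_le_add (hf.resolve_left hf0) (hg.resolve_left hg0)

theorem Ge.zero (n : ℤ) : Ge v n (0 : F) := Or.inl rfl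

theorem Ge.sum {n : ℤ} {α : Type*} (s : Finset α) {f : α → F} (h : ∀ a ∈ s, Ge v n (f a)) :
    Ge v n (∑ a ∈ s, f a) := by
  classical
  induction s using Finset.induction with
  | empty => simpa using Ge.zero (v := v) n
  | insert a s ha ih =>
    rw [Finset.sum_insert ha]
    exact (h a (by simp)).add (ih fun b hb => h b (by simp [hb]))

theorem Ge.const (c : k) : Ge v 0 (algebraMap k F c) := Or.inr (by rw [ord_algebraMap])

theorem Ge.smul {n : ℤ} {f : F} (c : k) (hf : Ge v n f) : Ge v n (c • f) := by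
  rw [Algebra.smul_def]
  have := (Ge.const (v := v) c).mul hf
  rwa [zero_add] at this

theorem Ge.pow {n : ℤ} {f : F} (hf : Ge v n f) (m : ℕ) : Ge v (m * n) (f ^ m) := by
  induction m with
  | zero => right; rw [pow_zero, v.ord_one]; simp
  | succ m ih =>
    rw [pow_succ]
    exact (ih.mul hf).mono (le_of_eq (by push_cast; ring))

theorem ge_mem {f : F} : Ge v 0 f ↔ f ∈ v.toValuationSubring := by
  rw [mem_iff_ord_nonneg]
  constructor
  · rintro (h | h)
    · rw [h, v.ord_zero]
    · exact h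
  · exact fun h => Or.inr h

theorem not_ge_iff {n : ℤ} {f : F} : ¬ Ge v n f ↔ f ≠ 0 ∧ v.ord f < n := by
  rw [Ge, not_or, not_le]

theorem mem_L_ge {D : Divisor k F} {f : F} :
    f ∈ riemannRochSpace D ↔ ∀ v : Place k F, Ge v (-D v) f := mem_L

theorem ord_add_of_ge {f g : F} (hf : f ≠ 0) (hg : Ge v (v.ord f + 1) g) :
    f + g ≠ 0 ∧ v.ord (f + g) = v.ord f := by
  have hlt : v.adicValuation g < v.adicValuation f := by
    by_contra hcon
    push Not at hcon
    have h1 : v.adicValuation f ≤ exp (-(v.ord f + 1)) := hcon.trans (ge_iff.1 hg)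
    have h2 := ge_iff.2 h1
    rcases h2 with h2 | h2
    · exact hf h2
    · omega
  have h1 : v.adicValuation (f + g) = v.adicValuation f := Valuation.map_add_eq_of_lt_left _ hlt
  refine ⟨?_, by rw [Place.ord, Place.ord, h1]⟩
  intro h0
  rw [h0, map_zero] at h1
  exact v.adicValuation_ne_zero hf h1.symm

end ge

section crv

variable {k F : Type*} [Field k] [Field F] [Algebra k F] {g C : ℤ}

/-- Base point freeness. -/
theorem exists_exact (hC : Crv k F g C) (E : Divisor k F) (hE : C + 1 ≤ dg E) (v : Place k F) :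
    ∃ f ∈ riemannRochSpace E, f ≠ 0 ∧ v.ord f = -E v := by
  classical
  have hd : dg (E - Finsupp.single v 1) = dg E - 1 := by rw [map_sub, dg_single]
  have h1 := hC.rr E (by omega)
  have h2 := hC.rr (E - Finsupp.single v 1) (by omega)
  have hle : E - Finsupp.single v 1 ≤ E := by
    intro w
    rw [Finsupp.sub_apply]
    have : 0 ≤ Finsupp.single v (1 : ℤ) w := by
      rw [Finsupp.single_apply]; split_ifs <;> omega
    omega
  have hL := L_mono hle
  obtain ⟨f, hf, hf'⟩ : ∃ f ∈ riemannRochSpace E, f ∉ riemannRochSpace (E - Finsupp.single v 1) := by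
    by_contra hcon
    push Not at hcon
    have heq : riemannRochSpace (E - Finsupp.single v 1) = riemannRochSpace E :=
      le_antisymm hL hcon
    rw [heq] at h2
    omega
  have hf0 : f ≠ 0 := by
    rintro rfl
    exact hf' (zero_mem _)
  refine ⟨f, hf, hf0, ?_⟩
  rw [mem_L' hf0] at hf hf'
  push Not at hf'
  obtain ⟨w, hw⟩ := hf'
  have hwv : w = v := by
    by_contra hne
    rw [Finsupp.sub_apply, Finsupp.single_eq_of_ne hne, sub_zero] at hw
    exact absurd (hf w) (not_le.2 hw)
  subst hwv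
  rw [Finsupp.sub_apply, Finsupp.single_eq_same] at hw
  have := hf w
  omega

/-- Families of sections without common zeros, which do not vanish at a given place. -/
theorem exists_family (hC : Crv k F g C) (E : Divisor k F) (hE : C + 1 ≤ dg E) (w : Place k F) :
    ∃ (n : ℕ) (f : Fin n → F), (∀ j, f j ∈ riemannRochSpace E) ∧ (∀ j, f j ≠ 0) ∧
      (∀ j, w.ord (f j) = -E w) ∧ ∀ v, ∃ j, v.ord (f j) = -E v := by
  classical
  obtain ⟨f0, hf0, hf00, hw0⟩ := exists_exact hC E hE w
  have hfin : {v : Place k F | v.ord f0 ≠ -E v}.Finite := by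
    refine ((hC.fin f0).union E.support.finite_toSet).subset fun v hv => ?_
    by_contra hcon
    simp only [Set.mem_union, not_or, Finset.mem_coe, Finsupp.mem_support_iff, not_not] at hcon
    have h1 : v.ord f0 = 0 := by
      by_contra h
      exact hcon.1 h
    exact hv (by rw [h1, hcon.2, neg_zero])
  have key : ∀ v : Place k F, v.ord f0 ≠ -E v → ∃ f ∈ riemannRochSpace E, f ≠ 0 ∧
      w.ord f = -E w ∧ v.ord f = -E v := by
    intro v hv
    obtain ⟨u, hu, hu0, hvu⟩ := exists_exact hC E hE v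
    by_cases huw : w.ord u = -E w
    · exact ⟨u, hu, hu0, huw, hvu⟩
    have h1 : Ge w (w.ord f0 + 1) u := by
      right
      have := (mem_L' hu0).1 hu w
      omega
    have h2 : Ge v (v.ord u + 1) f0 := by
      right
      have := (mem_L' hf00).1 hf0 v
      omega
    obtain ⟨h3, h4⟩ := ord_add_of_ge hf00 h1
    obtain ⟨h5, h6⟩ := ord_add_of_ge hu0 h2
    refine ⟨f0 + u, add_mem hf0 hu, h3, by rw [h4, hw0], ?_⟩
    rw [add_comm, h6, hvu]
  let S := hfin.toFinset
  choose! u hu hu0 huw hvu using key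
  let e : Fin (Fintype.card (Option S)) ≃ Option S := (Fintype.equivFin _).symm
  let G : Option S → F := fun o => Option.elim o f0 fun v => u v
  have hG : ∀ o, G o ∈ riemannRochSpace E ∧ G o ≠ 0 ∧ w.ord (G o) = -E w := by
    rintro (_ | v)
    · exact ⟨hf0, hf00, hw0⟩
    · have hv := (Set.Finite.mem_toFinset _).1 v.2
      exact ⟨hu v hv, hu0 v hv, huw v hv⟩
  refine ⟨_, fun j => G (e j), fun j => (hG _).1, fun j => (hG _).2.1, fun j => (hG _).2.2, ?_⟩
  intro v
  by_cases hv : v.ord f0 = -E v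
  · refine ⟨e.symm none, ?_⟩
    simp only [Equiv.apply_symm_apply]
    exact hv
  · refine ⟨e.symm (some ⟨v, (Set.Finite.mem_toFinset _).2 hv⟩), ?_⟩
    simp only [Equiv.apply_symm_apply]
    exact hvu v hv

end crv

section der

variable {k F : Type*} [Field k] [Field F] [Algebra k F] [IsAlgClosed k] [CharZero k]
  {g C : ℤ} (X : XD k F g C)

namespace XD

/-- `D = D(π) d/dπ`. -/
theorem exists_der {v : Place k F} {π : F} (hπ : v.ord π = 1) :
    ∃ δ : Derivation k F F, δ π = 1 ∧ ∀ f, X.D f = δ f * X.D π := by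
  have ht : Transcendental k π := transcendental_of_ord_ne_zero v (by rw [hπ]; decide)
  have := X.sep.fd
  have := finiteDimensional_adjoin X.sep.trans ht
  obtain ⟨δ, hδ, hδ'⟩ := exists_derivation ht
  refine ⟨δ, hδ, fun f => ?_⟩
  have h1 := congrArg X.D.liftKaehlerDifferential (hδ' f)
  rw [map_smul, Derivation.liftKaehlerDifferential_comp_D,
    Derivation.liftKaehlerDifferential_comp_D, smul_eq_mul] at h1
  exact h1

theorem D_unif_ne {v : Place k F} {π : F} (hπ : v.ord π = 1) : X.D π ≠ 0 := by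
  obtain ⟨δ, hδ, h⟩ := X.exists_der hπ
  intro h0
  have := h X.x
  rw [X.D_x, h0, mul_zero] at this
  exact one_ne_zero this

/-- Derivatives of integral elements. -/
theorem ge_D {v : Place k F} {π : F} (hπ : v.ord π = 1) {f : F} (hf : Ge v 0 f) :
    Ge v (v.ord (X.D π)) (X.D f) := by
  obtain ⟨δ, hδ, h⟩ := X.exists_der hπ
  have hπ0 : π ≠ 0 := by
    rintro rfl
    rw [v.ord_zero] at hπ
    omega
  have hmem : π ∈ v.toValuationSubring := mem_of_ord_nonneg v (by omega)
  have hirr : Irreducible (⟨π, hmem⟩ : v.toValuationSubring) := by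
    obtain ⟨ϖ, hϖ⟩ := IsDiscreteValuationRing.exists_irreducible v.toValuationSubring
    have h1 : v.ord (ϖ : F) = 1 := v.ord_coe_irreducible hϖ
    obtain ⟨n, hn⟩ := IsDiscreteValuationRing.associated_pow_irreducible
      (x := (⟨π, hmem⟩ : v.toValuationSubring))
      (fun h0 => hπ0 (congrArg Subtype.val h0)) hϖ
    obtain ⟨u, hu⟩ := hn
    have h2 : v.ord ((⟨π, hmem⟩ : v.toValuationSubring) * (u : v.toValuationSubring) : F) =
        v.ord ((ϖ : F) ^ n) := by
      have := congrArg (fun z : v.toValuationSubring => v.ord (z : F)) hu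
      simpa using this
    have hu0 : ((u : v.toValuationSubring) : F) ≠ 0 := by
      intro h0
      have : (u : v.toValuationSubring) = 0 := Subtype.ext h0
      exact u.ne_zero this
    rw [v.ord_mul hπ0 hu0, v.ord_coe_unit, hπ, ord_pow, h1] at h2
    have hn1 : n = 1 := by omega
    rw [hn1, pow_one] at hu
    exact (Associated.irreducible_iff ⟨u, hu⟩).2 hϖ
  have := X.sep.fd
  have h1 := derivation_mem X.sep.trans v hirr δ hδ (ge_mem.1 hf)
  have h2 : Ge v (v.ord (X.D π)) (X.D π) := Or.inr le_rfl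
  have h3 := (ge_mem.2 h1).mul h2
  rwa [zero_add, ← h f] at h3

/-- Two uniformizers give the same order. -/
theorem ord_D_unif {v : Place k F} {π π' : F} (hπ : v.ord π = 1) (hπ' : v.ord π' = 1) :
    v.ord (X.D π) = v.ord (X.D π') := by
  have h1 := (X.ge_D hπ (f := π') (Or.inr (by omega))).resolve_left (X.D_unif_ne hπ')
  have h2 := (X.ge_D hπ' (f := π) (Or.inr (by omega))).resolve_left (X.D_unif_ne hπ)
  omega

/-- The Wronskian. -/
def wro (a b : F) : F := a * X.D b - b * X.D a

theorem wro_smul (c : F) (a b : F) : X.wro (c * a) (c * b) = c ^ 2 * X.wro a b := by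
  unfold wro
  simp only [Derivation.leibniz, smul_eq_mul]
  ring

/-- The order of the Wronskian. -/
theorem ge_wro {v : Place k F} {π : F} (hπ : v.ord π = 1) {n : ℤ} {a b : F} (ha : Ge v n a)
    (hb : Ge v n b) : Ge v (2 * n + v.ord (X.D π)) (X.wro a b) := by
  have hπ0 : π ≠ 0 := by
    rintro rfl
    rw [v.ord_zero] at hπ
    omega
  have hz : v.ord (π ^ n) = n := by rw [v.ord_zpow, hπ, mul_one]
  have hz' : Ge v (-n) (π ^ (-n)) := Or.inr (by rw [v.ord_zpow, hπ, mul_one])
  have e1 : a = π ^ n * (π ^ (-n) * a) := by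
    rw [← mul_assoc, ← zpow_add₀ hπ0, add_neg_cancel, zpow_zero, one_mul]
  have e2 : b = π ^ n * (π ^ (-n) * b) := by
    rw [← mul_assoc, ← zpow_add₀ hπ0, add_neg_cancel, zpow_zero, one_mul]
  have h1 : Ge v 0 (π ^ (-n) * a) := (hz'.mul ha).mono (by omega)
  have h2 : Ge v 0 (π ^ (-n) * b) := (hz'.mul hb).mono (by omega)
  rw [e1, e2, wro_smul]
  refine Ge.mul ?_ ?_
  · have : Ge v n (π ^ n) := Or.inr (le_of_eq hz.symm)
    exact (this.pow 2).mono (by norm_num)
  · unfold wro
    have h3 := h1.mul (X.ge_D hπ h2)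
    have h4 := h2.mul (X.ge_D hπ h1)
    exact (h3.sub h4).mono (by omega)

/-- The order of the Wronskian for exact orders `n`, `n + 1`. -/
theorem ord_wro {v : Place k F} {π : F} (hπ : v.ord π = 1) {n : ℤ} {a b : F} (ha0 : a ≠ 0)
    (hb0 : b ≠ 0) (ha : v.ord a = n) (hb : v.ord b = n + 1) :
    X.wro a b ≠ 0 ∧ v.ord (X.wro a b) = 2 * n + v.ord (X.D π) := by
  have hq : v.ord (a⁻¹ * b) = 1 := by
    rw [v.ord_mul (inv_ne_zero ha0) hb0, v.ord_inv]
    omega
  have e : X.wro a b = a ^ 2 * X.D (a⁻¹ * b) := by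
    have h1 := X.wro_smul a 1 (a⁻¹ * b)
    rw [mul_one, ← mul_assoc, mul_inv_cancel₀ ha0, one_mul] at h1
    rw [h1]
    unfold wro
    rw [Derivation.map_one_eq_zero, mul_zero, sub_zero, one_mul]
  have hD := X.D_unif_ne hq
  rw [e]
  refine ⟨mul_ne_zero (pow_ne_zero _ ha0) hD, ?_⟩
  rw [v.ord_mul (pow_ne_zero _ ha0) hD, ord_pow, ha, X.ord_D_unif hq hπ]
  push_cast
  ring

theorem exists_unif (v : Place k F) : ∃ π : F, v.ord π = 1 := by
  obtain ⟨π, hπ⟩ := IsDiscreteValuationRing.exists_irreducible v.toValuationSubring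
  exact ⟨π, v.ord_coe_irreducible hπ⟩

end XD

/-- Canonical data: `K = div(dx)`. -/
structure Can (X : XD k F g C) where
  K : Divisor k F
  hK : ∀ (v : Place k F) (π : F), v.ord π = 1 → v.ord (X.D π) = -K v
  dgK : dg K = 2 * g - 2
  fr : (finrank k (riemannRochSpace K) : ℤ) = g

end der

end Fermat.Agent.MW
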