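import Mathlib
import Fermat.Agent.Flat.Points2
import Fermat.Agent.Flat.Class4
import Fermat.Agent.MW.Defs
import Fermat.Prelude.Def_AlgebraicCurve_BaseChangeGalois

/-!
Galois descent for functions, moving lemma.
-/

set_option autoImplicit false
set_option linter.unusedSectionVars false

noncomputable section

namespace Fermat.Agent.MW

open AlgebraicCurve Module Fermat.Agent.Flat Fermat.Agent.FunField

local notation "Qb" => AlgebraicClosure ℚ
local notation "GQ" => (AlgebraicClosure ℚ ≃ₐ[ℚ] AlgebraicClosure ℚ)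

variable {F : Type*} [Field F] [Algebra Qb F] {g C : ℤ}

/-- The Galois action on a curve. -/
structure GalX (X : XD Qb F g C) (γ : GQ →* SemilinearAut Qb F) (H : Subgroup GQ) : Prop where
  base : ∀ (σ : GQ) (a : Qb), SemilinearAut.baseAut (γ σ) a = σ a
  smooth : ∀ z : F, ∃ S : Finset Qb, ∀ σ : GQ, (∀ a ∈ S, σ a = a) → γ σ • z = z
  fx : ∀ σ ∈ H, γ σ • X.x = X.x

variable {X : XD Qb F g C} {γ : GQ →* SemilinearAut Qb F} {H : Subgroup GQ}

theorem GalX.smul_smul_vec (hG : GalX X γ H) (σ : GQ) (a : Qb) (v : F) :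
    γ σ • (a • v) = σ a • (γ σ • v) := by
  rw [Algebra.smul_def, Algebra.smul_def, smul_mul', SemilinearAut.smul_algebraMap, hG.base]

/-- **Galois descent**: stable subspaces are spanned by fixed vectors. -/
theorem GalX.span_fixed (hG : GalX X γ H) (V : Submodule Qb F)
    (hV : ∀ σ ∈ H, ∀ f ∈ V, γ σ • f ∈ V) :
    V ≤ Submodule.span Qb {f | f ∈ V ∧ ∀ σ ∈ H, γ σ • f = f} := by
  classical
  haveI : Algebra.IsAlgebraic ℚ Qb := AlgebraicClosure.isAlgebraic ℚ
  intro v hv
  by_contra hcon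
  obtain ⟨l, hlv, hl⟩ := Submodule.exists_le_ker_of_notMem hcon
  obtain ⟨S, hS⟩ := hG.smooth v
  set K1 : IntermediateField ℚ Qb := IntermediateField.adjoin ℚ (S : Set Qb) with hK1
  haveI : FiniteDimensional ℚ K1 := IntermediateField.finiteDimensional_adjoin
    fun x _ => (Algebra.IsAlgebraic.isAlgebraic x).isIntegral
  have hSK : ∀ a ∈ S, a ∈ K1 := fun a ha => IntermediateField.subset_adjoin ℚ _ ha
  let res : H → (K1 →ₐ[ℚ] Qb) := fun σ => ((σ : GQ) : Qb →ₐ[ℚ] Qb).comp K1.val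
  have hres : ∀ (σ : H) (a : K1), res σ a = (σ : GQ) (a : Qb) := fun _ _ => rfl
  have hfix : ∀ σ τ : GQ, (∀ a : K1, σ a = τ a) → ∀ a : K1,
      γ σ • ((a : Qb) • v) = γ τ • ((a : Qb) • v) := by
    intro σ τ h a
    have h1 : ∀ b : K1, (τ⁻¹ * σ) (b : Qb) = b := by
      intro b
      rw [AlgEquiv.mul_apply, h b]
      exact τ.symm_apply_apply _
    have h2 : γ (τ⁻¹ * σ) • ((a : Qb) • v) = (a : Qb) • v := by
      rw [hG.smul_smul_vec, h1 a, hS (τ⁻¹ * σ) fun b hb => h1 ⟨b, hSK b hb⟩]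
    conv_rhs => rw [← h2]
    rw [smul_smul, ← map_mul, mul_inv_cancel_left]
  let E := Set.range res
  haveI : Finite E := Subtype.finite
  haveI : Fintype E := Fintype.ofFinite E
  let lift : E → H := fun τ => τ.2.choose
  have hlift : ∀ τ : E, res (lift τ) = τ.1 := fun τ => τ.2.choose_spec
  let T : K1 → F := fun a => ∑ τ : E, γ (lift τ : GQ) • ((a : Qb) • v)
  have hT : ∀ a : K1, T a ∈ V ∧ ∀ σ ∈ H, γ σ • T a = T a := by
    intro a
    refine ⟨Submodule.sum_mem _ fun τ _ => hV _ (lift τ).2 _ (V.smul_mem _ hv), ?_⟩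
    intro σ hσ
    let m : E → E := fun τ => ⟨res (⟨σ, hσ⟩ * lift τ), ⟨_, rfl⟩⟩
    have hm : Function.Injective m := by
      intro τ τ' h
      have h1 : res (⟨σ, hσ⟩ * lift τ) = res (⟨σ, hσ⟩ * lift τ') := congrArg Subtype.val h
      apply Subtype.ext
      rw [← hlift τ, ← hlift τ']
      ext b
      have h2 := DFunLike.congr_fun h1 b
      rw [hres, hres] at h2 ⊢
      exact σ.injective h2
    have hbij : Function.Bijective m := Finite.injective_iff_bijective.1 hm
    change γ σ • (∑ τ : E, γ (lift τ : GQ) • ((a : Qb) • v)) = _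
    rw [Finset.smul_sum]
    refine Fintype.sum_bijective m hbij _ _ fun τ => ?_
    rw [smul_smul, ← map_mul]
    refine hfix _ _ (fun b => ?_) a
    have h3 := DFunLike.congr_fun (hlift (m τ)) b
    rw [hres] at h3
    rw [h3]
    rfl
  have hlT : ∀ a : K1, ∑ τ : E, l (γ (lift τ : GQ) • v) * (τ.1 a) = 0 := by
    intro a
    have h1 : l (T a) = 0 := hl (Submodule.subset_span (hT a))
    change l (∑ τ : E, γ (lift τ : GQ) • ((a : Qb) • v)) = 0 at h1
    rw [map_sum] at h1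
    rw [← h1]
    refine Finset.sum_congr rfl fun τ _ => ?_
    rw [hG.smul_smul_vec, l.map_smul, smul_eq_mul, mul_comm]
    congr 1
    have h3 := DFunLike.congr_fun (hlift τ) a
    rw [hres] at h3
    exact h3.symm
  have hind : LinearIndependent Qb (fun τ : E => ((τ.1 : K1 →* Qb) : K1 → Qb)) := by
    refine (linearIndependent_monoidHom K1 Qb).comp (fun τ : E => (τ.1 : K1 →* Qb)) ?_
    intro τ τ' h
    apply Subtype.ext
    ext b
    exact DFunLike.congr_fun h b
  rw [Fintype.linearIndependent_iff] at hind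
  have h4 := hind (fun τ => l (γ (lift τ : GQ) • v)) (by
    ext a
    simp only [Finset.sum_apply, Pi.smul_apply, smul_eq_mul, Pi.zero_apply]
    exact hlT a) ⟨res 1, ⟨1, rfl⟩⟩
  apply hlv
  have h5 := hfix (lift ⟨res 1, ⟨1, rfl⟩⟩ : H) 1 (fun b => by
    have h6 := DFunLike.congr_fun (hlift ⟨res 1, ⟨1, rfl⟩⟩) b
    rw [hres] at h6
    rw [h6]
    rfl) 1
  simp only [OneMemClass.coe_one, one_smul, map_one] at h5
  rw [← h5]
  exact h4

/-- A fixed vector outside of finitely many proper subspaces. -/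
theorem GalX.exists_avoid (hG : GalX X γ H) (V : Submodule Qb F)
    (hV : ∀ σ ∈ H, ∀ f ∈ V, γ σ • f ∈ V) {ι : Type*} [Finite ι] (U : ι → Submodule Qb F)
    (hU : ∀ j, ¬ V ≤ U j) : ∃ f ∈ V, (∀ σ ∈ H, γ σ • f = f) ∧ ∀ j, f ∉ U j := by
  classical
  letI : Module ℚ F := Module.compHom F (algebraMap ℚ Qb)
  let E : Submodule ℚ F :=
    { carrier := {f | f ∈ V ∧ ∀ σ ∈ H, γ σ • f = f}
      zero_mem' := ⟨V.zero_mem, fun σ _ => smul_zero _⟩
      add_mem' := fun ha hb => ⟨V.add_mem ha.1 hb.1, fun σ hσ => by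
        rw [smul_add, ha.2 σ hσ, hb.2 σ hσ]⟩
      smul_mem' := fun q f hf => ⟨V.smul_mem (algebraMap ℚ Qb q) hf.1, fun σ hσ => by
        change γ σ • ((algebraMap ℚ Qb q) • f) = (algebraMap ℚ Qb q) • f
        rw [hG.smul_smul_vec, hf.2 σ hσ, AlgEquiv.commutes]⟩ }
  let p : ι → Submodule ℚ E := fun j =>
    { carrier := {f | (f : F) ∈ U j}
      zero_mem' := (U j).zero_mem
      add_mem' := fun ha hb => (U j).add_mem ha hb
      smul_mem' := fun q f hf => (U j).smul_mem (algebraMap ℚ Qb q) hf }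
  by_contra hcon
  push Not at hcon
  have hcov : ⋃ j, (p j : Set E) = Set.univ := by
    rw [Set.eq_univ_iff_forall]
    intro f
    obtain ⟨j, hj⟩ := hcon f f.2.1 f.2.2
    exact Set.mem_iUnion.2 ⟨j, hj⟩
  obtain ⟨j, hj⟩ := Subspace.exists_eq_top_of_iUnion_eq_univ hcov
  apply hU j
  refine (hG.span_fixed V hV).trans (Submodule.span_le.2 ?_)
  intro f hf
  have h1 : (⟨f, hf⟩ : E) ∈ p j := by rw [hj]; trivial
  exact h1

end Fermat.Agent.MW
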