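import Mathlib
import Fermat.Agent.MW.Desc

/-!
Places of a curve over the algebraic numbers have open stabilizers.
-/

set_option autoImplicit false
set_option linter.unusedSectionVars false

noncomputable section

namespace Fermat.Agent.MW

open AlgebraicCurve Module Fermat.Agent.Flat Fermat.Agent.FunField IntermediateField

local notation "Qb" => AlgebraicClosure ℚ
local notation "GQ" => (AlgebraicClosure ℚ ≃ₐ[ℚ] AlgebraicClosure ℚ)

section Pole

variable {k F : Type*} [Field k] [Field F] [Algebra k F] {g C : ℤ}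

/-- A function with a single pole at a given place. -/
theorem exists_single_pole (hC : Flat.Crv k F g C) (v : Place k F) :
    ∃ f : F, v.ord f < 0 ∧ ∀ w : Place k F, w ≠ v → 0 ≤ w.ord f := by
  classical
  by_contra hcon
  push Not at hcon
  obtain ⟨n, hn⟩ : ∃ n : ℕ, g + 1 ≤ (n : ℤ) := ⟨(g + 1).toNat, Int.self_le_toNat _⟩
  set D : Divisor k F := Finsupp.single v ((n : ℕ) : ℤ) with hD
  have hfd := hC.fd D
  have hlb := hC.lb D
  rw [hD, dg_single] at hlb
  rw [← hD] at hlb
  have h1 : ∀ f ∈ riemannRochSpace D, ∃ a : k, algebraMap k F a = f := by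
    intro f hf
    by_cases hf0 : f = 0
    · exact ⟨0, by rw [map_zero, hf0]⟩
    refine hC.const f fun w => ?_
    have h2 : ∀ w : Place k F, w ≠ v → 0 ≤ w.ord f := by
      intro w hw
      have h3 := (mem_L' hf0).mp hf w
      rw [hD, Finsupp.single_apply, if_neg (Ne.symm hw)] at h3
      omega
    by_cases hw : w = v
    · subst hw
      by_contra hneg
      push Not at hneg
      obtain ⟨w', hw', h4⟩ := hcon f hneg
      exact absurd (h2 w' hw') (not_le.mpr h4)
    · exact h2 w hw
  have h1L : (1 : F) ∈ riemannRochSpace D := by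
    rw [mem_L' one_ne_zero]
    intro w
    rw [← map_one (algebraMap k F), ord_algebraMap, hD, Finsupp.single_apply]
    split_ifs <;> omega
  have h2 : finrank k (riemannRochSpace D) ≤ 1 := by
    refine finrank_le_one (⟨1, h1L⟩ : riemannRochSpace D) fun w => ?_
    obtain ⟨a, ha⟩ := h1 w w.2
    refine ⟨a, Subtype.ext ?_⟩
    rw [← ha, Submodule.coe_smul, Algebra.smul_def, mul_one]
  omega

/-- There are infinitely many places. -/
theorem infinite_places [IsAlgClosed k] {t : F} (ht : Flat.Sep k t) : Infinite (Place k F) := by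
  classical
  have h1 : ∀ c : k, ∃ v : Place k F, 0 ≤ v.ord t ∧ evp v t = c := by
    intro c
    obtain ⟨s, hs, hsum, hrat⟩ := ht.above c
    have hfd := ht.fd
    have hpos : 0 < finrank k⟮t⟯ F := finrank_pos
    obtain ⟨v, hv⟩ : s.Nonempty := by
      by_contra hne
      rw [Finset.not_nonempty_iff_eq_empty] at hne
      rw [hne, Finset.sum_empty] at hsum
      omega
    have h1 := (hs v).mp hv
    have h2 : 0 ≤ v.ord t := by
      by_contra hneg
      push Not at hneg
      rw [ord_sub_of_neg v hneg] at h1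
      omega
    refine ⟨v, h2, ?_⟩
    apply evp_unique
    rw [adicValuation_lt_one_iff]
    exact Or.inr h1
  choose P hP1 hP2 using h1
  haveI : Infinite k := IsAlgClosed.instInfinite
  exact Infinite.of_injective P fun c c' h => by rw [← hP2 c, h, hP2 c']

end Pole

variable {F : Type*} [Field F] [Algebra Qb F] {g C : ℤ}

/-- The subgroup fixing finitely many numbers. -/
theorem exists_open_sub (S : Finset Qb) : ∃ H : Subgroup GQ, IsOpen (H : Set GQ) ∧
    ∀ σ ∈ H, ∀ a ∈ S, σ a = a := by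
  haveI : Algebra.IsAlgebraic ℚ Qb := AlgebraicClosure.isAlgebraic ℚ
  set K1 : IntermediateField ℚ Qb := IntermediateField.adjoin ℚ (S : Set Qb) with hK1
  haveI : FiniteDimensional ℚ K1 := IntermediateField.finiteDimensional_adjoin
    fun x _ => (Algebra.IsAlgebraic.isAlgebraic x).isIntegral
  refine ⟨K1.fixingSubgroup, IntermediateField.fixingSubgroup_isOpen K1, fun σ hσ a ha => ?_⟩
  exact hσ ⟨a, IntermediateField.subset_adjoin ℚ _ ha⟩

/-- Places have open stabilizers. -/
theorem exists_open_plF (hC : Flat.Crv Qb F g C) (γ : GQ →* SemilinearAut Qb F)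
    (hsm : ∀ z : F, ∃ S : Finset Qb, ∀ σ : GQ, (∀ a ∈ S, σ a = a) → γ σ • z = z)
    (v : Place Qb F) : ∃ H : Subgroup GQ, IsOpen (H : Set GQ) ∧ ∀ σ ∈ H, γ σ • v = v := by
  obtain ⟨f, hf1, hf2⟩ := exists_single_pole hC v
  obtain ⟨S, hS⟩ := hsm f
  obtain ⟨H, hH, hHS⟩ := exists_open_sub S
  refine ⟨H, hH, fun σ hσ => ?_⟩
  by_contra hne
  have h1 := hf2 _ hne
  have h2 := SemilinearAut.ord_smul (γ σ) v f
  rw [hS σ (hHS σ hσ)] at h2
  omega

/-- Finite sets of places have open pointwise stabilizers. -/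
theorem exists_open_plsF (hC : Flat.Crv Qb F g C) (γ : GQ →* SemilinearAut Qb F)
    (hsm : ∀ z : F, ∃ S : Finset Qb, ∀ σ : GQ, (∀ a ∈ S, σ a = a) → γ σ • z = z)
    (R : Finset (Place Qb F)) : ∃ H : Subgroup GQ, IsOpen (H : Set GQ) ∧
      ∀ v ∈ R, ∀ σ ∈ H, γ σ • v = v := by
  classical
  induction R using Finset.induction_on with
  | empty => exact ⟨⊤, isOpen_univ, fun v hv => absurd hv (Finset.notMem_empty v)⟩
  | insert v R _ ih =>
    obtain ⟨H1, h1, h2⟩ := ih
    obtain ⟨H2, h3, h4⟩ := exists_open_plF hC γ hsm v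
    refine ⟨H1 ⊓ H2, by rw [Subgroup.coe_inf]; exact h1.inter h3, fun w hw σ hσ => ?_⟩
    rw [Finset.mem_insert] at hw
    rcases hw with rfl | hw
    · exact h4 σ hσ.2
    · exact h2 w hw σ hσ.1

/-- Many places fixed by an open subgroup. -/
theorem exists_fixed_places (hC : Flat.Crv Qb F g C) {t : F} (ht : Flat.Sep Qb t)
    (γ : GQ →* SemilinearAut Qb F)
    (hsm : ∀ z : F, ∃ S : Finset Qb, ∀ σ : GQ, (∀ a ∈ S, σ a = a) → γ σ • z = z)
    (n : ℕ) : ∃ (R : Finset (Place Qb F)) (H : Subgroup GQ), IsOpen (H : Set GQ) ∧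
      n ≤ R.card ∧ ∀ v ∈ R, ∀ σ ∈ H, γ σ • v = v := by
  haveI := infinite_places ht
  obtain ⟨R, hR⟩ := Infinite.exists_subset_card_eq (Place Qb F) n
  obtain ⟨H, h1, h2⟩ := exists_open_plsF hC γ hsm R
  exact ⟨R, H, h1, hR.ge, h2⟩

end Fermat.Agent.MW
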