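import Mathlib

/-! # Norms along a finite projection `w : Spec R → A¹` -/

set_option autoImplicit false
set_option linter.style.haveILetI false

noncomputable section

open Polynomial

namespace Fermat.Agent.MW

/-- An element `w` such that `R` is finite over `k[w]` (and `w` is transcendental). -/
structure Pr (k R : Type*) [Field k] [CommRing R] [Algebra k R] where
  w : R
  fin : (Polynomial.aeval w : k[X] →ₐ[k] R).toRingHom.Finite
  inj : Function.Injective (Polynomial.aeval w : k[X] →ₐ[k] R)

namespace Pr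

variable {k R : Type*} [Field k] [CommRing R] [IsDomain R] [Algebra k R] (p : Pr k R)

/-- The algebra structure. -/
abbrev alg : Algebra k[X] R := (Polynomial.aeval p.w : k[X] →ₐ[k] R).toRingHom.toAlgebra

lemma alg_apply (f : k[X]) : letI := p.alg; algebraMap k[X] R f = aeval p.w f := rfl

lemma alg_fin : letI := p.alg; Module.Finite k[X] R := p.fin

lemma alg_tf : letI := p.alg; Module.IsTorsionFree k[X] R := by
  letI := p.alg
  haveI : FaithfulSMul k[X] R := (faithfulSMul_iff_algebraMap_injective k[X] R).mpr p.inj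
  infer_instance

lemma alg_free : letI := p.alg; Module.Free k[X] R := by
  letI := p.alg
  haveI := p.alg_fin
  haveI := p.alg_tf
  infer_instance

/-- The degree of the projection. -/
def n : ℕ := letI := p.alg; Module.finrank k[X] R

/-- A basis. -/
def b : letI := p.alg; Module.Basis (Fin p.n) k[X] R := by
  letI := p.alg
  haveI := p.alg_fin
  haveI := p.alg_free
  exact Module.finBasis k[X] R

/-- The basis elements. -/
def r (l : Fin p.n) : R := letI := p.alg; p.b l

/-- The multiplication matrix. -/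
def M (a : R) : Matrix (Fin p.n) (Fin p.n) k[X] :=
  letI := p.alg
  Algebra.leftMulMatrix p.b a

/-- The coordinates of `1`. -/
def u (l : Fin p.n) : k[X] := letI := p.alg; p.b.repr 1 l

/-- The norm. -/
def N (a : R) : k[X] := (p.M a).det

/-- The cofactor. -/
def adj (a : R) : R := ∑ l, p.r l * aeval p.w (((p.M a).adjugate.mulVec p.u) l)

lemma M_mul_r (a : R) (l : Fin p.n) : a * p.r l = ∑ m, p.r m * aeval p.w (p.M a m l) := by
  letI := p.alg
  have h := p.b.sum_repr (a * p.b l)
  rw [r, ← h]
  refine Finset.sum_congr rfl fun m _ => ?_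
  rw [Algebra.smul_def, mul_comm, M, Algebra.leftMulMatrix_eq_repr_mul]
  rfl

lemma sum_u : ∑ l, p.r l * aeval p.w (p.u l) = 1 := by
  letI := p.alg
  conv_rhs => rw [← p.b.sum_repr (1 : R)]
  refine Finset.sum_congr rfl fun m _ => ?_
  rw [Algebra.smul_def, mul_comm]
  rfl

lemma M_add (a b : R) : p.M (a + b) = p.M a + p.M b := by
  letI := p.alg
  simp [M]

lemma M_sum {α : Type*} (s : Finset α) (f : α → R) : p.M (∑ a ∈ s, f a) = ∑ a ∈ s, p.M (f a) := by
  letI := p.alg
  simp [M]

lemma M_algebraMap_mul (c : k) (a : R) : p.M (algebraMap k R c * a) = C c • p.M a := by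
  letI := p.alg
  have h : algebraMap k R c * a = (C c : k[X]) • a := by
    rw [Algebra.smul_def, alg_apply]
    simp
  rw [h]
  simp [M]

theorem aeval_N (a : R) : aeval p.w (p.N a) = a * p.adj a := by
  classical
  set v := (p.M a).adjugate.mulVec p.u with hv
  have h1 : a * p.adj a = ∑ l, (∑ m, p.r m * aeval p.w (p.M a m l)) * aeval p.w (v l) := by
    rw [adj, Finset.mul_sum]
    refine Finset.sum_congr rfl fun l _ => ?_
    rw [← mul_assoc, p.M_mul_r]
  have h2 : (p.M a).mulVec v = (p.N a) • p.u := by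
    rw [hv, Matrix.mulVec_mulVec, Matrix.mul_adjugate, Matrix.smul_mulVec, Matrix.one_mulVec]
    rfl
  have h3 : a * p.adj a = ∑ m, p.r m * aeval p.w (((p.M a).mulVec v) m) := by
    rw [h1]
    simp only [Finset.sum_mul]
    rw [Finset.sum_comm]
    refine Finset.sum_congr rfl fun m _ => ?_
    rw [Matrix.mulVec, dotProduct, map_sum, Finset.mul_sum]
    refine Finset.sum_congr rfl fun l _ => ?_
    rw [map_mul, mul_assoc]
  rw [h3, h2]
  simp only [Pi.smul_apply, smul_eq_mul, map_mul]
  have h4 : ∑ m, p.r m * (aeval p.w (p.N a) * aeval p.w (p.u m)) =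
      aeval p.w (p.N a) * ∑ m, p.r m * aeval p.w (p.u m) := by
    rw [Finset.mul_sum]
    refine Finset.sum_congr rfl fun m _ => ?_
    ring
  rw [h4, p.sum_u, mul_one]

theorem N_eq_norm (a : R) : letI := p.alg; p.N a = Algebra.norm k[X] a := by
  letI := p.alg
  rw [N, M, Algebra.norm_eq_matrix_det p.b]

theorem N_ne_zero {a : R} (ha : a ≠ 0) : p.N a ≠ 0 := by
  letI := p.alg
  haveI := p.alg_fin
  haveI := p.alg_free
  rw [p.N_eq_norm]
  exact Algebra.norm_ne_zero_iff.mpr ha

variable [CharZero k] [IsAlgClosed k] [IsDedekindDomain R]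

/-- The norm polynomial of an element with given zeros. -/
theorem N_eq_prod {α : Type*} (s : Finset α) (P : α → (R →ₐ[k] k)) (a : R) (ha : a ≠ 0)
    (hz : Ideal.span {a} = ∏ j ∈ s, RingHom.ker (P j)) :
    ∃ c : k, c ≠ 0 ∧ p.N a = C c * ∏ j ∈ s, (X - C (P j p.w)) := by
  classical
  letI := p.alg
  haveI := p.alg_fin
  haveI := p.alg_free
  haveI := p.alg_tf
  haveI : CharZero (FractionRing k[X]) := by
    haveI : CharZero k[X] := inferInstance
    exact charZero_of_injective_algebraMap (IsFractionRing.injective k[X] (FractionRing k[X]))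
  haveI : PerfectField (FractionRing k[X]) := inferInstance
  have hsurj : ∀ j, Function.Surjective (P j) := fun j c => ⟨algebraMap k R c, (P j).commutes c⟩
  have hker : ∀ j, Ideal.relNorm k[X] (RingHom.ker (P j)) = Ideal.span {X - C (P j p.w)} := by
    intro j
    haveI hmax : (RingHom.ker (P j)).IsMaximal := RingHom.ker_isMaximal_of_surjective _ (hsurj j)
    haveI hmax' : (Ideal.span {X - C (P j p.w)} : Ideal k[X]).IsMaximal :=
      PrincipalIdealRing.isMaximal_of_irreducible (irreducible_X_sub_C _)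
    have hle : (Ideal.span {X - C (P j p.w)} : Ideal k[X]) ≤
        (RingHom.ker (P j)).comap (algebraMap k[X] R) := by
      rw [Ideal.span_singleton_le_iff_mem, Ideal.mem_comap, RingHom.mem_ker, alg_apply]
      simp
    haveI hlies : (RingHom.ker (P j)).LiesOver (Ideal.span {X - C (P j p.w)} : Ideal k[X]) := by
      constructor
      refine (hmax'.eq_of_le ?_ hle)
      exact (Ideal.comap_isPrime _ _).ne_top
    rw [Ideal.relNorm_eq_pow_of_isMaximal (RingHom.ker (P j))
      (Ideal.span {X - C (P j p.w)} : Ideal k[X])]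
    have hdeg : (RingHom.ker (P j)).inertiaDeg k[X] = 1 := by
      rw [@Ideal.inertiaDeg_eq_of_isMaximal k[X] R _ _ _ _ _ hlies hmax' hmax]
      letI : Field (k[X] ⧸ (Ideal.span {X - C (P j p.w)} : Ideal k[X])) :=
        @Ideal.Quotient.field _ _ _ hmax'
      refine finrank_eq_one (1 : R ⧸ RingHom.ker (P j)) one_ne_zero fun y => ?_
      obtain ⟨y, rfl⟩ := Ideal.Quotient.mk_surjective y
      refine ⟨Ideal.Quotient.mk _ (C (P j y)), ?_⟩
      rw [Algebra.smul_def, mul_one]
      have h2 : algebraMap (k[X] ⧸ (Ideal.span {X - C (P j p.w)} : Ideal k[X]))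
          (R ⧸ RingHom.ker (P j)) (Ideal.Quotient.mk _ (C (P j y))) =
          Ideal.Quotient.mk _ (algebraMap k[X] R (C (P j y))) := rfl
      rw [h2, Ideal.Quotient.eq, RingHom.mem_ker, alg_apply]
      simp
    rw [hdeg, pow_one]
  have h1 : Ideal.span {p.N a} = Ideal.span {∏ j ∈ s, (X - C (P j p.w))} := by
    rw [p.N_eq_norm, ← Algebra.intNorm_eq_norm, ← Ideal.relNorm_singleton, hz, map_prod]
    rw [Finset.prod_congr rfl fun j _ => hker j, Ideal.prod_span_singleton]
  rw [Ideal.span_singleton_eq_span_singleton] at h1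
  obtain ⟨e, he⟩ := h1.symm
  obtain ⟨c, hc, hce⟩ := Polynomial.isUnit_iff.mp e.isUnit
  exact ⟨c, hc.ne_zero, by rw [← he, ← hce, mul_comm]⟩

end Pr

end Fermat.Agent.MW
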