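import Fermat.Agent.MW.Defs
import Fermat.Agent.MW.Nrm
import Fermat.Agent.Flat.Points2

/-! # The ring of functions regular outside the poles of `t` -/

set_option autoImplicit false
set_option linter.unusedSectionVars false
set_option linter.style.haveILetI false

noncomputable section

namespace Fermat.Agent.MW

open AlgebraicCurve IsDedekindDomain IntermediateField WithZero Module Fermat.Agent.FunField
open Fermat.Agent.Flat

variable {k F : Type*} [Field k] [Field F] [Algebra k F]

variable (k) in
/-- the functions regular outside the poles of `t`. -/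
def rg (t : F) : Subalgebra k F where
  carrier := {z | Reg k t z}
  mul_mem' := fun h h' => Reg.mul h h'
  add_mem' := fun h h' => Reg.add h h'
  algebraMap_mem' := fun a => Reg.algebraMap a

theorem mem_rg {t z : F} : z ∈ rg k t ↔ Reg k t z := Iff.rfl

theorem self_mem_rg (t : F) : t ∈ rg k t := fun _ h => h

theorem adjoin_le_rg (t : F) : Algebra.adjoin k {t} ≤ rg k t := by
  rw [Algebra.adjoin_le_iff, Set.singleton_subset_iff]
  exact self_mem_rg t

/-- The algebra structure over `k[t]`. -/
abbrev rgAlg (t : F) : Algebra (Algebra.adjoin k {t}) (rg k t) :=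
  (Subalgebra.inclusion (adjoin_le_rg t)).toRingHom.toAlgebra

theorem rg_isIntegralClosure {t : F} (h : Sep k t) : letI := rgAlg (k := k) t
    IsIntegralClosure (rg k t) (Algebra.adjoin k {t}) F := by
  letI := rgAlg (k := k) t
  exact
    { algebraMap_injective := Subtype.val_injective
      isIntegral_iff := fun {z} => ⟨fun hz => ⟨⟨z, ord_nonneg_of_isIntegral hz⟩, rfl⟩, by
        rintro ⟨z, rfl⟩
        exact h.isIntegral z.2⟩ }

open scoped IntermediateField.algebraAdjoinAdjoin in
theorem rg_isDedekindDomain {t : F} (h : Sep k t) : IsDedekindDomain (rg k t) := by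
  letI := rgAlg (k := k) t
  haveI := h.fd
  haveI := h.sep
  haveI := isDedekindDomain_adjoin h.trans
  haveI := rg_isIntegralClosure h
  haveI : IsScalarTower (Algebra.adjoin k {t}) (rg k t) F := IsScalarTower.of_algebraMap_eq' rfl
  exact IsIntegralClosure.isDedekindDomain (Algebra.adjoin k {t}) k⟮t⟯ F (rg k t)

open scoped IntermediateField.algebraAdjoinAdjoin in
theorem rg_finite {t : F} (h : Sep k t) : letI := rgAlg (k := k) t
    Module.Finite (Algebra.adjoin k {t}) (rg k t) := by
  letI := rgAlg (k := k) t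
  haveI := h.fd
  haveI := h.sep
  haveI := isDedekindDomain_adjoin h.trans
  haveI := rg_isIntegralClosure h
  haveI : IsScalarTower (Algebra.adjoin k {t}) (rg k t) F := IsScalarTower.of_algebraMap_eq' rfl
  exact IsIntegralClosure.finite (Algebra.adjoin k {t}) k⟮t⟯ F (rg k t)

open scoped IntermediateField.algebraAdjoinAdjoin in
theorem rg_isFractionRing {t : F} (h : Sep k t) : IsFractionRing (rg k t) F := by
  letI := rgAlg (k := k) t
  haveI := h.fd
  haveI := h.sep
  haveI := isDedekindDomain_adjoin h.trans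
  haveI := rg_isIntegralClosure h
  haveI : IsScalarTower (Algebra.adjoin k {t}) (rg k t) F := IsScalarTower.of_algebraMap_eq' rfl
  exact IsIntegralClosure.isFractionRing_of_finite_extension (Algebra.adjoin k {t}) k⟮t⟯ F (rg k t)

/-- A projection with the same poles. -/
theorem exists_pr {t w : F} (hw : Sep k w) (h : ∀ z, z ∈ rg k t ↔ z ∈ rg k w) :
    ∃ p : Pr k (rg k t), (p.w : F) = w := by
  have e : rg k t = rg k w := Subalgebra.ext h
  suffices H : ∃ p : Pr k (rg k w), (p.w : F) = w by
    rw [e]
    exact H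
  letI := rgAlg (k := k) w
  haveI := rg_finite hw
  refine ⟨⟨⟨w, self_mem_rg w⟩, ?_, ?_⟩, rfl⟩
  · let f : Polynomial k →+* Algebra.adjoin k {w} :=
      (Polynomial.aeval (⟨w, Algebra.self_mem_adjoin_singleton k w⟩ :
        Algebra.adjoin k {w}) : Polynomial k →ₐ[k] Algebra.adjoin k {w}).toRingHom
    have hf : Function.Surjective f := by
      rintro ⟨z, hz⟩
      rw [Algebra.adjoin_singleton_eq_range_aeval] at hz
      obtain ⟨q, hq⟩ := hz
      refine ⟨q, Subtype.ext ?_⟩
      exact (Polynomial.aeval_subalgebra_coe q (Algebra.adjoin k {w})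
        ⟨w, Algebra.self_mem_adjoin_singleton k w⟩).trans hq
    have hg : (Subalgebra.inclusion (adjoin_le_rg (k := k) w)).toRingHom.Finite :=
      rg_finite hw
    have hcomp : (Polynomial.aeval (⟨w, self_mem_rg w⟩ : rg k w) :
        Polynomial k →ₐ[k] rg k w).toRingHom =
        (Subalgebra.inclusion (adjoin_le_rg (k := k) w)).toRingHom.comp f := by
      apply Polynomial.ringHom_ext
      · intro a
        apply Subtype.ext
        simp [f]
      · apply Subtype.ext
        simp [f]
    rw [hcomp]
    exact hg.comp (RingHom.Finite.of_surjective f hf)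
  · intro p q hpq
    have h1 := congrArg (fun z : rg k w => (z : F)) hpq
    simp only [Polynomial.aeval_subalgebra_coe] at h1
    exact (transcendental_iff_injective.mp hw.trans) h1

section points

variable [IsAlgClosed k]

/-- The point of the chart given by a place. -/
def pt {t : F} (h : Sep k t) (v : Place k F) (hv : 0 ≤ v.ord t) : rg k t →ₐ[k] k where
  toFun z := evp v (z : F)
  map_one' := evp_one
  map_mul' a b := evp_mul (h.rational v) (mem_of_ord_nonneg v (a.2 v hv))
    (mem_of_ord_nonneg v (b.2 v hv))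
  map_zero' := evp_zero
  map_add' a b := evp_add (h.rational v) (mem_of_ord_nonneg v (a.2 v hv))
    (mem_of_ord_nonneg v (b.2 v hv))
  commutes' a := evp_algebraMap a

theorem pt_apply {t : F} (h : Sep k t) (v : Place k F) (hv : 0 ≤ v.ord t) (z : rg k t) :
    pt h v hv z = evp v (z : F) := rfl

theorem evp_eq_zero_iff_ord {t : F} (h : Sep k t) (v : Place k F) {z : F} (hz : 0 ≤ v.ord z) :
    evp v z = 0 ↔ z = 0 ∨ 0 < v.ord z := by
  rw [evp_eq_zero_iff (h.rational v) (mem_of_ord_nonneg v hz)]

open Classical in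
/-- The kernel of a point. -/
theorem exists_hos {t : F} (h : Sep k t) (v : Place k F) (hv : 0 ≤ v.ord t) :
    letI := rg_isDedekindDomain h
    letI := rg_isFractionRing h
    ∃ w : HeightOneSpectrum (rg k t), v = Place.ofHeightOneSpectrum (K := k) (F := F) w ∧
      w.asIdeal = RingHom.ker (pt h v hv) := by
  haveI := rg_isDedekindDomain h
  haveI := rg_isFractionRing h
  obtain ⟨w, hw, hw'⟩ := exists_heightOneSpectrum (K := k) (R := rg k t) v
    (fun r => mem_of_ord_nonneg v (r.2 v hv))
  refine ⟨w, hw, ?_⟩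
  ext r
  rw [hw' r, RingHom.mem_ker, adicValuation_lt_one_iff]
  exact (evp_eq_zero_iff_ord h v (r.2 v hv)).symm

theorem pt_injective {t : F} (h : Sep k t) {v v' : Place k F} {hv : 0 ≤ v.ord t}
    {hv' : 0 ≤ v'.ord t} (e : RingHom.ker (pt h v hv) = RingHom.ker (pt h v' hv')) : v = v' := by
  haveI := rg_isDedekindDomain h
  haveI := rg_isFractionRing h
  obtain ⟨w, hw, hw1⟩ := exists_hos h v hv
  obtain ⟨w', hw', hw1'⟩ := exists_hos h v' hv'
  have : w = w' := HeightOneSpectrum.ext (hw1.trans (e.trans hw1'.symm))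
  rw [hw, hw', this]

/-- Every height one prime is a point. -/
theorem exists_place {t : F} (h : Sep k t) :
    letI := rg_isDedekindDomain h
    ∀ w : HeightOneSpectrum (rg k t), ∃ (v : Place k F) (hv : 0 ≤ v.ord t),
      w.asIdeal = RingHom.ker (pt h v hv) := by
  haveI := rg_isDedekindDomain h
  haveI := rg_isFractionRing h
  intro w
  have hmem : ∀ r : rg k t, (r : F) ∈
      (Place.ofHeightOneSpectrum (K := k) (F := F) w).toValuationSubring := fun r => by
    rw [mem_place_ofHeightOne]
    exact w.valuation_le_one (K := F) r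
  have hv : 0 ≤ (Place.ofHeightOneSpectrum (K := k) (F := F) w).ord t :=
    ord_nonneg_of_mem _ (hmem ⟨t, self_mem_rg t⟩)
  refine ⟨_, hv, ?_⟩
  ext r
  rw [RingHom.mem_ker]
  refine Iff.trans ?_ (evp_eq_zero_iff_ord h _ (r.2 _ hv)).symm
  rw [← adicValuation_lt_one_iff, adicValuation_ofHeightOneSpectrum]
  exact (w.valuation_lt_one_iff_mem (K := F) r).symm

open Classical in
theorem count_eq_ord {t : F} (h : Sep k t) (v : Place k F) (hv : 0 ≤ v.ord t) (A : rg k t)
    (hA : A ≠ 0) : letI := rg_isDedekindDomain h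
    ((Multiset.count (RingHom.ker (pt h v hv))
      (UniqueFactorizationMonoid.normalizedFactors (Ideal.span {A})) : ℕ) : ℤ) = v.ord (A : F) := by
  haveI := rg_isDedekindDomain h
  haveI := rg_isFractionRing h
  obtain ⟨w, hw, hw1⟩ := exists_hos h v hv
  rw [← hw1, ← Ideal.count_associates_factors_eq (by simpa using hA) w.isPrime w.ne_bot]
  have h1 := ord_ofHeightOneSpectrum (K := k) w (A : F)
  rw [← hw] at h1
  rw [h1]
  have h2 : w.valuation F (A : F) = w.intValuation A := w.valuation_of_algebraMap (K := F) A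
  rw [h2, w.intValuation_if_neg hA, log_exp, neg_neg]

open Classical in
/-- **Factorisation** of a function in the chart. -/
theorem span_eq_prod {t : F} (h : Sep k t) (A : rg k t) (hA : A ≠ 0) {n : ℕ}
    (P : Fin n → Place k F) (hP : ∀ l, 0 ≤ (P l).ord t)
    (hc : ∀ v : Place k F, 0 ≤ v.ord t →
      v.ord (A : F) = ((Finset.univ.filter fun l => P l = v).card : ℤ)) :
    Ideal.span {A} = ∏ l, RingHom.ker (pt h (P l) (hP l)) := by
  haveI := rg_isDedekindDomain h
  haveI := rg_isFractionRing h
  have hprime : ∀ l, Prime (RingHom.ker (pt h (P l) (hP l))) := by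
    intro l
    obtain ⟨w, hw, hw1⟩ := exists_hos h (P l) (hP l)
    rw [← hw1]
    exact w.prime
  have hspan0 : Ideal.span {A} ≠ 0 := by simpa using hA
  have hprod0 : ∏ l, RingHom.ker (pt h (P l) (hP l)) ≠ 0 :=
    Finset.prod_ne_zero_iff.2 fun l _ => (hprime l).ne_zero
  rw [← associated_iff_eq,
    UniqueFactorizationMonoid.associated_iff_normalizedFactors_eq_normalizedFactors hspan0 hprod0]
  have e : UniqueFactorizationMonoid.normalizedFactors (∏ l, RingHom.ker (pt h (P l) (hP l))) =
      Multiset.map (fun l => RingHom.ker (pt h (P l) (hP l))) Finset.univ.val := by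
    rw [Finset.prod]
    refine UniqueFactorizationMonoid.normalizedFactors_prod_of_prime fun p hp => ?_
    obtain ⟨l, -, rfl⟩ := Multiset.mem_map.1 hp
    exact hprime l
  rw [e]
  refine Multiset.ext.2 fun q => ?_
  by_cases hq : Prime q
  · obtain ⟨v, hv, hvq⟩ := exists_place h ⟨q, (Ideal.isPrime_of_prime hq), hq.ne_zero⟩
    change q = _ at hvq
    subst hvq
    have h1 := count_eq_ord h v hv A hA
    rw [hc v hv] at h1
    have h2 := Int.ofNat_inj.1 h1
    rw [Multiset.count_map]
    refine h2.trans ?_
    rw [← Finset.filter_val, Finset.card_def]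
    congr 2
    ext l
    simp only [Finset.mem_filter, Finset.mem_univ, true_and]
    exact ⟨fun hl => by subst hl; rfl, fun hl => (pt_injective h hl).symm⟩
  · rw [Multiset.count_eq_zero_of_notMem, Multiset.count_eq_zero_of_notMem]
    · intro hq'
      obtain ⟨l, -, rfl⟩ := Multiset.mem_map.1 hq'
      exact hq (hprime l)
    · intro hq'
      exact hq (UniqueFactorizationMonoid.prime_of_normalized_factor q hq')

end points

section exceptional

variable [IsAlgClosed k] [CharZero k]

theorem sep_of_trans {t w : F} (h : Sep k t) (hw : Transcendental k w) : Sep k w := by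
  haveI := h.fd
  haveI := finiteDimensional_adjoin h.trans hw
  haveI : CharZero F := charZero_of_injective_algebraMap (algebraMap k F).injective
  exact ⟨hw, inferInstance, inferInstance⟩

/-- The combination `w_u = ∑ u^j y_j`. -/
def wu {s : ℕ} (y : Fin s → F) (u : k) : F := ∑ j : Fin s, u ^ (j : ℕ) • y j

/-- For almost all `u` the function `w_u` has a pole where one of the `y_j` has. -/
theorem finite_bad {s : ℕ} (y : Fin s → F) (v : Place k F) (hv : ∃ j, v.ord (y j) < 0) :
    {u : k | 0 ≤ v.ord (wu y u)}.Finite := by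
  classical
  by_contra hinf
  obtain ⟨T, hT, hcard⟩ := Set.Infinite.exists_subset_card_eq hinf s
  obtain ⟨j, hj⟩ := hv
  let e : Fin s ≃ T := (Fintype.equivFinOfCardEq (by simpa using hcard)).symm
  let u : Fin s → k := fun i => (e i : k)
  have hu : Function.Injective u := fun a b hab => e.injective (Subtype.ext hab)
  have hdet : IsUnit (Matrix.vandermonde u).det :=
    (Matrix.det_vandermonde_ne_zero_iff.mpr hu).isUnit
  have hmem : ∀ i, wu y (u i) ∈ v.toValuationSubring := fun i =>
    mem_of_ord_nonneg v (hT (e i).2)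
  have h1 : y j = ∑ i, (Matrix.vandermonde u)⁻¹ j i • wu y (u i) := by
    simp only [wu, Finset.smul_sum, smul_smul]
    rw [Finset.sum_comm]
    have h2 : ∀ l : Fin s, ∑ i, ((Matrix.vandermonde u)⁻¹ j i * u i ^ (l : ℕ)) • y l =
        ((Matrix.vandermonde u)⁻¹ * Matrix.vandermonde u) j l • y l := by
      intro l
      rw [Matrix.mul_apply, Finset.sum_smul]
      simp [Matrix.vandermonde_apply]
    simp only [h2]
    rw [Matrix.nonsing_inv_mul _ hdet]
    simp [Matrix.one_apply]
  have h3 : y j ∈ v.toValuationSubring := by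
    rw [h1]
    refine sum_mem fun i _ => ?_
    rw [Algebra.smul_def]
    exact mul_mem (v.algebraMap_mem' _) (hmem i)
  exact absurd (ord_nonneg_of_mem v h3) (not_le.2 hj)

/-- Almost all `w_u` are finite projections. -/
theorem finite_exceptional {t : F} (h : Sep k t) {s : ℕ} (y : Fin s → rg k t)
    (hy : ∀ v : Place k F, v.ord t < 0 → ∃ j, v.ord (y j : F) < 0) :
    {u : k | ¬ ∃ p : Pr k (rg k t), p.w = ∑ j : Fin s, u ^ (j : ℕ) • y j}.Finite := by
  obtain ⟨S, hS, hsum, -⟩ := h.aboveInf
  haveI := h.fd
  have hne : S.Nonempty := by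
    by_contra hemp
    rw [Finset.not_nonempty_iff_eq_empty] at hemp
    rw [hemp, Finset.sum_empty] at hsum
    have : 0 < finrank k⟮t⟯ F := finrank_pos
    omega
  have hfin : (⋃ v ∈ S, {u : k | 0 ≤ v.ord (wu (fun j => (y j : F)) u)}).Finite :=
    Set.Finite.biUnion S.finite_toSet fun v hv => finite_bad _ v (hy v ((hS v).1 hv))
  refine hfin.subset fun u hu => ?_
  by_contra hcon
  apply hu
  simp only [Set.mem_iUnion, Set.mem_ofPred_eq, not_exists, not_le] at hcon
  set w : F := wu (fun j => (y j : F)) u with hw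
  obtain ⟨v0, hv0⟩ := hne
  have hwt : Transcendental k w :=
    transcendental_of_ord_ne_zero v0 (ne_of_lt (hcon v0 hv0))
  have hsw := sep_of_trans h hwt
  have hwmem : w ∈ rg k t := by
    rw [hw, wu]
    exact sum_mem fun j _ => (rg k t).smul_mem (y j).2 _
  have hiff : ∀ v : Place k F, 0 ≤ v.ord t ↔ 0 ≤ v.ord w := by
    intro v
    refine ⟨fun hv => hwmem v hv, fun hv => ?_⟩
    by_contra hv'
    exact absurd hv (not_le.2 (hcon v ((hS v).2 (not_le.1 hv'))))
  obtain ⟨p, hp⟩ := exists_pr (t := t) hsw fun z => by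
    rw [mem_rg, mem_rg]
    exact ⟨fun hz v hv => hz v ((hiff v).2 hv), fun hz v hv => hz v ((hiff v).1 hv)⟩
  refine ⟨p, Subtype.ext ?_⟩
  rw [hp, hw, wu, AddSubmonoidClass.coe_finsetSum]
  rfl

end exceptional

end Fermat.Agent.MW
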