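import Mathlib
import Fermat.Agent.ER.Nrm

/-! # Values of traces -/

set_option autoImplicit false
set_option linter.unusedSectionVars false
set_option linter.style.haveILetI false

noncomputable section

namespace Fermat.Agent.ER

open AlgebraicCurve Fermat.Agent.Flat Fermat.Agent.FunField Fermat.Agent.MZ
open WithZero IsLocalRing
open scoped Classical

variable {K F F' : Type*} [Field K] [Field F] [Field F'] [Algebra K F] [Algebra K F']
  [Algebra F F'] [IsScalarTower K F F'] [FiniteDimensional F F']
  {v : Place K F} {Φ : Finset (Place K F')} {x : Ix F Φ → F'}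

/-- **values of traces** -/
theorem Bas.evp_trace (h : Bas v Φ x) (hv : Rational v)
    (hw : ∀ w ∈ Φ, Rational w) (hn : ∑ w ∈ Φ, ei F w = Module.finrank F F') {y : F'}
    (hy : ∀ w ∈ Φ, y ∈ w.toValuationSubring) :
    Algebra.trace F F' y ∈ v.toValuationSubring ∧
      evp v (Algebra.trace F F' y) = ∑ w ∈ Φ, (ei F w : K) * evp w y := by
  have hcard : Fintype.card (Ix F Φ) = Module.finrank F F' := by
    rw [Fintype.card_sigma, ← hn]
    simp only [Fintype.card_fin]
    exact Finset.sum_coe_sort Φ (fun w => ei F w)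
  have hne : Nonempty (Ix F Φ) := by
    rw [← Fintype.card_pos_iff, hcard]
    exact Module.finrank_pos
  let b : Module.Basis (Ix F Φ) F F' :=
    basisOfLinearIndependentOfCardEqFinrank h.linearIndependent hcard
  have hb : ∀ i, b i = x i := fun i => by
    rw [coe_basisOfLinearIndependentOfCardEqFinrank]
  have hmul : ∀ (z : F') (j : Ix F Φ), z * x j =
      ∑ i, algebraMap F F' (Algebra.leftMulMatrix b z i j) * x i := by
    intro z j
    have h1 := b.sum_repr (z * x j)
    rw [← h1]
    refine Finset.sum_congr rfl fun i _ => ?_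
    rw [Algebra.leftMulMatrix_eq_repr_mul, hb, hb, Algebra.smul_def]
  have hle : ∀ z : F', (∀ w ∈ Φ, z ∈ w.toValuationSubring) → ∀ i j,
      v.adicValuation (Algebra.leftMulMatrix b z i j) ≤ 1 := by
    intro z hz i j
    refine h.coeff_le (hmul z j) (fun w => ?_) i
    rw [map_mul]
    exact mul_le_one' ((val_le_one_iff_mem _).mpr (hz w w.2)) (h.val_le w j)
  have hlt : ∀ z : F', (∀ w ∈ Φ, z ∈ w.toValuationSubring) → ∀ (w : Φ)
      (i : Fin (ei F (w : Place K F'))) (j : Ix F Φ) (k : ℕ), (i : ℕ) < k →
      (w : Place K F').adicValuation (z * x j) ≤ exp (-(k : ℤ)) →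
      v.adicValuation (Algebra.leftMulMatrix b z ⟨w, i⟩ j) < 1 := by
    intro z hz w i j k hik hk
    refine h.lt1 (r := fun i => Algebra.leftMulMatrix b z i j) (fun i => hle z hz i j) (k := k) ?_
      i hik
    rw [← hmul z j]
    exact hk
  set M := Algebra.leftMulMatrix b y with hM
  have hMmem : ∀ i j, M i j ∈ v.toValuationSubring := fun i j =>
    (val_le_one_iff_mem v).mp (hle y hy i j)
  have hdiag : ∀ (w : Φ) (i : Fin (ei F (w : Place K F'))),
      evp v (M ⟨w, i⟩ ⟨w, i⟩) = evp (w : Place K F') y := by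
    intro w i
    set a := evp (w : Place K F') y with ha
    have hya : ∀ w ∈ Φ, y - algebraMap K F' a ∈ w.toValuationSubring := fun w' hw' =>
      sub_mem (hy w' hw') (w'.algebraMap_mem' a)
    have h1 := hlt (y - algebraMap K F' a) hya w i ⟨w, i⟩ (i + 1) (Nat.lt_succ_self _) (by
      rw [map_mul]
      have h2 : (w : Place K F').adicValuation (y - algebraMap K F' a) ≤ exp (-1 : ℤ) := by
        rw [le_exp_iff]
        have h3 := evp_spec (hw w w.2) (hy w w.2)
        rw [← ha, val_lt_one_iff] at h3
        exact h3.imp id fun h => h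
      calc _ ≤ exp (-1 : ℤ) * exp (-(i : ℤ)) := by
            refine mul_le_mul' h2 ?_
            rw [le_exp_iff]
            right
            rw [h.self]
        _ = _ := by
            rw [← exp_add]
            congr 1
            push_cast
            ring)
    have h2 : Algebra.leftMulMatrix b (y - algebraMap K F' a) ⟨w, i⟩ ⟨w, i⟩ =
        M ⟨w, i⟩ ⟨w, i⟩ - algebraMap K F a := by
      rw [map_sub, IsScalarTower.algebraMap_apply K F F', AlgHom.commutes, Matrix.sub_apply,
        Matrix.algebraMap_matrix_apply, if_pos rfl, ← hM]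
      rfl
    rw [h2] at h1
    rw [evp_eq_of_lt hv (v.algebraMap_mem' a) h1, evp_algebraMap]
  have htr : Algebra.trace F F' y = ∑ i, M i i := by
    rw [Algebra.trace_eq_matrix_trace b y, ← hM]
    rfl
  rw [htr]
  refine ⟨sum_mem fun i _ => hMmem i i, ?_⟩
  rw [evp_sum hv _ _ fun i _ => hMmem i i, Fintype.sum_sigma]
  rw [← Finset.sum_coe_sort Φ (fun w => (ei F w : K) * evp w y)]
  refine Finset.sum_congr rfl fun w _ => ?_
  rw [Finset.sum_congr rfl fun i _ => hdiag w i, Finset.sum_const, Finset.card_univ,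
    Fintype.card_fin, nsmul_eq_mul]

variable [IsAlgClosed K] [HasPrincipalDivisors K F'] {t : F}

theorem evp_trace (ht : Sep K t) (ht' : Sep K (algebraMap F F' t)) (v : Place K F) {y : F'}
    (hy : ∀ w ∈ v.fiber F', y ∈ w.toValuationSubring) :
    Algebra.trace F F' y ∈ v.toValuationSubring ∧
      evp v (Algebra.trace F F' y) = ∑ w ∈ v.fiber F', (ei F w : K) * evp w y := by
  haveI : Infinite K := IsAlgClosed.instInfinite
  obtain ⟨g, C, hC⟩ := ht'.exists_crv
  obtain ⟨x, hx⟩ := exists_bas (v := v) (Φ := v.fiber F') hC fun w hw => Place.mem_fiber.mp hw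
  exact hx.evp_trace (ht.rational v) (fun w _ => ht'.rational w) (sum_ei ht ht' v) hy

end Fermat.Agent.ER
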