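import Mathlib
import Fermat.Agent.MW.Defs
import Fermat.Agent.MW.TrF

/-! # Traces to the projective line -/

set_option autoImplicit false
set_option linter.unusedSectionVars false
set_option linter.style.haveILetI false

noncomputable section

namespace Fermat.Agent.MW.Cn

open AlgebraicCurve Module Fermat.Agent.Flat Fermat.Agent.FunField Fermat.Agent.MW
open Fermat.Agent.ER (ei ei_pos val_eq val_lt_one_iff evp_trace sum_ei exists_unif)
open IntermediateField

theorem tr_smul {F₀ F : Type*} [Field F₀] [Field F] [Algebra F₀ F] (s : F₀) (y : F) :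
    Algebra.trace F₀ F (algebraMap F₀ F s * y) = s * Algebra.trace F₀ F y := by
  rw [← Algebra.smul_def, map_smul, smul_eq_mul]

/-- The setting: `F` over the rational function field `F₀ = k(t)`, `t ↦ x`. -/
structure Base {k F : Type*} [Field k] [Field F] [Algebra k F] {g C : ℤ} (X : XD k F g C)
    (F₀ : Type*) [Field F₀] [Algebra k F₀] [Algebra F₀ F] (t : F₀) : Prop where
  sep : Sep k t
  one : finrank k⟮t⟯ F₀ = 1
  map : algebraMap F₀ F t = X.x

/-- elements regular at all affine places of the line -/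
def Aff (k : Type*) {F₀ : Type*} [Field k] [Field F₀] [Algebra k F₀] (t s : F₀) : Prop :=
  ∀ v : Place k F₀, 0 ≤ v.ord t → s ∈ v.toValuationSubring

variable {k F F₀ : Type*} [Field k] [IsAlgClosed k] [CharZero k] [Field F] [Algebra k F]
  {g C : ℤ} {X : XD k F g C} [Field F₀] [Algebra k F₀] [Algebra F₀ F] [IsScalarTower k F₀ F]
  [FiniteDimensional F₀ F] [HasPrincipalDivisors k F] {t : F₀} (B : Base X F₀ t)

include B

theorem Base.sep' : Sep k (algebraMap F₀ F t) := by
  rw [B.map]
  exact X.sep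

/-- the local parameter at an affine place -/
theorem Base.ord_sub {v : Place k F₀} (hv : 0 ≤ v.ord t) :
    v.ord (t - algebraMap k F₀ (evp v t)) = 1 := by
  obtain ⟨s, hs, hsum, -⟩ := B.sep.above (evp v t)
  have h1 := evp_spec (B.sep.rational v) (mem_of_ord_nonneg v hv)
  rw [adicValuation_lt_one_iff] at h1
  have h2 := h1.resolve_left (B.sep.sub _).ne_zero
  rw [B.one, Nat.cast_one] at hsum
  have h3 := Finset.single_le_sum (f := fun v : Place k F₀ =>
    v.ord (t - algebraMap k F₀ (evp v t))) (s := {v}) (fun w hw => by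
      rw [Finset.mem_singleton] at hw
      rw [hw]
      exact h2.le) (Finset.mem_singleton_self v)
  have h4 : v.ord (t - algebraMap k F₀ (evp v t)) ≤
      ∑ w ∈ s, w.ord (t - algebraMap k F₀ (evp v t)) :=
    Finset.single_le_sum (f := fun w : Place k F₀ => w.ord (t - algebraMap k F₀ (evp v t)))
      (fun w hw => ((hs w).mp hw).le) ((hs v).mpr h2)
  omega

/-- the order of `t` at infinite places -/
theorem Base.ord_inf {v : Place k F₀} (hv : v.ord t < 0) : v.ord t = -1 := by
  obtain ⟨s, hs, hsum, -⟩ := B.sep.aboveInf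
  rw [B.one, Nat.cast_one] at hsum
  have h4 : - v.ord t ≤ ∑ w ∈ s, - w.ord t :=
    Finset.single_le_sum (f := fun w : Place k F₀ => - w.ord t)
      (fun w hw => by have := (hs w).mp hw; omega) ((hs v).mpr hv)
  omega

/-- uniqueness of the infinite place -/
theorem Base.inf_unique {v w : Place k F₀} (hv : v.ord t < 0) (hw : w.ord t < 0) : v = w := by
  classical
  obtain ⟨s, hs, hsum, -⟩ := B.sep.aboveInf
  rw [B.one, Nat.cast_one] at hsum
  by_contra hne
  have hsub : ({v, w} : Finset (Place k F₀)) ⊆ s := by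
    intro u hu
    rw [Finset.mem_insert, Finset.mem_singleton] at hu
    rcases hu with rfl | rfl
    · exact (hs _).mpr hv
    · exact (hs _).mpr hw
  have h4 : ∑ u ∈ ({v, w} : Finset (Place k F₀)), - u.ord t ≤ ∑ u ∈ s, - u.ord t :=
    Finset.sum_le_sum_of_subset_of_nonneg hsub fun u hu _ => by
      have := (hs u).mp hu; omega
  rw [Finset.sum_pair hne] at h4
  omega

theorem Base.ord_x (w : Place k F) : w.ord X.x = ei F₀ w * (w.restrict F₀).ord t := by
  rw [← B.map]
  exact w.ord_restrict t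

theorem Base.restrict_nonneg {w : Place k F} (hw : w ≠ X.inf) : 0 ≤ (w.restrict F₀).ord t := by
  have h1 := X.ord_nonneg w hw
  rw [B.ord_x] at h1
  have h2 := ei_pos (F := F₀) w
  by_contra hcon
  push Not at hcon
  have h3 := mul_neg_of_pos_of_neg (a := (ei F₀ w : ℤ)) (by exact_mod_cast h2) hcon
  omega

/-- the place at infinity of the projective line -/
def vinf (X : XD k F g C) (F₀ : Type*) [Field F₀] [Algebra k F₀] [Algebra F₀ F]
    [IsScalarTower k F₀ F] [FiniteDimensional F₀ F] : Place k F₀ := X.inf.restrict F₀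

theorem Base.ord_vinf : (vinf X F₀).ord t = -1 := by
  apply B.ord_inf
  have h1 := B.ord_x X.inf
  rw [X.ord_inf] at h1
  have h2 := X.n0_pos
  by_contra hcon
  push Not at hcon
  have h3 := mul_nonneg (a := (ei F₀ X.inf : ℤ)) (by positivity) hcon
  have : (vinf X F₀).ord t = (X.inf.restrict F₀).ord t := rfl
  rw [this] at h3
  omega

theorem Base.ei_inf : ei F₀ X.inf = X.n0 := by
  have h1 := B.ord_x X.inf
  have h2 : (X.inf.restrict F₀).ord t = -1 := B.ord_vinf
  rw [X.ord_inf, h2] at h1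
  omega

theorem Base.fiber_vinf : (vinf X F₀).fiber F = {X.inf} := by
  ext w
  rw [Place.mem_fiber, Finset.mem_singleton]
  constructor
  · intro h
    by_contra hne
    have h1 := B.restrict_nonneg hne
    rw [h, B.ord_vinf] at h1
    omega
  · rintro rfl
    rfl

theorem Base.finrank_eq : finrank F₀ F = X.n0 := by
  rw [← sum_ei B.sep B.sep' (vinf X F₀), B.fiber_vinf, Finset.sum_singleton, B.ei_inf]

/-- the local parameter upstairs -/
theorem Base.ord_tau {w : Place k F} (hw : w ≠ X.inf) :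
    w.ord (algebraMap F₀ F (t - algebraMap k F₀ (evp (w.restrict F₀) t))) = ei F₀ w := by
  rw [w.ord_restrict, B.ord_sub (B.restrict_nonneg hw), mul_one]

theorem Base.tau_ne (c : k) : t - algebraMap k F₀ c ≠ 0 := (B.sep.sub c).ne_zero

theorem Base.evp_x {w : Place k F} (hw : w ≠ X.inf) : evp w X.x = evp (w.restrict F₀) t := by
  apply evp_unique
  rw [adicValuation_lt_one_iff]
  right
  have h1 := B.ord_tau hw
  rw [map_sub, B.map, ← IsScalarTower.algebraMap_apply] at h1
  rw [h1]
  exact_mod_cast ei_pos (F := F₀) w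

theorem Base.ord_x_sub {w : Place k F} (hw : w ≠ X.inf) :
    w.ord (X.x - algebraMap k F (evp w X.x)) = ei F₀ w := by
  have h1 := B.ord_tau hw
  rwa [map_sub, B.map, ← IsScalarTower.algebraMap_apply, ← B.evp_x hw] at h1

theorem Base.evp_tr (v : Place k F₀) {y : F} (hy : ∀ w ∈ v.fiber F, 0 ≤ w.ord y) :
    Algebra.trace F₀ F y ∈ v.toValuationSubring ∧
      evp v (Algebra.trace F₀ F y) = ∑ w ∈ v.fiber F, (ei F₀ w : k) * evp w y :=
  evp_trace B.sep B.sep' v fun w hw => mem_of_ord_nonneg w (hy w hw)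

/-- traces of elements of the codifferent are regular -/
theorem Base.tr_mem {v : Place k F₀} (hv : 0 ≤ v.ord t) {z : F}
    (hz : ∀ w ∈ v.fiber F, z = 0 ∨ -((ei F₀ w : ℤ) - 1) ≤ w.ord z) :
    Algebra.trace F₀ F z ∈ v.toValuationSubring := by
  by_cases hz0 : z = 0
  · rw [hz0, map_zero]
    exact zero_mem _
  by_cases hT : Algebra.trace F₀ F z = 0
  · rw [hT]
    exact zero_mem _
  set τ := t - algebraMap k F₀ (evp v t) with hτ
  have hτ0 : τ ≠ 0 := B.tau_ne _
  have hτ1 : v.ord τ = 1 := B.ord_sub hv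
  have hτ0' : algebraMap F₀ F τ ≠ 0 := (map_ne_zero _).mpr hτ0
  have h1 : ∀ w ∈ v.fiber F, 0 < w.ord (algebraMap F₀ F τ * z) := by
    intro w hw
    have h2 := (hz w hw).resolve_left hz0
    have h3 : w.ord (algebraMap F₀ F τ) = ei F₀ w := by
      rw [w.ord_restrict, Place.mem_fiber.mp hw, hτ1, mul_one]
    rw [w.ord_mul hτ0' hz0, h3]
    omega
  have h2 := B.evp_tr v fun w hw => (h1 w hw).le
  have h3 : evp v (Algebra.trace F₀ F (algebraMap F₀ F τ * z)) = 0 := by
    rw [h2.2]
    refine Finset.sum_eq_zero fun w hw => ?_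
    rw [(evp_eq_zero_iff (B.sep'.rational w) (mem_of_ord_nonneg w (h1 w hw).le)).mpr
      (Or.inr (h1 w hw)), mul_zero]
  rw [evp_eq_zero_iff (B.sep.rational v) h2.1, tr_smul] at h3
  rcases h3 with h3 | h3
  · exact absurd h3 (mul_ne_zero hτ0 hT)
  · rw [v.ord_mul hτ0 hT, hτ1] at h3
    exact mem_of_ord_nonneg v (by omega)

/-- the trace at infinity -/
theorem Base.tr_inf {u : F} (hu : u ≠ 0) {j : ℤ} (hj : X.inf.ord u = X.n0 * j) :
    Algebra.trace F₀ F u ≠ 0 ∧ (vinf X F₀).ord (Algebra.trace F₀ F u) = j := by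
  have ht0 : t ≠ 0 := B.sep.ne_zero
  have hx0 : algebraMap F₀ F (t ^ j) ≠ 0 := (map_ne_zero _).mpr (zpow_ne_zero _ ht0)
  have h1 : X.inf.ord (algebraMap F₀ F (t ^ j) * u) = 0 := by
    have h2 : X.inf.ord (algebraMap F₀ F (t ^ j)) = -(X.n0 : ℤ) * j := by
      rw [map_zpow₀, B.map, X.inf.ord_zpow, X.ord_inf]
      ring
    rw [X.inf.ord_mul hx0 hu, h2, hj]
    ring
  have h2 := B.evp_tr (vinf X F₀) (y := algebraMap F₀ F (t ^ j) * u) (fun w hw => by
    rw [B.fiber_vinf, Finset.mem_singleton] at hw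
    rw [hw, h1])
  rw [B.fiber_vinf, Finset.sum_singleton] at h2
  have h3 : evp X.inf (algebraMap F₀ F (t ^ j) * u) ≠ 0 :=
    (evp_ne_zero_iff (B.sep'.rational _) (mem_of_ord_nonneg _ h1.ge)).mpr
      ⟨mul_ne_zero hx0 hu, h1⟩
  have h4 : evp (vinf X F₀) (Algebra.trace F₀ F (algebraMap F₀ F (t ^ j) * u)) ≠ 0 := by
    rw [h2.2]
    exact mul_ne_zero (by exact_mod_cast (ei_pos (F := F₀) X.inf).ne') h3
  rw [evp_ne_zero_iff (B.sep.rational _) h2.1, tr_smul] at h4
  have hT : Algebra.trace F₀ F u ≠ 0 := right_ne_zero_of_mul h4.1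
  refine ⟨hT, ?_⟩
  have h5 := h4.2
  rw [Place.ord_mul _ (zpow_ne_zero _ ht0) hT, Place.ord_zpow, B.ord_vinf] at h5
  omega


end Fermat.Agent.MW.Cn
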