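import Mathlib
import Fermat.Agent.MW.CanA

/-! # The reduced basis and its dual -/

set_option autoImplicit false
set_option linter.unusedSectionVars false
set_option linter.style.haveILetI false

noncomputable section

namespace Fermat.Agent.MW.Cn

open AlgebraicCurve Module Fermat.Agent.Flat Fermat.Agent.FunField Fermat.Agent.MW
open Fermat.Agent.ER (ei ei_pos val_eq val_lt_one_iff evp_trace sum_ei exists_unif)
open IntermediateField

section Gen

variable {k F : Type*} [Field k] [Field F] [Algebra k F]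

/-- sums of elements of pairwise distinct orders do not vanish -/
theorem sum_ne_zero_of_ord (w : Place k F) {ι : Type*} (s : Finset ι) (hs : s.Nonempty)
    (u : ι → F) (hu : ∀ i ∈ s, u i ≠ 0)
    (hinj : ∀ i ∈ s, ∀ j ∈ s, w.ord (u i) = w.ord (u j) → i = j) : ∑ i ∈ s, u i ≠ 0 := by
  classical
  obtain ⟨i₀, hi₀, hmin⟩ := s.exists_min_image (fun i => w.ord (u i)) hs
  intro h0
  rw [← Finset.add_sum_erase s u hi₀] at h0
  have h1 : w.adicValuation (∑ i ∈ s.erase i₀, u i) < w.adicValuation (u i₀) := by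
    rw [val_eq w (hu i₀ hi₀)]
    refine Valuation.map_sum_lt _ WithZero.exp_ne_zero fun j hj => ?_
    have hjs := Finset.mem_of_mem_erase hj
    rw [val_eq w (hu j hjs), WithZero.exp_lt_exp]
    have h2 := hmin j hjs
    have h3 : w.ord (u i₀) ≠ w.ord (u j) := fun h =>
      Finset.ne_of_mem_erase hj (hinj i₀ hi₀ j hjs h).symm
    omega
  have h2 : w.adicValuation (∑ i ∈ s.erase i₀, u i) = w.adicValuation (u i₀) := by
    rw [eq_neg_of_add_eq_zero_right h0, Valuation.map_neg]
  exact h1.ne h2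

/-- cancelling the leading term -/
theorem exists_cancel {w : Place k F} (hw : Rational w) {f u : F} (hf : f ≠ 0) (hu : u ≠ 0)
    (h : w.ord f = w.ord u) : ∃ c : k, f - c • u = 0 ∨ w.ord u < w.ord (f - c • u) := by
  have h0 : w.ord (f / u) = 0 := by
    rw [div_eq_mul_inv, w.ord_mul hf (inv_ne_zero hu), w.ord_inv, h]
    ring
  obtain ⟨c, hc⟩ := hw (f / u) (mem_of_ord_nonneg w h0.ge)
  refine ⟨c, ?_⟩
  by_cases hz : f - c • u = 0
  · exact Or.inl hz
  right
  have h1 : f - c • u = u * (f / u - algebraMap k F c) := by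
    rw [Algebra.smul_def]
    field_simp
  rw [h1] at hz ⊢
  have h2 := right_ne_zero_of_mul hz
  rw [w.ord_mul hu h2]
  rw [adicValuation_lt_one_iff] at hc
  have := hc.resolve_left h2
  omega

/-- functions of exact order in a Riemann–Roch space -/
theorem exists_exact' {g C : ℤ} (hC : Crv k F g C) (E : Divisor k F) (hE : C + 1 ≤ dg E)
    (v : Place k F) : ∃ f ∈ riemannRochSpace E, f ≠ 0 ∧ v.ord f = -E v := by
  classical
  have h1 := hC.rr E (by omega)
  have hd : dg (E - Finsupp.single v 1) = dg E - 1 := by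
    rw [map_sub, dg_single]
  have h2 := hC.rr (E - Finsupp.single v 1) (by omega)
  have hle : riemannRochSpace (E - Finsupp.single v 1) ≤ riemannRochSpace E := by
    apply L_mono
    intro w
    rw [Finsupp.sub_apply, sub_le_self_iff]
    by_cases hw : w = v
    · rw [hw, Finsupp.single_eq_same]
      norm_num
    · rw [Finsupp.single_eq_of_ne hw]
  have hne : riemannRochSpace (E - Finsupp.single v 1) ≠ riemannRochSpace E := by
    intro h
    rw [h] at h2
    omega
  obtain ⟨f, hf, hf'⟩ := SetLike.exists_of_lt (lt_of_le_of_ne hle hne)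
  have hf0 : f ≠ 0 := by
    rintro rfl
    exact hf' (zero_mem _)
  refine ⟨f, hf, hf0, ?_⟩
  rw [mem_L' hf0] at hf hf'
  push Not at hf'
  obtain ⟨w, hw⟩ := hf'
  have h3 := hf w
  by_cases hwv : w = v
  · subst hwv
    rw [Finsupp.sub_apply, Finsupp.single_eq_same] at hw
    omega
  · rw [Finsupp.sub_apply, Finsupp.single_eq_of_ne hwv, sub_zero] at hw
    omega

end Gen

variable {k F F₀ : Type*} [Field k] [IsAlgClosed k] [CharZero k] [Field F] [Algebra k F]
  {g C : ℤ} {X : XD k F g C} [Field F₀] [Algebra k F₀] [Algebra F₀ F] [IsScalarTower k F₀ F]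
  [FiniteDimensional F₀ F] [HasPrincipalDivisors k F] {t : F₀}

/-- functions regular outside `∞` -/
def Rg (X : XD k F g C) (f : F) : Prop := ∀ w : Place k F, w ≠ X.inf → f ∈ w.toValuationSubring

theorem Rg.mul {f h : F} (hf : Rg X f) (hh : Rg X h) : Rg X (f * h) :=
  fun w hw => mul_mem (hf w hw) (hh w hw)

theorem Rg.sub {f h : F} (hf : Rg X f) (hh : Rg X h) : Rg X (f - h) :=
  fun w hw => sub_mem (hf w hw) (hh w hw)

theorem Rg.smul {f : F} (hf : Rg X f) (c : k) : Rg X (c • f) := fun w hw => by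
  rw [Algebra.smul_def]
  exact mul_mem (w.algebraMap_mem' c) (hf w hw)

theorem Rg.pow {f : F} (hf : Rg X f) (n : ℕ) : Rg X (f ^ n) :=
  fun w hw => pow_mem (hf w hw) n

theorem Rg_x : Rg X X.x := fun w hw => mem_of_ord_nonneg w (X.ord_nonneg w hw)

theorem Rg_one : Rg X (1 : F) := fun _ _ => one_mem _

theorem Rg.eq_zero {f : F} (hf : Rg X f) (h : 0 < X.inf.ord f) : f = 0 := by
  obtain ⟨a, rfl⟩ := X.crv.const f fun v => by
    by_cases hv : v = X.inf
    · rw [hv]; exact h.le
    · exact ord_nonneg_of_mem v (hf v hv)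
  rw [ord_algebraMap] at h
  exact absurd h (lt_irrefl _)

theorem Rg.ord_le {f : F} (hf : Rg X f) (h0 : f ≠ 0) : X.inf.ord f ≤ 0 := by
  by_contra hcon
  push Not at hcon
  exact h0 (hf.eq_zero hcon)

/-- pole orders -/
def PO (X : XD k F g C) (s : ℤ) : Prop := ∃ f : F, Rg X f ∧ f ≠ 0 ∧ X.inf.ord f = -s

theorem PO.nonneg {s : ℤ} (h : PO X s) : 0 ≤ s := by
  obtain ⟨f, hf, h0, hs⟩ := h
  have := hf.ord_le h0
  omega

theorem PO_of_large {s : ℤ} (hs : C + 1 ≤ s) (hs0 : 0 ≤ s) : PO X s := by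
  obtain ⟨f, hf, hf0, hord⟩ := exists_exact' X.crv (Finsupp.single X.inf s) (by
    rw [dg_single]; exact hs) X.inf
  refine ⟨f, fun w hw => ?_, hf0, ?_⟩
  · have := (mem_L' hf0).mp hf w
    rw [Finsupp.single_eq_of_ne hw, neg_zero] at this
    exact mem_of_ord_nonneg w this
  · rw [hord, Finsupp.single_eq_same]

/-- The reduced basis: functions of minimal pole order in each class. -/
structure Red (X : XD k F g C) (a : Fin X.n0 → ℤ) (f : Fin X.n0 → F) : Prop where
  rg : ∀ i, Rg X (f i)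
  ne : ∀ i, f i ≠ 0
  ord : ∀ i, X.inf.ord (f i) = -a i
  cls : ∀ i, (X.n0 : ℤ) ∣ a i - (i : ℕ)
  min : ∀ (i : Fin X.n0) (s : ℤ), PO X s → (X.n0 : ℤ) ∣ s - (i : ℕ) → a i ≤ s

theorem exists_red (X : XD k F g C) : ∃ a f, Red X a f := by
  have h1 : ∀ i : Fin X.n0, ∃ s : ℤ, (PO X s ∧ (X.n0 : ℤ) ∣ s - (i : ℕ)) ∧
      ∀ s', (PO X s' ∧ (X.n0 : ℤ) ∣ s' - (i : ℕ)) → s ≤ s' := by
    intro i
    apply Int.exists_least_of_bdd
    · exact ⟨0, fun z hz => hz.1.nonneg⟩
    · refine ⟨i + X.n0 * (|C| + 1), PO_of_large ?_ ?_, ?_⟩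
      · have := X.n0_pos
        have h2 := le_abs_self C
        have h3 : |C| + 1 ≤ X.n0 * (|C| + 1) := le_mul_of_one_le_left (by positivity)
          (by exact_mod_cast this)
        omega
      · positivity
      · rw [add_sub_cancel_left]
        exact dvd_mul_right _ _
  choose a ha hmin using h1
  choose f hf using fun i => (ha i).1
  exact ⟨a, f, ⟨fun i => (hf i).1, fun i => (hf i).2.1, fun i => (hf i).2.2,
    fun i => (ha i).2, fun i s h1 h2 => hmin i s ⟨h1, h2⟩⟩⟩

/-- the class of an integer -/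
theorem exists_cls (X : XD k F g C) (b : ℤ) : ∃ i : Fin X.n0, (X.n0 : ℤ) ∣ b - (i : ℕ) := by
  have h0 : (X.n0 : ℤ) ≠ 0 := by exact_mod_cast X.n0_pos.ne'
  have h1 := Int.emod_nonneg b h0
  have h2 := Int.emod_lt_of_pos b (b := (X.n0 : ℤ)) (by exact_mod_cast X.n0_pos)
  refine ⟨⟨(b % X.n0).toNat, by omega⟩, ?_⟩
  simp only
  rw [Int.toNat_of_nonneg h1]
  exact Int.dvd_self_sub_emod

theorem cls_inj {X : XD k F g C} {i j : Fin X.n0} (h : (X.n0 : ℤ) ∣ (i : ℕ) - (j : ℕ)) : i = j := by
  obtain ⟨c, hc⟩ := h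
  have h1 := i.2
  have h2 := j.2
  have h3 : c = 0 := by
    by_contra hne
    rcases lt_or_gt_of_ne hne with h | h
    · have : (X.n0 : ℤ) * c ≤ X.n0 * (-1) := mul_le_mul_of_nonneg_left (by omega) (by positivity)
      omega
    · have : (X.n0 : ℤ) * 1 ≤ X.n0 * c := mul_le_mul_of_nonneg_left (by omega) (by positivity)
      omega
  rw [h3, mul_zero] at hc
  apply Fin.ext
  omega

section Basis

variable {a : Fin X.n0 → ℤ} {f : Fin X.n0 → F} (R : Red X a f) (B : Base X F₀ t)

include B in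
theorem ord_inf_map {s : F₀} : X.inf.ord (algebraMap F₀ F s) = X.n0 * (vinf X F₀).ord s := by
  have h1 : X.inf.ramificationIndex F₀ = X.n0 := B.ei_inf
  rw [Place.ord_restrict, h1]
  rfl

include R B in
theorem linInd : LinearIndependent F₀ f := by
  classical
  rw [Fintype.linearIndependent_iff]
  intro r hr
  by_contra hcon
  push Not at hcon
  obtain ⟨i₁, hi₁⟩ := hcon
  let s : Finset (Fin X.n0) := Finset.univ.filter fun i => r i ≠ 0
  have hs : s.Nonempty := ⟨i₁, by simp [s, hi₁]⟩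
  have h1 : ∑ i ∈ s, r i • f i = 0 := by
    rw [← hr]
    refine Finset.sum_subset (Finset.subset_univ _) fun i _ hi => ?_
    have : r i = 0 := by
      by_contra h
      exact hi (by simp [s, h])
    rw [this, zero_smul]
  have hr0 : ∀ i ∈ s, algebraMap F₀ F (r i) ≠ 0 := fun i hi => by
    rw [Ne, map_eq_zero]
    exact (Finset.mem_filter.mp hi).2
  have hord : ∀ i ∈ s, X.inf.ord (r i • f i) = X.n0 * (vinf X F₀).ord (r i) - a i := by
    intro i hi
    rw [Algebra.smul_def, Place.ord_mul _ (hr0 i hi) (R.ne i), ord_inf_map B, R.ord]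
    ring
  refine sum_ne_zero_of_ord X.inf s hs (fun i => r i • f i) (fun i hi => ?_) ?_ h1
  · rw [Algebra.smul_def]
    exact mul_ne_zero (hr0 i hi) (R.ne i)
  · intro i hi j hj hij
    rw [hord i hi, hord j hj] at hij
    apply cls_inj (X := X)
    have h2 := R.cls i
    have h3 := R.cls j
    have h4 : ((i : ℕ) : ℤ) - (j : ℕ) = (a j - (j : ℕ)) * (-1) * (-1) - (a i - (i : ℕ)) +
        X.n0 * ((vinf X F₀).ord (r i) - (vinf X F₀).ord (r j)) := by
      have : X.n0 * ((vinf X F₀).ord (r i) - (vinf X F₀).ord (r j)) = a i - a j := by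
        rw [mul_sub]; omega
      rw [this]
      ring
    rw [h4]
    exact dvd_add (dvd_sub (Dvd.dvd.mul_right (Dvd.dvd.mul_right h3 _) _) h2) (dvd_mul_right _ _)

instance nonempty_fin (X : XD k F g C) : Nonempty (Fin X.n0) := ⟨⟨0, X.n0_pos⟩⟩

/-- the basis -/
def bs : Basis (Fin X.n0) F₀ F :=
  basisOfLinearIndependentOfCardEqFinrank (linInd R B)
    (by rw [Fintype.card_fin, B.finrank_eq])

theorem bs_apply (i : Fin X.n0) : bs R B i = f i := by
  rw [bs, coe_basisOfLinearIndependentOfCardEqFinrank]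

include R B in
/-- functions regular outside `∞` have affine coordinates -/
theorem exists_coord (N : ℕ) : ∀ h : F, Rg X h → (h = 0 ∨ -(N : ℤ) < X.inf.ord h) →
    ∃ p : Fin X.n0 → F₀, (∀ i, Aff k t (p i)) ∧ h = ∑ i, p i • f i := by
  classical
  induction N with
  | zero =>
    intro h hh h0
    have h1 : h = 0 := by
      rcases h0 with h0 | h0
      · exact h0
      · exact hh.eq_zero (by simpa using h0)
    exact ⟨fun _ => 0, fun _ _ _ => zero_mem _, by simp [h1]⟩
  | succ N ih =>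
    intro h hh h0
    by_cases hlt : h = 0 ∨ -(N : ℤ) < X.inf.ord h
    · exact ih h hh hlt
    push Not at hlt
    obtain ⟨hne, hle⟩ := hlt
    have h1 := h0.resolve_left hne
    have hord : X.inf.ord h = -(N : ℤ) := by push_cast at h1; omega
    obtain ⟨i, hi⟩ := exists_cls X (N : ℤ)
    have h2 : a i ≤ N := R.min i N ⟨h, hh, hne, hord⟩ hi
    have h3 : (X.n0 : ℤ) ∣ N - a i := by
      have := dvd_sub hi (R.cls i)
      have e : (N : ℤ) - (i : ℕ) - (a i - (i : ℕ)) = N - a i := by ring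
      rwa [e] at this
    obtain ⟨j, hj⟩ := h3
    have hj0 : 0 ≤ j := by
      by_contra hcon
      push Not at hcon
      have h4 : (0 : ℤ) < X.n0 := by exact_mod_cast X.n0_pos
      have := mul_neg_of_pos_of_neg h4 hcon
      omega
    obtain ⟨j', rfl⟩ := Int.eq_ofNat_of_zero_le hj0
    set u := X.x ^ j' * f i with hu
    have hx0 : X.x ≠ 0 := X.sep.ne_zero
    have hu0 : u ≠ 0 := mul_ne_zero (pow_ne_zero _ hx0) (R.ne i)
    have huo : X.inf.ord u = -(N : ℤ) := by
      rw [hu, Place.ord_mul _ (pow_ne_zero _ hx0) (R.ne i), ord_pow, X.ord_inf, R.ord]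
      have e : (j' : ℤ) * -(X.n0 : ℤ) = -((X.n0 : ℤ) * j') := by ring
      rw [e, ← hj]
      ring
    obtain ⟨c, hc⟩ := exists_cancel (X.crv.rat X.inf) hne hu0 (hord.trans huo.symm)
    have hru : Rg X u := (Rg_x.pow j').mul (R.rg i)
    obtain ⟨p, hp, hp'⟩ := ih (h - c • u) (hh.sub (hru.smul c)) (hc.imp id fun h => by
      rw [huo] at h
      exact h)
    refine ⟨fun l => p l + if l = i then algebraMap k F₀ c * t ^ j' else 0, fun l v hv => ?_, ?_⟩
    · refine add_mem (hp l v hv) ?_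
      split_ifs
      · exact mul_mem (v.algebraMap_mem' c) (pow_mem (mem_of_ord_nonneg v hv) _)
      · exact zero_mem _
    · rw [← sub_add_cancel h (c • u), hp']
      simp only [add_smul, Finset.sum_add_distrib]
      congr 1
      rw [Finset.sum_eq_single i]
      · rw [if_pos rfl, hu, Algebra.smul_def, Algebra.smul_def, map_mul, map_pow, B.map,
          ← IsScalarTower.algebraMap_apply]
        ring
      · intro l _ hl
        rw [if_neg hl, zero_smul]
      · intro hl
        exact absurd (Finset.mem_univ _) hl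

end Basis

end Fermat.Agent.MW.Cn
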