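import Mathlib
import Fermat.Agent.MW.CanB

/-! # The codifferent -/

set_option autoImplicit false
set_option linter.unusedSectionVars false
set_option linter.style.haveILetI false

noncomputable section

namespace Fermat.Agent.MW.Cn

open AlgebraicCurve Module Fermat.Agent.Flat Fermat.Agent.FunField Fermat.Agent.MW
open Fermat.Agent.ER (ei ei_pos val_eq val_lt_one_iff evp_trace sum_ei exists_unif)
open IntermediateField

variable {k F F₀ : Type*} [Field k] [IsAlgClosed k] [CharZero k] [Field F] [Algebra k F]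
  {g C : ℤ} {X : XD k F g C} [Field F₀] [Algebra k F₀] [Algebra F₀ F] [IsScalarTower k F₀ F]
  [FiniteDimensional F₀ F] [HasPrincipalDivisors k F] {t : F₀}

/-- the codifferent -/
def Cd (X : XD k F g C) (F₀ : Type*) [Field F₀] [Algebra F₀ F] (y : F) : Prop :=
  y = 0 ∨ ∀ w : Place k F, w ≠ X.inf → -((ei F₀ w : ℤ) - 1) ≤ w.ord y

section

variable (B : Base X F₀ t)

include B

theorem ne_inf_of_fiber {v : Place k F₀} (hv : 0 ≤ v.ord t) {w : Place k F}
    (hw : w ∈ v.fiber F) : w ≠ X.inf := by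
  rintro rfl
  have h1 : vinf X F₀ = v := Place.mem_fiber.mp hw
  rw [← h1, B.ord_vinf] at hv
  omega

theorem Cd.tr {y f : F} (hy : Cd X F₀ y) (hf : Rg X f) :
    Aff k t (Algebra.trace F₀ F (y * f)) := by
  intro v hv
  refine B.tr_mem hv fun w hw => ?_
  by_cases h0 : y * f = 0
  · exact Or.inl h0
  right
  have hwi := ne_inf_of_fiber B hv hw
  have hy0 := left_ne_zero_of_mul h0
  have h1 := hy.resolve_left hy0 w hwi
  have h2 := ord_nonneg_of_mem w (hf w hwi)
  rw [w.ord_mul hy0 (right_ne_zero_of_mul h0)]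
  omega

/-- an affine element vanishing at infinity is zero -/
theorem aff_eq_zero {s : F₀} (hs : Aff k t s) (h : 0 < (vinf X F₀).ord s) : s = 0 := by
  obtain ⟨a, rfl⟩ := B.sep.const (z := s) fun v => by
    rcases lt_or_ge (v.ord t) 0 with hv | hv
    · have h1 : v = vinf X F₀ := B.inf_unique hv (by rw [B.ord_vinf]; norm_num)
      rw [h1]
      exact h.le
    · exact ord_nonneg_of_mem v (hs v hv)
  rw [ord_algebraMap] at h
  exact absurd h (lt_irrefl _)

theorem Cd_of_tr {y : F} (h : ∀ f, Rg X f → Aff k t (Algebra.trace F₀ F (y * f))) :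
    Cd X F₀ y := by
  classical
  by_contra hcon
  rw [Cd, not_or] at hcon
  obtain ⟨hy0, hcon⟩ := hcon
  push Not at hcon
  obtain ⟨w₀, hw₀, hlt⟩ := hcon
  set v := w₀.restrict F₀ with hv
  have hv0 : 0 ≤ v.ord t := B.restrict_nonneg hw₀
  set Φ := v.fiber F with hΦ
  have hw₀Φ : w₀ ∈ Φ := Place.mem_fiber.mpr rfl
  set m : Place k F → ℤ := fun w => if w = w₀ then -(w₀.ord y) - ei F₀ w₀ else
    max 0 (1 - w.ord y - ei F₀ w) with hm
  have hm₀ : m w₀ = -(w₀.ord y) - ei F₀ w₀ := if_pos rfl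
  have hmne : ∀ w, w ≠ w₀ → m w = max 0 (1 - w.ord y - ei F₀ w) := fun w hw => if_neg hw
  have hmnn : ∀ w, 0 ≤ m w := by
    intro w
    by_cases hw : w = w₀
    · rw [hw, hm₀]
      omega
    · rw [hmne w hw]
      exact le_max_left _ _
  set M : ℤ := |C| + 1 + ∑ w ∈ Φ, m w with hM
  set E : Divisor k F := Finsupp.single X.inf M - ∑ w ∈ Φ, Finsupp.single w (m w) with hE
  have hEΦ : ∀ w ∈ Φ, E w = - m w := by
    intro w hw
    rw [hE, Finsupp.sub_apply, Finsupp.single_eq_of_ne (ne_inf_of_fiber B hv0 hw), zero_sub,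
      Finsupp.finsetSum_apply, Finset.sum_eq_single w]
    · rw [Finsupp.single_eq_same]
    · intro u _ hu
      exact Finsupp.single_eq_of_ne hu.symm
    · intro h
      exact absurd hw h
  have hE0 : ∀ w, w ∉ Φ → w ≠ X.inf → E w = 0 := by
    intro w hw hwi
    rw [hE, Finsupp.sub_apply, Finsupp.single_eq_of_ne hwi, zero_sub, Finsupp.finsetSum_apply,
      Finset.sum_eq_zero, neg_zero]
    intro u hu
    exact Finsupp.single_eq_of_ne fun h => hw (h ▸ hu)
  have hdg : dg E = |C| + 1 := by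
    rw [hE, map_sub, dg_single, map_sum, Finset.sum_congr rfl fun w _ => dg_single w (m w), hM]
    ring
  obtain ⟨f, hf, hf0, hord⟩ := exists_exact' X.crv E (by
    rw [hdg]; have := le_abs_self C; omega) w₀
  rw [mem_L' hf0] at hf
  have hfr : Rg X f := by
    intro w hw
    apply mem_of_ord_nonneg
    have h1 := hf w
    by_cases hwΦ : w ∈ Φ
    · rw [hEΦ w hwΦ, neg_neg] at h1
      exact (hmnn w).trans h1
    · rw [hE0 w hwΦ hw, neg_zero] at h1
      exact h1
  set τ := t - algebraMap k F₀ (evp v t) with hτ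
  have hτ0 : τ ≠ 0 := B.tau_ne _
  have hτ1 : v.ord τ = 1 := B.ord_sub hv0
  have hτ0' : algebraMap F₀ F τ ≠ 0 := (map_ne_zero _).mpr hτ0
  have hz0 : algebraMap F₀ F τ * (y * f) ≠ 0 := mul_ne_zero hτ0' (mul_ne_zero hy0 hf0)
  have hzo : ∀ w ∈ Φ, w.ord (algebraMap F₀ F τ * (y * f)) = ei F₀ w + (w.ord y + w.ord f) := by
    intro w hw
    have h3 : w.ord (algebraMap F₀ F τ) = ei F₀ w := by
      rw [w.ord_restrict, Place.mem_fiber.mp hw, hτ1, mul_one]
    rw [w.ord_mul hτ0' (mul_ne_zero hy0 hf0), h3, w.ord_mul hy0 hf0]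
  have hz₀ : w₀.ord (algebraMap F₀ F τ * (y * f)) = 0 := by
    rw [hzo w₀ hw₀Φ, hord, hEΦ w₀ hw₀Φ, hm₀]
    ring
  have hzne : ∀ w ∈ Φ, w ≠ w₀ → 0 < w.ord (algebraMap F₀ F τ * (y * f)) := by
    intro w hw hne
    have h1 := hf w
    rw [hEΦ w hw, neg_neg, hmne w hne] at h1
    have h2 := le_max_right 0 (1 - w.ord y - (ei F₀ w : ℤ))
    rw [hzo w hw]
    omega
  have hznn : ∀ w ∈ Φ, 0 ≤ w.ord (algebraMap F₀ F τ * (y * f)) := by
    intro w hw
    by_cases hne : w = w₀
    · rw [hne, hz₀]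
    · exact (hzne w hw hne).le
  have key := B.evp_tr v hznn
  have h1 : ∑ w ∈ v.fiber F, (ei F₀ w : k) * evp w (algebraMap F₀ F τ * (y * f)) ≠ 0 := by
    rw [Finset.sum_eq_single_of_mem w₀ hw₀Φ]
    · refine mul_ne_zero (by exact_mod_cast (ei_pos (F := F₀) w₀).ne') ?_
      exact (evp_ne_zero_iff (B.sep'.rational _) (mem_of_ord_nonneg _ hz₀.ge)).mpr ⟨hz0, hz₀⟩
    · intro w hw hne
      rw [(evp_eq_zero_iff (B.sep'.rational w) (mem_of_ord_nonneg w (hznn w hw))).mpr
        (Or.inr (hzne w hw hne)), mul_zero]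
  apply h1
  rw [← key.2, tr_smul, evp_mul (B.sep.rational v) (mem_of_ord_nonneg v (by rw [hτ1]; norm_num))
    (h f hfr v hv0), (evp_eq_zero_iff (B.sep.rational v) (mem_of_ord_nonneg v (by
      rw [hτ1]; norm_num))).mpr (Or.inr (by rw [hτ1]; norm_num)), zero_mul]

end

section Dual

variable {a : Fin X.n0 → ℤ} {f : Fin X.n0 → F} (R : Red X a f) (B : Base X F₀ t)

include R B in
/-- the dual basis -/
theorem exists_dual : ∃ d : Fin X.n0 → F, ∀ i j,
    Algebra.trace F₀ F (d i * f j) = if j = i then 1 else 0 := by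
  haveI : CharZero F₀ := charZero_of_injective_algebraMap (algebraMap k F₀).injective
  haveI : Algebra.IsSeparable F₀ F := Algebra.IsAlgebraic.isSeparable_of_perfectField
  refine ⟨fun i => (Algebra.traceForm F₀ F).dualBasis (traceForm_nondegenerate F₀ F)
    (bs R B) i, fun i j => ?_⟩
  have h1 := LinearMap.BilinForm.apply_dualBasis_left (traceForm_nondegenerate F₀ F) (bs R B) i j
  rw [Algebra.traceForm_apply, bs_apply] at h1
  exact h1

variable {d : Fin X.n0 → F}
  (hd : ∀ i j, Algebra.trace F₀ F (d i * f j) = if j = i then 1 else 0)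

include hd in
theorem d_ne (i : Fin X.n0) : d i ≠ 0 := by
  intro h
  have h1 := hd i i
  rw [h, zero_mul, map_zero, if_pos rfl] at h1
  exact zero_ne_one h1

include R B hd in
theorem ord_d (i : Fin X.n0) : X.inf.ord (d i) = a i := by
  obtain ⟨i', hi'⟩ := exists_cls X (X.inf.ord (d i))
  obtain ⟨j, hj⟩ : (X.n0 : ℤ) ∣ X.inf.ord (d i) - a i' := by
    have := dvd_sub hi' (R.cls i')
    have e : X.inf.ord (d i) - (i' : ℕ) - (a i' - (i' : ℕ)) = X.inf.ord (d i) - a i' := by ring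
    rwa [e] at this
  have h0 : d i * f i' ≠ 0 := mul_ne_zero (d_ne hd i) (R.ne i')
  obtain ⟨h1, h2⟩ := B.tr_inf h0 (j := j) (by
    rw [Place.ord_mul _ (d_ne hd i) (R.ne i'), R.ord, ← hj]
    ring)
  rw [hd] at h1 h2
  by_cases hii : i' = i
  · subst hii
    rw [if_pos rfl, Place.ord_one] at h2
    rw [← h2, mul_zero] at hj
    omega
  · rw [if_neg hii] at h1
    exact absurd rfl h1

include R B hd in
theorem Cd_d (i : Fin X.n0) (j : ℕ) : Cd X F₀ (X.x ^ j * d i) := by
  apply Cd_of_tr B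
  intro h hh
  obtain ⟨p, hp, rfl⟩ := exists_coord R B ((-(X.inf.ord h)).toNat + 1) h hh (by
    right
    have := Int.self_le_toNat (-(X.inf.ord h))
    push_cast
    omega)
  have h1 : Algebra.trace F₀ F (X.x ^ j * d i * ∑ l, p l • f l) = t ^ j * p i := by
    have h2 : X.x ^ j * d i * ∑ l, p l • f l =
        ∑ l, algebraMap F₀ F (t ^ j * p l) * (d i * f l) := by
      rw [Finset.mul_sum]
      refine Finset.sum_congr rfl fun l _ => ?_
      rw [Algebra.smul_def, map_mul, map_pow, B.map]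
      ring
    rw [h2, map_sum, Finset.sum_eq_single i]
    · rw [tr_smul, hd, if_pos rfl, mul_one]
    · intro l _ hl
      rw [tr_smul, hd, if_neg hl, mul_zero]
    · intro hl
      exact absurd (Finset.mem_univ _) hl
  rw [h1]
  intro v hv
  exact mul_mem (pow_mem (mem_of_ord_nonneg v hv) _) (hp i v hv)

end Dual

/-- **The key duality.** -/
theorem key (B : Base X F₀ t) (b : ℤ) :
    (∃ y : F, y ≠ 0 ∧ Cd X F₀ y ∧ X.inf.ord y = b) ↔ ¬ PO X (b - X.n0) := by
  constructor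
  · rintro ⟨y, hy0, hy, hyb⟩ ⟨f, hf, hf0, hfo⟩
    have h0 : y * f ≠ 0 := mul_ne_zero hy0 hf0
    obtain ⟨h1, h2⟩ := B.tr_inf h0 (j := 1) (by
      rw [Place.ord_mul _ hy0 hf0, hyb, hfo]
      ring)
    exact h1 (aff_eq_zero B (Cd.tr B hy hf) (by rw [h2]; norm_num))
  · intro hpo
    obtain ⟨a, f, R⟩ := exists_red X
    obtain ⟨d, hd⟩ := exists_dual R B
    obtain ⟨i, hi⟩ := exists_cls X b
    have hx0 : X.x ≠ 0 := X.sep.ne_zero
    have hn0 : (0 : ℤ) < X.n0 := by exact_mod_cast X.n0_pos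
    obtain ⟨j, hj⟩ : (X.n0 : ℤ) ∣ a i - b := by
      have := dvd_sub (R.cls i) hi
      have e : a i - (i : ℕ) - (b - (i : ℕ)) = a i - b := by ring
      rwa [e] at this
    rcases le_or_gt 0 j with h | h
    · obtain ⟨j', rfl⟩ := Int.eq_ofNat_of_zero_le h
      refine ⟨X.x ^ j' * d i, mul_ne_zero (pow_ne_zero _ hx0) (d_ne hd i), Cd_d R B hd i j', ?_⟩
      rw [Place.ord_mul _ (pow_ne_zero _ hx0) (d_ne hd i), ord_pow, X.ord_inf, ord_d R B hd]
      have e : (j' : ℤ) * -(X.n0 : ℤ) = -((X.n0 : ℤ) * j') := by ring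
      rw [e, ← hj]
      ring
    · exfalso
      apply hpo
      obtain ⟨j', hj'⟩ := Int.eq_ofNat_of_zero_le (show 0 ≤ -j - 1 by omega)
      refine ⟨X.x ^ j' * f i, (Rg_x.pow j').mul (R.rg i),
        mul_ne_zero (pow_ne_zero _ hx0) (R.ne i), ?_⟩
      rw [Place.ord_mul _ (pow_ne_zero _ hx0) (R.ne i), ord_pow, X.ord_inf, R.ord]
      have e : (j' : ℤ) * -(X.n0 : ℤ) = X.n0 * j + X.n0 := by
        rw [← hj']
        ring
      rw [e, ← hj]
      ring

end Fermat.Agent.MW.Cn
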