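import Mathlib
import Fermat.Agent.MW.CanC
import Fermat.Agent.MW.Der
import Fermat.Agent.MW.DerC

/-! # The canonical divisor: degree `2g - 2` and dimension `g` -/

set_option autoImplicit false
set_option linter.unusedSectionVars false
set_option linter.style.haveILetI false

noncomputable section

namespace Fermat.Agent.MW.Cn

open AlgebraicCurve Module Fermat.Agent.Flat Fermat.Agent.FunField Fermat.Agent.MW
open Fermat.Agent.ER (ei ei_pos)
open IntermediateField

theorem adjoin_gen_top {k F : Type*} [Field k] [Field F] [Algebra k F] (x : F) :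
    k⟮(AdjoinSimple.gen k x : k⟮x⟯)⟯ = ⊤ := by
  apply IntermediateField.lift_injective
  rw [lift_top, lift_adjoin_simple]
  rfl

theorem finrank_gen {k F : Type*} [Field k] [Field F] [Algebra k F] (x : F) :
    finrank k⟮(AdjoinSimple.gen k x : k⟮x⟯)⟯ k⟮x⟯ = 1 := by
  rw [adjoin_gen_top]
  exact IntermediateField.finrank_top

variable {k F : Type*} [Field k] [IsAlgClosed k] [CharZero k] [Field F] [Algebra k F]
  {g C : ℤ} (X : XD k F g C)

theorem base : Base X k⟮X.x⟯ (AdjoinSimple.gen k X.x) := by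
  have hfd : FiniteDimensional k⟮(AdjoinSimple.gen k X.x : k⟮X.x⟯)⟯ k⟮X.x⟯ :=
    Module.finite_of_finrank_pos (by rw [finrank_gen]; exact one_pos)
  haveI : CharZero k⟮(AdjoinSimple.gen k X.x : k⟮X.x⟯)⟯ :=
    charZero_of_injective_algebraMap (algebraMap k _).injective
  refine ⟨⟨?_, hfd, Algebra.IsAlgebraic.isSeparable_of_perfectField⟩, finrank_gen _, rfl⟩
  rw [← transcendental_algebraMap_iff (algebraMap k⟮X.x⟯ F).injective]
  exact X.sep.trans

/-! ### Riemann–Roch spaces -/

/-- the dimension -/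
def lz (D : Divisor k F) : ℤ := (finrank k (riemannRochSpace D) : ℤ)

include X in
theorem lz_step (D : Divisor k F) (v : Place k F) :
    ((∃ f : F, f ≠ 0 ∧ f ∈ riemannRochSpace (D + Finsupp.single v 1) ∧ v.ord f = -(D v + 1)) →
      lz (D + Finsupp.single v 1) = lz D + 1) ∧
    ((¬ ∃ f : F, f ≠ 0 ∧ f ∈ riemannRochSpace (D + Finsupp.single v 1) ∧ v.ord f = -(D v + 1)) →
      lz (D + Finsupp.single v 1) = lz D) := by
  classical
  haveI := X.crv.fd D
  haveI := X.crv.fd (D + Finsupp.single v 1)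
  have hle : riemannRochSpace D ≤ riemannRochSpace (D + Finsupp.single v 1) := by
    apply L_mono
    intro w
    rw [Finsupp.add_apply]
    have : (0 : ℤ) ≤ Finsupp.single v (1 : ℤ) w := by
      by_cases hw : w = v
      · rw [hw, Finsupp.single_eq_same]; norm_num
      · rw [Finsupp.single_eq_of_ne hw]
    omega
  have h1 := (finrank_add_single (X.crv.rat v) D).2
  constructor
  · rintro ⟨f, hf0, hf, hord⟩
    have hlt : riemannRochSpace D < riemannRochSpace (D + Finsupp.single v 1) := by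
      refine lt_of_le_of_ne hle fun h => ?_
      rw [← h, mem_L' hf0] at hf
      have := hf v
      omega
    have h2 := Submodule.finrank_lt_finrank_of_lt hlt
    rw [lz, lz]
    omega
  · intro hno
    have h2 : riemannRochSpace (D + Finsupp.single v 1) ≤ riemannRochSpace D := by
      intro f hf
      by_cases hf0 : f = 0
      · rw [hf0]; exact zero_mem _
      rw [mem_L' hf0]
      intro w
      have h3 := (mem_L' hf0).mp hf w
      rw [Finsupp.add_apply] at h3
      by_cases hw : w = v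
      · subst hw
        rw [Finsupp.single_eq_same] at h3
        by_contra hcon
        exact hno ⟨f, hf0, hf, by omega⟩
      · rwa [Finsupp.single_eq_of_ne hw, add_zero] at h3
    rw [lz, lz, le_antisymm h2 hle]

include X in
theorem lz_neg {D : Divisor k F} (hD : dg D < 0) : lz D = 0 := by
  have h1 : riemannRochSpace D = ⊥ := by
    rw [eq_bot_iff]
    intro f hf
    by_contra hf0
    rw [Submodule.mem_bot] at hf0
    have h2 : 0 ≤ D + dv (K := k) f := by
      intro v
      have := (mem_L' hf0).mp hf v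
      rw [Finsupp.add_apply, dv_apply (X.crv.fin f)]
      change (0 : ℤ) ≤ _
      omega
    have h3 := dg_nonneg h2
    rw [map_add, X.crv.deg0 f hf0, add_zero] at h3
    omega
  rw [lz, h1, finrank_bot]
  rfl

include X in
theorem lz_zero : lz (0 : Divisor k F) = 1 := by
  rw [lz, X.sep.fd_L0.2]
  rfl

/-! ### The canonical divisor -/

theorem exists_K : ∃ K : Divisor k F, K X.inf = -((X.n0 : ℤ) + 1) ∧
    ∀ w : Place k F, w ≠ X.inf → K w = w.ord (X.x - algebraMap k F (evp w X.x)) - 1 := by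
  classical
  obtain ⟨T, hT⟩ := X.sep.finite_ram
  refine ⟨Finsupp.onFinset (insert X.inf T) (fun w => if w = X.inf then -((X.n0 : ℤ) + 1) else
    w.ord (X.x - algebraMap k F (evp w X.x)) - 1) ?_, ?_, fun w hw => ?_⟩
  · intro w hw
    by_contra hcon
    rw [Finset.mem_insert, not_or] at hcon
    rw [if_neg hcon.1] at hw
    apply hw
    have h1 := evp_spec (X.crv.rat w) (mem_of_ord_nonneg w (X.ord_nonneg w hcon.1))
    rw [adicValuation_lt_one_iff] at h1
    have h2 := h1.resolve_left (X.sep.sub _).ne_zero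
    rw [hT w hcon.2 _ h2]
    norm_num
  · rw [Finsupp.onFinset_apply, if_pos rfl]
  · rw [Finsupp.onFinset_apply, if_neg hw]

variable {X}

section Count

variable {K : Divisor k F} (hKi : K X.inf = -((X.n0 : ℤ) + 1))
  (hKw : ∀ w : Place k F, w ≠ X.inf → K w = w.ord (X.x - algebraMap k F (evp w X.x)) - 1)

/-- the divisors with prescribed behaviour at infinity -/
def Db (K : Divisor k F) (X : XD k F g C) (b : ℤ) : Divisor k F :=
  K + Finsupp.single X.inf ((X.n0 : ℤ) + 1 - b)

include hKi in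
theorem Db_inf (b : ℤ) : Db K X b X.inf = -b := by
  rw [Db, Finsupp.add_apply, hKi, Finsupp.single_eq_same]
  ring

include hKw in
theorem Db_ne (b : ℤ) {w : Place k F} (hw : w ≠ X.inf) [HasPrincipalDivisors k F]
    [FiniteDimensional k⟮X.x⟯ F] : Db K X b w = (ei k⟮X.x⟯ w : ℤ) - 1 := by
  rw [Db, Finsupp.add_apply, hKw w hw, Finsupp.single_eq_of_ne hw, add_zero,
    (base X).ord_x_sub hw]

include hKi hKw in
theorem step (b : ℤ) :
    lz (Db K X b) - lz (Finsupp.single X.inf (b - X.n0 - 1)) =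
      lz (Db K X (b + 1)) - lz (Finsupp.single X.inf (b + 1 - X.n0 - 1)) + 1 := by
  haveI : FiniteDimensional k⟮X.x⟯ F := X.sep.fd
  haveI : HasPrincipalDivisors k F := hasPrincipalDivisors X.sep.trans
  have e1 : Db K X b = Db K X (b + 1) + Finsupp.single X.inf 1 := by
    rw [Db, Db, add_assoc, ← Finsupp.single_add]
    congr 2
    ring
  have e2 : (Finsupp.single X.inf (b + 1 - X.n0 - 1) : Divisor k F) =
      Finsupp.single X.inf (b - X.n0 - 1) + Finsupp.single X.inf 1 := by
    rw [← Finsupp.single_add]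
    congr 1
    ring
  obtain ⟨h1, h1'⟩ := lz_step X (Db K X (b + 1)) X.inf
  obtain ⟨h2, h2'⟩ := lz_step X (Finsupp.single X.inf (b - X.n0 - 1)) X.inf
  rw [← e1, Db_inf hKi] at h1 h1'
  rw [← e2, Finsupp.single_eq_same] at h2 h2'
  have k1 : (∃ f : F, f ≠ 0 ∧ f ∈ riemannRochSpace (Db K X b) ∧ X.inf.ord f = -(-(b + 1) + 1)) ↔
      ∃ y : F, y ≠ 0 ∧ Cd X k⟮X.x⟯ y ∧ X.inf.ord y = b := by
    constructor
    · rintro ⟨f, hf0, hf, hord⟩
      refine ⟨f, hf0, Or.inr fun w hw => ?_, by rw [hord]; ring⟩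
      have := (mem_L' hf0).mp hf w
      rwa [Db_ne hKw b hw] at this
    · rintro ⟨y, hy0, hy, hord⟩
      refine ⟨y, hy0, ?_, by rw [hord]; ring⟩
      rw [mem_L' hy0]
      intro w
      by_cases hw : w = X.inf
      · rw [hw, Db_inf hKi, neg_neg, hord]
      · rw [Db_ne hKw b hw]
        exact hy.resolve_left hy0 w hw
  have k2 : (∃ f : F, f ≠ 0 ∧ f ∈ riemannRochSpace
      (Finsupp.single X.inf (b + 1 - X.n0 - 1) : Divisor k F) ∧
      X.inf.ord f = -(b - X.n0 - 1 + 1)) ↔ PO X (b - X.n0) := by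
    constructor
    · rintro ⟨f, hf0, hf, hord⟩
      refine ⟨f, fun w hw => mem_of_ord_nonneg w ?_, hf0, by rw [hord]; ring⟩
      have := (mem_L' hf0).mp hf w
      rwa [Finsupp.single_eq_of_ne hw, neg_zero] at this
    · rintro ⟨f, hf, hf0, hord⟩
      refine ⟨f, hf0, ?_, by rw [hord]; ring⟩
      rw [mem_L' hf0]
      intro w
      by_cases hw : w = X.inf
      · rw [hw, Finsupp.single_eq_same, hord]
        omega
      · rw [Finsupp.single_eq_of_ne hw, neg_zero]
        exact ord_nonneg_of_mem w (hf w hw)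
  rw [k1] at h1 h1'
  rw [k2] at h2 h2'
  have hkey := key (base X) b
  by_cases hp : PO X (b - X.n0)
  · have := h1' fun h => hkey.mp h hp
    have := h2 hp
    omega
  · have := h1 (hkey.mpr hp)
    have := h2' hp
    omega

include hKi hKw in
theorem phi_add (b : ℤ) (m : ℕ) :
    lz (Db K X b) - lz (Finsupp.single X.inf (b - X.n0 - 1)) =
      lz (Db K X (b + m)) - lz (Finsupp.single X.inf (b + m - X.n0 - 1)) + m := by
  induction m with
  | zero => simp
  | succ m ih =>
    rw [ih, step hKi hKw (b + m)]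
    have e : b + (m : ℤ) + 1 = b + ((m + 1 : ℕ) : ℤ) := by push_cast; ring
    rw [e]
    push_cast
    ring

include hKi hKw in
theorem phi_eq (b : ℤ) : lz (Db K X b) - lz (Finsupp.single X.inf (b - X.n0 - 1)) =
    X.n0 + g - b := by
  obtain ⟨m, hm1, hm2⟩ : ∃ m : ℕ, dg K + ((X.n0 : ℤ) + 1 - (b + m)) < 0 ∧
      C ≤ b + m - X.n0 - 1 := by
    refine ⟨(|dg K| + X.n0 + 2 + |b| + |C|).toNat, ?_, ?_⟩
    · rw [Int.toNat_of_nonneg (by positivity)]
      have := le_abs_self (dg K)
      have := neg_abs_le b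
      have := abs_nonneg C
      omega
    · rw [Int.toNat_of_nonneg (by positivity)]
      have := abs_nonneg (dg K)
      have := neg_abs_le b
      have := le_abs_self C
      omega
  rw [phi_add hKi hKw b m, lz_neg X (D := Db K X (b + m)) (by
    rw [Db, map_add, dg_single]; exact hm1)]
  have h1 := X.crv.rr (Finsupp.single X.inf (b + m - X.n0 - 1)) (by rw [dg_single]; exact hm2)
  rw [dg_single] at h1
  rw [lz, h1]
  ring

include hKi hKw in
theorem lz_K : lz K = g := by
  have h1 := phi_eq hKi hKw ((X.n0 : ℤ) + 1)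
  have e1 : Db K X ((X.n0 : ℤ) + 1) = K := by
    rw [Db, sub_self, Finsupp.single_zero, add_zero]
  have e2 : (Finsupp.single X.inf ((X.n0 : ℤ) + 1 - X.n0 - 1) : Divisor k F) = 0 := by
    rw [show (X.n0 : ℤ) + 1 - X.n0 - 1 = 0 by ring, Finsupp.single_zero]
  rw [e1, e2, lz_zero X] at h1
  omega

include hKi hKw in
theorem dg_K : dg K = 2 * g - 2 := by
  obtain ⟨b, hb1, hb2⟩ : ∃ b : ℤ, C ≤ dg K + ((X.n0 : ℤ) + 1 - b) ∧ b - X.n0 - 1 < 0 := by
    refine ⟨-(|dg K| + |C|), ?_, ?_⟩
    · have := neg_abs_le (dg K)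
      have := le_abs_self C
      omega
    · have := abs_nonneg (dg K)
      have := abs_nonneg C
      omega
  have h1 := phi_eq hKi hKw b
  have hd : dg (Db K X b) = dg K + ((X.n0 : ℤ) + 1 - b) := by
    rw [Db, map_add, dg_single]
  have h2 := X.crv.rr (Db K X b) (by rw [hd]; exact hb1)
  rw [hd] at h2
  rw [lz_neg X (D := Finsupp.single X.inf (b - X.n0 - 1)) (by rw [dg_single]; exact hb2), lz, h2]
    at h1
  omega

include hKi hKw in
theorem ord_D_unif' (v : Place k F) (π : F) (hπ : v.ord π = 1) : v.ord (X.D π) = -K v := by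
  obtain ⟨e, he, -⟩ := X.exists_shift v
  have h1 := (he π (by rw [hπ]; norm_num)).2
  rw [hπ] at h1
  by_cases hv : v = X.inf
  · subst hv
    have h2 := (he X.x (by
      rw [X.ord_inf]
      have := X.n0_pos
      omega)).2
    rw [X.D_x, Place.ord_one, X.ord_inf] at h2
    rw [hKi]
    omega
  · haveI : FiniteDimensional k⟮X.x⟯ F := X.sep.fd
    haveI : HasPrincipalDivisors k F := hasPrincipalDivisors X.sep.trans
    have h3 : v.ord (X.x - algebraMap k F (evp v X.x)) ≠ 0 := by
      rw [(base X).ord_x_sub hv]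
      exact_mod_cast (ei_pos (F := k⟮X.x⟯) v).ne'
    have h2 := (he _ h3).2
    rw [map_sub, X.D_x, Derivation.map_algebraMap, sub_zero, Place.ord_one] at h2
    rw [hKw v hv]
    omega

end Count

end Cn

/-- **The canonical data of a curve.** -/
theorem exists_can {k F : Type*} [Field k] [IsAlgClosed k] [CharZero k] [Field F] [Algebra k F]
    {g C : ℤ} (X : XD k F g C) : Nonempty (Can X) := by
  obtain ⟨K, hKi, hKw⟩ := Cn.exists_K X
  exact ⟨⟨K, Cn.ord_D_unif' hKi hKw, Cn.dg_K hKi hKw, Cn.lz_K hKi hKw⟩⟩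

end Fermat.Agent.MW
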