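import Mathlib
import Fermat.Agent.MW.Defs

/-! # Generation of the spaces `L(a m₁ n₀ ∞)` -/

set_option autoImplicit false
set_option linter.unusedSectionVars false

noncomputable section

namespace Fermat.Agent.MW

open AlgebraicCurve Module Fermat.Agent.Flat

variable {k F : Type*} [Field k] [Field F] [Algebra k F] {g C : ℤ}

namespace XD

variable (X : XD k F g C)

theorem dm_inf (m : ℕ) : X.dm m X.inf = ((m * X.n0 : ℕ) : ℤ) := Finsupp.single_eq_same

theorem dm_ne (m : ℕ) {v : Place k F} (hv : v ≠ X.inf) : X.dm m v = 0 :=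
  Finsupp.single_eq_of_ne hv

theorem dg_dm (m : ℕ) : dg (X.dm m) = ((m * X.n0 : ℕ) : ℤ) := dg_single _ _

theorem mem_L_iff (m : ℕ) (z : F) : z ∈ X.L m ↔ z = 0 ∨
    (-((m * X.n0 : ℕ) : ℤ) ≤ X.inf.ord z ∧ ∀ v : Place k F, v ≠ X.inf → 0 ≤ v.ord z) := by
  rw [XD.L, mem_L]
  constructor
  · intro h
    by_cases hz : z = 0
    · exact Or.inl hz
    right
    refine ⟨?_, fun v hv => ?_⟩
    · have := (h X.inf).resolve_left hz
      rwa [dm_inf] at this
    · have := (h v).resolve_left hz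
      rwa [dm_ne X m hv, neg_zero] at this
  · rintro (rfl | ⟨h1, h2⟩) v
    · exact Or.inl rfl
    · right
      by_cases hv : v = X.inf
      · subst hv
        rwa [dm_inf]
      · rw [dm_ne X m hv, neg_zero]
        exact h2 v hv

theorem x_ne_zero : X.x ≠ 0 := by
  intro h
  have h1 := X.ord_inf
  rw [h, Place.ord_zero] at h1
  have := X.n0_pos
  omega

theorem L_mono {m n : ℕ} (h : m ≤ n) : X.L m ≤ X.L n := by
  intro z hz
  rw [mem_L_iff] at hz ⊢
  rcases hz with hz | ⟨h1, h2⟩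
  · exact Or.inl hz
  · refine Or.inr ⟨le_trans ?_ h1, h2⟩
    have : m * X.n0 ≤ n * X.n0 := Nat.mul_le_mul_right _ h
    omega

theorem mul_mem_L {m n : ℕ} {y z : F} (hy : y ∈ X.L m) (hz : z ∈ X.L n) : y * z ∈ X.L (m + n) := by
  rw [mem_L_iff] at hy hz ⊢
  rcases hy with rfl | ⟨h1, h2⟩
  · left; rw [zero_mul]
  rcases hz with rfl | ⟨h3, h4⟩
  · left; rw [mul_zero]
  by_cases hy0 : y = 0
  · left; rw [hy0, zero_mul]
  by_cases hz0 : z = 0
  · left; rw [hz0, mul_zero]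
  right
  refine ⟨?_, fun v hv => ?_⟩
  · rw [Place.ord_mul _ hy0 hz0, add_mul]
    push_cast at h1 h3 ⊢
    linarith
  · rw [Place.ord_mul _ hy0 hz0]
    exact add_nonneg (h2 v hv) (h4 v hv)

theorem x_mem_L : X.x ∈ X.L 1 := by
  rw [mem_L_iff]
  right
  refine ⟨?_, X.ord_nonneg⟩
  rw [X.ord_inf, one_mul]

theorem one_mem_L (m : ℕ) : (1 : F) ∈ X.L m := by
  rw [mem_L_iff]
  right
  refine ⟨?_, fun v _ => ?_⟩
  · rw [Place.ord_one]
    omega
  · rw [Place.ord_one]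

theorem x_pow_mem_L (i : ℕ) : X.x ^ i ∈ X.L i := by
  induction i with
  | zero => rw [pow_zero]; exact X.one_mem_L 0
  | succ i ih =>
    rw [pow_succ]
    exact X.mul_mem_L ih X.x_mem_L

theorem mem_L_of_mul {m : ℕ} {z : F} (hz : X.x * z ∈ X.L (m + 1)) (h : z ∈ X.L (m + 1)) :
    z ∈ X.L m := by
  rw [mem_L_iff] at hz h ⊢
  rcases h with h | ⟨h1, h2⟩
  · exact Or.inl h
  by_cases hz0 : z = 0
  · exact Or.inl hz0
  rcases hz with h3 | ⟨h3, h4⟩
  · exact absurd h3 (mul_ne_zero X.x_ne_zero hz0)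
  right
  refine ⟨?_, h2⟩
  rw [Place.ord_mul _ X.x_ne_zero hz0, X.ord_inf, add_mul, one_mul] at h3
  push_cast at h3 ⊢
  linarith

/-- multiplication by `x` -/
def mulX : F →ₗ[k] F := LinearMap.mulLeft k X.x

theorem mulX_apply (z : F) : X.mulX z = X.x * z := rfl

theorem mulX_injective : Function.Injective X.mulX :=
  mul_right_injective₀ X.x_ne_zero

theorem finrank_map (S : Submodule k F) : finrank k (S.map X.mulX) = finrank k S :=
  (LinearEquiv.finrank_eq (Submodule.equivMapOfInjective X.mulX X.mulX_injective S)).symm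

theorem finrank_L {m : ℕ} (hm : C ≤ ((m * X.n0 : ℕ) : ℤ)) :
    (finrank k (X.L m) : ℤ) = ((m * X.n0 : ℕ) : ℤ) + 1 - g := by
  have h := X.crv.rr (X.dm m) (by rw [dg_dm]; exact hm)
  rw [dg_dm] at h
  exact h

theorem L_succ {n : ℕ} (hn : C ≤ ((n * X.n0 : ℕ) : ℤ)) :
    X.L (n + 1) ⊔ (X.L (n + 1)).map X.mulX = X.L (n + 2) := by
  have hle : X.L (n + 1) ⊔ (X.L (n + 1)).map X.mulX ≤ X.L (n + 2) := by
    refine sup_le (X.L_mono (by omega)) ?_
    rintro _ ⟨z, hz, rfl⟩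
    rw [mulX_apply, show n + 2 = 1 + (n + 1) by omega]
    exact X.mul_mem_L X.x_mem_L hz
  have hinf : X.L (n + 1) ⊓ (X.L (n + 1)).map X.mulX = (X.L n).map X.mulX := by
    apply le_antisymm
    · rintro _ ⟨h1, z, hz, rfl⟩
      exact ⟨z, X.mem_L_of_mul h1 hz, rfl⟩
    · rintro _ ⟨z, hz, rfl⟩
      refine ⟨?_, z, X.L_mono (Nat.le_succ n) hz, rfl⟩
      rw [mulX_apply, add_comm]
      exact X.mul_mem_L X.x_mem_L hz
  have h1 : (n * X.n0 : ℕ) ≤ ((n + 1) * X.n0 : ℕ) := Nat.mul_le_mul_right _ (Nat.le_succ n)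
  have h2 : ((n + 1) * X.n0 : ℕ) ≤ ((n + 2) * X.n0 : ℕ) := Nat.mul_le_mul_right _ (by omega)
  have e0 := X.finrank_L hn
  have e1 := X.finrank_L (m := n + 1) (by omega)
  have e2 := X.finrank_L (m := n + 2) (by omega)
  have h3 := Submodule.finrank_sup_add_finrank_inf_eq (X.L (n + 1)) ((X.L (n + 1)).map X.mulX)
  rw [hinf, finrank_map, finrank_map] at h3
  apply Submodule.eq_of_le_of_finrank_eq hle
  have h4 : (n * X.n0 : ℕ) + ((n + 2) * X.n0 : ℕ) = ((n + 1) * X.n0 : ℕ) + ((n + 1) * X.n0 : ℕ) := by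
    ring
  omega

theorem L_add {n : ℕ} (hn : C ≤ ((n * X.n0 : ℕ) : ℤ)) (j : ℕ) :
    X.L (n + 1 + j) ≤ X.L j * X.L (n + 1) := by
  induction j with
  | zero =>
    intro z hz
    have := Submodule.mul_mem_mul (X.one_mem_L 0) hz
    rwa [one_mul] at this
  | succ j ih =>
    have hn' : C ≤ (((n + j) * X.n0 : ℕ) : ℤ) := by
      have : (n * X.n0 : ℕ) ≤ ((n + j) * X.n0 : ℕ) := Nat.mul_le_mul_right _ (by omega)
      omega
    have h1 := X.L_succ hn'
    rw [show n + 1 + (j + 1) = n + j + 2 by omega, ← h1]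
    rw [show n + j + 1 = n + 1 + j by omega]
    have h2 : X.L j * X.L (n + 1) ≤ X.L (j + 1) * X.L (n + 1) :=
      mul_le_mul' (X.L_mono (Nat.le_succ j)) le_rfl
    refine sup_le (ih.trans h2) ?_
    rintro _ ⟨z, hz, rfl⟩
    rw [mulX_apply]
    have h3 : X.x * z ∈ Submodule.span k {X.x} * (X.L j * X.L (n + 1)) :=
      Submodule.mul_mem_mul (Submodule.mem_span_singleton_self _) (ih hz)
    rw [← mul_assoc] at h3
    refine mul_le_mul' (Submodule.mul_le.mpr ?_) le_rfl h3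
    intro a ha b hb
    rw [Submodule.mem_span_singleton] at ha
    obtain ⟨c, rfl⟩ := ha
    rw [smul_mul_assoc, add_comm]
    exact Submodule.smul_mem _ _ (X.mul_mem_L X.x_mem_L hb)

theorem mem_L_zero {z : F} (hz : z ∈ X.L 0) : ∃ a : k, algebraMap k F a = z := by
  rw [mem_L_iff] at hz
  rcases hz with rfl | ⟨h1, h2⟩
  · exact ⟨0, map_zero _⟩
  apply X.crv.const
  intro v
  by_cases hv : v = X.inf
  · subst hv
    simpa using h1
  · exact h2 v hv

/-- **Generation**: for all large `m₁`, `L(a m₁) = L(m₁)^a`. -/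
theorem exists_gen' (X : XD k F g C) : ∃ m₀ : ℕ, ∀ m1 : ℕ, m₀ ≤ m1 → ∀ a : ℕ,
    ∀ z ∈ X.L (a * m1), z ∈ (X.L m1) ^ a := by
  refine ⟨C.toNat + 1, fun m1 hm1 a => ?_⟩
  have hC : C ≤ ((C.toNat * X.n0 : ℕ) : ℤ) := by
    have h1 : C.toNat * 1 ≤ C.toNat * X.n0 := Nat.mul_le_mul_left _ X.n0_pos
    have h2 := Int.self_le_toNat C
    omega
  induction a with
  | zero =>
    intro z hz
    rw [zero_mul] at hz
    obtain ⟨a, rfl⟩ := X.mem_L_zero hz
    rw [pow_zero]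
    exact Submodule.mem_one.mpr ⟨a, rfl⟩
  | succ a ih =>
    intro z hz
    rcases Nat.eq_zero_or_pos a with rfl | ha
    · rw [zero_add, one_mul] at hz
      rwa [zero_add, pow_one]
    obtain ⟨n, hn⟩ : ∃ n, a * m1 = n + 1 := ⟨a * m1 - 1, by
      have : 1 ≤ a * m1 := Nat.mul_pos ha (by omega)
      omega⟩
    have hn' : C ≤ ((n * X.n0 : ℕ) : ℤ) := by
      have h1 : 1 * m1 ≤ a * m1 := Nat.mul_le_mul_right _ ha
      have h2 : (C.toNat * X.n0 : ℕ) ≤ (n * X.n0 : ℕ) := Nat.mul_le_mul_right _ (by omega)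
      omega
    rw [add_mul, one_mul, hn] at hz
    have h3 := X.L_add hn' m1 hz
    rw [← hn] at h3
    rw [pow_succ']
    have h4 : X.L m1 * X.L (a * m1) ≤ X.L m1 * X.L m1 ^ a :=
      mul_le_mul' le_rfl (fun z hz => ih z hz)
    exact h4 h3

theorem exists_gen (X : XD k F g C) : ∃ m1 : ℕ, 0 < m1 ∧ ∀ a : ℕ,
    ∀ z ∈ X.L (a * m1), z ∈ (X.L m1) ^ a := by
  obtain ⟨m₀, h⟩ := X.exists_gen'
  exact ⟨m₀ + 1, Nat.succ_pos _, h _ (Nat.le_succ _)⟩

end XD

end Fermat.Agent.MW
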