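import Fermat.Agent.MW.Defs

/-! # Projective distances of vectors -/

set_option autoImplicit false
set_option linter.unusedSectionVars false
set_option linter.style.haveILetI false

noncomputable section

namespace Fermat.Agent.MW

section sup

variable {α : Type*} [Finite α]

theorem le_isup (u : α → ℝ) (a : α) : u a ≤ ⨆ a, u a :=
  le_ciSup (Set.finite_range u).bddAbove a

theorem isup_le {u : α → ℝ} {x : ℝ} (hx : 0 ≤ x) (h : ∀ a, u a ≤ x) : ⨆ a, u a ≤ x :=
  Real.iSup_le h hx

theorem exists_isup [Nonempty α] (u : α → ℝ) : ∃ a, u a = ⨆ a, u a :=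
  exists_eq_ciSup_of_finite

end sup

variable {k : Type*} [Field k] (V : AV k) (i : V.ι)

theorem le_nrm {r : ℕ} (c : Fin r → k) (j : Fin r) : V.v i (c j) ≤ nrm V i c :=
  le_isup (fun j => V.v i (c j)) j

theorem nrm_nonneg {r : ℕ} (c : Fin r → k) : 0 ≤ nrm V i c :=
  Real.iSup_nonneg fun _ => (V.v i).nonneg _

theorem nrm_le {r : ℕ} {c : Fin r → k} {x : ℝ} (hx : 0 ≤ x) (h : ∀ j, V.v i (c j) ≤ x) :
    nrm V i c ≤ x := isup_le hx h

theorem nrm_pos {r : ℕ} {c : Fin r → k} (hc : c ≠ 0) : 0 < nrm V i c := by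
  obtain ⟨j, hj⟩ := Function.ne_iff.1 hc
  exact lt_of_lt_of_le ((V.v i).pos hj) (le_nrm V i c j)

theorem nrm_smul {r : ℕ} (a : k) (c : Fin r → k) :
    nrm V i (fun j => a * c j) = V.v i a * nrm V i c := by
  unfold nrm
  rw [Real.mul_iSup_of_nonneg ((V.v i).nonneg a)]
  exact congrArg _ (funext fun j => map_mul _ _ _)

variable {s : ℕ}

/-- The norm of the wedge product. -/
def wdg (p q : Fin s → k) : ℝ :=
  ⨆ ab : Fin s × Fin s, V.v i (p ab.1 * q ab.2 - p ab.2 * q ab.1)

theorem le_wdg (p q : Fin s → k) (a b : Fin s) : V.v i (p a * q b - p b * q a) ≤ wdg V i p q :=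
  le_isup (fun ab : Fin s × Fin s => V.v i (p ab.1 * q ab.2 - p ab.2 * q ab.1)) (a, b)

theorem wdg_nonneg (p q : Fin s → k) : 0 ≤ wdg V i p q :=
  Real.iSup_nonneg fun _ => (V.v i).nonneg _

theorem wdg_symm (p q : Fin s → k) : wdg V i p q = wdg V i q p := by
  unfold wdg
  refine congrArg _ (funext fun ab => ?_)
  rw [← (V.v i).map_neg]
  congr 1
  ring

/-- scaling, also with a multiple of `p` added to `q`. -/
theorem wdg_scale (p q : Fin s → k) (a b c : k) :
    wdg V i (fun j => a * p j) (fun j => b * q j + c * p j) = V.v i a * V.v i b * wdg V i p q := by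
  unfold wdg
  rw [Real.mul_iSup_of_nonneg (mul_nonneg ((V.v i).nonneg a) ((V.v i).nonneg b))]
  refine congrArg _ (funext fun ab => ?_)
  rw [← map_mul, ← map_mul]
  congr 1
  ring

theorem wdg_le (p q : Fin s → k) :
    wdg V i p q ≤ V.two.c i * (nrm V i p * nrm V i q) := by
  refine isup_le (mul_nonneg (V.two.pos i).le (mul_nonneg (nrm_nonneg V i p) (nrm_nonneg V i q)))
    fun ab => ?_
  rw [sub_eq_add_neg]
  refine V.add_le i _ _ ?_ ?_
  · rw [map_mul]
    exact mul_le_mul (le_nrm V i p _) (le_nrm V i q _) ((V.v i).nonneg _) (nrm_nonneg V i p)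
  · rw [(V.v i).map_neg, map_mul]
    exact mul_le_mul (le_nrm V i p _) (le_nrm V i q _) ((V.v i).nonneg _) (nrm_nonneg V i p)

/-- The projective distance. -/
def dstv (p q : Fin s → k) : ℝ := wdg V i p q / (nrm V i p * nrm V i q)

theorem dstv_nonneg (p q : Fin s → k) : 0 ≤ dstv V i p q :=
  div_nonneg (wdg_nonneg V i p q) (mul_nonneg (nrm_nonneg V i p) (nrm_nonneg V i q))

theorem dstv_symm (p q : Fin s → k) : dstv V i p q = dstv V i q p := by
  unfold dstv
  rw [wdg_symm, mul_comm]

theorem dstv_scale (p q : Fin s → k) {a b : k} (ha : a ≠ 0) (hb : b ≠ 0) :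
    dstv V i (fun j => a * p j) (fun j => b * q j) = dstv V i p q := by
  unfold dstv
  have h1 := wdg_scale V i p q a b 0
  simp only [zero_mul, add_zero] at h1
  rw [h1, nrm_smul, nrm_smul]
  have h2 := (V.v i).pos ha
  have h3 := (V.v i).pos hb
  rw [show V.v i a * nrm V i p * (V.v i b * nrm V i q) =
    (V.v i a * V.v i b) * (nrm V i p * nrm V i q) by ring]
  exact mul_div_mul_left _ _ (mul_pos h2 h3).ne'

theorem dstv_le (p q : Fin s → k) : dstv V i p q ≤ V.two.c i := by
  unfold dstv
  rcases eq_or_lt_of_le (mul_nonneg (nrm_nonneg V i p) (nrm_nonneg V i q)) with h | h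
  · rw [← h, div_zero]
    exact (V.two.pos i).le
  · rw [div_le_iff₀ h]
    exact wdg_le V i p q

theorem dstv_tri (p q t : Fin s → k) (hp : p ≠ 0) (hq : q ≠ 0) (ht : t ≠ 0) :
    dstv V i p t ≤ (V.two * V.two).c i * max (dstv V i p q) (dstv V i q t) := by
  have np := nrm_pos V i hp
  have nq := nrm_pos V i hq
  have nt := nrm_pos V i ht
  set M := max (dstv V i p q) (dstv V i q t) with hM
  have hM0 : 0 ≤ M := le_max_of_le_left (dstv_nonneg V i p q)
  have e1 : wdg V i p q ≤ M * (nrm V i p * nrm V i q) := by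
    have : dstv V i p q ≤ M := le_max_left _ _
    unfold dstv at this
    rwa [div_le_iff₀ (mul_pos np nq)] at this
  have e2 : wdg V i q t ≤ M * (nrm V i q * nrm V i t) := by
    have : dstv V i q t ≤ M := le_max_right _ _
    unfold dstv at this
    rwa [div_le_iff₀ (mul_pos nq nt)] at this
  have hs : Nonempty (Fin s) := by
    obtain ⟨j, -⟩ := Function.ne_iff.1 hp
    exact ⟨j⟩
  obtain ⟨c, hc⟩ := exists_isup fun j => V.v i (q j)
  change V.v i (q c) = nrm V i q at hc
  have key : ∀ a b, V.v i (p a * t b - p b * t a) * nrm V i q ≤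
      V.two.c i * (V.two.c i * (M * (nrm V i p * nrm V i q * nrm V i t))) := by
    intro a b
    rw [← hc, ← map_mul]
    have e : (p a * t b - p b * t a) * q c = ((p a * q c - p c * q a) * t b +
        -((p b * q c - p c * q b) * t a)) + p c * (q a * t b - q b * t a) := by ring
    rw [e]
    rw [hc]
    refine V.add_le i _ _ ?_ ?_
    · refine V.add_le i _ _ ?_ ?_
      · rw [map_mul]
        calc _ ≤ (M * (nrm V i p * nrm V i q)) * nrm V i t :=
              mul_le_mul ((le_wdg V i p q a c).trans e1) (le_nrm V i t b) ((V.v i).nonneg _)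
                (mul_nonneg hM0 (mul_pos np nq).le)
          _ = _ := by ring
      · rw [(V.v i).map_neg, map_mul]
        calc _ ≤ (M * (nrm V i p * nrm V i q)) * nrm V i t :=
              mul_le_mul ((le_wdg V i p q b c).trans e1) (le_nrm V i t a) ((V.v i).nonneg _)
                (mul_nonneg hM0 (mul_pos np nq).le)
          _ = _ := by ring
    · rw [map_mul]
      calc _ ≤ nrm V i p * (M * (nrm V i q * nrm V i t)) :=
            mul_le_mul (le_nrm V i p c) ((le_wdg V i q t a b).trans e2) ((V.v i).nonneg _) np.le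
        _ = M * (nrm V i p * nrm V i q * nrm V i t) := by ring
        _ ≤ _ := le_mul_of_one_le_left (mul_nonneg hM0 (by positivity)) (V.two.one_le i)
  have h1 : wdg V i p t * nrm V i q ≤
      V.two.c i * (V.two.c i * (M * (nrm V i p * nrm V i q * nrm V i t))) := by
    haveI : Nonempty (Fin s × Fin s) := inferInstance
    obtain ⟨ab, hab⟩ := exists_isup fun ab : Fin s × Fin s =>
      V.v i (p ab.1 * t ab.2 - p ab.2 * t ab.1)
    have : wdg V i p t = V.v i (p ab.1 * t ab.2 - p ab.2 * t ab.1) := hab.symm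
    rw [this]
    exact key _ _
  unfold dstv
  rw [div_le_iff₀ (mul_pos np nt), MC.mul_c]
  refine le_of_mul_le_mul_right ?_ nq
  calc _ ≤ _ := h1
    _ = _ := by ring

/-- Linear combinations with constant coefficients. -/
theorem exists_lin (lam : Fin s → k) : ∃ C : MC V.ι, ∀ i (p : Fin s → k),
    V.v i (∑ j, lam j * p j) ≤ C.c i * nrm V i p := by
  obtain ⟨C, hC⟩ := V.exists_sum_le (D := Unit) (reg := fun _ _ => True)
    (g := fun j (_ : Unit) => lam j) fun j => Bdd.const _
  exact ⟨C, fun i p => hC i () trivial p _ (nrm_nonneg V i p) (le_nrm V i p)⟩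

/-- Comparison of the projective and the affine distance. -/
theorem exists_affine (lam : Fin s → k) (B : MC V.ι) : ∃ C : MC V.ι, ∀ i (p q : Fin s → k),
    ∑ j, lam j * p j = 1 → ∑ j, lam j * q j = 1 → (∀ j, V.v i (p j) ≤ B.c i) →
    (∀ j, V.v i (q j) ≤ B.c i) →
      1 ≤ C.c i * nrm V i p ∧
      dstv V i p q ≤ C.c i * nrm V i (fun j => p j - q j) ∧
      nrm V i (fun j => p j - q j) ≤ C.c i * dstv V i p q := by
  obtain ⟨L, hL⟩ := exists_lin V lam
  refine ⟨V.two * B * L * (L * (B * B)), fun i p q hp hq hpB hqB => ?_⟩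
  have np : 1 ≤ L.c i * nrm V i p := by
    have := hL i p
    rwa [hp, map_one] at this
  have nq : 1 ≤ L.c i * nrm V i q := by
    have := hL i q
    rwa [hq, map_one] at this
  have npB : nrm V i p ≤ B.c i := nrm_le V i (B.pos i).le hpB
  have nqB : nrm V i q ≤ B.c i := nrm_le V i (B.pos i).le hqB
  have np0 : 0 < nrm V i p := by
    by_contra h
    have h1 : nrm V i p = 0 := le_antisymm (not_lt.1 h) (nrm_nonneg V i p)
    rw [h1, mul_zero] at np
    linarith
  have nq0 : 0 < nrm V i q := by
    by_contra h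
    have h1 : nrm V i q = 0 := le_antisymm (not_lt.1 h) (nrm_nonneg V i q)
    rw [h1, mul_zero] at nq
    linarith
  have hL1 := L.one_le i
  have hB1 := B.one_le i
  have ht1 := V.two.one_le i
  have hL0 := L.pos i
  have hB0 := B.pos i
  have ht0 := V.two.pos i
  set D := nrm V i (fun j => p j - q j) with hD
  have hD0 : 0 ≤ D := nrm_nonneg V i _
  simp only [MC.mul_c]
  refine ⟨?_, ?_, ?_⟩
  · refine np.trans ?_
    refine mul_le_mul_of_nonneg_right ?_ np0.le
    calc L.c i = 1 * L.c i * 1 := by ring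
      _ ≤ (V.two.c i * B.c i) * L.c i * (L.c i * (B.c i * B.c i)) := by
        have h1 : 1 ≤ V.two.c i * B.c i := one_le_mul_of_one_le_of_one_le ht1 hB1
        have h2 : 1 ≤ L.c i * (B.c i * B.c i) :=
          one_le_mul_of_one_le_of_one_le hL1 (one_le_mul_of_one_le_of_one_le hB1 hB1)
        gcongr
  · -- upper bound
    have hw : wdg V i p q ≤ V.two.c i * (B.c i * D) := by
      refine isup_le (by positivity) fun ab => ?_
      have e : p ab.1 * q ab.2 - p ab.2 * q ab.1 =
          (p ab.1 - q ab.1) * q ab.2 + -((p ab.2 - q ab.2) * q ab.1) := by ring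
      rw [e]
      refine V.add_le i _ _ ?_ ?_
      · rw [map_mul, mul_comm]
        exact mul_le_mul (hqB _) (le_nrm V i (fun j => p j - q j) _) ((V.v i).nonneg _) hB0.le
      · rw [(V.v i).map_neg, map_mul, mul_comm]
        exact mul_le_mul (hqB _) (le_nrm V i (fun j => p j - q j) _) ((V.v i).nonneg _) hB0.le
    unfold dstv
    rw [div_le_iff₀ (mul_pos np0 nq0)]
    calc wdg V i p q ≤ V.two.c i * (B.c i * D) := hw
      _ = V.two.c i * (B.c i * D) * 1 := by ring
      _ ≤ V.two.c i * (B.c i * D) * ((L.c i * nrm V i p) * (L.c i * nrm V i q)) := by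
        refine mul_le_mul_of_nonneg_left ?_ (by positivity)
        exact one_le_mul_of_one_le_of_one_le np nq
      _ = (V.two.c i * B.c i * L.c i * L.c i * 1) * D * (nrm V i p * nrm V i q) := by ring
      _ ≤ (V.two.c i * B.c i * L.c i * L.c i * (B.c i * B.c i)) * D *
            (nrm V i p * nrm V i q) := by
        have : 1 ≤ B.c i * B.c i := one_le_mul_of_one_le_of_one_le hB1 hB1
        gcongr
      _ = _ := by ring
  · -- lower bound
    have hw : D ≤ L.c i * wdg V i p q := by
      refine nrm_le V i (mul_nonneg hL0.le (wdg_nonneg V i p q)) fun a => ?_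
      have e : p a - q a = ∑ b, lam b * (p a * q b - p b * q a) := by
        have e1 : ∑ b, lam b * (p a * q b - p b * q a) =
            p a * ∑ b, lam b * q b - (∑ b, lam b * p b) * q a := by
          rw [Finset.mul_sum, Finset.sum_mul, ← Finset.sum_sub_distrib]
          exact Finset.sum_congr rfl fun b _ => by ring
        rw [e1, hp, hq, mul_one, one_mul]
      rw [e]
      refine (hL i fun b => p a * q b - p b * q a).trans ?_
      refine mul_le_mul_of_nonneg_left ?_ hL0.le
      exact nrm_le V i (wdg_nonneg V i p q) fun b => le_wdg V i p q a b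
    have hw2 : wdg V i p q = dstv V i p q * (nrm V i p * nrm V i q) := by
      unfold dstv
      rw [div_mul_cancel₀]
      exact (mul_pos np0 nq0).ne'
    have hdn := dstv_nonneg V i p q
    calc D ≤ L.c i * wdg V i p q := hw
      _ = L.c i * (dstv V i p q * (nrm V i p * nrm V i q)) := by rw [hw2]
      _ ≤ L.c i * (dstv V i p q * (B.c i * B.c i)) := by
        gcongr
      _ = (1 * L.c i * (B.c i * B.c i)) * dstv V i p q * 1 := by ring
      _ ≤ (V.two.c i * B.c i * L.c i * (B.c i * B.c i)) * dstv V i p q * L.c i := by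
        have h1 : 1 ≤ V.two.c i * B.c i := one_le_mul_of_one_le_of_one_le ht1 hB1
        gcongr
      _ = _ := by ring

/-- The size of a tangent vector. -/
def kapv (p q : Fin s → k) : ℝ := wdg V i p q / nrm V i p ^ 2

theorem kapv_scale (p q : Fin s → k) {a : k} (ha : a ≠ 0) (c : k) :
    kapv V i (fun j => a * p j) (fun j => a * q j + c * p j) = kapv V i p q := by
  unfold kapv
  rw [wdg_scale, nrm_smul, mul_pow]
  have h2 := (V.v i).pos ha
  rw [← pow_two]
  exact mul_div_mul_left _ _ (pow_pos h2 2).ne'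

/-- Comparison of the projective and the affine size of a tangent vector. -/
theorem exists_tangent_affine (lam : Fin s → k) (B : MC V.ι) : ∃ C : MC V.ι,
    ∀ i (p q : Fin s → k), ∑ j, lam j * p j = 1 → ∑ j, lam j * q j = 0 →
      (∀ j, V.v i (p j) ≤ B.c i) →
      kapv V i p q ≤ C.c i * nrm V i q ∧ nrm V i q ≤ C.c i * kapv V i p q := by
  obtain ⟨L, hL⟩ := exists_lin V lam
  refine ⟨V.two * B * L * (L * (B * B)), fun i p q hp hq hpB => ?_⟩
  have np : 1 ≤ L.c i * nrm V i p := by
    have := hL i p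
    rwa [hp, map_one] at this
  have npB : nrm V i p ≤ B.c i := nrm_le V i (B.pos i).le hpB
  have np0 : 0 < nrm V i p := by
    by_contra h
    have h1 : nrm V i p = 0 := le_antisymm (not_lt.1 h) (nrm_nonneg V i p)
    rw [h1, mul_zero] at np
    linarith
  have hL1 := L.one_le i
  have hB1 := B.one_le i
  have ht1 := V.two.one_le i
  have hL0 := L.pos i
  have hB0 := B.pos i
  have ht0 := V.two.pos i
  set D := nrm V i q with hD
  have hD0 : 0 ≤ D := nrm_nonneg V i _
  simp only [MC.mul_c]
  refine ⟨?_, ?_⟩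
  · unfold kapv
    rw [div_le_iff₀ (pow_pos np0 2)]
    calc wdg V i p q ≤ V.two.c i * (nrm V i p * D) := wdg_le V i p q
      _ ≤ V.two.c i * (B.c i * D) * 1 := by
        rw [mul_one]
        gcongr
      _ ≤ V.two.c i * (B.c i * D) * ((L.c i * nrm V i p) * (L.c i * nrm V i p)) := by
        refine mul_le_mul_of_nonneg_left ?_ (by positivity)
        exact one_le_mul_of_one_le_of_one_le np np
      _ = (V.two.c i * B.c i * L.c i * L.c i * 1) * D * (nrm V i p ^ 2) := by ring
      _ ≤ (V.two.c i * B.c i * L.c i * L.c i * (B.c i * B.c i)) * D * (nrm V i p ^ 2) := by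
        have : 1 ≤ B.c i * B.c i := one_le_mul_of_one_le_of_one_le hB1 hB1
        gcongr
      _ = _ := by ring
  · have hw : D ≤ L.c i * wdg V i p q := by
      refine nrm_le V i (mul_nonneg hL0.le (wdg_nonneg V i p q)) fun a => ?_
      have e : q a = ∑ b, lam b * (p b * q a - p a * q b) := by
        have e1 : ∑ b, lam b * (p b * q a - p a * q b) =
            (∑ b, lam b * p b) * q a - p a * ∑ b, lam b * q b := by
          rw [Finset.mul_sum, Finset.sum_mul, ← Finset.sum_sub_distrib]
          exact Finset.sum_congr rfl fun b _ => by ring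
        rw [e1, hp, hq, mul_zero, one_mul, sub_zero]
      rw [e]
      refine (hL i fun b => p b * q a - p a * q b).trans ?_
      refine mul_le_mul_of_nonneg_left ?_ hL0.le
      exact nrm_le V i (wdg_nonneg V i p q) fun b => le_wdg V i p q b a
    have hw2 : wdg V i p q = kapv V i p q * (nrm V i p ^ 2) := by
      unfold kapv
      rw [div_mul_cancel₀]
      exact (pow_pos np0 2).ne'
    have hdn : 0 ≤ kapv V i p q := div_nonneg (wdg_nonneg V i p q) (by positivity)
    calc D ≤ L.c i * wdg V i p q := hw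
      _ = L.c i * (kapv V i p q * (nrm V i p * nrm V i p)) := by rw [hw2]; ring
      _ ≤ L.c i * (kapv V i p q * (B.c i * B.c i)) := by
        gcongr
      _ = (1 * L.c i * (B.c i * B.c i)) * kapv V i p q * 1 := by ring
      _ ≤ (V.two.c i * B.c i * L.c i * (B.c i * B.c i)) * kapv V i p q * L.c i := by
        have h1 : 1 ≤ V.two.c i * B.c i := one_le_mul_of_one_le_of_one_le ht1 hB1
        gcongr
      _ = _ := by ring

/-- Almost all norms are one. -/
theorem finite_nrm {r : ℕ} {c : Fin r → k} (hc : c ≠ 0) : {i | nrm V i c ≠ 1}.Finite := by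
  classical
  have h1 : (⋃ j ∈ (Finset.univ.filter fun j => c j ≠ 0), {i | V.v i (c j) ≠ 1}).Finite :=
    Set.Finite.biUnion (Finset.finite_toSet _) fun j hj => V.fin _ (Finset.mem_filter.1 hj).2
  refine h1.subset fun i hi => ?_
  by_contra hcon
  simp only [Set.mem_iUnion, Finset.mem_filter, Finset.mem_univ, true_and, Set.mem_ofPred_eq,
    not_exists, not_not] at hcon
  apply hi
  obtain ⟨j, hj⟩ := Function.ne_iff.1 hc
  refine le_antisymm (nrm_le V i zero_le_one fun l => ?_) ?_
  · by_cases hl : c l = 0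
    · rw [hl, map_zero]; exact zero_le_one
    · exact (hcon l hl).le
  · rw [← hcon j hj]
    exact le_nrm V i c j

/-- Almost all wedge norms are one. -/
theorem finite_wdg {p q : Fin s → k} (h : ∃ a b, p a * q b - p b * q a ≠ 0) :
    {i | wdg V i p q ≠ 1}.Finite := by
  classical
  have h1 : (⋃ ab ∈ (Finset.univ.filter fun ab : Fin s × Fin s =>
      p ab.1 * q ab.2 - p ab.2 * q ab.1 ≠ 0),
      {i | V.v i (p ab.1 * q ab.2 - p ab.2 * q ab.1) ≠ 1}).Finite :=
    Set.Finite.biUnion (Finset.finite_toSet _) fun j hj => V.fin _ (Finset.mem_filter.1 hj).2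
  refine h1.subset fun i hi => ?_
  by_contra hcon
  simp only [Set.mem_iUnion, Finset.mem_filter, Finset.mem_univ, true_and, Set.mem_ofPred_eq,
    not_exists, not_not] at hcon
  apply hi
  obtain ⟨a, b, hab⟩ := h
  refine le_antisymm (isup_le zero_le_one fun l => ?_) ?_
  · by_cases hl : p l.1 * q l.2 - p l.2 * q l.1 = 0
    · rw [hl, map_zero]; exact zero_le_one
    · exact (hcon l hl).le
  · rw [← hcon (a, b) hab]
    exact le_wdg V i p q a b

theorem finite_dstv {p q : Fin s → k} (hp : p ≠ 0) (hq : q ≠ 0)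
    (h : ∃ a b, p a * q b - p b * q a ≠ 0) : {i | dstv V i p q ≠ 1}.Finite := by
  refine ((finite_nrm V hp).union ((finite_nrm V hq).union (finite_wdg V h))).subset fun i hi => ?_
  by_contra hcon
  simp only [Set.mem_union, Set.mem_ofPred_eq, not_or, not_not] at hcon
  apply hi
  unfold dstv
  rw [hcon.1, hcon.2.1, hcon.2.2]
  norm_num

theorem finite_kapv {p q : Fin s → k} (hp : p ≠ 0)
    (h : ∃ a b, p a * q b - p b * q a ≠ 0) : {i | kapv V i p q ≠ 1}.Finite := by
  refine ((finite_nrm V hp).union (finite_wdg V h)).subset fun i hi => ?_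
  by_contra hcon
  simp only [Set.mem_union, Set.mem_ofPred_eq, not_or, not_not] at hcon
  apply hi
  unfold kapv
  rw [hcon.1, hcon.2]
  norm_num

theorem wdg_pos {p q : Fin s → k} (h : ∃ a b, p a * q b - p b * q a ≠ 0) : 0 < wdg V i p q := by
  obtain ⟨a, b, hab⟩ := h
  exact lt_of_lt_of_le ((V.v i).pos hab) (le_wdg V i p q a b)

end Fermat.Agent.MW
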