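import Fermat.Agent.MW.ChartA
import Fermat.Agent.MW.Gen1
import Fermat.Agent.MW.Wedge
import Fermat.Agent.MW.Der

/-! # The charts `(x - ξ)⁻¹` -/

set_option autoImplicit false
set_option linter.unusedSectionVars false
set_option linter.style.haveILetI false

noncomputable section

namespace Fermat.Agent.MW

open AlgebraicCurve Module Fermat.Agent.FunField Fermat.Agent.Flat

variable {k F : Type*} [Field k] [Field F] [Algebra k F] [IsAlgClosed k] [CharZero k]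
  {g C : ℤ} (X : XD k F g C)

namespace XD

/-- The parameter of the chart. -/
def tx (ξ : k) : F := (X.x - algebraMap k F ξ)⁻¹

theorem sep_tx (ξ : k) : Flat.Sep k (X.tx ξ) := (X.sep.sub ξ).inv

include X in
theorem rat (v : Place k F) : Rational v := X.sep.rational v

theorem mem_L_ne {m : ℕ} {f : F} (hf : f ≠ 0) : f ∈ X.L m ↔
    (∀ v : Place k F, v ≠ X.inf → 0 ≤ v.ord f) ∧ -((m * X.n0 : ℕ) : ℤ) ≤ X.inf.ord f := by
  rw [X.mem_L_iff, or_iff_right hf, and_comm]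

theorem sub_ne (ξ : k) : X.x - algebraMap k F ξ ≠ 0 := (X.sep.sub ξ).ne_zero

theorem tx_ne (ξ : k) : X.tx ξ ≠ 0 := inv_ne_zero (X.sub_ne ξ)

theorem x_mem_val {v : Place k F} (hv : v ≠ X.inf) : X.x ∈ v.toValuationSubring :=
  mem_of_ord_nonneg v (X.ord_nonneg v hv)

theorem evp_sub_x {v : Place k F} (hv : v ≠ X.inf) (ξ : k) :
    evp v (X.x - algebraMap k F ξ) = evp v X.x - ξ := by
  rw [evp_sub (X.rat v) (X.x_mem_val hv) (v.algebraMap_mem' ξ), evp_algebraMap]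

theorem sub_mem_val {v : Place k F} (hv : v ≠ X.inf) (ξ : k) :
    X.x - algebraMap k F ξ ∈ v.toValuationSubring :=
  sub_mem (X.x_mem_val hv) (v.algebraMap_mem' ξ)

theorem ord_sub_eq_zero {v : Place k F} (hv : v ≠ X.inf) {ξ : k} (h : evp v X.x ≠ ξ) :
    v.ord (X.x - algebraMap k F ξ) = 0 := by
  have h1 := (evp_ne_zero_iff (X.rat v) (X.sub_mem_val hv ξ)).1 (by
    rw [X.evp_sub_x hv]
    exact sub_ne_zero.2 h)
  exact h1.2

theorem ord_sub_pos {v : Place k F} (hv : v ≠ X.inf) {ξ : k} (h : evp v X.x = ξ) :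
    0 < v.ord (X.x - algebraMap k F ξ) := by
  have h1 := (evp_eq_zero_iff (X.rat v) (X.sub_mem_val hv ξ)).1 (by
    rw [X.evp_sub_x hv, h, sub_self])
  exact h1.resolve_left (X.sub_ne ξ)

theorem ord_tx {v : Place k F} (hv : v ≠ X.inf) {ξ : k} (h : evp v X.x ≠ ξ) :
    v.ord (X.tx ξ) = 0 := by
  rw [tx, v.ord_inv, X.ord_sub_eq_zero hv h, neg_zero]

theorem evp_tx {v : Place k F} (hv : v ≠ X.inf) {ξ : k} (h : evp v X.x ≠ ξ) :
    evp v (X.tx ξ) = (evp v X.x - ξ)⁻¹ := by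
  rw [tx, evp_inv (X.rat v) (X.sub_ne ξ) (X.ord_sub_eq_zero hv h), X.evp_sub_x hv]

theorem ord_tx_inf (ξ : k) : X.inf.ord (X.tx ξ) = X.n0 := by
  have h1 : X.inf.ord X.x < 0 := by
    rw [X.ord_inf]
    have := X.n0_pos
    omega
  rw [tx, X.inf.ord_inv, ord_sub_of_neg _ h1, X.ord_inf, neg_neg]

theorem evp_tx_inf (ξ : k) : evp X.inf (X.tx ξ) = 0 := by
  have h1 : 0 < X.inf.ord (X.tx ξ) := by
    rw [X.ord_tx_inf]
    have := X.n0_pos
    omega
  exact (evp_eq_zero_iff (X.rat _) (mem_of_ord_nonneg _ h1.le)).2 (Or.inr h1)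

theorem chart_iff {v : Place k F} {ξ : k} :
    0 ≤ v.ord (X.tx ξ) ↔ v = X.inf ∨ (v ≠ X.inf ∧ evp v X.x ≠ ξ) := by
  constructor
  · intro h
    by_cases hv : v = X.inf
    · exact Or.inl hv
    · refine Or.inr ⟨hv, fun he => ?_⟩
      have := X.ord_sub_pos hv he
      rw [tx, v.ord_inv] at h
      omega
  · rintro (rfl | ⟨hv, h⟩)
    · rw [X.ord_tx_inf]
      omega
    · rw [X.ord_tx hv h]

theorem chart_inf (ξ : k) : 0 ≤ X.inf.ord (X.tx ξ) := X.chart_iff.2 (Or.inl rfl)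

theorem mul_tx_mem {m : ℕ} {z : F} (hz : z ∈ X.L m) (ξ : k) :
    z * X.tx ξ ^ m ∈ rg k (X.tx ξ) := by
  rw [mem_rg]
  intro v hv
  by_cases h0 : z = 0
  · rw [h0, zero_mul]; simp
  rw [v.ord_mul h0 (pow_ne_zero _ (X.tx_ne ξ)), ord_pow]
  rw [X.mem_L_ne h0] at hz
  rcases X.chart_iff.1 hv with rfl | ⟨hv', h⟩
  · rw [X.ord_tx_inf]
    have := hz.2
    push_cast at this
    linarith
  · rw [X.ord_tx hv' h, mul_zero, add_zero]
    exact hz.1 v hv'

/-- The chart map. -/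
def ch (ξ : k) (m : ℕ) : X.L m →ₗ[k] rg k (X.tx ξ) where
  toFun z := ⟨(z : F) * X.tx ξ ^ m, X.mul_tx_mem z.2 ξ⟩
  map_add' a b := Subtype.ext (by simp [add_mul])
  map_smul' c a := Subtype.ext (by simp)

theorem coe_ch (ξ : k) (m : ℕ) (z : X.L m) : (X.ch ξ m z : F) = (z : F) * X.tx ξ ^ m := rfl

theorem ch_injective (ξ : k) (m : ℕ) : Function.Injective (X.ch ξ m) := by
  intro a b hab
  have h1 := congrArg (fun z : rg k (X.tx ξ) => (z : F)) hab
  simp only [X.coe_ch] at h1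
  exact Subtype.ext (mul_right_cancel₀ (pow_ne_zero _ (X.tx_ne ξ)) h1)

/-- The coordinates. -/
def yy (ξ : k) (m : ℕ) (j : Fin (X.d m)) : rg k (X.tx ξ) := X.ch ξ m (X.b m j)

theorem coe_yy (ξ : k) (m : ℕ) (j : Fin (X.d m)) :
    (X.yy ξ m j : F) = (X.b m j : F) * X.tx ξ ^ m := rfl

theorem yy_linearIndependent (ξ : k) (m : ℕ) : LinearIndependent k (X.yy ξ m) :=
  (X.b m).linearIndependent.map' (X.ch ξ m) (LinearMap.ker_eq_bot.2 (X.ch_injective ξ m))

/-- Coordinates of an element of `L m`. -/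
theorem exists_coord {m : ℕ} {z : F} (hz : z ∈ X.L m) :
    ∃ lam : Fin (X.d m) → k, ∑ j, lam j • (X.b m j : F) = z := by
  refine ⟨fun j => (X.b m).repr ⟨z, hz⟩ j, ?_⟩
  have := congrArg (Submodule.subtype _) ((X.b m).sum_repr ⟨z, hz⟩)
  rw [map_sum] at this
  exact this

/-- generation in the chart, as a subalgebra of `F` -/
theorem mem_adjoin_F {m1 : ℕ} (ξ : k) {a : ℕ} {z : F} (hz : z ∈ X.L m1 ^ a) :
    z * X.tx ξ ^ (a * m1) ∈
      Algebra.adjoin k (Set.range fun j => (X.yy ξ m1 j : F)) := by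
  induction a generalizing z with
  | zero =>
    rw [pow_zero] at hz
    rw [zero_mul, pow_zero, mul_one]
    obtain ⟨c, rfl⟩ := Submodule.mem_one.1 hz
    exact Subalgebra.algebraMap_mem _ c
  | succ a ih =>
    rw [pow_succ] at hz
    refine Submodule.mul_induction_on hz (fun u hu w hw => ?_) (fun u w hu hw => ?_)
    · have h1 := ih hu
      obtain ⟨lam, hlam⟩ := X.exists_coord hw
      have h2 : w * X.tx ξ ^ m1 ∈ Algebra.adjoin k (Set.range fun j => (X.yy ξ m1 j : F)) := by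
        rw [← hlam, Finset.sum_mul]
        refine sum_mem fun j _ => ?_
        rw [smul_mul_assoc]
        have h5 : (X.b m1 j : F) * X.tx ξ ^ m1 ∈
            Algebra.adjoin k (Set.range fun j => (X.yy ξ m1 j : F)) :=
          Algebra.subset_adjoin ⟨j, rfl⟩
        exact Subalgebra.smul_mem _ h5 _
      have h3 := mul_mem h1 h2
      have e : u * w * X.tx ξ ^ ((a + 1) * m1) =
          u * X.tx ξ ^ (a * m1) * (w * X.tx ξ ^ m1) := by
        rw [add_mul, one_mul, pow_add]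
        ring
      rw [e]
      exact h3
    · rw [add_mul]
      exact add_mem hu hw

theorem exists_pow_mem (ξ : k) {m1 : ℕ} (hm1 : 0 < m1) {z : F} (hz : z ∈ rg k (X.tx ξ)) :
    ∃ a : ℕ, z * (X.x - algebraMap k F ξ) ^ (a * m1) ∈ X.L (a * m1) := by
  classical
  by_cases h0 : z = 0
  · refine ⟨0, ?_⟩
    rw [zero_mul, h0, zero_mul]
    exact (X.L _).zero_mem
  have hfin : FinOrd (K := k) z := X.crv.fin z
  obtain ⟨a, hbound⟩ : ∃ a : ℕ, ∀ v : Place k F, -(a : ℤ) ≤ v.ord z := by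
    refine ⟨∑ v ∈ hfin.toFinset, (v.ord z).natAbs, fun v => ?_⟩
    by_cases hv : v.ord z = 0
    · rw [hv]
      have : (0 : ℤ) ≤ ((∑ v ∈ hfin.toFinset, (v.ord z).natAbs : ℕ) : ℤ) := Int.natCast_nonneg _
      omega
    · have h1 : (v.ord z).natAbs ≤ ∑ v ∈ hfin.toFinset, (v.ord z).natAbs :=
        Finset.single_le_sum (f := fun v : Place k F => (v.ord z).natAbs)
          (fun _ _ => Nat.zero_le _) (hfin.mem_toFinset.2 hv)
      omega
  refine ⟨a, ?_⟩
  have h3 : (a : ℤ) ≤ ((a * m1 : ℕ) : ℤ) := by exact_mod_cast Nat.le_mul_of_pos_right a hm1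
  rw [X.mem_L_ne (mul_ne_zero h0 (pow_ne_zero _ (X.sub_ne ξ)))]
  constructor
  · intro v hv
    rw [v.ord_mul h0 (pow_ne_zero _ (X.sub_ne ξ)), ord_pow]
    by_cases he : evp v X.x = ξ
    · have h1 := X.ord_sub_pos hv he
      have h2 := hbound v
      have h4 : ((a * m1 : ℕ) : ℤ) ≤ ((a * m1 : ℕ) : ℤ) * v.ord (X.x - algebraMap k F ξ) :=
        le_mul_of_one_le_right (Int.natCast_nonneg _) h1
      linarith
    · rw [X.ord_sub_eq_zero hv he, mul_zero, add_zero]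
      exact hz v (X.chart_iff.2 (Or.inr ⟨hv, he⟩))
  · rw [X.inf.ord_mul h0 (pow_ne_zero _ (X.sub_ne ξ)), ord_pow]
    have h1 : X.inf.ord (X.x - algebraMap k F ξ) = -(X.n0 : ℤ) := by
      have := X.ord_tx_inf ξ
      rw [tx, X.inf.ord_inv] at this
      omega
    have h2 : 0 ≤ X.inf.ord z := hz _ (X.chart_inf ξ)
    rw [h1, Nat.cast_mul (a * m1) X.n0]
    linarith

theorem adjoin_yy (ξ : k) {m1 : ℕ} (hm1 : 0 < m1)
    (hgen : ∀ a : ℕ, ∀ z ∈ X.L (a * m1), z ∈ X.L m1 ^ a) :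
    Algebra.adjoin k (Set.range (X.yy ξ m1)) = ⊤ := by
  rw [eq_top_iff]
  rintro ⟨z, hz⟩ -
  obtain ⟨a, ha⟩ := X.exists_pow_mem ξ hm1 hz
  have h1 := X.mem_adjoin_F (m1 := m1) ξ (hgen a _ ha)
  have e : z * (X.x - algebraMap k F ξ) ^ (a * m1) * X.tx ξ ^ (a * m1) = z := by
    rw [mul_assoc, ← mul_pow, tx, mul_inv_cancel₀ (X.sub_ne ξ), one_pow, mul_one]
  rw [e] at h1
  have h2 : (Algebra.adjoin k (Set.range (X.yy ξ m1))).map (rg k (X.tx ξ)).val =
      Algebra.adjoin k (Set.range fun j => (X.yy ξ m1 j : F)) := by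
    rw [AlgHom.map_adjoin, ← Set.range_comp]
    rfl
  rw [← h2] at h1
  obtain ⟨z', hz', hzz⟩ := h1
  have : z' = ⟨z, hz⟩ := Subtype.ext hzz
  rw [← this]
  exact hz'

theorem pole_yy (ξ : k) {m1 : ℕ} (hm1 : 0 < m1) (v : Place k F) (hv : v.ord (X.tx ξ) < 0) :
    ∃ j, v.ord (X.yy ξ m1 j : F) < 0 := by
  by_contra hcon
  push Not at hcon
  obtain ⟨lam, hlam⟩ := X.exists_coord (X.one_mem_L m1)
  have h1 : X.tx ξ ^ m1 ∈ v.toValuationSubring := by
    have e : X.tx ξ ^ m1 = ∑ j, lam j • (X.yy ξ m1 j : F) := by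
      conv_lhs => rw [← one_mul (X.tx ξ ^ m1), ← hlam, Finset.sum_mul]
      refine Finset.sum_congr rfl fun j _ => ?_
      rw [smul_mul_assoc, X.coe_yy]
    rw [e]
    refine sum_mem fun j _ => ?_
    rw [Algebra.smul_def]
    exact mul_mem (v.algebraMap_mem' _) (mem_of_ord_nonneg v (hcon j))
  have h2 := ord_nonneg_of_mem v h1
  rw [ord_pow] at h2
  have h3 : (0 : ℤ) < m1 := by exact_mod_cast hm1
  have := mul_neg_of_pos_of_neg h3 hv
  omega

theorem finite_pr (ξ : k) {m1 : ℕ} (hm1 : 0 < m1) :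
    {u : k | ¬ ∃ p : Pr k (rg k (X.tx ξ)),
      p.w = ∑ j : Fin (X.d m1), u ^ (j : ℕ) • X.yy ξ m1 j}.Finite :=
  finite_exceptional (X.sep_tx ξ) _ fun v hv => X.pole_yy ξ hm1 v hv

end XD

section bounds

variable (V : AV k)

/-- roots of monic polynomials with bounded coefficients are bounded -/
theorem exists_root_bound (n : ℕ) (A : MC V.ι) : ∃ B : MC V.ι, ∀ i (c : Fin n → k) (u : k),
    u ^ n + ∑ j : Fin n, c j * u ^ (j : ℕ) = 0 → (∀ j, V.v i (c j) ≤ A.c i) →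
      V.v i u ≤ B.c i := by
  obtain ⟨L, hL⟩ := exists_lin V (fun _ : Fin n => (1 : k))
  refine ⟨L * A, fun i c u h hc => ?_⟩
  by_contra hcon
  push Not at hcon
  rw [MC.mul_c] at hcon
  have h1 : 1 ≤ L.c i * A.c i := one_le_mul_of_one_le_of_one_le (L.one_le i) (A.one_le i)
  have hu1 : 1 < V.v i u := lt_of_le_of_lt h1 hcon
  rcases Nat.eq_zero_or_pos n with rfl | hn
  · simp at h
  have h2 := hL i fun j : Fin n => c j * u ^ (j : ℕ)
  simp only [one_mul] at h2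
  have h3 : V.v i (u ^ n) = V.v i (∑ j : Fin n, c j * u ^ (j : ℕ)) := by
    rw [eq_neg_of_add_eq_zero_left h, AbsoluteValue.map_neg]
  have h4 : nrm V i (fun j : Fin n => c j * u ^ (j : ℕ)) ≤ A.c i * V.v i u ^ (n - 1) := by
    refine nrm_le V i (mul_nonneg (A.pos i).le (pow_nonneg ((V.v i).nonneg _) _)) fun j => ?_
    rw [map_mul, map_pow]
    refine mul_le_mul (hc j) (pow_le_pow_right₀ hu1.le (by omega)) (by positivity) (A.pos i).le
  rw [← h3, map_pow] at h2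
  have h5 : V.v i u ^ n = V.v i u ^ (n - 1) * V.v i u := by
    rw [← pow_succ]
    congr 1
    omega
  have h6 : 0 < V.v i u ^ (n - 1) := by positivity
  have h7 : V.v i u ^ (n - 1) * V.v i u ≤ V.v i u ^ (n - 1) * (L.c i * A.c i) := by
    rw [← h5]
    refine h2.trans ?_
    calc _ ≤ L.c i * (A.c i * V.v i u ^ (n - 1)) := mul_le_mul_of_nonneg_left h4 (L.pos i).le
      _ = _ := by ring
  have h8 := le_of_mul_le_mul_left h7 h6
  linarith

/-- **Boundedness** of regular functions where `t` is bounded. -/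
theorem bdd_rg {t : F} (h : Flat.Sep k t) (B : MC V.ι) (y : rg k t) : ∃ D : MC V.ι,
    ∀ i (v : Place k F), 0 ≤ v.ord t → V.v i (evp v t) ≤ B.c i →
      V.v i (evp v (y : F)) ≤ D.c i := by
  obtain ⟨p, hp⟩ := exists_pr (t := t) h fun z => Iff.rfl
  have hpw : p.w = ⟨t, self_mem_rg t⟩ := Subtype.ext hp
  obtain ⟨q, hq, hqy⟩ := p.fin.to_isIntegral y
  -- bound for the coefficients
  have hb : ∀ j : Fin q.natDegree, ∃ A : MC V.ι, ∀ i (u : k), V.v i u ≤ B.c i →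
      V.v i ((q.coeff j).eval u) ≤ A.c i := by
    intro j
    have h1 : Bdd V (fun i (u : k) => V.v i u ≤ B.c i) (fun u => u) := ⟨B, fun i u hu => hu⟩
    exact h1.eval (q.coeff j)
  choose A hA using hb
  obtain ⟨A', hA'⟩ := MC.exists_ge_fintype A
  obtain ⟨D, hD⟩ := exists_root_bound V q.natDegree A'
  refine ⟨D, fun i v hv hB => hD i (fun j => (q.coeff j).eval (evp v t)) _ ?_
    fun j => (hA j i _ hB).trans (hA' j i)⟩
  have h2 := congrArg (pt h v hv) hqy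
  rw [map_zero, Polynomial.eval₂_eq_sum_range, map_sum, Finset.sum_range_succ] at h2
  have h3 : ∀ c : Polynomial k, pt h v hv ((Polynomial.aeval p.w : Polynomial k →ₐ[k] _).toRingHom c)
      = c.eval (evp v t) := by
    intro c
    change pt h v hv (Polynomial.aeval p.w c) = _
    rw [← Polynomial.aeval_algHom_apply, hpw, Polynomial.coe_aeval_eq_eval]
    rfl
  simp only [map_mul, map_pow, h3] at h2
  rw [hq.coeff_natDegree, Polynomial.eval_one, one_mul, add_comm] at h2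
  rw [← h2]
  congr 1
  rw [Finset.sum_range]
  rfl

namespace XD

/-- Points which are far from the fibre `x = ξ`. -/
def Near (B : MC V.ι) (i : V.ι) (ξ : k) (v : Place k F) : Prop :=
  v ≠ X.inf ∧ X.sz V i v ≤ B.c i * V.v i (evp v X.x - ξ)

variable {X V}

theorem one_le_sz (i : V.ι) (v : Place k F) : 1 ≤ X.sz V i v := le_max_left _ _

theorem sz_pos (i : V.ι) (v : Place k F) : 0 < X.sz V i v :=
  lt_of_lt_of_le one_pos (one_le_sz i v)

theorem Near.pos {B : MC V.ι} {i : V.ι} {ξ : k} {v : Place k F} (h : X.Near V B i ξ v) :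
    0 < V.v i (evp v X.x - ξ) := by
  have h1 := (sz_pos (X := X) i v).trans_le h.2
  exact pos_of_mul_pos_right h1 (B.pos i).le

theorem Near.ne {B : MC V.ι} {i : V.ι} {ξ : k} {v : Place k F} (h : X.Near V B i ξ v) :
    evp v X.x ≠ ξ := by
  intro he
  have := h.pos
  rw [he, sub_self, map_zero] at this
  exact lt_irrefl _ this

theorem Near.chart {B : MC V.ι} {i : V.ι} {ξ : k} {v : Place k F} (h : X.Near V B i ξ v) :
    0 ≤ v.ord (X.tx ξ) := X.chart_iff.2 (Or.inr ⟨h.1, h.ne⟩)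

theorem Near.tx_mul {B : MC V.ι} {i : V.ι} {ξ : k} {v : Place k F} (h : X.Near V B i ξ v) :
    V.v i (evp v (X.tx ξ)) * X.sz V i v ≤ B.c i := by
  rw [X.evp_tx h.1 h.ne, map_inv₀, inv_mul_le_iff₀ h.pos, mul_comm]
  exact h.2

theorem Near.tx_le {B : MC V.ι} {i : V.ι} {ξ : k} {v : Place k F} (h : X.Near V B i ξ v) :
    V.v i (evp v (X.tx ξ)) ≤ B.c i :=
  (le_mul_of_one_le_right ((V.v i).nonneg _) (one_le_sz i v)).trans h.tx_mul

theorem Near.tx_pos {B : MC V.ι} {i : V.ι} {ξ : k} {v : Place k F} (h : X.Near V B i ξ v) :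
    0 < V.v i (evp v (X.tx ξ)) := by
  rw [X.evp_tx h.1 h.ne, map_inv₀]
  exact inv_pos.2 h.pos

variable (X V)

theorem exists_sub_le (ξ : k) : ∃ D : MC V.ι, ∀ i (v : Place k F),
    V.v i (evp v X.x - ξ) ≤ D.c i * X.sz V i v := by
  obtain ⟨E, hE⟩ := V.exists_bound ξ
  refine ⟨V.two * E, fun i v => ?_⟩
  rw [MC.mul_c, mul_assoc, sub_eq_add_neg]
  refine V.add_le i _ _ ?_ ?_
  · refine (le_max_right 1 _ : V.v i (evp v X.x) ≤ X.sz V i v).trans ?_
    exact le_mul_of_one_le_left (sz_pos i v).le (E.one_le i)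
  · rw [(V.v i).map_neg]
    exact (hE i).trans (le_mul_of_one_le_right (E.pos i).le (one_le_sz i v))

theorem exists_tx_ge (ξ : k) (B : MC V.ι) : ∃ D : MC V.ι, ∀ i (v : Place k F),
    X.Near V B i ξ v → 1 ≤ D.c i * (V.v i (evp v (X.tx ξ)) * X.sz V i v) := by
  obtain ⟨D, hD⟩ := X.exists_sub_le V ξ
  refine ⟨D, fun i v h => ?_⟩
  have h1 := hD i v
  rw [X.evp_tx h.1 h.ne, map_inv₀]
  have h2 := h.pos
  calc (1 : ℝ) = (V.v i (evp v X.x - ξ))⁻¹ * V.v i (evp v X.x - ξ) := (inv_mul_cancel₀ h2.ne').symm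
    _ ≤ (V.v i (evp v X.x - ξ))⁻¹ * (D.c i * X.sz V i v) :=
      mul_le_mul_of_nonneg_left h1 (inv_pos.2 h2).le
    _ = _ := by ring

/-- **Selection of a chart** for finitely many points. -/
theorem exists_sel (n : ℕ) : ∃ (Ξ : Finset k) (B : MC V.ι), ∀ i (P : Fin n → Place k F),
    (∀ l, P l ≠ X.inf) → ∃ ξ ∈ Ξ, ∀ l, X.Near V B i ξ (P l) := by
  classical
  obtain ⟨Ξ, hΞ⟩ := Infinite.exists_subset_card_eq k (n + 1)
  obtain ⟨B, hB⟩ := V.exists_pigeon (s := 2) Ξ n (by rw [hΞ]; omega)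
  refine ⟨Ξ, B, fun i P hP => ?_⟩
  obtain ⟨ξ, hξ, h⟩ := hB i (Finset.univ : Finset (Fin n)) (fun l => ![evp (P l) X.x, -1])
    (by simp)
  refine ⟨ξ, hξ, fun l => ⟨hP l, ?_⟩⟩
  have h1 := h l (Finset.mem_univ l) 0
  have h2 := h l (Finset.mem_univ l) 1
  have e : pv ![evp (P l) X.x, -1] ξ = evp (P l) X.x - ξ := by
    simp [pv, Fin.sum_univ_two]
    ring
  rw [e] at h1 h2
  simp only [Matrix.cons_val_zero, Matrix.cons_val_one, AbsoluteValue.map_neg, map_one] at h1 h2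
  exact max_le h2 h1

end XD

end bounds

end Fermat.Agent.MW
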