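import Mathlib
import Fermat.Agent.MW.AV
import Fermat.Agent.MW.Nrm

/-! # Polynomial functions of (coefficients, point) and the Nullstellensatz -/

set_option autoImplicit false
set_option linter.style.haveILetI false
set_option linter.unusedSectionVars false

noncomputable section

open Polynomial

namespace Fermat.Agent.MW

variable {k R : Type*} [Field k] [CommRing R] [Algebra k R]
variable (r : ℕ) {s : ℕ} (y : Fin s → R)

/-- Coordinates on (coefficients, point). -/
def coordF : (Fin r ⊕ Fin s) → ((Fin r → k) × (R →ₐ[k] k) → k) :=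
  Sum.elim (fun j d => d.1 j) (fun j d => d.2 (y j))

variable (k) in
/-- Polynomial functions. -/
def PolyF : Subalgebra k ((Fin r → k) × (R →ₐ[k] k) → k) :=
  (MvPolynomial.aeval (coordF (k := k) r y)).range

variable {r} {y}

lemma aeval_coordF_apply (G : MvPolynomial (Fin r ⊕ Fin s) k) (d : (Fin r → k) × (R →ₐ[k] k)) :
    MvPolynomial.aeval (coordF (k := k) r y) G d =
      MvPolynomial.eval (fun v => coordF (k := k) r y v d) G := by
  induction G using MvPolynomial.induction_on with
  | C a => simp [MvPolynomial.algebraMap_eq]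
  | add p q hp hq => rw [map_add, Pi.add_apply, hp, hq, map_add]
  | mul_X p v hp => rw [map_mul, Pi.mul_apply, hp, map_mul]; simp

lemma PolyF.coord (j : Fin r) : (fun d : (Fin r → k) × (R →ₐ[k] k) => d.1 j) ∈ PolyF k r y :=
  ⟨MvPolynomial.X (Sum.inl j), by simp [coordF]⟩

lemma PolyF.coord' (j : Fin s) : (fun d : (Fin r → k) × (R →ₐ[k] k) => d.2 (y j)) ∈ PolyF k r y :=
  ⟨MvPolynomial.X (Sum.inr j), by simp [coordF]⟩

lemma PolyF.const (a : k) : (fun _ : (Fin r → k) × (R →ₐ[k] k) => a) ∈ PolyF k r y :=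
  (PolyF k r y).algebraMap_mem a

lemma PolyF.ev (hy : Algebra.adjoin k (Set.range y) = ⊤) (a : R) :
    (fun d : (Fin r → k) × (R →ₐ[k] k) => d.2 a) ∈ PolyF k r y := by
  have ha : a ∈ Algebra.adjoin k (Set.range y) := by rw [hy]; trivial
  rw [Algebra.adjoin_range_eq_range_aeval] at ha
  obtain ⟨p, hp⟩ := ha
  rw [← hp]
  clear hp
  change (fun d : (Fin r → k) × (R →ₐ[k] k) => d.2 (MvPolynomial.aeval y p)) ∈ PolyF k r y
  induction p using MvPolynomial.induction_on with
  | C a =>
    have : (fun d : (Fin r → k) × (R →ₐ[k] k) => d.2 (MvPolynomial.aeval y (MvPolynomial.C a))) =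
        fun _ => a := by
      ext d
      simp
    rw [this]
    exact PolyF.const a
  | add p q hp hq =>
    have : (fun d : (Fin r → k) × (R →ₐ[k] k) => d.2 (MvPolynomial.aeval y (p + q))) =
        (fun d => d.2 (MvPolynomial.aeval y p)) + fun d => d.2 (MvPolynomial.aeval y q) := by
      ext d
      simp
    rw [this]
    exact add_mem hp hq
  | mul_X p v hp =>
    have : (fun d : (Fin r → k) × (R →ₐ[k] k) =>
        d.2 (MvPolynomial.aeval y (p * MvPolynomial.X v))) =
        (fun d => d.2 (MvPolynomial.aeval y p)) * fun d => d.2 (y v) := by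
      ext d
      simp
    rw [this]
    exact mul_mem hp (PolyF.coord' v)

lemma PolyF.sum' {α : Type*} (t : Finset α) {f : α → (Fin r → k) × (R →ₐ[k] k) → k}
    (hf : ∀ a ∈ t, f a ∈ PolyF k r y) : (fun d => ∑ a ∈ t, f a d) ∈ PolyF k r y := by
  have : (fun d => ∑ a ∈ t, f a d) = ∑ a ∈ t, f a := by ext d; simp
  rw [this]
  exact sum_mem hf

lemma PolyF.prod' {α : Type*} (t : Finset α) {f : α → (Fin r → k) × (R →ₐ[k] k) → k}
    (hf : ∀ a ∈ t, f a ∈ PolyF k r y) : (fun d => ∏ a ∈ t, f a d) ∈ PolyF k r y := by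
  have : (fun d => ∏ a ∈ t, f a d) = ∏ a ∈ t, f a := by ext d; simp
  rw [this]
  exact prod_mem hf

lemma PolyF.mul' {f g : (Fin r → k) × (R →ₐ[k] k) → k} (hf : f ∈ PolyF k r y)
    (hg : g ∈ PolyF k r y) : (fun d => f d * g d) ∈ PolyF k r y := mul_mem hf hg

lemma PolyF.det' {n : Type*} [Fintype n] [DecidableEq n]
    {M : (Fin r → k) × (R →ₐ[k] k) → Matrix n n k}
    (hM : ∀ a b, (fun d => M d a b) ∈ PolyF k r y) : (fun d => (M d).det) ∈ PolyF k r y := by
  simp only [Matrix.det_apply, Units.smul_def, zsmul_eq_mul]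
  refine PolyF.sum' _ fun σ _ => PolyF.mul' ?_ (PolyF.prod' _ fun a _ => hM _ _)
  exact PolyF.const _

lemma PolyF.adjugate' {n : Type*} [Fintype n] [DecidableEq n]
    {M : (Fin r → k) × (R →ₐ[k] k) → Matrix n n k}
    (hM : ∀ a b, (fun d => M d a b) ∈ PolyF k r y) (a b : n) :
    (fun d => (M d).adjugate a b) ∈ PolyF k r y := by
  simp only [Matrix.adjugate_apply]
  refine PolyF.det' fun i j => ?_
  simp only [Matrix.updateRow_apply]
  split_ifs
  · exact PolyF.const _
  · exact hM _ _

lemma PolyF.eval' {f : (Fin r → k) × (R →ₐ[k] k) → k} (hf : f ∈ PolyF k r y) (p : k[X]) :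
    (fun d => p.eval (f d)) ∈ PolyF k r y := by
  simp only [Polynomial.eval_eq_sum, Polynomial.sum_def]
  refine PolyF.sum' _ fun n _ => PolyF.mul' (PolyF.const _) ?_
  exact pow_mem hf n

lemma PolyF.bdd (V : AV k) {reg : V.ι → (Fin r → k) × (R →ₐ[k] k) → Prop}
    (h1 : ∀ j : Fin r, Bdd V reg fun d => d.1 j) (h2 : ∀ j : Fin s, Bdd V reg fun d => d.2 (y j))
    {f : (Fin r → k) × (R →ₐ[k] k) → k} (hf : f ∈ PolyF k r y) : Bdd V reg f := by
  obtain ⟨G, rfl⟩ := hf
  have : (MvPolynomial.aeval (coordF (k := k) r y)).toRingHom G =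
      fun d => MvPolynomial.eval (fun v => coordF (k := k) r y v d) G := by
    ext d
    exact aeval_coordF_apply G d
  rw [this]
  refine Bdd.mvEval (f := fun v d => coordF (k := k) r y v d) ?_ G
  rintro (j | j)
  · exact h1 j
  · exact h2 j

/-- **The Nullstellensatz** for polynomial functions on `{c_{j₀} = 1} × Spec R`. -/
theorem exists_NS [IsAlgClosed k] (hy : Algebra.adjoin k (Set.range y) = ⊤) (j0 : Fin r)
    {α : Type*} [Fintype α] (g : α → (Fin r → k) × (R →ₐ[k] k) → k)
    (hg : ∀ a, g a ∈ PolyF k r y)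
    (h : ∀ d : (Fin r → k) × (R →ₐ[k] k), d.1 j0 = 1 → ∃ a, g a d ≠ 0) :
    ∃ u : α → (Fin r → k) × (R →ₐ[k] k) → k, (∀ a, u a ∈ PolyF k r y) ∧
      ∀ d : (Fin r → k) × (R →ₐ[k] k), d.1 j0 = 1 → ∑ a, u a d * g a d = 1 := by
  classical
  choose G hG using hg
  have hG' : ∀ a d, g a d = MvPolynomial.eval (fun v => coordF (k := k) r y v d) (G a) := by
    intro a d
    rw [← aeval_coordF_apply, ← hG a]
    rfl
  let rn : MvPolynomial (Fin s) k →ₐ[k] MvPolynomial (Fin r ⊕ Fin s) k :=
    MvPolynomial.rename Sum.inr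
  let π : MvPolynomial (Fin s) k →ₐ[k] R := MvPolynomial.aeval y
  have hπ : Function.Surjective π := by
    rw [← AlgHom.range_eq_top, ← Algebra.adjoin_range_eq_range_aeval, hy]
  let I1 : Ideal (MvPolynomial (Fin r ⊕ Fin s) k) := Ideal.span (Set.range G)
  let I2 : Ideal (MvPolynomial (Fin r ⊕ Fin s) k) :=
    Ideal.span {MvPolynomial.X (Sum.inl j0) - 1}
  let I3 : Ideal (MvPolynomial (Fin r ⊕ Fin s) k) := (RingHom.ker π).map rn
  -- the ideal is everything
  have htop : I1 ⊔ I2 ⊔ I3 = ⊤ := by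
    by_contra hne
    have h1 : (MvPolynomial.zeroLocus k (I1 ⊔ I2 ⊔ I3)).Nonempty := by
      by_contra he
      rw [Set.not_nonempty_iff_eq_empty] at he
      have h2 := MvPolynomial.vanishingIdeal_zeroLocus_eq_radical (k := k) (K := k)
        (I1 ⊔ I2 ⊔ I3)
      rw [he, MvPolynomial.vanishingIdeal_empty] at h2
      exact hne (Ideal.radical_eq_top.mp h2.symm)
    obtain ⟨z, hz⟩ := h1
    have hz' : ∀ p ∈ I1 ⊔ I2 ⊔ I3, MvPolynomial.eval z p = 0 := by
      intro p hp
      have := (MvPolynomial.mem_zeroLocus_iff.mp hz) p hp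
      simpa [MvPolynomial.aeval_def] using this
    -- the point of `Spec R`
    have hker : ∀ f : MvPolynomial (Fin s) k, π f = 0 →
        MvPolynomial.aeval (fun j => z (Sum.inr j)) f = (0 : k) := by
      intro f hf
      have h3 : rn f ∈ I1 ⊔ I2 ⊔ I3 :=
        Ideal.mem_sup_right (Ideal.mem_map_of_mem rn (RingHom.mem_ker.mpr hf))
      have h4 := hz' _ h3
      have h5 : MvPolynomial.eval z (rn f) =
          MvPolynomial.aeval (fun j => z (Sum.inr j)) f := by
        change MvPolynomial.eval z (MvPolynomial.rename Sum.inr f) = _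
        rw [MvPolynomial.eval_rename]
        rfl
      rw [← h5, h4]
    let Q : R →ₐ[k] k :=
      (Ideal.Quotient.liftₐ (RingHom.ker π) (MvPolynomial.aeval (fun j => z (Sum.inr j)))
        (fun f hf => hker f hf)).comp (Ideal.quotientKerAlgEquivOfSurjective hπ).symm.toAlgHom
    have hQ : ∀ j, Q (y j) = z (Sum.inr j) := by
      intro j
      have h6 : (Ideal.quotientKerAlgEquivOfSurjective hπ).symm (y j) =
          Ideal.Quotient.mk _ (MvPolynomial.X j) := by
        rw [AlgEquiv.symm_apply_eq]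
        change _ = π (MvPolynomial.X j)
        simp [π]
      change (Ideal.Quotient.liftₐ (RingHom.ker π)
        (MvPolynomial.aeval (fun j => z (Sum.inr j))) (fun f hf => hker f hf))
        ((Ideal.quotientKerAlgEquivOfSurjective hπ).symm (y j)) = _
      rw [h6]
      change MvPolynomial.aeval (fun j => z (Sum.inr j)) (MvPolynomial.X j) = _
      simp
    have hc : z (Sum.inl j0) = 1 := by
      have h7 : (MvPolynomial.X (Sum.inl j0) - 1 : MvPolynomial (Fin r ⊕ Fin s) k) ∈
          I1 ⊔ I2 ⊔ I3 :=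
        Ideal.mem_sup_left (Ideal.mem_sup_right (Ideal.mem_span_singleton_self _))
      have := hz' _ h7
      simpa [sub_eq_zero] using this
    obtain ⟨a, ha⟩ := h (fun j => z (Sum.inl j), Q) hc
    apply ha
    rw [hG']
    have h8 : (fun v => coordF (k := k) r y v (fun j => z (Sum.inl j), Q)) = z := by
      ext v
      rcases v with v | v
      · rfl
      · exact hQ v
    rw [h8]
    exact hz' _ (Ideal.mem_sup_left (Ideal.mem_sup_left (Ideal.subset_span ⟨a, rfl⟩)))
  have h1 : (1 : MvPolynomial (Fin r ⊕ Fin s) k) ∈ I1 ⊔ I2 ⊔ I3 := by rw [htop]; trivial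
  obtain ⟨a12, ha12, a3, ha3, e1⟩ := Submodule.mem_sup.mp h1
  obtain ⟨a1, ha1, a2, ha2, e2⟩ := Submodule.mem_sup.mp ha12
  obtain ⟨U, hU⟩ := (Ideal.mem_span_range_iff_exists_fun).mp ha1
  refine ⟨fun a => MvPolynomial.aeval (coordF (k := k) r y) (U a), fun a => ⟨U a, rfl⟩,
    fun d hd => ?_⟩
  have h2 : MvPolynomial.eval (fun v => coordF (k := k) r y v d) a2 = 0 := by
    obtain ⟨q, rfl⟩ := Ideal.mem_span_singleton'.mp ha2
    rw [map_mul, map_sub, map_one, MvPolynomial.eval_X]
    simp [coordF, hd]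
  have h3 : MvPolynomial.eval (fun v => coordF (k := k) r y v d) a3 = 0 := by
    have h4 : I3 ≤ RingHom.ker (MvPolynomial.eval (fun v => coordF (k := k) r y v d)) := by
      refine Ideal.map_le_iff_le_comap.mpr fun f hf => ?_
      rw [Ideal.mem_comap, RingHom.mem_ker]
      change MvPolynomial.eval _ (MvPolynomial.rename Sum.inr f) = 0
      rw [MvPolynomial.eval_rename]
      have h5 : d.2 (π f) = MvPolynomial.eval (fun j => d.2 (y j)) f := by
        change d.2 (MvPolynomial.aeval y f) = _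
        rw [MvPolynomial.comp_aeval_apply]
        rfl
      have h6 : ((fun v => coordF (k := k) r y v d) ∘ Sum.inr) = fun j => d.2 (y j) := rfl
      rw [h6, ← h5, RingHom.mem_ker.mp hf, map_zero]
    exact RingHom.mem_ker.mp (h4 ha3)
  have h4 : ∑ a, MvPolynomial.eval (fun v => coordF (k := k) r y v d) (U a) *
      MvPolynomial.eval (fun v => coordF (k := k) r y v d) (G a) = 1 := by
    have h5 := congrArg (MvPolynomial.eval (fun v => coordF (k := k) r y v d)) e1
    rw [← e2, ← hU, map_add, map_add, h2, h3, add_zero, add_zero, map_one, map_sum] at h5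
    rw [← h5]
    exact Finset.sum_congr rfl fun a _ => (map_mul _ _ _).symm
  rw [← h4]
  refine Finset.sum_congr rfl fun a _ => ?_
  rw [hG', ← aeval_coordF_apply (U a)]

end Fermat.Agent.MW
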