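import Mathlib
import Fermat.Agent.MW.NS

/-! # The norm and the cofactor as polynomial functions -/

set_option autoImplicit false
set_option linter.style.haveILetI false
set_option linter.unusedSectionVars false

noncomputable section

open Polynomial

namespace Fermat.Agent.MW

variable {k R : Type*} [Field k] [CommRing R] [IsDomain R] [Algebra k R]
variable {r : ℕ} {s : ℕ} {y : Fin s → R}

/-- The element with coefficients `c`. -/
def el (b : Fin r → R) (c : Fin r → k) : R := ∑ j, c j • b j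

lemma el_ne_zero {b : Fin r → R} (hb : LinearIndependent k b) {c : Fin r → k} (hc : c ≠ 0) :
    el b c ≠ 0 := by
  intro h
  apply hc
  funext j
  exact (Fintype.linearIndependent_iff.mp hb) c h j

lemma el_smul (b : Fin r → R) (c : Fin r → k) (a : k) : el b (a • c) = a • el b c := by
  simp only [el, Pi.smul_apply, Finset.smul_sum, smul_smul, smul_eq_mul]

/-- The multiplication matrix at a point. -/
def Mev (p : Pr k R) (b : Fin r → R) (c : Fin r → k) (t : k) : Matrix (Fin p.n) (Fin p.n) k :=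
  fun x z => ∑ j, c j * (p.M (b j) x z).eval t

lemma Mev_eq (p : Pr k R) (b : Fin r → R) (c : Fin r → k) (t : k) :
    Mev p b c t = (Polynomial.evalRingHom t).mapMatrix (p.M (el b c)) := by
  ext x z
  rw [RingHom.mapMatrix_apply, Matrix.map_apply, el, p.M_sum, Matrix.sum_apply, map_sum]
  refine Finset.sum_congr rfl fun j _ => ?_
  rw [Algebra.smul_def, p.M_algebraMap_mul, Matrix.smul_apply, smul_eq_mul, map_mul]
  simp

lemma N_eval (p : Pr k R) (b : Fin r → R) (c : Fin r → k) (t : k) :
    (p.N (el b c)).eval t = (Mev p b c t).det := by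
  rw [Mev_eq, Pr.N, ← RingHom.map_det]
  rfl

lemma alg_aeval (Q : R →ₐ[k] k) (w : R) (f : k[X]) : Q (aeval w f) = f.eval (Q w) := by
  rw [← Polynomial.aeval_algHom_apply]
  simp [Polynomial.aeval_def]

lemma adj_ev (p : Pr k R) (b : Fin r → R) (c : Fin r → k) (Q : R →ₐ[k] k) :
    Q (p.adj (el b c)) = ∑ l, Q (p.r l) *
      ∑ m, (Mev p b c (Q p.w)).adjugate l m * (p.u m).eval (Q p.w) := by
  rw [Pr.adj, map_sum]
  refine Finset.sum_congr rfl fun l _ => ?_
  rw [map_mul, alg_aeval, Matrix.mulVec, dotProduct, Polynomial.eval_finset_sum, Mev_eq,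
    ← RingHom.map_adjugate]
  simp only [Polynomial.eval_mul]
  rfl

lemma PolyF.Mev_mem (hy : Algebra.adjoin k (Set.range y) = ⊤) (p : Pr k R) (b : Fin r → R)
    (x z : Fin p.n) :
    (fun d : (Fin r → k) × (R →ₐ[k] k) => Mev p b d.1 (d.2 p.w) x z) ∈ PolyF k r y := by
  simp only [Mev]
  refine PolyF.sum' _ fun j _ => PolyF.mul' (PolyF.coord j) (PolyF.eval' (PolyF.ev hy _) _)

lemma PolyF.adj_mem (hy : Algebra.adjoin k (Set.range y) = ⊤) (p : Pr k R) (b : Fin r → R) :
    (fun d : (Fin r → k) × (R →ₐ[k] k) => d.2 (p.adj (el b d.1))) ∈ PolyF k r y := by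
  simp only [adj_ev]
  refine PolyF.sum' _ fun l _ => PolyF.mul' (PolyF.ev hy _) (PolyF.sum' _ fun m _ =>
    PolyF.mul' ?_ (PolyF.eval' (PolyF.ev hy _) _))
  exact PolyF.adjugate' (M := fun d : (Fin r → k) × (R →ₐ[k] k) => Mev p b d.1 (d.2 p.w))
    (fun a b' => PolyF.Mev_mem hy p b a b') l m

lemma PolyF.N_mem (p : Pr k R) (b : Fin r → R) (t : k) :
    (fun d : (Fin r → k) × (R →ₐ[k] k) => (p.N (el b d.1)).eval t) ∈ PolyF k r y := by
  simp only [N_eval]
  refine PolyF.det' fun x z => ?_
  simp only [Mev]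
  exact PolyF.sum' _ fun j _ => PolyF.mul' (PolyF.coord j) (PolyF.const _)

/-- The degree of the norm is bounded. -/
lemma exists_natDegree_le (p : Pr k R) (b : Fin r → R) :
    ∃ D : ℕ, ∀ c : Fin r → k, (p.N (el b c)).natDegree ≤ D := by
  classical
  set D0 : ℕ := ∑ j, ∑ x, ∑ z, (p.M (b j) x z).natDegree with hD0
  refine ⟨p.n * D0, fun c => ?_⟩
  have hent : ∀ x z, (p.M (el b c) x z).natDegree ≤ D0 := by
    intro x z
    rw [el, p.M_sum, Matrix.sum_apply]
    refine Polynomial.natDegree_sum_le_of_forall_le _ _ fun j _ => ?_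
    rw [Algebra.smul_def, p.M_algebraMap_mul, Matrix.smul_apply, smul_eq_mul]
    refine (Polynomial.natDegree_C_mul_le _ _).trans ?_
    rw [hD0]
    calc (p.M (b j) x z).natDegree ≤ ∑ z, (p.M (b j) x z).natDegree :=
          Finset.single_le_sum (f := fun z => (p.M (b j) x z).natDegree)
            (fun _ _ => Nat.zero_le _) (Finset.mem_univ z)
      _ ≤ ∑ x, ∑ z, (p.M (b j) x z).natDegree :=
          Finset.single_le_sum (f := fun x => ∑ z, (p.M (b j) x z).natDegree)
            (fun _ _ => Nat.zero_le _) (Finset.mem_univ x)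
      _ ≤ _ := Finset.single_le_sum (f := fun j => ∑ x, ∑ z, (p.M (b j) x z).natDegree)
            (fun _ _ => Nat.zero_le _) (Finset.mem_univ j)
  rw [Pr.N, Matrix.det_apply]
  refine Polynomial.natDegree_sum_le_of_forall_le _ _ fun σ _ => ?_
  refine (Polynomial.natDegree_smul_le _ _).trans ?_
  refine (Polynomial.natDegree_prod_le _ _).trans ?_
  calc ∑ i, (p.M (el b c) (σ i) i).natDegree ≤ ∑ _i : Fin p.n, D0 :=
        Finset.sum_le_sum fun i _ => hent _ _
    _ = p.n * D0 := by simp

end Fermat.Agent.MW
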