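import Mathlib
import Fermat.Agent.MW.Loc1

/-! # Non-vanishing of the cofactor -/

set_option autoImplicit false
set_option linter.style.haveILetI false
set_option linter.unusedSectionVars false
set_option linter.overlappingInstances false

noncomputable section

open Polynomial

namespace Fermat.Agent.MW

/-- The trivial system. -/
def AV.triv (k : Type*) [Field k] [DecidableEq k] : AV k where
  ι := Unit
  v := fun _ => AbsoluteValue.trivial
  arch := ∅
  arch_fin := Set.finite_empty
  nonarch := fun i _ a b => by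
    by_cases ha : a = 0
    · subst ha; simp
    by_cases hb : b = 0
    · subst hb; simp
    have h1 : (AbsoluteValue.trivial : AbsoluteValue k ℝ) a = 1 :=
      AbsoluteValue.trivial_apply ha
    rw [h1]
    refine le_trans ?_ (le_max_left _ _)
    by_cases hab : a + b = 0
    · rw [hab, map_zero]; exact zero_le_one
    · rw [AbsoluteValue.trivial_apply hab]
  fin := fun a ha => by
    refine Set.Finite.subset (Set.finite_empty) fun i hi => ?_
    exact absurd (AbsoluteValue.trivial_apply ha) hi

/-- Algebraic pigeonhole. -/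
lemma exists_pv_ne_zero {k : Type*} [Field k] {s : ℕ} (T : Finset k) (m : ℕ)
    (hT : m * (s - 1) < T.card) {α : Type} (S : Finset α) (c : α → Fin s → k) (hS : S.card ≤ m)
    (hc : ∀ l ∈ S, c l ≠ 0) : ∃ t ∈ T, ∀ l ∈ S, pv (c l) t ≠ 0 := by
  classical
  obtain ⟨C, hC⟩ := (AV.triv k).exists_pigeon (s := s) T m hT
  obtain ⟨t, ht, h⟩ := hC () S c hS
  refine ⟨t, ht, fun l hl h0 => hc l hl ?_⟩
  funext j
  have h1 := h l hl j
  rw [h0, map_zero, mul_zero] at h1
  exact (AbsoluteValue.eq_zero _).mp (le_antisymm h1 (AbsoluteValue.nonneg _ _))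

variable {k R : Type*} [Field k] [IsAlgClosed k] [CharZero k] [CommRing R] [IsDomain R]
  [Algebra k R]

/-- A point is determined by its kernel. -/
lemma point_eq_of_ker {P Q : R →ₐ[k] k} (h : RingHom.ker P ≤ RingHom.ker Q) : P = Q := by
  ext a
  have h1 : a - algebraMap k R (P a) ∈ RingHom.ker P := by
    rw [RingHom.mem_ker, map_sub, P.commutes]; simp
  have h2 := h h1
  rw [RingHom.mem_ker, map_sub, Q.commutes, sub_eq_zero] at h2
  simpa using h2.symm

lemma exists_point [Algebra.FiniteType k R] (m : Ideal R) [hm : m.IsMaximal] :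
    ∃ Q : R →ₐ[k] k, RingHom.ker Q = m := by
  letI : Field (R ⧸ m) := Ideal.Quotient.field m
  haveI : Algebra.FiniteType k (R ⧸ m) :=
    Algebra.FiniteType.of_surjective (Ideal.Quotient.mkₐ k m) (Ideal.Quotient.mkₐ_surjective k m)
  haveI : Module.Finite k (R ⧸ m) := finite_of_finite_type_of_isJacobsonRing k (R ⧸ m)
  have hb : Function.Bijective (algebraMap k (R ⧸ m)) :=
    IsAlgClosed.algebraMap_bijective_of_isIntegral
  let e : k ≃ₐ[k] (R ⧸ m) := AlgEquiv.ofBijective (Algebra.ofId k (R ⧸ m)) hb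
  refine ⟨(e.symm : (R ⧸ m) →ₐ[k] k).comp (Ideal.Quotient.mkₐ k m), ?_⟩
  ext a
  rw [RingHom.mem_ker]
  change e.symm (Ideal.Quotient.mk m a) = 0 ↔ _
  rw [map_eq_zero_iff _ e.symm.injective, Ideal.Quotient.eq_zero_iff_mem]

/-- The zeros of an element. -/
lemma exists_zeros [IsDedekindDomain R] [Algebra.FiniteType k R] {A : R} (hA : A ≠ 0) :
    ∃ (n : ℕ) (P : Fin n → (R →ₐ[k] k)), Ideal.span {A} = ∏ l, RingHom.ker (P l) := by
  classical
  have hI : (Ideal.span {A} : Ideal R) ≠ 0 := by
    rw [Ne, Ideal.zero_eq_bot, Ideal.span_singleton_eq_bot]; exact hA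
  obtain ⟨f, hf, e⟩ := UniqueFactorizationMonoid.exists_prime_factors _ hI
  rw [associated_iff_eq] at e
  have hP : ∀ b : f.toList.toFinset, True := fun _ => trivial
  have hpt : ∀ q ∈ f, ∃ Q : R →ₐ[k] k, RingHom.ker Q = q := by
    intro q hq
    have hqp := hf q hq
    haveI : q.IsPrime := Ideal.isPrime_of_prime hqp
    haveI : q.IsMaximal := Ideal.IsPrime.isMaximal inferInstance hqp.ne_zero
    exact exists_point q
  let L := f.toList
  have hL : ∀ l : Fin L.length, ∃ Q : R →ₐ[k] k, RingHom.ker Q = L.get l := fun l =>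
    hpt _ (Multiset.mem_toList.mp (List.get_mem L l))
  choose P hP using hL
  refine ⟨L.length, P, ?_⟩
  rw [← e]
  have h1 : f.prod = L.prod := by rw [← Multiset.prod_toList]
  rw [h1, Finset.prod_congr rfl fun l _ => hP l]
  conv_lhs => rw [← List.ofFn_get L]
  rw [List.prod_ofFn]

/-- **The cofactor does not vanish** at `Q` if `w` is unramified at `Q` and separates `Q` from
the other zeros. -/
lemma adj_ne_zero [IsDedekindDomain R] (p : Pr k R) {A : R} (hA : A ≠ 0) {n : ℕ}
    (P : Fin n → (R →ₐ[k] k)) (hz : Ideal.span {A} = ∏ l, RingHom.ker (P l)) (Q : R →ₐ[k] k)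
    (hsep : ∀ l, P l ≠ Q → P l p.w ≠ Q p.w)
    (hunr : p.w - algebraMap k R (Q p.w) ∉ RingHom.ker Q ^ 2) : Q (p.adj A) ≠ 0 := by
  classical
  intro h0
  obtain ⟨c, hc0, hc⟩ := p.N_eq_prod Finset.univ P A hA hz
  have hmaxQ : (RingHom.ker Q).IsMaximal :=
    RingHom.ker_isMaximal_of_surjective _ fun c => ⟨algebraMap k R c, Q.commutes c⟩
  have hmaxP : ∀ l, (RingHom.ker (P l)).IsMaximal := fun l =>
    RingHom.ker_isMaximal_of_surjective _ fun c => ⟨algebraMap k R c, (P l).commutes c⟩
  have hwne : ∀ a : k, p.w - algebraMap k R a ≠ 0 := by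
    intro a h
    have h1 : aeval p.w (X - C a : k[X]) = 0 := by simpa using h
    have h2 : (X - C a : k[X]) = 0 := p.inj (by rw [h1, map_zero])
    exact X_sub_C_ne_zero a h2
  have hwmem : ∀ S : R →ₐ[k] k, p.w - algebraMap k R (S p.w) ∈ RingHom.ker S := by
    intro S
    rw [RingHom.mem_ker, map_sub, S.commutes]; simp
  have hQbot : RingHom.ker Q ≠ ⊥ := by
    intro h
    have h1 := hwmem Q
    rw [h, Ideal.mem_bot] at h1
    exact hwne _ h1
  have hprime : Prime (RingHom.ker Q) := Ideal.prime_of_isPrime hQbot hmaxQ.isPrime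
  -- both products have the same multiplicity
  have hm : ∀ l, emultiplicity (RingHom.ker Q) (RingHom.ker (P l)) =
      emultiplicity (RingHom.ker Q) (Ideal.span {p.w - algebraMap k R (P l p.w)}) := by
    intro l
    by_cases hl : P l = Q
    · rw [hl]
      have h1 : emultiplicity (RingHom.ker Q) (RingHom.ker Q) = (1 : ℕ) := by
        rw [emultiplicity_eq_coe]
        refine ⟨by rw [pow_one], ?_⟩
        intro h
        have h2 : RingHom.ker Q ≤ RingHom.ker Q ^ 2 := Ideal.le_of_dvd h
        exact hunr (h2 (hwmem Q))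
      have h2 : emultiplicity (RingHom.ker Q)
          (Ideal.span {p.w - algebraMap k R (Q p.w)}) = (1 : ℕ) := by
        rw [emultiplicity_eq_coe]
        refine ⟨?_, ?_⟩
        · rw [pow_one, Ideal.dvd_span_singleton]; exact hwmem Q
        · rw [Ideal.dvd_span_singleton]; exact hunr
      rw [h1, h2]
    · have h1 : emultiplicity (RingHom.ker Q) (RingHom.ker (P l)) = 0 := by
        rw [emultiplicity_eq_zero]
        intro h
        exact hl (point_eq_of_ker (Ideal.le_of_dvd h))
      have h2 : emultiplicity (RingHom.ker Q)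
          (Ideal.span {p.w - algebraMap k R (P l p.w)}) = 0 := by
        rw [emultiplicity_eq_zero, Ideal.dvd_span_singleton, RingHom.mem_ker, map_sub, Q.commutes]
        intro h
        exact hsep l hl (sub_eq_zero.mp h).symm
      rw [h1, h2]
  have hprod : Ideal.span {A} * Ideal.span {p.adj A} =
      ∏ l, Ideal.span {p.w - algebraMap k R (P l p.w)} := by
    rw [Ideal.span_singleton_mul_span_singleton, ← p.aeval_N, hc, map_mul, map_prod,
      Ideal.prod_span_singleton, ← Ideal.span_singleton_mul_span_singleton]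
    have h1 : Ideal.span {(aeval p.w (C c : k[X]) : R)} = ⊤ := by
      rw [Ideal.span_singleton_eq_top, aeval_C]
      exact (IsUnit.mk0 c hc0).map (algebraMap k R)
    rw [h1, Ideal.top_mul]
    congr 2
    refine Finset.prod_congr rfl fun l _ => ?_
    simp
  have h3 : emultiplicity (RingHom.ker Q) (Ideal.span {A} * Ideal.span {p.adj A}) =
      emultiplicity (RingHom.ker Q) (Ideal.span {A}) := by
    rw [hprod, Finset.emultiplicity_prod hprime, hz, Finset.emultiplicity_prod hprime]
    exact Finset.sum_congr rfl fun l _ => (hm l).symm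
  rw [emultiplicity_mul hprime] at h3
  have h4 : emultiplicity (RingHom.ker Q) (Ideal.span {A}) ≠ ⊤ := by
    have hI : (Ideal.span {A} : Ideal R) ≠ 0 := by
      rw [Ne, Ideal.zero_eq_bot, Ideal.span_singleton_eq_bot]; exact hA
    exact finiteMultiplicity_iff_emultiplicity_ne_top.mp
      (FiniteMultiplicity.of_prime_left hprime hI)
  have h5 : 1 ≤ emultiplicity (RingHom.ker Q) (Ideal.span {p.adj A}) := by
    rw [Order.one_le_iff_ne_zero, Ne, emultiplicity_eq_zero, not_not, Ideal.dvd_span_singleton]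
    exact h0
  have h6 : emultiplicity (RingHom.ker Q) (Ideal.span {A}) <
      emultiplicity (RingHom.ker Q) (Ideal.span {A}) +
        emultiplicity (RingHom.ker Q) (Ideal.span {p.adj A}) := by
    refine lt_of_lt_of_le ?_ (add_le_add_right h5 _)
    exact ENat.lt_add_one_iff h4 |>.mpr le_rfl
  rw [h3] at h6
  exact lt_irrefl _ h6

/-- A nonzero "tangent functional" at a point. -/
lemma exists_tangent {s : ℕ} {y : Fin s → R} (hy : Algebra.adjoin k (Set.range y) = ⊤)
    (Q : R →ₐ[k] k) (hQ : RingHom.ker Q ^ 2 ≠ RingHom.ker Q) :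
    ∃ φ : R →ₗ[k] k, (∀ a ∈ RingHom.ker Q ^ 2, φ a = 0) ∧ φ 1 = 0 ∧ (fun j => φ (y j)) ≠ 0 := by
  classical
  obtain ⟨z, hz, hz'⟩ : ∃ z ∈ RingHom.ker Q, z ∉ RingHom.ker Q ^ 2 := by
    by_contra h
    push Not at h
    exact hQ (le_antisymm (Ideal.pow_le_self two_ne_zero) h)
  let U : Submodule k R := (RingHom.ker Q ^ 2).restrictScalars k ⊔ Submodule.span k {(1 : R)}
  have hzU : z ∉ U := by
    intro h
    obtain ⟨a, ha, b, hb, hab⟩ := Submodule.mem_sup.mp h
    obtain ⟨c, rfl⟩ := Submodule.mem_span_singleton.mp hb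
    have ha' : a ∈ RingHom.ker Q := Ideal.pow_le_self two_ne_zero ha
    have h1 : Q (c • (1 : R)) = 0 := by
      have h2 : Q z = 0 := hz
      rw [← hab, map_add, RingHom.mem_ker.mp ha', zero_add] at h2
      exact h2
    rw [map_smul, map_one, smul_eq_mul, mul_one] at h1
    rw [h1, zero_smul, add_zero] at hab
    exact hz' (hab ▸ ha)
  obtain ⟨φ, hφz, hφU⟩ := Submodule.exists_dual_map_eq_bot_of_notMem hzU inferInstance
  have hU : ∀ a ∈ U, φ a = 0 := by
    intro a ha
    have : φ a ∈ U.map φ := ⟨a, ha, rfl⟩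
    rw [hφU] at this
    exact this
  have h2 : ∀ a ∈ RingHom.ker Q ^ 2, φ a = 0 := fun a ha => hU a (Submodule.mem_sup_left ha)
  have h1 : φ 1 = 0 := hU 1 (Submodule.mem_sup_right (Submodule.mem_span_singleton_self _))
  refine ⟨φ, h2, h1, ?_⟩
  intro h0
  apply hφz
  -- `φ` is a point derivation
  have hder : ∀ a b, φ (a * b) = Q a * φ b + Q b * φ a := by
    intro a b
    have h3 : (a - algebraMap k R (Q a)) * (b - algebraMap k R (Q b)) ∈ RingHom.ker Q ^ 2 := by
      rw [pow_two]
      refine Ideal.mul_mem_mul ?_ ?_ <;>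
        (rw [RingHom.mem_ker, map_sub, Q.commutes]; simp)
    have h4 := h2 _ h3
    have h5 : (a - algebraMap k R (Q a)) * (b - algebraMap k R (Q b)) =
        a * b - Q a • b - Q b • a + (Q a * Q b) • (1 : R) := by
      simp only [Algebra.smul_def, map_mul, mul_one]
      ring
    rw [h5, map_add, map_sub, map_sub, map_smul, map_smul, map_smul, h1] at h4
    simp only [smul_eq_mul, mul_zero, add_zero] at h4
    linear_combination h4
  have hsub : ∀ a : R, φ a = 0 := by
    intro a
    have ha : a ∈ Algebra.adjoin k (Set.range y) := by rw [hy]; trivial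
    induction ha using Algebra.adjoin_induction with
    | mem a ha =>
      obtain ⟨j, rfl⟩ := ha
      exact congrFun h0 j
    | algebraMap c =>
      rw [Algebra.algebraMap_eq_smul_one, map_smul, h1, smul_zero]
    | add a b _ _ ha hb => rw [map_add, ha, hb, add_zero]
    | mul a b _ _ ha hb => rw [hder, ha, hb, mul_zero, mul_zero, add_zero]
  exact hsub z

end Fermat.Agent.MW
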