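import Mathlib
import Fermat.Agent.MW.Loc2
import Fermat.Agent.MW.Defs

/-! # Constants for the local theorem -/

set_option autoImplicit false
set_option linter.style.haveILetI false
set_option linter.unusedSectionVars false
set_option linter.overlappingInstances false

noncomputable section

open Polynomial

namespace Fermat.Agent.MW

variable {k R : Type*} [Field k] [IsAlgClosed k] [CharZero k] [CommRing R] [IsDomain R]
  [IsDedekindDomain R] [Algebra k R] [Algebra.FiniteType k R]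

/-- The distance of two points with respect to generators. -/
def dd (V : AV k) (i : V.ι) {s : ℕ} (y : Fin s → R) (P Q : R →ₐ[k] k) : ℝ :=
  ⨆ j, V.v i (P (y j) - Q (y j))

lemma dd_nonneg (V : AV k) (i : V.ι) {s : ℕ} (y : Fin s → R) (P Q : R →ₐ[k] k) :
    0 ≤ dd V i y P Q := Real.iSup_nonneg fun _ => (V.v i).nonneg _

lemma le_dd (V : AV k) (i : V.ι) {s : ℕ} (y : Fin s → R) (P Q : R →ₐ[k] k) (j : Fin s) :
    V.v i (P (y j) - Q (y j)) ≤ dd V i y P Q :=
  le_ciSup (f := fun j => V.v i (P (y j) - Q (y j))) (Set.finite_range _).bddAbove j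

lemma dd_le {V : AV k} {i : V.ι} {s : ℕ} {y : Fin s → R} {P Q : R →ₐ[k] k} {x : ℝ} (hx : 0 ≤ x)
    (h : ∀ j, V.v i (P (y j) - Q (y j)) ≤ x) : dd V i y P Q ≤ x := Real.iSup_le h hx

/-- The projection `w_t`. -/
def wt {s : ℕ} (y : Fin s → R) (t : k) : R := ∑ j : Fin s, t ^ (j : ℕ) • y j

lemma wt_sub {s : ℕ} (y : Fin s → R) (t : k) (P Q : R →ₐ[k] k) :
    P (wt y t) - Q (wt y t) = pv (fun j => P (y j) - Q (y j)) t := by
  simp only [wt, map_sum, map_smul, smul_eq_mul, pv, ← Finset.sum_sub_distrib, mul_sub]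

lemma lin_wt {s : ℕ} (y : Fin s → R) (t : k) (δ : R →ₗ[k] k) :
    δ (wt y t) = pv (fun j => δ (y j)) t := by
  simp only [wt, map_sum, map_smul, smul_eq_mul, pv]

/-- Point derivations of polynomials. -/
lemma ptder_aeval (P : R →ₐ[k] k) (δ : R →ₗ[k] k)
    (hδ : ∀ f g, δ (f * g) = P f * δ g + P g * δ f) (w : R) (f : k[X]) :
    δ (aeval w f) = (derivative f).eval (P w) * δ w := by
  have h1 : δ 1 = 0 := by
    have := hδ 1 1
    rw [mul_one, map_one P] at this
    linear_combination -this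
  induction f using Polynomial.induction_on' with
  | add p q hp hq => rw [map_add, map_add, hp, hq, derivative_add, eval_add, add_mul]
  | monomial n a =>
    have h2 : ∀ n : ℕ, δ (w ^ n) = n * P w ^ (n - 1) * δ w := by
      intro n
      induction n with
      | zero => simp [h1]
      | succ n ih =>
        rw [pow_succ, hδ, ih]
        rcases n with _ | n
        · simp
        · simp only [Nat.add_sub_cancel, map_pow]
          push_cast
          ring
    rw [aeval_monomial, derivative_monomial, eval_monomial, Algebra.algebraMap_eq_smul_one,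
      smul_mul_assoc, one_mul, map_smul, h2, smul_eq_mul]
    ring

lemma eval_derivative_prod {n : ℕ} (a : k) (x : Fin n → k) (l0 : Fin n) :
    (derivative (C a * ∏ l, (X - C (x l)))).eval (x l0) =
      a * ∏ l ∈ Finset.univ.erase l0, (x l0 - x l) := by
  classical
  rw [← Finset.mul_prod_erase Finset.univ _ (Finset.mem_univ l0)]
  simp only [derivative_mul, derivative_C, zero_mul, zero_add, derivative_sub, derivative_X,
    sub_zero, one_mul, eval_mul, eval_C, eval_add, eval_sub, eval_X, sub_self, add_zero,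
    Polynomial.eval_prod]

/-- The coefficient `c` is normalised at `j₀`. -/
structure Nor (V : AV k) (i : V.ι) {r : ℕ} (c : Fin r → k) (j0 : Fin r) : Prop where
  one : c j0 = 1
  le : ∀ j, V.v i (c j) ≤ 1

/-- The region of normalised coefficients and bounded points. -/
def regN (V : AV k) {r s : ℕ} (y : Fin s → R) (B : MC V.ι) (i : V.ι)
    (d : (Fin r → k) × (R →ₐ[k] k)) : Prop :=
  (∀ j, V.v i (d.1 j) ≤ 1) ∧ ∀ j, V.v i (d.2 (y j)) ≤ B.c i

lemma PolyF.bddN (V : AV k) {r s : ℕ} {y : Fin s → R} (B : MC V.ι)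
    {f : (Fin r → k) × (R →ₐ[k] k) → k} (hf : f ∈ PolyF k r y) : Bdd V (regN V y B) f :=
  PolyF.bdd V (fun j => ⟨1, fun _ _ hd => hd.1 j⟩) (fun j => ⟨B, fun _ _ hd => hd.2 j⟩) hf

/-- Cofactors are bounded. -/
lemma exists_adj_bdd (V : AV k) {r s : ℕ} {y : Fin s → R}
    (hy : Algebra.adjoin k (Set.range y) = ⊤) (b : Fin r → R) (B : MC V.ι) (p : Pr k R) :
    ∃ C : MC V.ι, ∀ i (c : Fin r → k) (Q : R →ₐ[k] k), (∀ j, V.v i (c j) ≤ 1) →
      (∀ j, V.v i (Q (y j)) ≤ B.c i) → V.v i (Q (p.adj (el b c))) ≤ C.c i := by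
  obtain ⟨C, hC⟩ := PolyF.bddN V B (PolyF.adj_mem hy p b)
  exact ⟨C, fun i c Q h1 h2 => hC i (c, Q) ⟨h1, h2⟩⟩

/-- Values of an element at bounded points. -/
lemma exists_ev_bdd (V : AV k) {s : ℕ} {y : Fin s → R}
    (hy : Algebra.adjoin k (Set.range y) = ⊤) (B : MC V.ι) (a : R) :
    ∃ C : MC V.ι, ∀ i (Q : R →ₐ[k] k), (∀ j, V.v i (Q (y j)) ≤ B.c i) →
      V.v i (Q a) ≤ C.c i := by
  obtain ⟨C, hC⟩ := PolyF.bddN V B (PolyF.ev (r := 0) hy a)
  exact ⟨C, fun i Q h => hC i (Fin.elim0, Q) ⟨fun j => j.elim0, h⟩⟩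

/-- The values of the norm polynomial are bounded. -/
lemma exists_Nev_bdd (V : AV k) {r : ℕ} (b : Fin r → R) (p : Pr k R) (t : k) :
    ∃ C : MC V.ι, ∀ i (c : Fin r → k), (∀ j, V.v i (c j) ≤ 1) →
      V.v i ((p.N (el b c)).eval t) ≤ C.c i := by
  obtain ⟨C, hC⟩ : Bdd V (D := Fin r → k) (fun i c => ∀ j, V.v i (c j) ≤ 1)
      (fun c => (Mev p b c t).det) := by
    refine Bdd.det fun x z => ?_
    simp only [Mev]
    exact Bdd.sum _ fun j _ => Bdd.mul ⟨1, fun i c h => h j⟩ (Bdd.const _)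
  exact ⟨C, fun i c h => by rw [N_eval]; exact hC i c h⟩

/-- Some value of the norm polynomial is bounded below. -/
lemma exists_Nev_ge (V : AV k) {r : ℕ} {b : Fin r → R} (hb : LinearIndependent k b)
    (p : Pr k R) {D : ℕ} (hD : ∀ c : Fin r → k, (p.N (el b c)).natDegree ≤ D) (j0 : Fin r) :
    ∃ C : MC V.ι, ∀ i (c : Fin r → k), Nor V i c j0 →
      ∃ e : Fin (D + 1), 1 ≤ C.c i * V.v i ((p.N (el b c)).eval ((e : ℕ) : k)) := by
  classical
  let y0 : Fin 0 → k := Fin.elim0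
  have hy0 : Algebra.adjoin k (Set.range y0) = ⊤ := by
    rw [eq_top_iff]
    intro a _
    exact (Algebra.adjoin k (Set.range y0)).algebraMap_mem a
  let g : Fin (D + 1) → (Fin r → k) × (k →ₐ[k] k) → k := fun e d =>
    (Mev p b d.1 ((e : ℕ) : k)).det
  have hg : ∀ e, g e ∈ PolyF k r y0 := by
    intro e
    refine PolyF.det' (M := fun d : (Fin r → k) × (k →ₐ[k] k) => Mev p b d.1 ((e : ℕ) : k))
      fun x z => ?_
    simp only [Mev]
    exact PolyF.sum' _ fun j _ => PolyF.mul' (PolyF.coord j) (PolyF.const _)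
  have hne : ∀ d : (Fin r → k) × (k →ₐ[k] k), d.1 j0 = 1 → ∃ e, g e d ≠ 0 := by
    intro d hd
    by_contra hcon
    push Not at hcon
    have hc : d.1 ≠ 0 := by
      intro h
      rw [h] at hd
      exact zero_ne_one hd
    apply p.N_ne_zero (el_ne_zero hb hc)
    refine Polynomial.eq_zero_of_natDegree_lt_card_of_eval_eq_zero (p.N (el b d.1))
      (f := fun e : Fin (D + 1) => ((e : ℕ) : k)) ?_ ?_ ?_
    · intro a b h
      exact Fin.ext (Nat.cast_injective h)
    · intro e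
      rw [N_eval]
      exact hcon e
    · rw [Fintype.card_fin]
      exact Nat.lt_succ_of_le (hD d.1)
  obtain ⟨u, hu, hsum⟩ := exists_NS hy0 j0 g hg hne
  obtain ⟨C, hC⟩ := V.exists_lower (D := (Fin r → k) × (k →ₐ[k] k))
    (reg := fun i d => Nor V i d.1 j0) (f := g) (g := u) (fun e => by
      refine PolyF.bdd V (fun j => ⟨1, fun i d h => h.le j⟩) (fun j => j.elim0) (hu e))
    (fun i d h => hsum d h.one)
  refine ⟨C, fun i c h => ?_⟩
  obtain ⟨e, he⟩ := hC i (c, AlgHom.id k k) h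
  exact ⟨e, by rw [N_eval]; exact he⟩

/-- The leading coefficient of the norm: two-sided bounds. -/
lemma exists_lead (V : AV k) {r s : ℕ} {y : Fin s → R}
    (hy : Algebra.adjoin k (Set.range y) = ⊤) {b : Fin r → R} (hb : LinearIndependent k b)
    (B : MC V.ι) (p : Pr k R) :
    ∃ C : MC V.ι, ∀ i (c : Fin r → k) (j0 : Fin r), Nor V i c j0 → ∀ {n : ℕ}
      (P : Fin n → (R →ₐ[k] k)) (a : k), a ≠ 0 →
      p.N (el b c) = Polynomial.C a * ∏ l, (X - Polynomial.C (P l p.w)) →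
      (∀ l j, V.v i (P l (y j)) ≤ B.c i) →
      V.v i a ≤ C.c i ∧ 1 ≤ C.c i * V.v i a := by
  classical
  obtain ⟨D, hD⟩ := exists_natDegree_le p b
  -- upper bound
  have h1 : ∀ e : Fin (D + 1), ∃ C : MC V.ι, ∀ i (c : Fin r → k), (∀ j, V.v i (c j) ≤ 1) →
      V.v i ((p.N (el b c)).eval ((e : ℕ) : k)) ≤ C.c i := fun e => exists_Nev_bdd V b p _
  choose C1 hC1 using h1
  obtain ⟨C1', hC1'⟩ := MC.exists_ge_fintype C1
  obtain ⟨C2, hC2⟩ := V.exists_vdm (s := D + 1) (fun e : Fin (D + 1) => ((e : ℕ) : k))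
    (fun a b h => Fin.ext (Nat.cast_injective h))
  -- lower bound
  have h3 : ∀ j0 : Fin r, ∃ C : MC V.ι, ∀ i (c : Fin r → k), Nor V i c j0 →
      ∃ e : Fin (D + 1), 1 ≤ C.c i * V.v i ((p.N (el b c)).eval ((e : ℕ) : k)) := fun j0 =>
    exists_Nev_ge V hb p hD j0
  choose C3 hC3 using h3
  obtain ⟨C3', hC3'⟩ := MC.exists_ge_fintype C3
  have h4 : ∀ e : Fin (D + 1), ∃ C : MC V.ι, ∀ i (Q : R →ₐ[k] k),
      (∀ j, V.v i (Q (y j)) ≤ B.c i) →
      V.v i (Q (algebraMap k R ((e : ℕ) : k) - p.w)) ≤ C.c i := fun e => exists_ev_bdd V hy B _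
  choose C4 hC4 using h4
  obtain ⟨C4', hC4'⟩ := MC.exists_ge_fintype C4
  refine ⟨(C2 * C1') * (C3' * C4'.pow D), fun i c j0 hn n P a ha hN hP => ?_⟩
  have hdeg : (p.N (el b c)).natDegree = n := by
    rw [hN, Polynomial.natDegree_C_mul ha, Polynomial.natDegree_prod_of_monic _ _
      fun l _ => Polynomial.monic_X_sub_C _]
    simp
  have hn' : n ≤ D := hdeg ▸ hD c
  have hcoef : (p.N (el b c)).coeff n = a := by
    have hm : (∏ l, (X - Polynomial.C (P l p.w)) : k[X]).Monic :=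
      Polynomial.monic_prod_of_monic _ _ fun l _ => Polynomial.monic_X_sub_C _
    have h5 : (p.N (el b c)).leadingCoeff = a := by
      rw [hN, Polynomial.leadingCoeff_mul, Polynomial.leadingCoeff_C, hm.leadingCoeff, mul_one]
    rw [← h5, Polynomial.leadingCoeff, hdeg]
  have hpv : ∀ e : Fin (D + 1), pv (fun j : Fin (D + 1) => (p.N (el b c)).coeff j)
      ((e : ℕ) : k) = (p.N (el b c)).eval ((e : ℕ) : k) := by
    intro e
    rw [Polynomial.eval_eq_sum_range' (Nat.lt_succ_of_le (hD c)), Finset.sum_range]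
    simp only [pv, mul_comm]
  have hCpos : ∀ C : MC V.ι, (0 : ℝ) ≤ C.c i := fun C => (C.pos i).le
  constructor
  · have h6 := hC2 i (fun j : Fin (D + 1) => (p.N (el b c)).coeff j) (C1'.c i) (hCpos _)
      (fun e => by rw [hpv]; exact (hC1 e i c hn.le).trans (hC1' e i)) ⟨n, Nat.lt_succ_of_le hn'⟩
    simp only [hcoef] at h6
    refine h6.trans ?_
    rw [MC.mul_c, MC.mul_c (C2)]
    exact le_mul_of_one_le_right (mul_nonneg (hCpos _) (hCpos _)) ((C3' * C4'.pow D).one_le i)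
  · obtain ⟨e, he⟩ := hC3 j0 i c hn
    have h7 : V.v i ((p.N (el b c)).eval ((e : ℕ) : k)) ≤ V.v i a * (C4'.c i) ^ D := by
      rw [hN, Polynomial.eval_mul, Polynomial.eval_C, Polynomial.eval_prod, map_mul, map_prod]
      refine mul_le_mul_of_nonneg_left ?_ ((V.v i).nonneg _)
      calc ∏ l, V.v i ((X - Polynomial.C (P l p.w) : k[X]).eval ((e : ℕ) : k))
          ≤ ∏ _l : Fin n, C4'.c i := by
            refine Finset.prod_le_prod (fun l _ => (V.v i).nonneg _) fun l _ => ?_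
            have h8 := hC4 e i (P l) (hP l)
            rw [map_sub, (P l).commutes] at h8
            simp only [Polynomial.eval_sub, Polynomial.eval_X, Polynomial.eval_C]
            exact h8.trans (hC4' e i)
        _ = C4'.c i ^ n := by simp
        _ ≤ C4'.c i ^ D := pow_le_pow_right₀ (C4'.one_le i) hn'
    have h9 : 1 ≤ C3'.c i * (V.v i a * (C4'.c i) ^ D) :=
      he.trans (mul_le_mul (hC3' j0 i) h7 ((V.v i).nonneg _) (hCpos _))
    refine h9.trans ?_
    rw [MC.mul_c, MC.mul_c C3', MC.pow_c]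
    have h10 : C3'.c i * (V.v i a * (C4'.c i) ^ D) =
        1 * (C3'.c i * C4'.c i ^ D) * V.v i a := by ring
    rw [h10]
    refine mul_le_mul_of_nonneg_right ?_ ((V.v i).nonneg _)
    exact mul_le_mul_of_nonneg_right ((C2 * C1').one_le i)
      (mul_nonneg (hCpos _) (pow_nonneg (hCpos _) _))

end Fermat.Agent.MW
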