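import Mathlib
import Fermat.Agent.MW.Loc3

/-! # The local theorem -/

set_option autoImplicit false
set_option linter.style.haveILetI false
set_option linter.unusedSectionVars false
set_option linter.overlappingInstances false

noncomputable section

open Polynomial

namespace Fermat.Agent.MW

variable {k R : Type*} [Field k] [IsAlgClosed k] [CharZero k] [CommRing R] [IsDomain R]
  [IsDedekindDomain R] [Algebra k R] [Algebra.FiniteType k R]

lemma nrm_of_Nor {V : AV k} {i : V.ι} {r : ℕ} {c : Fin r → k} {j0 : Fin r} (h : Nor V i c j0) :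
    nrm V i c = 1 := by
  apply le_antisymm
  · exact Real.iSup_le (fun j => h.le j) zero_le_one
  · have := le_ciSup (f := fun j => V.v i (c j)) (Set.finite_range _).bddAbove j0
    rw [h.one, map_one] at this
    exact this

/-- Every nonzero vector is a multiple of a normalised one. -/
lemma exists_Nor (V : AV k) (i : V.ι) {r : ℕ} {c : Fin r → k} (hc : c ≠ 0) :
    ∃ (j0 : Fin r) (a : k) (c' : Fin r → k), a ≠ 0 ∧ c = a • c' ∧ Nor V i c' j0 ∧
      nrm V i c = V.v i a := by
  classical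
  obtain ⟨j1, hj1⟩ := Function.ne_iff.mp hc
  haveI : Nonempty (Fin r) := ⟨j1⟩
  obtain ⟨j0, -, hj0⟩ := Finset.exists_max_image Finset.univ (fun j => V.v i (c j))
    ⟨j1, Finset.mem_univ _⟩
  have hpos : 0 < V.v i (c j0) :=
    lt_of_lt_of_le ((V.v i).pos hj1) (hj0 j1 (Finset.mem_univ _))
  have hne : c j0 ≠ 0 := (V.v i).pos_iff.mp hpos
  refine ⟨j0, c j0, (c j0)⁻¹ • c, hne, ?_, ⟨?_, ?_⟩, ?_⟩
  · rw [smul_smul, mul_inv_cancel₀ hne, one_smul]
  · simp [hne]
  · intro j
    rw [Pi.smul_apply, smul_eq_mul, map_mul, map_inv₀]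
    rw [inv_mul_le_iff₀ hpos, mul_one]
    exact hj0 j (Finset.mem_univ _)
  · apply le_antisymm
    · exact Real.iSup_le (fun j => hj0 j (Finset.mem_univ _)) hpos.le
    · exact le_ciSup (f := fun j => V.v i (c j)) (Set.finite_range _).bddAbove j0

/-- Upper bound for a value of a linear form. -/
lemma exists_pv_le (V : AV k) {s : ℕ} (t : k) :
    ∃ C : MC V.ι, ∀ i (c : Fin s → k) (x : ℝ), 0 ≤ x → (∀ j, V.v i (c j) ≤ x) →
      V.v i (pv c t) ≤ C.c i * x := by
  obtain ⟨C, hC⟩ := V.exists_sum_le (D := Unit) (reg := fun _ _ => True)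
    (g := fun (j : Fin s) _ => t ^ (j : ℕ)) fun j => Bdd.const _
  exact ⟨C, fun i c x hx h => hC i () trivial c x hx h⟩

theorem loc (V : AV k) {s : ℕ} (y : Fin s → R) (hy : Algebra.adjoin k (Set.range y) = ⊤)
    (hproj : {t : k | ¬ ∃ p : Pr k R, p.w = ∑ j : Fin s, t ^ (j : ℕ) • y j}.Finite)
    {r : ℕ} (b : Fin r → R) (hb : LinearIndependent k b) (B : MC V.ι) :
    ∃ C : MC V.ι, ∀ i (c : Fin r → k), c ≠ 0 → ∀ {n : ℕ} (P : Fin n → (R →ₐ[k] k)),
      Ideal.span {el b c} = ∏ l, RingHom.ker (P l) →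
      (∀ l j, V.v i (P l (y j)) ≤ B.c i) →
      (∀ Q : R →ₐ[k] k, (∀ j, V.v i (Q (y j)) ≤ B.c i) →
        V.v i (Q (el b c)) ≤ C.c i * nrm V i c * ∏ l, dd V i y (P l) Q ∧
        nrm V i c * ∏ l, dd V i y (P l) Q ≤ C.c i * V.v i (Q (el b c))) ∧
      (∀ l0, (∀ l, l ≠ l0 → P l ≠ P l0) → ∀ δ : R →ₗ[k] k,
        (∀ f g, δ (f * g) = P l0 f * δ g + P l0 g * δ f) →
        nrm V i c * (⨆ j, V.v i (δ (y j))) * ∏ l ∈ Finset.univ.erase l0, dd V i y (P l) (P l0) ≤
          C.c i * V.v i (δ (el b c))) := by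
  classical
  -- a first projection
  have hinf : {t : k | ∃ p : Pr k R, p.w = ∑ j : Fin s, t ^ (j : ℕ) • y j}.Infinite := by
    have := hproj.infinite_compl
    simpa [Set.compl_def] using this
  obtain ⟨t0, p0, -⟩ := hinf.nonempty
  obtain ⟨D, hD⟩ := exists_natDegree_le p0 b
  -- the finite set of projections
  obtain ⟨T, hTsub, hTcard⟩ := hinf.exists_subset_card_eq ((D + 1) * (s - 1) + 1)
  have hTlt : (D + 1) * (s - 1) < T.card := by omega
  have hT : ∀ t : T, ∃ p : Pr k R, p.w = wt y (t : k) := fun t => hTsub t.2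
  choose p hp using hT
  -- the constants
  have hCa : ∀ t : T, ∃ C : MC V.ι, ∀ i (c : Fin r → k) (Q : R →ₐ[k] k),
      (∀ j, V.v i (c j) ≤ 1) → (∀ j, V.v i (Q (y j)) ≤ B.c i) →
      V.v i (Q ((p t).adj (el b c))) ≤ C.c i := fun t => exists_adj_bdd V hy b B (p t)
  choose Ca' hCa' using hCa
  obtain ⟨Ca, hCa⟩ := MC.exists_ge_fintype Ca'
  have hCl : ∀ t : T, ∃ C : MC V.ι, ∀ i (c : Fin r → k) (j0 : Fin r), Nor V i c j0 →
      ∀ {n : ℕ} (P : Fin n → (R →ₐ[k] k)) (a : k), a ≠ 0 →
      (p t).N (el b c) = Polynomial.C a * ∏ l, (X - Polynomial.C (P l (p t).w)) →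
      (∀ l j, V.v i (P l (y j)) ≤ B.c i) →
      V.v i a ≤ C.c i ∧ 1 ≤ C.c i * V.v i a := fun t => exists_lead V hy hb B (p t)
  choose Cl' hCl' using hCl
  obtain ⟨Cl, hCl⟩ := MC.exists_ge_fintype Cl'
  have hCf : ∀ t : T, ∃ C : MC V.ι, ∀ i (c : Fin s → k) (x : ℝ), 0 ≤ x →
      (∀ j, V.v i (c j) ≤ x) → V.v i (pv c (t : k)) ≤ C.c i * x := fun t => exists_pv_le V _
  choose Cf' hCf' using hCf
  obtain ⟨Cf, hCf⟩ := MC.exists_ge_fintype Cf'
  obtain ⟨Ce, hCe⟩ := V.exists_pigeon (s := s) T (D + 1) hTlt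
  -- the Nullstellensatz
  have hCb : ∀ j0 : Fin r, ∃ C : MC V.ι, ∀ i (c : Fin r → k) (Q : R →ₐ[k] k), Nor V i c j0 →
      (∀ j, V.v i (Q (y j)) ≤ B.c i) →
      ∃ t : T, 1 ≤ C.c i * V.v i (Q ((p t).adj (el b c))) := by
    intro j0
    obtain ⟨u, hu, hsum⟩ := exists_NS hy j0
      (fun (t : T) (d : (Fin r → k) × (R →ₐ[k] k)) => d.2 ((p t).adj (el b d.1)))
      (fun t => PolyF.adj_mem hy (p t) b) (by
        rintro ⟨c, Q⟩ hc1
        simp only at hc1
        have hc : c ≠ 0 := by
          intro h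
          rw [h] at hc1
          exact zero_ne_one hc1
        have hA : el b c ≠ 0 := el_ne_zero hb hc
        obtain ⟨n, P, hz⟩ := exists_zeros (k := k) hA
        -- the number of zeros
        have hn : n ≤ D := by
          obtain ⟨a, ha, hN⟩ := p0.N_eq_prod Finset.univ P _ hA hz
          have hdeg : (p0.N (el b c)).natDegree = n := by
            rw [hN, Polynomial.natDegree_C_mul ha, Polynomial.natDegree_prod_of_monic _ _
              fun l _ => Polynomial.monic_X_sub_C _]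
            simp
          exact hdeg ▸ hD c
        -- the tangent functional
        have hQ2 : RingHom.ker Q ^ 2 ≠ RingHom.ker Q := by
          intro h
          have hmaxQ : (RingHom.ker Q).IsMaximal :=
            RingHom.ker_isMaximal_of_surjective _ fun c => ⟨algebraMap k R c, Q.commutes c⟩
          have hQbot : RingHom.ker Q ≠ ⊥ := by
            intro h'
            have h1 : p0.w - algebraMap k R (Q p0.w) ∈ RingHom.ker Q := by
              rw [RingHom.mem_ker, map_sub, Q.commutes]; simp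
            rw [h', Ideal.mem_bot] at h1
            have h2 : aeval p0.w (X - Polynomial.C (Q p0.w) : k[X]) = 0 := by simpa using h1
            exact X_sub_C_ne_zero (Q p0.w) (p0.inj (by rw [h2, map_zero]))
          have h1 : RingHom.ker Q ^ 2 = RingHom.ker Q ^ 1 := by rw [h, pow_one]
          have h2 := Ideal.pow_right_strictAnti (RingHom.ker Q) hQbot hmaxQ.ne_top
            (show 1 < 2 by norm_num)
          exact absurd h1 (ne_of_lt h2)
        obtain ⟨φ, hφ2, hφ1, hφy⟩ := exists_tangent hy Q hQ2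
        -- the vectors
        let S : Finset (Option (Fin n)) := Finset.univ.filter fun o =>
          match o with
          | none => True
          | some l => P l ≠ Q
        let cc : Option (Fin n) → Fin s → k := fun o j =>
          match o with
          | none => φ (y j)
          | some l => P l (y j) - Q (y j)
        have hScard : S.card ≤ D + 1 := by
          refine (Finset.card_filter_le _ _).trans ?_
          rw [Finset.card_univ, Fintype.card_option, Fintype.card_fin]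
          omega
        have hcc : ∀ o ∈ S, cc o ≠ 0 := by
          rintro (_ | l) ho
          · exact hφy
          · intro h0
            have hne : P l ≠ Q := (Finset.mem_filter.mp ho).2
            apply hne
            have h1 : ∀ j, P l (y j) = Q (y j) := fun j => sub_eq_zero.mp (congrFun h0 j)
            have h2 : AlgHom.equalizer (P l) Q = ⊤ := by
              rw [eq_top_iff, ← hy]
              refine Algebra.adjoin_le ?_
              rintro _ ⟨j, rfl⟩
              exact h1 j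
            ext a
            have : a ∈ AlgHom.equalizer (P l) Q := by rw [h2]; trivial
            exact this
        obtain ⟨t, htT, ht⟩ := exists_pv_ne_zero T (D + 1) hTlt S cc hScard hcc
        refine ⟨⟨t, htT⟩, adj_ne_zero (p ⟨t, htT⟩) hA P hz Q ?_ ?_⟩
        · intro l hl h1
          have h2 := ht (some l) (Finset.mem_filter.mpr ⟨Finset.mem_univ _, hl⟩)
          apply h2
          change pv (fun j => P l (y j) - Q (y j)) t = 0
          rw [← wt_sub, ← hp ⟨t, htT⟩, h1, sub_self]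
        · intro h1
          have h2 := ht none (Finset.mem_filter.mpr ⟨Finset.mem_univ _, trivial⟩)
          apply h2
          change pv (fun j => φ (y j)) t = 0
          rw [← lin_wt]
          have h3 := hφ2 _ h1
          rw [map_sub, Algebra.algebraMap_eq_smul_one, map_smul, hφ1, smul_zero, sub_zero] at h3
          have h4 : (p ⟨t, htT⟩).w = wt y t := hp ⟨t, htT⟩
          rw [← h4]
          exact h3)
    obtain ⟨C, hC⟩ := V.exists_lower (D := (Fin r → k) × (R →ₐ[k] k))
      (reg := fun i d => Nor V i d.1 j0 ∧ ∀ j, V.v i (d.2 (y j)) ≤ B.c i)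
      (f := fun (t : T) d => d.2 ((p t).adj (el b d.1))) (g := u) (fun t => by
        refine PolyF.bdd V (fun j => ⟨1, fun i d h => h.1.le j⟩)
          (fun j => ⟨B, fun i d h => h.2 j⟩) (hu t))
      (fun i d h => hsum d h.1.one)
    exact ⟨C, fun i c Q h1 h2 => hC i (c, Q) ⟨h1, h2⟩⟩
  choose Cb' hCb' using hCb
  obtain ⟨Cb, hCb⟩ := MC.exists_ge_fintype Cb'
  -- the final constant
  set E1 : MC V.ι := Cb * (Cl * Cf.pow D) with hE1
  set E2 : MC V.ι := Ce.pow D * (Cl * Ca) with hE2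
  refine ⟨E1 * E2, fun i c hc n P hz hP => ?_⟩
  have hcp : ∀ C : MC V.ι, (0 : ℝ) ≤ C.c i := fun C => (C.pos i).le
  obtain ⟨j0, a0, c', ha0, hcc', hN', hnrm⟩ := exists_Nor V i hc
  have hel : el b c = a0 • el b c' := by rw [hcc', el_smul]
  have hc' : c' ≠ 0 := by
    rintro rfl
    exact hc (by rw [hcc', smul_zero])
  have hA : el b c' ≠ 0 := el_ne_zero hb hc'
  have hz' : Ideal.span {el b c'} = ∏ l, RingHom.ker (P l) := by
    rw [← hz, hel, Algebra.smul_def, ← Ideal.span_singleton_mul_span_singleton]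
    have h1 : Ideal.span {(algebraMap k R a0 : R)} = ⊤ := by
      rw [Ideal.span_singleton_eq_top]
      exact (IsUnit.mk0 a0 ha0).map (algebraMap k R)
    rw [h1, Ideal.top_mul]
  have hNt : ∀ t : T, ∃ a : k, a ≠ 0 ∧
      (p t).N (el b c') = Polynomial.C a * ∏ l, (X - Polynomial.C (P l (p t).w)) := fun t =>
    (p t).N_eq_prod Finset.univ P _ hA hz'
  choose a hane hNt using hNt
  have hn : n ≤ D := by
    obtain ⟨a, ha, hN⟩ := p0.N_eq_prod Finset.univ P _ hA hz'
    have hdeg : (p0.N (el b c')).natDegree = n := by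
      rw [hN, Polynomial.natDegree_C_mul ha, Polynomial.natDegree_prod_of_monic _ _
        fun l _ => Polynomial.monic_X_sub_C _]
      simp
    exact hdeg ▸ hD c'
  have hau : ∀ t : T, V.v i (a t) ≤ Cl.c i := fun t =>
    ((hCl' t i c' j0 hN' P (a t) (hane t) (hNt t) hP).1).trans (hCl t i)
  have hal : ∀ t : T, 1 ≤ Cl.c i * V.v i (a t) := fun t =>
    ((hCl' t i c' j0 hN' P (a t) (hane t) (hNt t) hP).2).trans
      (mul_le_mul_of_nonneg_right (hCl t i) ((V.v i).nonneg _))
  -- the basic identity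
  have hid : ∀ (t : T) (Q : R →ₐ[k] k), a t * ∏ l, (Q (p t).w - P l (p t).w) =
      Q (el b c') * Q ((p t).adj (el b c')) := by
    intro t Q
    have h1 := congrArg Q ((p t).aeval_N (el b c'))
    rw [map_mul, hNt, alg_aeval, Polynomial.eval_mul, Polynomial.eval_C,
      Polynomial.eval_prod] at h1
    rw [← h1]
    simp
  -- the norms scale
  rw [hnrm]
  refine ⟨fun Q hQ => ?_, fun l0 hl0 δ hδ => ?_⟩
  · have hQel : V.v i (Q (el b c)) = V.v i a0 * V.v i (Q (el b c')) := by
      rw [hel, map_smul, smul_eq_mul, map_mul]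
    set Pi1 : ℝ := ∏ l, dd V i y (P l) Q with hPi1
    have hPi10 : 0 ≤ Pi1 := Finset.prod_nonneg fun l _ => dd_nonneg V i y _ _
    have hcore1 : V.v i (Q (el b c')) ≤ E1.c i * Pi1 := by
      obtain ⟨t, ht⟩ := hCb' j0 i c' Q hN' hQ
      have ht' : 1 ≤ Cb.c i * V.v i (Q ((p t).adj (el b c'))) :=
        ht.trans (mul_le_mul_of_nonneg_right (hCb j0 i) ((V.v i).nonneg _))
      have h1 : V.v i (Q (el b c')) * V.v i (Q ((p t).adj (el b c'))) ≤
          Cl.c i * (Cf.c i ^ D * Pi1) := by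
        rw [← map_mul, ← hid t Q, map_mul, map_prod]
        refine mul_le_mul (hau t) ?_ (Finset.prod_nonneg fun l _ => (V.v i).nonneg _) (hcp _)
        calc ∏ l, V.v i (Q (p t).w - P l (p t).w) ≤ ∏ l, (Cf.c i * dd V i y (P l) Q) := by
              refine Finset.prod_le_prod (fun l _ => (V.v i).nonneg _) fun l _ => ?_
              rw [(V.v i).map_sub, hp t, wt_sub]
              exact (hCf' t i _ _ (dd_nonneg V i y _ _) (le_dd V i y (P l) Q)).trans
                (mul_le_mul_of_nonneg_right (hCf t i) (dd_nonneg V i y _ _))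
          _ = Cf.c i ^ n * Pi1 := by
              rw [Finset.prod_mul_distrib, Finset.prod_const, Finset.card_univ,
                Fintype.card_fin]
          _ ≤ Cf.c i ^ D * Pi1 :=
              mul_le_mul_of_nonneg_right (pow_le_pow_right₀ (Cf.one_le i) hn) hPi10
      calc V.v i (Q (el b c')) = V.v i (Q (el b c')) * 1 := (mul_one _).symm
        _ ≤ V.v i (Q (el b c')) * (Cb.c i * V.v i (Q ((p t).adj (el b c')))) :=
            mul_le_mul_of_nonneg_left ht' ((V.v i).nonneg _)
        _ = Cb.c i * (V.v i (Q (el b c')) * V.v i (Q ((p t).adj (el b c')))) := by ring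
        _ ≤ Cb.c i * (Cl.c i * (Cf.c i ^ D * Pi1)) := mul_le_mul_of_nonneg_left h1 (hcp _)
        _ = E1.c i * Pi1 := by rw [hE1, MC.mul_c, MC.mul_c, MC.pow_c]; ring
    have hcore2 : Pi1 ≤ E2.c i * V.v i (Q (el b c')) := by
      obtain ⟨t, htT, ht⟩ := hCe i (Finset.univ : Finset (Fin n))
        (fun l j => P l (y j) - Q (y j)) (by simp; omega)
      have h1 : ∀ l, dd V i y (P l) Q ≤ Ce.c i * V.v i (Q (p ⟨t, htT⟩).w - P l (p ⟨t, htT⟩).w) := by
        intro l
        refine dd_le (mul_nonneg (hcp _) ((V.v i).nonneg _)) fun j => ?_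
        have h2 := ht l (Finset.mem_univ _) j
        rw [← wt_sub] at h2
        have h3 : (p ⟨t, htT⟩).w = wt y t := hp ⟨t, htT⟩
        rw [(V.v i).map_sub (Q _), h3]
        exact h2
      have h2 : Pi1 ≤ Ce.c i ^ D * ∏ l, V.v i (Q (p ⟨t, htT⟩).w - P l (p ⟨t, htT⟩).w) := by
        calc Pi1 ≤ ∏ l, (Ce.c i * V.v i (Q (p ⟨t, htT⟩).w - P l (p ⟨t, htT⟩).w)) :=
              Finset.prod_le_prod (fun l _ => dd_nonneg V i y _ _) fun l _ => h1 l
          _ = Ce.c i ^ n * ∏ l, V.v i (Q (p ⟨t, htT⟩).w - P l (p ⟨t, htT⟩).w) := by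
              rw [Finset.prod_mul_distrib, Finset.prod_const, Finset.card_univ,
                Fintype.card_fin]
          _ ≤ _ := mul_le_mul_of_nonneg_right (pow_le_pow_right₀ (Ce.one_le i) hn)
              (Finset.prod_nonneg fun l _ => (V.v i).nonneg _)
      have h3 : V.v i (a ⟨t, htT⟩) * ∏ l, V.v i (Q (p ⟨t, htT⟩).w - P l (p ⟨t, htT⟩).w) ≤
          V.v i (Q (el b c')) * Ca.c i := by
        have h4 := congrArg (V.v i) (hid ⟨t, htT⟩ Q)
        rw [map_mul, map_prod, map_mul] at h4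
        rw [h4]
        exact mul_le_mul_of_nonneg_left
          ((hCa' ⟨t, htT⟩ i c' Q hN'.le hQ).trans (hCa _ i)) ((V.v i).nonneg _)
      set X1 : ℝ := ∏ l, V.v i (Q (p ⟨t, htT⟩).w - P l (p ⟨t, htT⟩).w) with hX1
      have hX10 : 0 ≤ X1 := Finset.prod_nonneg fun l _ => (V.v i).nonneg _
      have h5 : X1 ≤ Cl.c i * (V.v i (Q (el b c')) * Ca.c i) := by
        calc X1 = 1 * X1 := (one_mul _).symm
          _ ≤ (Cl.c i * V.v i (a ⟨t, htT⟩)) * X1 := mul_le_mul_of_nonneg_right (hal _) hX10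
          _ = Cl.c i * (V.v i (a ⟨t, htT⟩) * X1) := by ring
          _ ≤ _ := mul_le_mul_of_nonneg_left h3 (hcp _)
      calc Pi1 ≤ Ce.c i ^ D * X1 := h2
        _ ≤ Ce.c i ^ D * (Cl.c i * (V.v i (Q (el b c')) * Ca.c i)) :=
            mul_le_mul_of_nonneg_left h5 (pow_nonneg (hcp _) _)
        _ = E2.c i * V.v i (Q (el b c')) := by rw [hE2, MC.mul_c, MC.mul_c, MC.pow_c]; ring
    have hv0 : 0 ≤ V.v i a0 := (V.v i).nonneg _
    have hle1 : E1.c i ≤ (E1 * E2).c i := E1.le_sup_left E2 i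
    have hle2 : E2.c i ≤ (E1 * E2).c i := E1.le_sup_right E2 i
    constructor
    · rw [hQel]
      calc V.v i a0 * V.v i (Q (el b c')) ≤ V.v i a0 * ((E1 * E2).c i * Pi1) :=
            mul_le_mul_of_nonneg_left (hcore1.trans (mul_le_mul_of_nonneg_right hle1 hPi10)) hv0
        _ = _ := by ring
    · rw [hQel]
      calc V.v i a0 * Pi1 ≤ V.v i a0 * ((E1 * E2).c i * V.v i (Q (el b c'))) :=
            mul_le_mul_of_nonneg_left (hcore2.trans (mul_le_mul_of_nonneg_right hle2
              ((V.v i).nonneg _))) hv0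
        _ = _ := by ring
  · have hδel : V.v i (δ (el b c)) = V.v i a0 * V.v i (δ (el b c')) := by
      rw [hel, map_smul, smul_eq_mul, map_mul]
    set cc : Fin n → Fin s → k := fun l j =>
      if l = l0 then δ (y j) else P l (y j) - P l0 (y j) with hccdef
    obtain ⟨t, htT, ht⟩ := hCe i (Finset.univ : Finset (Fin n)) cc (by simp; omega)
    have htw : (p ⟨t, htT⟩).w = wt y t := hp ⟨t, htT⟩
    set Y : ℝ := ⨆ j, V.v i (δ (y j)) with hY
    have hY0 : 0 ≤ Y := Real.iSup_nonneg fun _ => (V.v i).nonneg _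
    set Pi1 : ℝ := ∏ l ∈ Finset.univ.erase l0, dd V i y (P l) (P l0) with hPi1
    have hPi10 : 0 ≤ Pi1 := Finset.prod_nonneg fun l _ => dd_nonneg V i y _ _
    -- the two estimates
    have h1 : Y ≤ Ce.c i * V.v i (δ (p ⟨t, htT⟩).w) := by
      refine Real.iSup_le (fun j => ?_) (mul_nonneg (hcp _) ((V.v i).nonneg _))
      have h2 := ht l0 (Finset.mem_univ _) j
      simp only [hccdef, if_true] at h2
      rw [← lin_wt, ← htw] at h2
      exact h2
    have h2 : ∀ l ∈ Finset.univ.erase l0, dd V i y (P l) (P l0) ≤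
        Ce.c i * V.v i (P l0 (p ⟨t, htT⟩).w - P l (p ⟨t, htT⟩).w) := by
      intro l hl
      refine dd_le (mul_nonneg (hcp _) ((V.v i).nonneg _)) fun j => ?_
      have h3 := ht l (Finset.mem_univ _) j
      simp only [hccdef, if_neg (Finset.ne_of_mem_erase hl)] at h3
      rw [← wt_sub, ← htw] at h3
      rw [(V.v i).map_sub (P l0 _)]
      exact h3
    set X1 : ℝ := ∏ l ∈ Finset.univ.erase l0,
      V.v i (P l0 (p ⟨t, htT⟩).w - P l (p ⟨t, htT⟩).w) with hX1
    have hX10 : 0 ≤ X1 := Finset.prod_nonneg fun l _ => (V.v i).nonneg _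
    have hnpos : 0 < n := l0.pos
    have h3 : Y * Pi1 ≤ Ce.c i ^ D * (V.v i (δ (p ⟨t, htT⟩).w) * X1) := by
      calc Y * Pi1 ≤ (Ce.c i * V.v i (δ (p ⟨t, htT⟩).w)) *
            ∏ l ∈ Finset.univ.erase l0,
              (Ce.c i * V.v i (P l0 (p ⟨t, htT⟩).w - P l (p ⟨t, htT⟩).w)) := by
            refine mul_le_mul h1 (Finset.prod_le_prod (fun l _ => dd_nonneg V i y _ _) h2) hPi10
              (mul_nonneg (hcp _) ((V.v i).nonneg _))
        _ = Ce.c i ^ n * (V.v i (δ (p ⟨t, htT⟩).w) * X1) := by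
            rw [Finset.prod_mul_distrib, Finset.prod_const,
              Finset.card_erase_of_mem (Finset.mem_univ _), Finset.card_univ, Fintype.card_fin,
              ← hX1]
            have : Ce.c i ^ n = Ce.c i * Ce.c i ^ (n - 1) := by
              rw [← pow_succ']
              congr 1
              omega
            rw [this]
            ring
        _ ≤ _ := mul_le_mul_of_nonneg_right (pow_le_pow_right₀ (Ce.one_le i) hn)
            (mul_nonneg ((V.v i).nonneg _) hX10)
    -- the differentiated identity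
    have hPA : P l0 (el b c') = 0 := by
      have h4 : el b c' ∈ RingHom.ker (P l0) := by
        have h5 : Ideal.span {el b c'} ≤ RingHom.ker (P l0) := by
          rw [hz']
          exact (Ideal.prod_le_inf).trans (Finset.inf_le (Finset.mem_univ l0))
        exact h5 (Ideal.mem_span_singleton_self _)
      exact h4
    have hid' : (a ⟨t, htT⟩ * ∏ l ∈ Finset.univ.erase l0,
        (P l0 (p ⟨t, htT⟩).w - P l (p ⟨t, htT⟩).w)) * δ (p ⟨t, htT⟩).w =
        P l0 ((p ⟨t, htT⟩).adj (el b c')) * δ (el b c') := by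
      have h5 := congrArg δ ((p ⟨t, htT⟩).aeval_N (el b c'))
      rw [ptder_aeval (P l0) δ hδ, hδ, hPA, zero_mul, zero_add, hNt ⟨t, htT⟩,
        eval_derivative_prod (a ⟨t, htT⟩) (fun l => P l (p ⟨t, htT⟩).w) l0] at h5
      exact h5
    have h6 : V.v i (a ⟨t, htT⟩) * (V.v i (δ (p ⟨t, htT⟩).w) * X1) ≤
        Ca.c i * V.v i (δ (el b c')) := by
      have h7 := congrArg (V.v i) hid'
      rw [map_mul, map_mul, map_prod, map_mul] at h7
      have h8 : V.v i (a ⟨t, htT⟩) * (V.v i (δ (p ⟨t, htT⟩).w) * X1) =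
          V.v i (a ⟨t, htT⟩) * X1 * V.v i (δ (p ⟨t, htT⟩).w) := by ring
      rw [h8, hX1, h7]
      exact mul_le_mul_of_nonneg_right
        ((hCa' ⟨t, htT⟩ i c' (P l0) hN'.le (hP l0)).trans (hCa _ i)) ((V.v i).nonneg _)
    set Z : ℝ := V.v i (δ (p ⟨t, htT⟩).w) * X1 with hZ
    have hZ0 : 0 ≤ Z := mul_nonneg ((V.v i).nonneg _) hX10
    have h9 : Z ≤ Cl.c i * (Ca.c i * V.v i (δ (el b c'))) := by
      calc Z = 1 * Z := (one_mul _).symm
        _ ≤ (Cl.c i * V.v i (a ⟨t, htT⟩)) * Z := mul_le_mul_of_nonneg_right (hal _) hZ0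
        _ = Cl.c i * (V.v i (a ⟨t, htT⟩) * Z) := by ring
        _ ≤ _ := mul_le_mul_of_nonneg_left h6 (hcp _)
    have h10 : Y * Pi1 ≤ E2.c i * V.v i (δ (el b c')) := by
      calc Y * Pi1 ≤ Ce.c i ^ D * Z := h3
        _ ≤ Ce.c i ^ D * (Cl.c i * (Ca.c i * V.v i (δ (el b c')))) :=
            mul_le_mul_of_nonneg_left h9 (pow_nonneg (hcp _) _)
        _ = E2.c i * V.v i (δ (el b c')) := by rw [hE2, MC.mul_c, MC.mul_c, MC.pow_c]; ring
    have hv0 : 0 ≤ V.v i a0 := (V.v i).nonneg _
    have hle2 : E2.c i ≤ (E1 * E2).c i := E1.le_sup_right E2 i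
    rw [hδel]
    calc V.v i a0 * Y * Pi1 = V.v i a0 * (Y * Pi1) := by ring
      _ ≤ V.v i a0 * ((E1 * E2).c i * V.v i (δ (el b c'))) :=
          mul_le_mul_of_nonneg_left (h10.trans (mul_le_mul_of_nonneg_right hle2
            ((V.v i).nonneg _))) hv0
      _ = _ := by ring

end Fermat.Agent.MW
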