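import Fermat.Agent.MW.ChartB1
import Fermat.Agent.MW.Loc

/-! # The distance functions in the charts -/

set_option autoImplicit false
set_option linter.unusedSectionVars false
set_option linter.style.haveILetI false

noncomputable section

namespace Fermat.Agent.MW

open AlgebraicCurve Module Fermat.Agent.FunField Fermat.Agent.Flat

section real

theorem log_two_sided {ι : Type*} (s : Finset ι) (d : ι → ℝ) {x N c : ℝ} (hx : 0 < x) (hN : 0 < N)
    (hd : ∀ l ∈ s, 0 < d l) (hc : 0 < c) (h1 : x ≤ c * N * ∏ l ∈ s, d l)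
    (h2 : N * ∏ l ∈ s, d l ≤ c * x) :
    |Real.log x - (Real.log N + ∑ l ∈ s, Real.log (d l))| ≤ Real.log c := by
  have hp : 0 < ∏ l ∈ s, d l := Finset.prod_pos hd
  have e := Real.log_prod (s := s) (f := d) fun l hl => (hd l hl).ne'
  rw [← e, ← Real.log_mul hN.ne' hp.ne', abs_le]
  constructor
  · have := Real.log_le_log (mul_pos hN hp) h2
    rw [Real.log_mul hc.ne' hx.ne'] at this
    linarith
  · rw [mul_assoc] at h1
    have := Real.log_le_log hx h1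
    rw [Real.log_mul hc.ne' (mul_pos hN hp).ne'] at this
    linarith

theorem log_cmp {x y c : ℝ} (hx : 0 < x) (hy : 0 < y) (hc : 0 < c) (h1 : x ≤ c * y)
    (h2 : y ≤ c * x) : |Real.log x - Real.log y| ≤ Real.log c := by
  have := log_two_sided (∅ : Finset Unit) (fun _ => 1) hx hy (by simp) hc (by simpa using h1)
    (by simpa using h2)
  simpa using this

end real

section enum

variable {α : Type*}

/-- Enumeration of an effective divisor. -/
theorem exists_enum [DecidableEq α] (n : ℕ) : ∀ (D : α →₀ ℤ), (∀ a, 0 ≤ D a) →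
    D.sum (fun _ m => m) = (n : ℤ) → ∃ P : Fin n → α, D = ∑ l, Finsupp.single (P l) 1 := by
  induction n with
  | zero =>
    intro D hD hn
    refine ⟨Fin.elim0, ?_⟩
    simp only [Finset.univ_eq_empty, Finset.sum_empty]
    ext a
    by_contra ha
    rw [Finsupp.coe_zero, Pi.zero_apply] at ha
    have h1 : D a ≤ D.sum fun _ m => m :=
      Finset.single_le_sum (f := fun a => D a) (fun b _ => hD b) (Finsupp.mem_support_iff.2 ha)
    rw [hn] at h1
    have := hD a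
    push_cast at h1
    omega
  | succ n ih =>
    intro D hD hn
    obtain ⟨a, ha⟩ : ∃ a, D a ≠ 0 := by
      by_contra hcon
      push Not at hcon
      have : D = 0 := Finsupp.ext hcon
      rw [this, Finsupp.sum_zero_index] at hn
      push_cast at hn
      omega
    have hsum : (D - Finsupp.single a 1).sum (fun _ m => m) = (n : ℤ) := by
      have h1 := Finsupp.sum_sub_index (f := D) (g := Finsupp.single a 1)
        (h := fun (_ : α) (m : ℤ) => m) fun _ _ _ => rfl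
      rw [h1, hn, Finsupp.sum_single_index rfl]
      push_cast
      ring
    obtain ⟨P, hP⟩ := ih (D - Finsupp.single a 1) (fun b => by
      rw [Finsupp.sub_apply, Finsupp.single_apply]
      by_cases hb : a = b
      · subst hb
        rw [if_pos rfl]
        have := hD a
        omega
      · rw [if_neg hb, sub_zero]
        exact hD b) hsum
    refine ⟨Fin.cons a P, ?_⟩
    rw [Fin.sum_univ_succ]
    simp only [Fin.cons_zero, Fin.cons_succ]
    rw [← hP, add_sub_cancel]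

/-- Sums over an enumerated divisor. -/
theorem sum_enum {n : ℕ} (P : Fin n → α) (h : α → ℝ) :
    (∑ l, Finsupp.single (P l) (1 : ℤ)).sum (fun a m => (m : ℝ) * h a) = ∑ l, h (P l) := by
  classical
  rw [← Finsupp.sum_finsetSum_index]
  · refine Finset.sum_congr rfl fun l _ => ?_
    rw [Finsupp.sum_single_index (by simp)]
    simp
  · intro a
    simp
  · intro a b c
    push_cast
    ring

open Classical in
theorem apply_enum {n : ℕ} (P : Fin n → α) (a : α) :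
    (∑ l, Finsupp.single (P l) (1 : ℤ)) a = ((Finset.univ.filter fun l => P l = a).card : ℤ) := by
  rw [Finsupp.finsetSum_apply]
  simp [Finsupp.single_apply, Finset.sum_boole]

end enum

variable {k F : Type*} [Field k] [Field F] [Algebra k F] [IsAlgClosed k] [CharZero k]
  {g C : ℤ} (X : XD k F g C)

namespace XD

variable (m1 : ℕ)

/-- The vector of values. -/
def fv (P : Place k F) (j : Fin (X.d m1)) : k := evp P (X.b m1 j : F)

/-- The vector of derivatives. -/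
def dfv (P : Place k F) (j : Fin (X.d m1)) : k := evp P (X.D (X.b m1 j : F))

/-- The vector of values in the chart. -/
def yv (ξ : k) (P : Place k F) (j : Fin (X.d m1)) : k := evp P (X.yy ξ m1 j : F)

variable {m1}

theorem mem_val {m : ℕ} {z : F} (hz : z ∈ X.L m) {P : Place k F} (hP : P ≠ X.inf) :
    z ∈ P.toValuationSubring := by
  by_cases h0 : z = 0
  · rw [h0]; exact zero_mem _
  · exact mem_of_ord_nonneg P (((X.mem_L_ne h0).1 hz).1 P hP)

theorem sum_fv {lam : Fin (X.d m1) → k} {z : F} (h : ∑ j, lam j • (X.b m1 j : F) = z)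
    {P : Place k F} (hP : P ≠ X.inf) : ∑ j, lam j * X.fv m1 P j = evp P z := by
  rw [← h, evp_sum (X.rat P) Finset.univ]
  · refine Finset.sum_congr rfl fun j _ => ?_
    rw [evp_smul (X.rat P) _ (X.mem_val (X.b m1 j).2 hP)]
    rfl
  · intro j _
    rw [Algebra.smul_def]
    exact mul_mem (P.algebraMap_mem' _) (X.mem_val (X.b m1 j).2 hP)

theorem fv_ne_zero {P : Place k F} (hP : P ≠ X.inf) : X.fv m1 P ≠ 0 := by
  intro h
  obtain ⟨lam, hlam⟩ := X.exists_coord (X.one_mem_L m1)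
  have h1 := X.sum_fv hlam hP
  rw [h, evp_one] at h1
  simp at h1

theorem evp_chart_mul (ξ : k) {m : ℕ} {z : F} (hz : z ∈ X.L m) {P : Place k F} (hP : P ≠ X.inf)
    (h : evp P X.x ≠ ξ) :
    evp P (z * X.tx ξ ^ m) = evp P z * evp P (X.tx ξ) ^ m := by
  have ht : X.tx ξ ∈ P.toValuationSubring := mem_of_ord_nonneg P (X.ord_tx hP h).ge
  rw [evp_mul (X.rat P) (X.mem_val hz hP) (pow_mem ht m), evp_pow (X.rat P) ht]

theorem yv_eq (ξ : k) {P : Place k F} (hP : P ≠ X.inf) (h : evp P X.x ≠ ξ) :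
    X.yv m1 ξ P = fun j => evp P (X.tx ξ) ^ m1 * X.fv m1 P j := by
  funext j
  rw [yv, coe_yy, X.evp_chart_mul ξ (X.b m1 j).2 hP h, mul_comm]
  rfl

/-- The coordinates of `1` in the chart. -/
theorem exists_coord_chart (m1 : ℕ) (ξ : k) : ∃ lam : Fin (X.d m1) → k,
    ∑ j, lam j • X.yy ξ m1 j = 1 := by
  have h1 : (X.x - algebraMap k F ξ) ^ m1 ∈ X.L m1 := by
    rw [X.mem_L_ne (pow_ne_zero _ (X.sub_ne ξ))]
    constructor
    · intro v hv
      rw [ord_pow]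
      exact mul_nonneg (Int.natCast_nonneg _) (ord_nonneg_of_mem v (X.sub_mem_val hv ξ))
    · rw [ord_pow]
      have h1 : X.inf.ord (X.x - algebraMap k F ξ) = -(X.n0 : ℤ) := by
        have := X.ord_tx_inf ξ
        rw [tx, X.inf.ord_inv] at this
        omega
      rw [h1]
      push_cast
      linarith
  obtain ⟨lam, hlam⟩ := X.exists_coord h1
  refine ⟨lam, Subtype.ext ?_⟩
  rw [AddSubmonoidClass.coe_finsetSum]
  have : ∀ j, ((lam j • X.yy ξ m1 j : rg k (X.tx ξ)) : F) =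
      (lam j • (X.b m1 j : F)) * X.tx ξ ^ m1 := fun j => by
    rw [smul_mul_assoc]
    rfl
  simp only [this]
  rw [← Finset.sum_mul, hlam, ← mul_pow, tx, mul_inv_cancel₀ (X.sub_ne ξ), one_pow]
  rfl

theorem yv_eq_pt (ξ : k) {P : Place k F} (hP : 0 ≤ P.ord (X.tx ξ)) (j : Fin (X.d m1)) :
    X.yv m1 ξ P j = pt (X.sep_tx ξ) P hP (X.yy ξ m1 j) := rfl

theorem sum_yv {ξ : k} {lam : Fin (X.d m1) → k} (h : ∑ j, lam j • X.yy ξ m1 j = 1)
    {P : Place k F} (hP : 0 ≤ P.ord (X.tx ξ)) : ∑ j, lam j * X.yv m1 ξ P j = 1 := by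
  have h1 := congrArg (pt (X.sep_tx ξ) P hP) h
  rw [map_sum, map_one] at h1
  rw [← h1]
  refine Finset.sum_congr rfl fun j _ => ?_
  rw [map_smul, smul_eq_mul, X.yv_eq_pt ξ hP]

/-- The coordinates separate the points of the chart. -/
theorem yv_injective (hm1 : 0 < m1) (hgen : ∀ a : ℕ, ∀ z ∈ X.L (a * m1), z ∈ X.L m1 ^ a) {ξ : k}
    {P Q : Place k F} (hP : 0 ≤ P.ord (X.tx ξ)) (hQ : 0 ≤ Q.ord (X.tx ξ))
    (h : X.yv m1 ξ P = X.yv m1 ξ Q) : P = Q := by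
  have h1 : pt (X.sep_tx ξ) P hP = pt (X.sep_tx ξ) Q hQ := by
    refine AlgHom.ext_of_adjoin_eq_top (X.adjoin_yy ξ hm1 hgen) ?_
    rintro _ ⟨j, rfl⟩
    exact congrFun h j
  exact pt_injective (X.sep_tx ξ) (by rw [h1])

theorem exists_wedge_yv {ξ : k} {P Q : Place k F} (hP : 0 ≤ P.ord (X.tx ξ))
    (hQ : 0 ≤ Q.ord (X.tx ξ)) (h : X.yv m1 ξ P ≠ X.yv m1 ξ Q) :
    ∃ a b, X.yv m1 ξ P a * X.yv m1 ξ Q b - X.yv m1 ξ P b * X.yv m1 ξ Q a ≠ 0 := by
  by_contra hcon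
  push Not at hcon
  apply h
  obtain ⟨lam, hlam⟩ := X.exists_coord_chart m1 ξ
  have hp := X.sum_yv hlam hP
  have hq := X.sum_yv hlam hQ
  funext a
  have e1 : ∑ b, lam b * (X.yv m1 ξ P a * X.yv m1 ξ Q b - X.yv m1 ξ P b * X.yv m1 ξ Q a) =
      X.yv m1 ξ P a * ∑ b, lam b * X.yv m1 ξ Q b -
        (∑ b, lam b * X.yv m1 ξ P b) * X.yv m1 ξ Q a := by
    rw [Finset.mul_sum, Finset.sum_mul, ← Finset.sum_sub_distrib]
    exact Finset.sum_congr rfl fun b _ => by ring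
  rw [hp, hq, mul_one, one_mul] at e1
  simp only [hcon, mul_zero, Finset.sum_const_zero] at e1
  exact (sub_eq_zero.1 e1.symm)

include X in
theorem exists_ne_two (a b : k) : ∃ ξ : k, a ≠ ξ ∧ b ≠ ξ := by
  classical
  obtain ⟨ξ, hξ⟩ := Infinite.exists_notMem_finset ({a, b} : Finset k)
  simp only [Finset.mem_insert, Finset.mem_singleton, not_or] at hξ
  exact ⟨ξ, fun h => hξ.1 h.symm, fun h => hξ.2 h.symm⟩

theorem exists_wedge_fv (hm1 : 0 < m1) (hgen : ∀ a : ℕ, ∀ z ∈ X.L (a * m1), z ∈ X.L m1 ^ a)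
    {P Q : Place k F} (hP : P ≠ X.inf) (hQ : Q ≠ X.inf) (h : P ≠ Q) :
    ∃ a b, X.fv m1 P a * X.fv m1 Q b - X.fv m1 P b * X.fv m1 Q a ≠ 0 := by
  obtain ⟨ξ, h1, h2⟩ := X.exists_ne_two (evp P X.x) (evp Q X.x)
  have hP' : 0 ≤ P.ord (X.tx ξ) := X.chart_iff.2 (Or.inr ⟨hP, h1⟩)
  have hQ' : 0 ≤ Q.ord (X.tx ξ) := X.chart_iff.2 (Or.inr ⟨hQ, h2⟩)
  obtain ⟨a, b, hab⟩ := X.exists_wedge_yv (m1 := m1) hP' hQ' fun he =>
    h (X.yv_injective hm1 hgen hP' hQ' he)
  refine ⟨a, b, fun h0 => hab ?_⟩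
  rw [X.yv_eq ξ hP h1, X.yv_eq ξ hQ h2]
  linear_combination (evp P (X.tx ξ) ^ m1 * evp Q (X.tx ξ) ^ m1) * h0

/-- The tangent vector at an unramified point. -/
def dpt {ξ : k} {Q : Place k F} (hQ : X.Unr Q) (h : evp Q X.x ≠ ξ) :
    rg k (X.tx ξ) →ₗ[k] k where
  toFun z := evp Q (X.D (z : F))
  map_add' a b := by
    have hc := X.chart_iff.2 (Or.inr ⟨hQ.1, h⟩)
    have ha := mem_of_ord_nonneg Q (X.ord_D_nonneg_of_unr hQ (a.2 Q hc))
    have hb := mem_of_ord_nonneg Q (X.ord_D_nonneg_of_unr hQ (b.2 Q hc))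
    change evp Q (X.D ((a : F) + (b : F))) = _
    rw [map_add, evp_add (X.rat Q) ha hb]
  map_smul' c a := by
    have hc := X.chart_iff.2 (Or.inr ⟨hQ.1, h⟩)
    have ha := mem_of_ord_nonneg Q (X.ord_D_nonneg_of_unr hQ (a.2 Q hc))
    change evp Q (X.D (c • (a : F))) = _
    rw [Derivation.map_smul, evp_smul (X.rat Q) _ ha]
    rfl

theorem dpt_apply {ξ : k} {Q : Place k F} (hQ : X.Unr Q) (h : evp Q X.x ≠ ξ)
    (z : rg k (X.tx ξ)) : X.dpt hQ h z = evp Q (X.D (z : F)) := rfl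

theorem dpt_mul {ξ : k} {Q : Place k F} (hQ : X.Unr Q) (h : evp Q X.x ≠ ξ)
    (hc : 0 ≤ Q.ord (X.tx ξ)) (a b : rg k (X.tx ξ)) :
    X.dpt hQ h (a * b) = pt (X.sep_tx ξ) Q hc a * X.dpt hQ h b +
      pt (X.sep_tx ξ) Q hc b * X.dpt hQ h a := by
  have ha := mem_of_ord_nonneg Q (X.ord_D_nonneg_of_unr hQ (a.2 Q hc))
  have hb := mem_of_ord_nonneg Q (X.ord_D_nonneg_of_unr hQ (b.2 Q hc))
  have ha' := mem_of_ord_nonneg Q (a.2 Q hc)
  have hb' := mem_of_ord_nonneg Q (b.2 Q hc)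
  change evp Q (X.D ((a : F) * (b : F))) = _
  rw [Derivation.leibniz, smul_eq_mul, smul_eq_mul,
    evp_add (X.rat Q) (mul_mem ha' hb) (mul_mem hb' ha),
    evp_mul (X.rat Q) ha' hb, evp_mul (X.rat Q) hb' ha]
  rfl

theorem D_tx (ξ : k) : X.D (X.tx ξ) = -(X.tx ξ) ^ 2 := by
  have h1 : X.tx ξ * (X.x - algebraMap k F ξ) = 1 := inv_mul_cancel₀ (X.sub_ne ξ)
  have h2 := congrArg X.D h1
  rw [Derivation.leibniz, smul_eq_mul, smul_eq_mul, map_sub, X.D_x, X.D_const, sub_zero, mul_one,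
    Derivation.map_one_eq_zero] at h2
  have h3 : X.D (X.tx ξ) = X.D (X.tx ξ) * (X.tx ξ * (X.x - algebraMap k F ξ)) := by
    rw [h1, mul_one]
  rw [h3]
  linear_combination X.tx ξ * h2

/-- The tangent vector is not zero. -/
theorem exists_dpt_ne (hm1 : 0 < m1) (hgen : ∀ a : ℕ, ∀ z ∈ X.L (a * m1), z ∈ X.L m1 ^ a)
    {ξ : k} {Q : Place k F} (hQ : X.Unr Q) (h : evp Q X.x ≠ ξ) :
    ∃ j, X.dpt hQ h (X.yy ξ m1 j) ≠ 0 := by
  by_contra hcon
  push Not at hcon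
  have hc : 0 ≤ Q.ord (X.tx ξ) := X.chart_iff.2 (Or.inr ⟨hQ.1, h⟩)
  have h0 : ∀ z : rg k (X.tx ξ), X.dpt hQ h z = 0 := by
    intro z
    have hz : z ∈ Algebra.adjoin k (Set.range (X.yy ξ m1)) := by
      rw [X.adjoin_yy ξ hm1 hgen]
      trivial
    induction hz using Algebra.adjoin_induction with
    | mem z hz =>
      obtain ⟨j, rfl⟩ := hz
      exact hcon j
    | algebraMap a =>
      rw [dpt_apply]
      change evp Q (X.D (algebraMap k F a)) = 0
      rw [X.D_const, evp_zero]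
    | add a b _ _ ha hb => rw [map_add, ha, hb, add_zero]
    | mul a b _ _ ha hb => rw [X.dpt_mul hQ h hc, ha, hb, mul_zero, mul_zero, add_zero]
  have h1 := h0 ⟨X.tx ξ, self_mem_rg _⟩
  rw [dpt_apply] at h1
  change evp Q (X.D (X.tx ξ)) = 0 at h1
  have ht : X.tx ξ ∈ Q.toValuationSubring := mem_of_ord_nonneg Q hc
  rw [X.D_tx, evp_eq_zero_iff (X.rat Q) (neg_mem (pow_mem ht 2)), ord_neg, ord_pow,
    X.ord_tx hQ.1 h, mul_zero] at h1
  rcases h1 with h1 | h1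
  · exact X.tx_ne ξ (pow_eq_zero_iff (two_ne_zero) |>.1 (neg_eq_zero.1 h1))
  · exact lt_irrefl _ h1

theorem dyv_eq {ξ : k} {Q : Place k F} (hQ : X.Unr Q) (h : evp Q X.x ≠ ξ) :
    (fun j => X.dpt hQ h (X.yy ξ m1 j)) = fun j => evp Q (X.tx ξ) ^ m1 * X.dfv m1 Q j +
      evp Q (X.D (X.tx ξ ^ m1)) * X.fv m1 Q j := by
  funext j
  have hc : 0 ≤ Q.ord (X.tx ξ) := X.chart_iff.2 (Or.inr ⟨hQ.1, h⟩)
  have ht : X.tx ξ ^ m1 ∈ Q.toValuationSubring := pow_mem (mem_of_ord_nonneg Q hc) m1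
  have hb := X.mem_val (X.b m1 j).2 hQ.1
  have hDb := mem_of_ord_nonneg Q (X.ord_D_nonneg_of_unr hQ (ord_nonneg_of_mem Q hb))
  have hDt := mem_of_ord_nonneg Q (X.ord_D_nonneg_of_unr hQ (ord_nonneg_of_mem Q ht))
  rw [dpt_apply, coe_yy, Derivation.leibniz, smul_eq_mul, smul_eq_mul,
    evp_add (X.rat Q) (mul_mem hb hDt) (mul_mem ht hDb), evp_mul (X.rat Q) hb hDt,
    evp_mul (X.rat Q) ht hDb, evp_pow (X.rat Q) (mem_of_ord_nonneg Q hc)]
  rw [add_comm, mul_comm (evp Q (X.b m1 j : F))]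
  rfl

theorem exists_wedge_dfv (hm1 : 0 < m1) (hgen : ∀ a : ℕ, ∀ z ∈ X.L (a * m1), z ∈ X.L m1 ^ a)
    {Q : Place k F} (hQ : X.Unr Q) :
    ∃ a b, X.fv m1 Q a * X.dfv m1 Q b - X.fv m1 Q b * X.dfv m1 Q a ≠ 0 := by
  obtain ⟨ξ, h, -⟩ := X.exists_ne_two (evp Q X.x) (evp Q X.x)
  have hc : 0 ≤ Q.ord (X.tx ξ) := X.chart_iff.2 (Or.inr ⟨hQ.1, h⟩)
  obtain ⟨j, hj⟩ := X.exists_dpt_ne hm1 hgen hQ h
  obtain ⟨lam, hlam⟩ := X.exists_coord_chart m1 ξ
  by_contra hcon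
  push Not at hcon
  apply hj
  have hp := X.sum_yv hlam hc
  have hq : ∑ b, lam b * X.dpt hQ h (X.yy ξ m1 b) = 0 := by
    have h1 := congrArg (X.dpt hQ h) hlam
    rw [map_sum] at h1
    have h2 : X.dpt hQ h 1 = 0 := by
      rw [dpt_apply]
      change evp Q (X.D (1 : F)) = 0
      rw [Derivation.map_one_eq_zero, evp_zero]
    rw [h2] at h1
    rw [← h1]
    refine Finset.sum_congr rfl fun b _ => ?_
    rw [map_smul, smul_eq_mul]
  have e1 : ∑ b, lam b * (X.yv m1 ξ Q b * X.dpt hQ h (X.yy ξ m1 j) -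
      X.yv m1 ξ Q j * X.dpt hQ h (X.yy ξ m1 b)) = X.dpt hQ h (X.yy ξ m1 j) := by
    have : ∑ b, lam b * (X.yv m1 ξ Q b * X.dpt hQ h (X.yy ξ m1 j) -
        X.yv m1 ξ Q j * X.dpt hQ h (X.yy ξ m1 b)) =
        (∑ b, lam b * X.yv m1 ξ Q b) * X.dpt hQ h (X.yy ξ m1 j) -
        X.yv m1 ξ Q j * ∑ b, lam b * X.dpt hQ h (X.yy ξ m1 b) := by
      rw [Finset.mul_sum, Finset.sum_mul, ← Finset.sum_sub_distrib]
      exact Finset.sum_congr rfl fun b _ => by ring
    rw [this, hp, hq, mul_zero, one_mul, sub_zero]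
  rw [← e1]
  refine Finset.sum_eq_zero fun b _ => ?_
  have e2 := congrFun (X.dyv_eq (m1 := m1) hQ h) j
  have e3 := congrFun (X.dyv_eq (m1 := m1) hQ h) b
  rw [e2, e3, X.yv_eq ξ hQ.1 h]
  have e4 := hcon b j
  linear_combination (lam b * evp Q (X.tx ξ) ^ m1 * evp Q (X.tx ξ) ^ m1) * e4

end XD

end Fermat.Agent.MW
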