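import Fermat.Agent.MW.ChartB2

/-! # The local estimates in a chart -/

set_option autoImplicit false
set_option linter.unusedSectionVars false
set_option linter.style.haveILetI false
set_option maxHeartbeats 1000000

noncomputable section

namespace Fermat.Agent.MW

open AlgebraicCurve Module Fermat.Agent.FunField Fermat.Agent.Flat

variable {k F : Type*} [Field k] [Field F] [Algebra k F] [IsAlgClosed k] [CharZero k]
  {g C : ℤ} (X : XD k F g C) (V : AV k)

namespace XD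

/-- The coordinates are bounded in the chart. -/
theorem exists_yv_bound (ξ : k) (m : ℕ) (B : MC V.ι) : ∃ D : MC V.ι, ∀ i (P : Place k F),
    0 ≤ P.ord (X.tx ξ) → V.v i (evp P (X.tx ξ)) ≤ B.c i → ∀ j, V.v i (X.yv m ξ P j) ≤ D.c i := by
  choose D hD using fun j => bdd_rg V (X.sep_tx ξ) B (X.yy ξ m j)
  obtain ⟨E, hE⟩ := MC.exists_ge_fintype D
  exact ⟨E, fun i P hP hB j => (hD j i P hP hB).trans (hE j i)⟩

theorem exists_dist_cmp (m1 : ℕ) (ξ : k) (B : MC V.ι) : ∃ D : MC V.ι, ∀ i (P Q : Place k F),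
    X.Near V B i ξ P → X.Near V B i ξ Q →
      dstv V i (X.fv m1 P) (X.fv m1 Q) ≤
        D.c i * nrm V i (fun j => X.yv m1 ξ P j - X.yv m1 ξ Q j) ∧
      nrm V i (fun j => X.yv m1 ξ P j - X.yv m1 ξ Q j) ≤
        D.c i * dstv V i (X.fv m1 P) (X.fv m1 Q) := by
  obtain ⟨lam, hlam⟩ := X.exists_coord_chart m1 ξ
  obtain ⟨E, hE⟩ := X.exists_yv_bound V ξ m1 B
  obtain ⟨D, hD⟩ := exists_affine V lam E
  refine ⟨D, fun i P Q hP hQ => ?_⟩
  have h1 := hD i (X.yv m1 ξ P) (X.yv m1 ξ Q) (X.sum_yv hlam hP.chart) (X.sum_yv hlam hQ.chart)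
    (hE i P hP.chart hP.tx_le) (hE i Q hQ.chart hQ.tx_le)
  have e : dstv V i (X.yv m1 ξ P) (X.yv m1 ξ Q) = dstv V i (X.fv m1 P) (X.fv m1 Q) := by
    rw [X.yv_eq ξ hP.1 hP.ne, X.yv_eq ξ hQ.1 hQ.ne]
    refine dstv_scale V i _ _ (pow_ne_zero _ ?_) (pow_ne_zero _ ?_)
    · exact (V.v i).ne_zero_iff.1 hP.tx_pos.ne'
    · exact (V.v i).ne_zero_iff.1 hQ.tx_pos.ne'
  rw [e] at h1
  exact h1.2

theorem sum_dpt {m1 : ℕ} {ξ : k} {lam : Fin (X.d m1) → k} (hlam : ∑ j, lam j • X.yy ξ m1 j = 1)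
    {Q : Place k F} (hQ : X.Unr Q) (h : evp Q X.x ≠ ξ) :
    ∑ b, lam b * X.dpt hQ h (X.yy ξ m1 b) = 0 := by
  have h1 := congrArg (X.dpt hQ h) hlam
  rw [map_sum] at h1
  have h2 : X.dpt hQ h 1 = 0 := by
    rw [dpt_apply]
    change evp Q (X.D (1 : F)) = 0
    rw [Derivation.map_one_eq_zero, evp_zero]
  rw [h2] at h1
  rw [← h1]
  refine Finset.sum_congr rfl fun b _ => ?_
  rw [map_smul, smul_eq_mul]

theorem exists_kap_cmp (m1 : ℕ) (ξ : k) (B : MC V.ι) : ∃ D : MC V.ι, ∀ i (Q : Place k F)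
    (hQ : X.Unr Q) (hN : X.Near V B i ξ Q),
      kapv V i (X.fv m1 Q) (X.dfv m1 Q) ≤
        D.c i * nrm V i (fun j => X.dpt hQ hN.ne (X.yy ξ m1 j)) ∧
      nrm V i (fun j => X.dpt hQ hN.ne (X.yy ξ m1 j)) ≤
        D.c i * kapv V i (X.fv m1 Q) (X.dfv m1 Q) := by
  obtain ⟨lam, hlam⟩ := X.exists_coord_chart m1 ξ
  obtain ⟨E, hE⟩ := X.exists_yv_bound V ξ m1 B
  obtain ⟨D, hD⟩ := exists_tangent_affine V lam E
  refine ⟨D, fun i Q hQ hN => ?_⟩
  have h1 := hD i (X.yv m1 ξ Q) (fun j => X.dpt hQ hN.ne (X.yy ξ m1 j))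
    (X.sum_yv hlam hN.chart) (X.sum_dpt hlam hQ hN.ne) (hE i Q hN.chart hN.tx_le)
  have e : kapv V i (X.yv m1 ξ Q) (fun j => X.dpt hQ hN.ne (X.yy ξ m1 j)) =
      kapv V i (X.fv m1 Q) (X.dfv m1 Q) := by
    rw [X.yv_eq ξ hN.1 hN.ne, X.dyv_eq hQ hN.ne]
    exact kapv_scale V i _ _ (pow_ne_zero _ ((V.v i).ne_zero_iff.1 hN.tx_pos.ne')) _
  rw [e] at h1
  exact h1

/-- The element in the chart. -/
theorem coe_el (ξ : k) (m : ℕ) (c : Fin (X.d m) → k) :
    ((el (X.yy ξ m) c : rg k (X.tx ξ)) : F) = X.elt m c * X.tx ξ ^ m := by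
  rw [el, elt, AddSubmonoidClass.coe_finsetSum, Finset.sum_mul]
  refine Finset.sum_congr rfl fun j _ => ?_
  rw [smul_mul_assoc]
  rfl

theorem elt_mem (m : ℕ) (c : Fin (X.d m) → k) : X.elt m c ∈ X.L m :=
  sum_mem fun j _ => (X.L m).smul_mem _ (X.b m j).2

theorem elt_ne_zero {m : ℕ} {c : Fin (X.d m) → k} (hc : c ≠ 0) : X.elt m c ≠ 0 := by
  intro h
  apply hc
  have h1 : ∑ j, c j • X.b m j = 0 := by
    apply Subtype.ext
    have : ((∑ j, c j • X.b m j : X.L m) : F) = X.elt m c := by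
      rw [elt, AddSubmonoidClass.coe_finsetSum]
      rfl
    rw [this, h]
    rfl
  funext j
  exact Fintype.linearIndependent_iff.1 (X.b m).linearIndependent c h1 j

theorem zs_inf (A : F) : X.zs A X.inf = 0 := Finsupp.erase_same

theorem zs_ne (A : F) {v : Place k F} (hv : v ≠ X.inf) : X.zs A v = v.ord A := by
  rw [zs, Finsupp.erase_ne hv, dv_apply (X.crv.fin A)]

/-- The number of affine zeros. -/
theorem zs_sum {m : ℕ} {c : Fin (X.d m) → k} (hc : c ≠ 0)
    (hord : X.inf.ord (X.elt m c) = -((m * X.n0 : ℕ) : ℤ)) :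
    (X.zs (X.elt m c)).sum (fun _ n => n) = ((m * X.n0 : ℕ) : ℤ) := by
  classical
  have h0 := X.crv.deg0 _ (X.elt_ne_zero hc)
  have h1 := Finsupp.single_add_erase X.inf (dv (K := k) (X.elt m c))
  have h2 : dg (dv (K := k) (X.elt m c)) = dv (K := k) (X.elt m c) X.inf +
      dg (X.zs (X.elt m c)) := by
    conv_lhs => rw [← h1]
    rw [map_add, dg_single]
    rfl
  rw [h0, dv_apply (X.crv.fin _), hord] at h2
  have h3 : dg (X.zs (X.elt m c)) = (X.zs (X.elt m c)).sum (fun _ n => n) := rfl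
  rw [← h3]
  linarith

theorem zs_nonneg {m : ℕ} (c : Fin (X.d m) → k) (v : Place k F) : 0 ≤ X.zs (X.elt m c) v := by
  by_cases hv : v = X.inf
  · rw [hv, X.zs_inf]
  · rw [X.zs_ne _ hv]
    exact ord_nonneg_of_mem v (X.mem_val (X.elt_mem m c) hv)

/-- The factorisation in the chart. -/
theorem span_el {m : ℕ} {c : Fin (X.d m) → k} (hc : c ≠ 0)
    (hord : X.inf.ord (X.elt m c) = -((m * X.n0 : ℕ) : ℤ)) {n : ℕ} {P : Fin n → Place k F}
    (hP : X.zs (X.elt m c) = ∑ l, Finsupp.single (P l) 1) (ξ : k)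
    (hPc : ∀ l, 0 ≤ (P l).ord (X.tx ξ)) :
    Ideal.span {el (X.yy ξ m) c} = ∏ l, RingHom.ker (pt (X.sep_tx ξ) (P l) (hPc l)) := by
  classical
  have hA := X.elt_ne_zero hc
  refine span_eq_prod (X.sep_tx ξ) _ ?_ P hPc fun v hv => ?_
  · intro h
    have h1 := congrArg (fun z : rg k (X.tx ξ) => (z : F)) h
    simp only [X.coe_el] at h1
    exact mul_ne_zero hA (pow_ne_zero m (X.tx_ne ξ)) h1
  · have h1 : X.zs (X.elt m c) v = ((Finset.univ.filter fun l => P l = v).card : ℤ) := by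
      rw [hP]
      exact apply_enum P v
    rw [X.coe_el, v.ord_mul hA (pow_ne_zero m (X.tx_ne ξ)), ord_pow]
    rcases X.chart_iff.1 hv with rfl | ⟨hv', h⟩
    · rw [X.zs_inf] at h1
      rw [hord, X.ord_tx_inf]
      push_cast
      linarith
    · rw [X.zs_ne _ hv'] at h1
      rw [X.ord_tx hv' h, mul_zero, add_zero, h1]

/-- The size of the parameter. -/
theorem exists_tx_cmp (ξ : k) (B : MC V.ι) : ∃ D : MC V.ι, ∀ i (v : Place k F),
    X.Near V B i ξ v →
      |Real.log (V.v i (evp v (X.tx ξ))) + Real.log (X.sz V i v)| ≤ Real.log (D.c i) := by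
  obtain ⟨D, hD⟩ := X.exists_tx_ge V ξ B
  refine ⟨D * B, fun i v h => ?_⟩
  have h1 := hD i v h
  have h2 := h.tx_mul
  have ht := h.tx_pos
  have hs := sz_pos (X := X) (V := V) i v
  rw [← Real.log_mul ht.ne' hs.ne']
  have h3 := log_cmp (x := V.v i (evp v (X.tx ξ)) * X.sz V i v) (y := 1) (c := (D * B).c i)
    (mul_pos ht hs) one_pos ((D * B).pos i) (by
      rw [mul_one, MC.mul_c]
      exact h2.trans (le_mul_of_one_le_left (B.pos i).le (D.one_le i))) (by
      rw [MC.mul_c]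
      refine h1.trans (mul_le_mul_of_nonneg_right ?_ (mul_pos ht hs).le)
      exact le_mul_of_one_le_right (D.pos i).le (B.one_le i))
  rwa [Real.log_one, sub_zero] at h3

theorem dd_pos {m1 : ℕ} (hm1 : 0 < m1) (hgen : ∀ a : ℕ, ∀ z ∈ X.L (a * m1), z ∈ X.L m1 ^ a)
    {ξ : k} (i : V.ι) {P Q : Place k F} (hP : 0 ≤ P.ord (X.tx ξ)) (hQ : 0 ≤ Q.ord (X.tx ξ))
    (h : P ≠ Q) : 0 < nrm V i (fun j => X.yv m1 ξ P j - X.yv m1 ξ Q j) := by
  refine nrm_pos V i fun h0 => h (X.yv_injective hm1 hgen hP hQ (funext fun j => ?_))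
  exact sub_eq_zero.1 (congrFun h0 j)

theorem dist_pos {m1 : ℕ} (hm1 : 0 < m1) (hgen : ∀ a : ℕ, ∀ z ∈ X.L (a * m1), z ∈ X.L m1 ^ a)
    (i : V.ι) {P Q : Place k F} (hP : P ≠ X.inf) (hQ : Q ≠ X.inf) (h : P ≠ Q) :
    0 < dstv V i (X.fv m1 P) (X.fv m1 Q) :=
  div_pos (wdg_pos V i (X.exists_wedge_fv hm1 hgen hP hQ h))
    (mul_pos (nrm_pos V i (X.fv_ne_zero hP)) (nrm_pos V i (X.fv_ne_zero hQ)))

theorem kap_pos {m1 : ℕ} (hm1 : 0 < m1) (hgen : ∀ a : ℕ, ∀ z ∈ X.L (a * m1), z ∈ X.L m1 ^ a)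
    (i : V.ι) {Q : Place k F} (hQ : X.Unr Q) : 0 < kapv V i (X.fv m1 Q) (X.dfv m1 Q) :=
  div_pos (wdg_pos V i (X.exists_wedge_dfv hm1 hgen hQ))
    (pow_pos (nrm_pos V i (X.fv_ne_zero hQ.1)) 2)

/-- **The estimates in a chart.** -/
theorem exists_chart_main {m1 : ℕ} (hm1 : 0 < m1)
    (hgen : ∀ a : ℕ, ∀ z ∈ X.L (a * m1), z ∈ X.L m1 ^ a) (m : ℕ) (ξ : k) (B : MC V.ι) :
    ∃ E : MC V.ι, ∀ i (c : Fin (X.d m) → k), c ≠ 0 →
      X.inf.ord (X.elt m c) = -((m * X.n0 : ℕ) : ℤ) → ∀ P : Fin (m * X.n0) → Place k F,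
      X.zs (X.elt m c) = ∑ l, Finsupp.single (P l) 1 → (∀ l, X.Near V B i ξ (P l)) →
      (∀ Q, X.Near V B i ξ Q → Q.ord (X.elt m c) = 0 →
        |Real.log (V.v i (evp Q (X.elt m c))) - Real.log (nrm V i c)
          - m * Real.log (X.sz V i Q)
          - ∑ l, Real.log (dstv V i (X.fv m1 (P l)) (X.fv m1 Q))| ≤ Real.log (E.c i)) ∧
      |X.n0 * Real.log (nrm V i c)
        - X.n0 * Real.log (V.v i (evp X.inf (X.elt m c * X.x⁻¹ ^ m)))
        - ∑ l, Real.log (X.sz V i (P l))| ≤ Real.log (E.c i) ∧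
      (∀ l0, X.Unr (P l0) → (∀ l, l ≠ l0 → P l ≠ P l0) →
        Real.log (nrm V i c) + m * Real.log (X.sz V i (P l0))
          + Real.log (kapv V i (X.fv m1 (P l0)) (X.dfv m1 (P l0)))
          + ∑ l ∈ Finset.univ.erase l0, Real.log (dstv V i (X.fv m1 (P l)) (X.fv m1 (P l0))) ≤
        Real.log (E.c i) + Real.log (V.v i (evp (P l0) (X.D (X.elt m c))))) := by
  classical
  haveI := rg_isDedekindDomain (X.sep_tx ξ)
  have htop := X.adjoin_yy ξ hm1 hgen
  haveI : Algebra.FiniteType k (rg k (X.tx ξ)) := by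
    refine ⟨⟨(Finset.univ.image (X.yy ξ m1)), ?_⟩⟩
    rw [Finset.coe_image, Finset.coe_univ, Set.image_univ]
    exact htop
  have hpr := X.finite_pr ξ hm1
  obtain ⟨B', hB'⟩ := X.exists_yv_bound V ξ m1 B
  obtain ⟨E1, hE1⟩ := loc V (X.yy ξ m1) htop hpr (X.yy ξ m) (X.yy_linearIndependent ξ m) B'
  -- the parameter itself
  let tt : rg k (X.tx ξ) := ⟨X.tx ξ, self_mem_rg _⟩
  have htt : tt ≠ 0 := fun h => X.tx_ne ξ (congrArg (fun z : rg k (X.tx ξ) => (z : F)) h)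
  obtain ⟨E2, hE2⟩ := loc V (X.yy ξ m1) htop hpr (fun _ : Fin 1 => tt)
    (by
      rw [Fintype.linearIndependent_iff]
      intro u hu j
      simp only [Finset.univ_unique, Fin.default_eq_zero, Finset.sum_singleton] at hu
      have : j = 0 := Subsingleton.elim _ _
      rw [this]
      exact (smul_eq_zero.1 hu).resolve_right htt) B'
  obtain ⟨D1, hD1⟩ := X.exists_tx_cmp V ξ B
  obtain ⟨D2, hD2⟩ := X.exists_dist_cmp V m1 ξ B
  obtain ⟨D3, hD3⟩ := X.exists_kap_cmp V m1 ξ B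
  refine ⟨(E1.pow (X.n0 + 1)) * (E2.pow (m * X.n0)) * (D1.pow (m + m * X.n0)) *
    (D2.pow (m * X.n0)) * D3, fun i c hc hord P hP hN => ?_⟩
  -- logarithms of the constants
  have lE1 : 0 ≤ Real.log (E1.c i) := Real.log_nonneg (E1.one_le i)
  have lE2 : 0 ≤ Real.log (E2.c i) := Real.log_nonneg (E2.one_le i)
  have lD1 : 0 ≤ Real.log (D1.c i) := Real.log_nonneg (D1.one_le i)
  have lD2 : 0 ≤ Real.log (D2.c i) := Real.log_nonneg (D2.one_le i)
  have lD3 : 0 ≤ Real.log (D3.c i) := Real.log_nonneg (D3.one_le i)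
  have elog : Real.log (((E1.pow (X.n0 + 1)) * (E2.pow (m * X.n0)) * (D1.pow (m + m * X.n0)) *
      (D2.pow (m * X.n0)) * D3).c i) = (X.n0 + 1) * Real.log (E1.c i) +
      (m * X.n0 : ℕ) * Real.log (E2.c i) + (m + (m * X.n0 : ℕ)) * Real.log (D1.c i) +
      (m * X.n0 : ℕ) * Real.log (D2.c i) + Real.log (D3.c i) := by
    simp only [MC.mul_c, MC.pow_c]
    have p1 := E1.pos i
    have p2 := E2.pos i
    have p3 := D1.pos i
    have p4 := D2.pos i
    have p5 := D3.pos i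
    rw [Real.log_mul (by positivity) (by positivity), Real.log_mul (by positivity) (by positivity),
      Real.log_mul (by positivity) (by positivity), Real.log_mul (by positivity) (by positivity),
      Real.log_pow, Real.log_pow, Real.log_pow, Real.log_pow]
    push_cast
    ring
  rw [elog]
  have hPc : ∀ l, 0 ≤ (P l).ord (X.tx ξ) := fun l => (hN l).chart
  have hPinf : ∀ l, P l ≠ X.inf := fun l => (hN l).1
  have hspan := X.span_el hc hord hP ξ hPc
  have hPB : ∀ l j, V.v i (pt (X.sep_tx ξ) (P l) (hPc l) (X.yy ξ m1 j)) ≤ B'.c i :=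
    fun l j => hB' i (P l) (hPc l) (hN l).tx_le j
  obtain ⟨hval, hder⟩ := hE1 i c hc (fun l => pt (X.sep_tx ξ) (P l) (hPc l)) hspan hPB
  have hnc := nrm_pos V i hc
  have hA := X.elt_ne_zero hc
  -- zeros
  have hzero : ∀ l, (P l).ord (X.elt m c) ≠ 0 := by
    intro l
    rw [← X.zs_ne _ (hPinf l), hP, apply_enum]
    have : l ∈ Finset.univ.filter fun l' => P l' = P l := by simp
    have h2 := Finset.card_pos.2 ⟨l, this⟩
    omega
  have hnlog : (0 : ℝ) ≤ (X.n0 : ℝ) := Nat.cast_nonneg _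
  have hmlog : (0 : ℝ) ≤ (m : ℝ) := Nat.cast_nonneg _
  have hmnlog : (0 : ℝ) ≤ ((m * X.n0 : ℕ) : ℝ) := Nat.cast_nonneg _
  have e_ge1 : Real.log (E1.c i) ≤ (X.n0 + 1) * Real.log (E1.c i) := by
    nlinarith
  have pE2 : 0 ≤ ((m * X.n0 : ℕ) : ℝ) * Real.log (E2.c i) := mul_nonneg hmnlog lE2
  have pD1 : 0 ≤ ((m * X.n0 : ℕ) : ℝ) * Real.log (D1.c i) := mul_nonneg hmnlog lD1
  have pD1' : 0 ≤ (m : ℝ) * Real.log (D1.c i) := mul_nonneg hmlog lD1
  have pD2 : 0 ≤ ((m * X.n0 : ℕ) : ℝ) * Real.log (D2.c i) := mul_nonneg hmnlog lD2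
  refine ⟨fun Q hQN hQ => ?_, ?_, fun l0 hunr hne => ?_⟩
  · -- the main estimate
    have hQc := hQN.chart
    obtain ⟨h1, h2⟩ := hval (pt (X.sep_tx ξ) Q hQc) fun j => hB' i Q hQc hQN.tx_le j
    have hPQ : ∀ l, P l ≠ Q := fun l he => hzero l (by rw [he, hQ])
    have hddpos : ∀ l ∈ (Finset.univ : Finset (Fin (m * X.n0))),
        0 < dd V i (X.yy ξ m1) (pt (X.sep_tx ξ) (P l) (hPc l)) (pt (X.sep_tx ξ) Q hQc) :=
      fun l _ => X.dd_pos V hm1 hgen i (hPc l) hQc (hPQ l)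
    have hAQ : evp Q (X.elt m c) ≠ 0 :=
      (evp_ne_zero_iff (X.rat Q) (X.mem_val (X.elt_mem m c) hQN.1)).2 ⟨hA, hQ⟩
    have hval' : pt (X.sep_tx ξ) Q hQc (el (X.yy ξ m) c) =
        evp Q (X.elt m c) * evp Q (X.tx ξ) ^ m := by
      rw [pt_apply, X.coe_el]
      exact X.evp_chart_mul ξ (X.elt_mem m c) hQN.1 hQN.ne
    rw [hval', map_mul, map_pow] at h1 h2
    have pa : 0 < V.v i (evp Q (X.elt m c)) := (V.v i).pos hAQ
    have pt' := hQN.tx_pos
    have key := log_two_sided Finset.univ _ (mul_pos pa (pow_pos pt' m)) hnc hddpos (E1.pos i)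
      h1 h2
    rw [Real.log_mul pa.ne' (pow_pos pt' m).ne', Real.log_pow] at key
    have k1 := hD1 i Q hQN
    have k2 : ∀ l ∈ (Finset.univ : Finset (Fin (m * X.n0))),
        |Real.log (dd V i (X.yy ξ m1) (pt (X.sep_tx ξ) (P l) (hPc l)) (pt (X.sep_tx ξ) Q hQc)) -
          Real.log (dstv V i (X.fv m1 (P l)) (X.fv m1 Q))| ≤ Real.log (D2.c i) := fun l hl =>
      log_cmp (hddpos l hl) (X.dist_pos V hm1 hgen i (hPinf l) hQN.1 (hPQ l)) (D2.pos i)
        (hD2 i (P l) Q (hN l) hQN).2 (hD2 i (P l) Q (hN l) hQN).1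
    have k3 : |∑ l, (Real.log (dd V i (X.yy ξ m1) (pt (X.sep_tx ξ) (P l) (hPc l))
          (pt (X.sep_tx ξ) Q hQc)) - Real.log (dstv V i (X.fv m1 (P l)) (X.fv m1 Q)))| ≤
        (m * X.n0 : ℕ) * Real.log (D2.c i) := by
      refine (Finset.abs_sum_le_sum_abs _ _).trans ((Finset.sum_le_sum k2).trans ?_)
      rw [Finset.sum_const, Finset.card_univ, Fintype.card_fin, nsmul_eq_mul]
    rw [Finset.sum_sub_distrib] at k3
    have k1' : |(m : ℝ) * (Real.log (V.v i (evp Q (X.tx ξ))) + Real.log (X.sz V i Q))| ≤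
        m * Real.log (D1.c i) := by
      rw [abs_mul, abs_of_nonneg hmlog]
      exact mul_le_mul_of_nonneg_left k1 hmlog
    rw [abs_le] at key k1' k3 ⊢
    constructor
    · linarith [key.1, key.2, k1'.1, k1'.2, k3.1, k3.2]
    · linarith [key.1, key.2, k1'.1, k1'.2, k3.1, k3.2]
  · -- the leading coefficient
    have hic := X.chart_inf ξ
    have hinfB : V.v i (evp X.inf (X.tx ξ)) ≤ B.c i := by
      rw [X.evp_tx_inf, map_zero]
      exact (B.pos i).le
    obtain ⟨h1, h2⟩ := hval (pt (X.sep_tx ξ) X.inf hic) fun j => hB' i X.inf hic hinfB j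
    have hddpos : ∀ l ∈ (Finset.univ : Finset (Fin (m * X.n0))),
        0 < dd V i (X.yy ξ m1) (pt (X.sep_tx ξ) (P l) (hPc l)) (pt (X.sep_tx ξ) X.inf hic) :=
      fun l _ => X.dd_pos V hm1 hgen i (hPc l) hic (hPinf l)
    have hx0 : X.x ≠ 0 := X.sep.ne_zero
    have hordlead : X.inf.ord (X.elt m c * X.x⁻¹ ^ m) = 0 := by
      rw [X.inf.ord_mul hA (pow_ne_zero _ (inv_ne_zero hx0)), ord_pow, X.inf.ord_inv, X.ord_inf,
        hord]
      push_cast
      ring
    have hleadmem : X.elt m c * X.x⁻¹ ^ m ∈ X.inf.toValuationSubring :=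
      mem_of_ord_nonneg _ hordlead.ge
    have hxt : X.x * X.tx ξ = 1 + algebraMap k F ξ * X.tx ξ := by
      have := mul_inv_cancel₀ (X.sub_ne ξ)
      rw [tx]
      linear_combination this
    have htmem : X.tx ξ ∈ X.inf.toValuationSubring := mem_of_ord_nonneg _ hic
    have hxtmem : X.x * X.tx ξ ∈ X.inf.toValuationSubring := by
      rw [hxt]
      exact add_mem (one_mem _) (mul_mem (X.inf.algebraMap_mem' _) htmem)
    have hxt1 : evp X.inf (X.x * X.tx ξ) = 1 := by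
      rw [hxt, evp_add (X.rat _) (one_mem _) (mul_mem (X.inf.algebraMap_mem' _) htmem), evp_one,
        evp_mul (X.rat _) (X.inf.algebraMap_mem' _) htmem, X.evp_tx_inf, mul_zero, add_zero]
    have hvale : pt (X.sep_tx ξ) X.inf hic (el (X.yy ξ m) c) =
        evp X.inf (X.elt m c * X.x⁻¹ ^ m) := by
      rw [pt_apply, X.coe_el]
      have e : X.elt m c * X.tx ξ ^ m = (X.elt m c * X.x⁻¹ ^ m) * (X.x * X.tx ξ) ^ m := by
        rw [mul_pow, mul_assoc, ← mul_assoc (X.x⁻¹ ^ m), ← mul_pow, inv_mul_cancel₀ hx0, one_pow,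
          one_mul]
      rw [e, evp_mul (X.rat _) hleadmem (pow_mem hxtmem m), evp_pow (X.rat _) hxtmem, hxt1,
        one_pow, mul_one]
    rw [hvale] at h1 h2
    have hlead : evp X.inf (X.elt m c * X.x⁻¹ ^ m) ≠ 0 :=
      (evp_ne_zero_iff (X.rat _) hleadmem).2
        ⟨mul_ne_zero hA (pow_ne_zero _ (inv_ne_zero hx0)), hordlead⟩
    have key := log_two_sided Finset.univ _ ((V.v i).pos hlead) hnc hddpos (E1.pos i) h1 h2
    -- the parameter
    have hspan2 : Ideal.span {el (fun _ : Fin 1 => tt) (fun _ => (1 : k))} =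
        ∏ _l : Fin X.n0, RingHom.ker (pt (X.sep_tx ξ) X.inf hic) := by
      have e : el (fun _ : Fin 1 => tt) (fun _ => (1 : k)) = tt := by
        simp [el]
      rw [e]
      refine span_eq_prod (X.sep_tx ξ) tt htt (fun _ => X.inf) (fun _ => hic) fun v hv => ?_
      change v.ord (X.tx ξ) = _
      rcases X.chart_iff.1 hv with rfl | ⟨hv', h⟩
      · rw [X.ord_tx_inf]
        simp
      · rw [X.ord_tx hv' h]
        have : (Finset.univ.filter fun _ : Fin X.n0 => X.inf = v) = ∅ := by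
          rw [Finset.filter_eq_empty_iff]
          intro _ _ h
          exact hv' h.symm
        rw [this]
        simp
    obtain ⟨hval2, -⟩ := hE2 i (fun _ => (1 : k)) (fun h => one_ne_zero (congrFun h 0))
      (fun _ : Fin X.n0 => pt (X.sep_tx ξ) X.inf hic) hspan2 (fun _ j => hB' i X.inf hic hinfB j)
    have hn1 : nrm V i (fun _ : Fin 1 => (1 : k)) = 1 := by
      unfold nrm
      simp
    have k2 : ∀ l ∈ (Finset.univ : Finset (Fin (m * X.n0))),
        |Real.log (V.v i (evp (P l) (X.tx ξ))) - X.n0 * Real.log (dd V i (X.yy ξ m1)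
          (pt (X.sep_tx ξ) (P l) (hPc l)) (pt (X.sep_tx ξ) X.inf hic))| ≤
          Real.log (E2.c i) := by
      intro l hl
      obtain ⟨g1, g2⟩ := hval2 (pt (X.sep_tx ξ) (P l) (hPc l)) fun j => hPB l j
      have e : pt (X.sep_tx ξ) (P l) (hPc l) (el (fun _ : Fin 1 => tt) (fun _ => (1 : k))) =
          evp (P l) (X.tx ξ) := by
        have e : el (fun _ : Fin 1 => tt) (fun _ => (1 : k)) = tt := by
          simp [el]
        rw [e]
        rfl
      rw [e, hn1] at g1 g2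
      have hsym : dd V i (X.yy ξ m1) (pt (X.sep_tx ξ) X.inf hic) (pt (X.sep_tx ξ) (P l) (hPc l)) =
          dd V i (X.yy ξ m1) (pt (X.sep_tx ξ) (P l) (hPc l)) (pt (X.sep_tx ξ) X.inf hic) := by
        unfold dd
        refine congrArg _ (funext fun j => ?_)
        rw [← (V.v i).map_neg, neg_sub]
      rw [hsym] at g1 g2
      have := log_two_sided (Finset.univ : Finset (Fin X.n0)) (fun _ => dd V i (X.yy ξ m1)
        (pt (X.sep_tx ξ) (P l) (hPc l)) (pt (X.sep_tx ξ) X.inf hic)) (hN l).tx_pos one_pos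
        (fun _ _ => hddpos l hl) (E2.pos i) g1 g2
      rw [Real.log_one, zero_add, Finset.sum_const, Finset.card_univ, Fintype.card_fin,
        nsmul_eq_mul] at this
      exact this
    have k3 : |∑ l, (Real.log (V.v i (evp (P l) (X.tx ξ))) - X.n0 * Real.log (dd V i
          (X.yy ξ m1) (pt (X.sep_tx ξ) (P l) (hPc l)) (pt (X.sep_tx ξ) X.inf hic)))| ≤
        (m * X.n0 : ℕ) * Real.log (E2.c i) := by
      refine (Finset.abs_sum_le_sum_abs _ _).trans ((Finset.sum_le_sum k2).trans ?_)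
      rw [Finset.sum_const, Finset.card_univ, Fintype.card_fin, nsmul_eq_mul]
    rw [Finset.sum_sub_distrib, ← Finset.mul_sum] at k3
    have k4 : |∑ l, (Real.log (V.v i (evp (P l) (X.tx ξ))) + Real.log (X.sz V i (P l)))| ≤
        (m * X.n0 : ℕ) * Real.log (D1.c i) := by
      refine (Finset.abs_sum_le_sum_abs _ _).trans
        ((Finset.sum_le_sum fun l _ => hD1 i (P l) (hN l)).trans ?_)
      rw [Finset.sum_const, Finset.card_univ, Fintype.card_fin, nsmul_eq_mul]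
    rw [Finset.sum_add_distrib] at k4
    have key' : |(X.n0 : ℝ) * (Real.log (V.v i (evp X.inf (X.elt m c * X.x⁻¹ ^ m))) -
        (Real.log (nrm V i c) + ∑ l, Real.log (dd V i (X.yy ξ m1)
          (pt (X.sep_tx ξ) (P l) (hPc l)) (pt (X.sep_tx ξ) X.inf hic))))| ≤
        X.n0 * Real.log (E1.c i) := by
      rw [abs_mul, abs_of_nonneg hnlog]
      exact mul_le_mul_of_nonneg_left key hnlog
    rw [mul_sub, mul_add] at key'
    rw [abs_le] at key' k3 k4 ⊢
    constructor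
    · linarith [key'.1, key'.2, k3.1, k3.2, k4.1, k4.2]
    · linarith [key'.1, key'.2, k3.1, k3.2, k4.1, k4.2]
  · -- the derivative
    have hNQ := hN l0
    have hQc := hPc l0
    have hinj : ∀ l, l ≠ l0 → (fun l => pt (X.sep_tx ξ) (P l) (hPc l)) l ≠
        (fun l => pt (X.sep_tx ξ) (P l) (hPc l)) l0 := fun l hl he =>
      hne l hl (pt_injective (X.sep_tx ξ) (congrArg RingHom.ker he))
    have h1 := hder l0 hinj (X.dpt hunr hNQ.ne) fun f f' => X.dpt_mul hunr hNQ.ne hQc f f'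
    have hAQ0 : evp (P l0) (X.elt m c) = 0 := by
      refine (evp_eq_zero_iff (X.rat _) (X.mem_val (X.elt_mem m c) hNQ.1)).2 (Or.inr ?_)
      have := hzero l0
      have := ord_nonneg_of_mem _ (X.mem_val (X.elt_mem m c) hNQ.1)
      omega
    have hδ : X.dpt hunr hNQ.ne (el (X.yy ξ m) c) =
        evp (P l0) (X.D (X.elt m c)) * evp (P l0) (X.tx ξ) ^ m := by
      have ht : X.tx ξ ^ m ∈ (P l0).toValuationSubring := pow_mem (mem_of_ord_nonneg _ hQc) m
      have hb := X.mem_val (X.elt_mem m c) hNQ.1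
      have hDb := mem_of_ord_nonneg _ (X.ord_D_nonneg_of_unr hunr (ord_nonneg_of_mem _ hb))
      have hDt := mem_of_ord_nonneg _ (X.ord_D_nonneg_of_unr hunr (ord_nonneg_of_mem _ ht))
      rw [dpt_apply, X.coe_el, Derivation.leibniz, smul_eq_mul, smul_eq_mul,
        evp_add (X.rat _) (mul_mem hb hDt) (mul_mem ht hDb), evp_mul (X.rat _) hb hDt,
        evp_mul (X.rat _) ht hDb, evp_pow (X.rat _) (mem_of_ord_nonneg _ hQc), hAQ0, zero_mul,
        zero_add, mul_comm]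
    rw [hδ, map_mul, map_pow] at h1
    have hddpos : ∀ l ∈ Finset.univ.erase l0,
        0 < dd V i (X.yy ξ m1) (pt (X.sep_tx ξ) (P l) (hPc l)) (pt (X.sep_tx ξ) (P l0) hQc) :=
      fun l hl => X.dd_pos V hm1 hgen i (hPc l) hQc (hne l (Finset.ne_of_mem_erase hl))
    have hprod := Finset.prod_pos hddpos
    obtain ⟨hk1, hk2⟩ := hD3 i (P l0) hunr hNQ
    have hkap := X.kap_pos V hm1 hgen i hunr
    have hδpos : 0 < nrm V i (fun j => X.dpt hunr hNQ.ne (X.yy ξ m1 j)) := by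
      by_contra hcon
      have h0 : nrm V i (fun j => X.dpt hunr hNQ.ne (X.yy ξ m1 j)) = 0 :=
        le_antisymm (not_lt.1 hcon) (nrm_nonneg V i _)
      rw [h0, mul_zero] at hk1
      linarith
    have ptx := hNQ.tx_pos
    have pDA : 0 < V.v i (evp (P l0) (X.D (X.elt m c))) := by
      by_contra hcon
      have h0 : V.v i (evp (P l0) (X.D (X.elt m c))) = 0 :=
        le_antisymm (not_lt.1 hcon) ((V.v i).nonneg _)
      rw [h0, zero_mul, mul_zero] at h1
      exact absurd h1 (not_le.2 (mul_pos (mul_pos hnc hδpos) hprod))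
    have h2 := Real.log_le_log (mul_pos (mul_pos hnc hδpos) hprod) h1
    change Real.log (nrm V i c * nrm V i (fun j => X.dpt hunr hNQ.ne (X.yy ξ m1 j)) * _) ≤ _ at h2
    rw [Real.log_mul (mul_pos hnc hδpos).ne' hprod.ne', Real.log_mul hnc.ne' hδpos.ne',
      Real.log_prod fun l hl => (hddpos l hl).ne',
      Real.log_mul (E1.pos i).ne' (mul_pos pDA (pow_pos ptx m)).ne',
      Real.log_mul pDA.ne' (pow_pos ptx m).ne', Real.log_pow] at h2
    have h3 : Real.log (kapv V i (X.fv m1 (P l0)) (X.dfv m1 (P l0))) ≤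
        Real.log (D3.c i) + Real.log (nrm V i (fun j => X.dpt hunr hNQ.ne (X.yy ξ m1 j))) := by
      rw [← Real.log_mul (D3.pos i).ne' hδpos.ne']
      exact Real.log_le_log hkap hk1
    have h4 : ∑ l ∈ Finset.univ.erase l0,
          Real.log (dstv V i (X.fv m1 (P l)) (X.fv m1 (P l0))) ≤
        ∑ l ∈ Finset.univ.erase l0, (Real.log (D2.c i) + Real.log (dd V i (X.yy ξ m1)
          (pt (X.sep_tx ξ) (P l) (hPc l)) (pt (X.sep_tx ξ) (P l0) hQc))) := by
      refine Finset.sum_le_sum fun l hl => ?_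
      rw [← Real.log_mul (D2.pos i).ne' (hddpos l hl).ne']
      exact Real.log_le_log (X.dist_pos V hm1 hgen i (hPinf l) hNQ.1
        (hne l (Finset.ne_of_mem_erase hl))) (hD2 i (P l) (P l0) (hN l) hNQ).1
    rw [Finset.sum_add_distrib, Finset.sum_const, nsmul_eq_mul] at h4
    have h5 : ((Finset.univ.erase l0).card : ℝ) * Real.log (D2.c i) ≤
        (m * X.n0 : ℕ) * Real.log (D2.c i) := by
      refine mul_le_mul_of_nonneg_right ?_ lD2
      have : (Finset.univ.erase l0).card ≤ m * X.n0 := by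
        refine (Finset.card_le_univ _).trans ?_
        rw [Fintype.card_fin]
      exact_mod_cast this
    have k1 := hD1 i (P l0) hNQ
    have k1' : |(m : ℝ) * (Real.log (V.v i (evp (P l0) (X.tx ξ))) +
        Real.log (X.sz V i (P l0)))| ≤ m * Real.log (D1.c i) := by
      rw [abs_mul, abs_of_nonneg hmlog]
      exact mul_le_mul_of_nonneg_left k1 hmlog
    rw [abs_le] at k1'
    linarith [k1'.1, k1'.2]

end XD

end Fermat.Agent.MW
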