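import Fermat.Agent.MW.ChartB3

/-! # The distance package exists -/

set_option autoImplicit false
set_option linter.unusedSectionVars false
set_option linter.style.haveILetI false
set_option maxHeartbeats 1000000

noncomputable section

namespace Fermat.Agent.MW

open AlgebraicCurve Module Fermat.Agent.FunField Fermat.Agent.Flat

variable {k F : Type*} [Field k] [Field F] [Algebra k F] [IsAlgClosed k] [CharZero k]
  {g C : ℤ} (X : XD k F g C) (V : AV k)

namespace XD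

theorem sz_le_fv (m1 : ℕ) : ∃ S : MC V.ι, ∀ i (P : Place k F), P ≠ X.inf →
    X.sz V i P ^ m1 ≤ S.c i * nrm V i (X.fv m1 P) := by
  obtain ⟨lam, hlam⟩ := X.exists_coord (X.one_mem_L m1)
  obtain ⟨mu, hmu⟩ := X.exists_coord (X.x_pow_mem_L m1)
  obtain ⟨L1, hL1⟩ := exists_lin V lam
  obtain ⟨L2, hL2⟩ := exists_lin V mu
  refine ⟨L1.sup L2, fun i P hP => ?_⟩
  have h1 := hL1 i (X.fv m1 P)
  have h2 := hL2 i (X.fv m1 P)
  rw [X.sum_fv hlam hP, evp_one, map_one] at h1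
  rw [X.sum_fv hmu hP, evp_pow (X.rat P) (X.x_mem_val hP), map_pow] at h2
  have hn := nrm_nonneg V i (X.fv m1 P)
  rcases max_cases (1 : ℝ) (V.v i (evp P X.x)) with ⟨h, -⟩ | ⟨h, -⟩
  · rw [sz, h, one_pow]
    exact h1.trans (mul_le_mul_of_nonneg_right (L1.le_sup_left L2 i) hn)
  · rw [sz, h]
    exact h2.trans (mul_le_mul_of_nonneg_right (L1.le_sup_right L2 i) hn)

theorem fv_le_sz (m : ℕ) : ∃ S : MC V.ι, ∀ i (P : Place k F), P ≠ X.inf → ∀ j,
    V.v i (X.fv m P j) ≤ S.c i * X.sz V i P ^ m := by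
  obtain ⟨Ξ, B, hΞ⟩ := X.exists_sel V 1
  choose D hD using fun ξ : Ξ => X.exists_yv_bound V (ξ : k) m B
  choose G hG using fun ξ : Ξ => X.exists_sub_le V (ξ : k)
  obtain ⟨D', hD'⟩ := MC.exists_ge_fintype D
  obtain ⟨G', hG'⟩ := MC.exists_ge_fintype G
  refine ⟨D' * G'.pow m, fun i P hP j => ?_⟩
  obtain ⟨ξ, hξ, hN⟩ := hΞ i (fun _ => P) (fun _ => hP)
  have hN := hN 0
  have h1 := hD ⟨ξ, hξ⟩ i P hN.chart hN.tx_le j
  have h2 := hG ⟨ξ, hξ⟩ i P
  rw [X.yv_eq ξ hP hN.ne] at h1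
  simp only at h1 h2
  rw [map_mul, map_pow, X.evp_tx hP hN.ne, map_inv₀] at h1
  have hp := hN.pos
  have h3 : V.v i (X.fv m P j) ≤ (D ⟨ξ, hξ⟩).c i * V.v i (evp P X.x - ξ) ^ m := by
    have h4 : V.v i (X.fv m P j) = ((V.v i (evp P X.x - ξ))⁻¹ ^ m * V.v i (X.fv m P j)) *
        V.v i (evp P X.x - ξ) ^ m := by
      rw [inv_pow]
      field_simp
    rw [h4]
    exact mul_le_mul_of_nonneg_right h1 (by positivity)
  refine h3.trans ?_
  rw [MC.mul_c, MC.pow_c, mul_assoc, ← mul_pow]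
  refine mul_le_mul (hD' ⟨ξ, hξ⟩ i) ?_ (by positivity) (D'.pos i).le
  refine pow_le_pow_left₀ hp.le (h2.trans ?_) m
  exact mul_le_mul_of_nonneg_right (hG' ⟨ξ, hξ⟩ i) (sz_pos i P).le

theorem evp_elt {m : ℕ} (c : Fin (X.d m) → k) {P : Place k F} (hP : P ≠ X.inf) :
    evp P (X.elt m c) = ∑ j, c j * X.fv m P j := (X.sum_fv rfl hP).symm

theorem elt_zero (m : ℕ) : X.elt m 0 = 0 := by
  simp [elt]

theorem zs_zero : X.zs 0 = 0 := by
  ext v
  by_cases hv : v = X.inf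
  · rw [hv, X.zs_inf]
    rfl
  · rw [X.zs_ne _ hv]
    simp

theorem nrm_zero {r : ℕ} (i : V.ι) : nrm V i (0 : Fin r → k) = 0 := by
  unfold nrm
  simp

/-- Upper bound. -/
theorem exists_ub (m : ℕ) : ∃ E : MC V.ι, ∀ i (c : Fin (X.d m) → k) (Q : Place k F),
    Q ≠ X.inf → V.v i (evp Q (X.elt m c)) ≤ E.c i * nrm V i c * X.sz V i Q ^ m := by
  obtain ⟨S, hS⟩ := X.fv_le_sz V m
  obtain ⟨L, hL⟩ := exists_lin V (fun _ : Fin (X.d m) => (1 : k))
  refine ⟨L * S, fun i c Q hQ => ?_⟩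
  rw [X.evp_elt c hQ]
  have h1 := hL i fun j => c j * X.fv m Q j
  simp only [one_mul] at h1
  refine h1.trans ?_
  have hs := sz_pos (X := X) (V := V) i Q
  have h2 : nrm V i (fun j => c j * X.fv m Q j) ≤ nrm V i c * (S.c i * X.sz V i Q ^ m) := by
    refine nrm_le V i (mul_nonneg (nrm_nonneg V i c)
      (mul_nonneg (S.pos i).le (pow_pos hs m).le)) fun j => ?_
    rw [map_mul]
    exact mul_le_mul (le_nrm V i c j) (hS i Q hQ j) ((V.v i).nonneg _) (nrm_nonneg V i c)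
  calc _ ≤ L.c i * (nrm V i c * (S.c i * X.sz V i Q ^ m)) :=
        mul_le_mul_of_nonneg_left h2 (L.pos i).le
    _ = _ := by rw [MC.mul_c]; ring

/-- Families without common zeros. -/
theorem exists_fx (m : ℕ) {α : Type} [Finite α] (A : α → F) (hA : ∀ a, A a ∈ X.L m)
    (hinf : ∃ a, X.inf.ord (A a) = -((m * X.n0 : ℕ) : ℤ) ∧ A a ≠ 0)
    (hz : ∀ Q, Q ≠ X.inf → ∃ a, A a ≠ 0 ∧ Q.ord (A a) = 0) :
    ∃ E : MC V.ι, ∀ i Q, Q ≠ X.inf → ∃ a, X.sz V i Q ^ m ≤ E.c i * V.v i (evp Q (A a)) := by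
  classical
  haveI := Fintype.ofFinite α
  obtain ⟨Ξ, B, hΞ⟩ := X.exists_sel V 1
  have key : ∀ ξ : k, ∃ E : MC V.ι, ∀ i Q, X.Near V B i ξ Q → ∃ a,
      1 ≤ E.c i * V.v i (evp Q (A a) * evp Q (X.tx ξ) ^ m) := by
    intro ξ
    haveI := rg_isDedekindDomain (X.sep_tx ξ)
    let A' : α → rg k (X.tx ξ) := fun a => X.ch ξ m ⟨A a, hA a⟩
    have htop : Ideal.span (Set.range A') = ⊤ := by
      by_contra hne
      obtain ⟨M, hM, hle⟩ := Ideal.exists_le_maximal _ hne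
      have hcoe : ∀ a, (A' a : F) = A a * X.tx ξ ^ m := fun a => rfl
      by_cases hM0 : M = ⊥
      · obtain ⟨a, -, ha0⟩ := hinf
        have h1 : A' a ∈ M := hle (Ideal.subset_span ⟨a, rfl⟩)
        rw [hM0, Ideal.mem_bot] at h1
        have h2 := congrArg (fun z : rg k (X.tx ξ) => (z : F)) h1
        simp only [hcoe] at h2
        exact mul_ne_zero ha0 (pow_ne_zero m (X.tx_ne ξ)) h2
      · obtain ⟨v, hv, hvM⟩ := exists_place (X.sep_tx ξ) ⟨M, hM.isPrime, hM0⟩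
        change M = _ at hvM
        have hall : ∀ a, A' a = 0 ∨ 0 < v.ord (A' a : F) := by
          intro a
          have h1 : A' a ∈ M := hle (Ideal.subset_span ⟨a, rfl⟩)
          rw [hvM, RingHom.mem_ker] at h1
          have h2 := (evp_eq_zero_iff_ord (X.sep_tx ξ) v ((A' a).2 v hv)).1 h1
          exact h2.imp_left fun h => Subtype.ext h
        rcases X.chart_iff.1 hv with rfl | ⟨hv', h⟩
        · obtain ⟨a, ha, ha0⟩ := hinf
          rcases hall a with h1 | h1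
          · have h2 := congrArg (fun z : rg k (X.tx ξ) => (z : F)) h1
            simp only [hcoe] at h2
            exact mul_ne_zero ha0 (pow_ne_zero m (X.tx_ne ξ)) h2
          · rw [hcoe, X.inf.ord_mul ha0 (pow_ne_zero m (X.tx_ne ξ)), ord_pow, ha,
              X.ord_tx_inf] at h1
            push_cast at h1
            linarith
        · obtain ⟨a, ha0, ha⟩ := hz v hv'
          rcases hall a with h1 | h1
          · have h2 := congrArg (fun z : rg k (X.tx ξ) => (z : F)) h1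
            simp only [hcoe] at h2
            exact mul_ne_zero ha0 (pow_ne_zero m (X.tx_ne ξ)) h2
          · rw [hcoe, v.ord_mul ha0 (pow_ne_zero m (X.tx_ne ξ)), ord_pow, ha,
              X.ord_tx hv' h] at h1
            simp at h1
    have h1 : (1 : rg k (X.tx ξ)) ∈ Ideal.span (Set.range A') := by
      rw [htop]
      trivial
    obtain ⟨u, hu⟩ := (Submodule.mem_span_range_iff_exists_fun (rg k (X.tx ξ))).1 h1
    simp only [smul_eq_mul] at hu
    obtain ⟨E, hE⟩ := V.exists_lower (D := Place k F)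
      (reg := fun i Q => X.Near V B i ξ Q) (f := fun a Q => evp Q (A' a : F))
      (g := fun a Q => evp Q (u a : F))
      (fun a => by
        obtain ⟨D, hD⟩ := bdd_rg V (X.sep_tx ξ) B (u a)
        exact ⟨D, fun i Q hQ => hD i Q hQ.chart hQ.tx_le⟩)
      (fun i Q hQ => by
        have h2 := congrArg (pt (X.sep_tx ξ) Q hQ.chart) hu
        rw [map_sum, map_one] at h2
        rw [← h2]
        refine Finset.sum_congr rfl fun a _ => ?_
        rw [map_mul]
        rfl)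
    refine ⟨E, fun i Q hQ => ?_⟩
    obtain ⟨a, ha⟩ := hE i Q hQ
    refine ⟨a, ?_⟩
    rw [← X.evp_chart_mul ξ (hA a) hQ.1 hQ.ne]
    exact ha
  choose E hE using fun ξ : Ξ => key ξ
  obtain ⟨E', hE'⟩ := MC.exists_ge_fintype E
  refine ⟨E' * B.pow m, fun i Q hQ => ?_⟩
  obtain ⟨ξ, hξ, hN⟩ := hΞ i (fun _ => Q) (fun _ => hQ)
  have hN := hN 0
  obtain ⟨a, ha⟩ := hE ⟨ξ, hξ⟩ i Q hN
  refine ⟨a, ?_⟩
  have hs := sz_pos (X := X) (V := V) i Q
  have ht := hN.tx_pos
  have hm := hN.tx_mul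
  rw [map_mul, map_pow] at ha
  have hv0 := (V.v i).nonneg (evp Q (A a))
  calc X.sz V i Q ^ m = X.sz V i Q ^ m * 1 := (mul_one _).symm
    _ ≤ X.sz V i Q ^ m * ((E ⟨ξ, hξ⟩).c i * (V.v i (evp Q (A a)) *
          V.v i (evp Q (X.tx ξ)) ^ m)) := mul_le_mul_of_nonneg_left ha (by positivity)
    _ = (E ⟨ξ, hξ⟩).c i * (V.v i (evp Q (X.tx ξ)) * X.sz V i Q) ^ m *
          V.v i (evp Q (A a)) := by rw [mul_pow]; ring
    _ ≤ (E' * B.pow m).c i * V.v i (evp Q (A a)) := by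
      refine mul_le_mul_of_nonneg_right ?_ hv0
      rw [MC.mul_c, MC.pow_c]
      refine mul_le_mul (hE' ⟨ξ, hξ⟩ i) (pow_le_pow_left₀ (by positivity) hm m) (by positivity)
        (E'.pos i).le

/-- Uniform version of the estimates, with a chart for all zeros and one more point. -/
theorem exists_global {m1 : ℕ} (hm1 : 0 < m1)
    (hgen : ∀ a : ℕ, ∀ z ∈ X.L (a * m1), z ∈ X.L m1 ^ a) (m : ℕ) :
    ∃ E : MC V.ι, ∀ i (c : Fin (X.d m) → k), c ≠ 0 →
      X.inf.ord (X.elt m c) = -((m * X.n0 : ℕ) : ℤ) → ∀ P : Fin (m * X.n0) → Place k F,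
      X.zs (X.elt m c) = ∑ l, Finsupp.single (P l) 1 →
      (∀ Q, Q ≠ X.inf → Q.ord (X.elt m c) = 0 →
        |Real.log (V.v i (evp Q (X.elt m c))) - Real.log (nrm V i c)
          - m * Real.log (X.sz V i Q)
          - ∑ l, Real.log (dstv V i (X.fv m1 (P l)) (X.fv m1 Q))| ≤ Real.log (E.c i)) ∧
      |X.n0 * Real.log (nrm V i c)
        - X.n0 * Real.log (V.v i (evp X.inf (X.elt m c * X.x⁻¹ ^ m)))
        - ∑ l, Real.log (X.sz V i (P l))| ≤ Real.log (E.c i) ∧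
      (∀ l0, X.Unr (P l0) → (∀ l, l ≠ l0 → P l ≠ P l0) →
        Real.log (nrm V i c) + m * Real.log (X.sz V i (P l0))
          + Real.log (kapv V i (X.fv m1 (P l0)) (X.dfv m1 (P l0)))
          + ∑ l ∈ Finset.univ.erase l0, Real.log (dstv V i (X.fv m1 (P l)) (X.fv m1 (P l0))) ≤
        Real.log (E.c i) + Real.log (V.v i (evp (P l0) (X.D (X.elt m c))))) := by
  classical
  obtain ⟨Ξ, B, hΞ⟩ := X.exists_sel V (m * X.n0)
  obtain ⟨Ξ', B', hΞ'⟩ := X.exists_sel V (m * X.n0 + 1)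
  choose E hE using fun ξ : Ξ => X.exists_chart_main V hm1 hgen m (ξ : k) B
  choose E' hE' using fun ξ : Ξ' => X.exists_chart_main V hm1 hgen m (ξ : k) B'
  obtain ⟨D, hD⟩ := MC.exists_ge_fintype E
  obtain ⟨D', hD'⟩ := MC.exists_ge_fintype E'
  refine ⟨D.sup D', fun i c hc hord P hP => ?_⟩
  have hPinf : ∀ l, P l ≠ X.inf := by
    intro l h
    have h1 := X.zs_inf (X.elt m c)
    rw [hP, apply_enum] at h1
    have h2 := Finset.card_pos.2 ⟨l, (by simp [h] : l ∈ Finset.univ.filter fun l' => P l' = X.inf)⟩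
    omega
  have hmono : ∀ ξ : Ξ, Real.log ((E ξ).c i) ≤ Real.log ((D.sup D').c i) := fun ξ =>
    Real.log_le_log ((E ξ).pos i) ((hD ξ i).trans (D.le_sup_left D' i))
  have hmono' : ∀ ξ : Ξ', Real.log ((E' ξ).c i) ≤ Real.log ((D.sup D').c i) := fun ξ =>
    Real.log_le_log ((E' ξ).pos i) ((hD' ξ i).trans (D.le_sup_right D' i))
  obtain ⟨ξ, hξ, hN⟩ := hΞ i P hPinf
  obtain ⟨-, h2, h3⟩ := hE ⟨ξ, hξ⟩ i c hc hord P hP hN
  refine ⟨fun Q hQ hQ0 => ?_, h2.trans (hmono _), fun l0 hu hne => ?_⟩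
  · obtain ⟨ξ', hξ', hN'⟩ := hΞ' i (Fin.cons Q P) fun l => by
      refine Fin.cases ?_ (fun l => ?_) l
      · exact hQ
      · exact hPinf l
    have hNQ : X.Near V B' i ξ' Q := hN' 0
    have hNP : ∀ l, X.Near V B' i ξ' (P l) := fun l => hN' l.succ
    obtain ⟨h1, -, -⟩ := hE' ⟨ξ', hξ'⟩ i c hc hord P hP hNP
    exact (h1 Q hNQ hQ0).trans (hmono' _)
  · exact (h3 l0 hu hne).trans (add_le_add (hmono _) le_rfl)

end XD

/-- **The distance package exists.** -/
theorem exists_pkg : Nonempty (Pkg V X) := by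
  classical
  obtain ⟨m₀, hgen'⟩ := X.exists_gen'
  obtain ⟨m1, hm1, hm1C, hgen⟩ : ∃ m1 : ℕ, 0 < m1 ∧ C + 2 ≤ ((m1 * X.n0 : ℕ) : ℤ) ∧
      ∀ a : ℕ, ∀ z ∈ X.L (a * m1), z ∈ X.L m1 ^ a := by
    refine ⟨m₀ + C.toNat + 2, by omega, ?_, hgen' _ (by omega)⟩
    have h1 : (m₀ + C.toNat + 2) * 1 ≤ (m₀ + C.toNat + 2) * X.n0 :=
      Nat.mul_le_mul_left _ X.n0_pos
    have h2 := Int.self_le_toNat C
    omega
  obtain ⟨S1, hS1⟩ := X.sz_le_fv V m1
  obtain ⟨S2, hS2⟩ := X.fv_le_sz V m1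
  have hnS2 : ∀ i (P : Place k F), P ≠ X.inf →
      nrm V i (X.fv m1 P) ≤ S2.c i * X.sz V i P ^ m1 := fun i P hP =>
    nrm_le V i (mul_nonneg (S2.pos i).le (pow_pos (XD.sz_pos i P) m1).le) (hS2 i P hP)
  choose EG hEG using fun m => X.exists_global V hm1 hgen m
  have henum : ∀ (m : ℕ) (c : Fin (X.d m) → k), c ≠ 0 →
      X.inf.ord (X.elt m c) = -((m * X.n0 : ℕ) : ℤ) →
      ∃ P : Fin (m * X.n0) → Place k F, X.zs (X.elt m c) = ∑ l, Finsupp.single (P l) 1 :=
    fun m c hc hord => exists_enum _ _ (X.zs_nonneg c) (X.zs_sum hc hord)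
  have hentry : ∀ (Q : Place k F), X.Unr Q → ∀ a b : Fin (X.d m1),
      evp Q ((X.b m1 a : F) * X.D (X.b m1 b : F) - (X.b m1 b : F) * X.D (X.b m1 a : F)) =
        X.fv m1 Q a * X.dfv m1 Q b - X.fv m1 Q b * X.dfv m1 Q a := by
    intro Q hQ a b
    have ha := X.mem_val (X.b m1 a).2 hQ.1
    have hb := X.mem_val (X.b m1 b).2 hQ.1
    have hDa := mem_of_ord_nonneg Q (X.ord_D_nonneg_of_unr hQ (ord_nonneg_of_mem Q ha))
    have hDb := mem_of_ord_nonneg Q (X.ord_D_nonneg_of_unr hQ (ord_nonneg_of_mem Q hb))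
    rw [evp_sub (X.rat Q) (mul_mem ha hDb) (mul_mem hb hDa), evp_mul (X.rat Q) ha hDb,
      evp_mul (X.rat Q) hb hDa]
    rfl
  refine ⟨{
    dist := fun i P Q => dstv V i (X.fv m1 P) (X.fv m1 Q)
    symm := fun i P Q => dstv_symm V i _ _
    pos := fun i P Q hP hQ h => X.dist_pos V hm1 hgen i hP hQ h
    fin := fun P Q hP hQ h => finite_dstv V (X.fv_ne_zero hP) (X.fv_ne_zero hQ)
      (X.exists_wedge_fv hm1 hgen hP hQ h)
    bd := ⟨V.two, fun i P Q _ _ => dstv_le V i _ _⟩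
    tri := ⟨V.two * V.two, fun i P Q T hP hQ hT => dstv_tri V i _ _ _ (X.fv_ne_zero hP)
      (X.fv_ne_zero hQ) (X.fv_ne_zero hT)⟩
    lt := fun m => ⟨EG m, fun i c hord Q hQ hQ0 => ?_⟩
    lc := fun m => ⟨EG m, fun i c hord => ?_⟩
    ub := fun m => X.exists_ub V m
    fx := fun m α _ A hA hinf hz => ?_
    m1 := m1
    m1_pos := hm1
    m1_big := hm1C
    kap := fun i Q => kapv V i (X.fv m1 Q) (X.dfv m1 Q)
    kap_pos := fun i Q hQ => X.kap_pos V hm1 hgen i hQ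
    kap_fin := fun Q hQ => finite_kapv V (X.fv_ne_zero hQ.1) (X.exists_wedge_dfv hm1 hgen hQ)
    kap_le := ⟨S1.pow 2, fun i Q hQ => ?_⟩
    kap_ge := ⟨S2.pow 2, fun i Q hQ a b => ?_⟩
    dt := fun m => ⟨EG m, fun i c hord Q hQ hQ1 => ?_⟩ }⟩
  · -- lt
    by_cases hc : c = 0
    · subst hc
      rw [X.elt_zero, X.zs_zero, evp_zero, XD.nrm_zero]
      have hm : m = 0 := by
        rw [X.elt_zero] at hord
        simp only [Place.ord_zero] at hord
        have h1 : m * X.n0 = 0 := by omega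
        rcases Nat.mul_eq_zero.1 h1 with h | h
        · exact h
        · have := X.n0_pos
          omega
      subst hm
      simp [Real.log_nonneg ((EG 0).one_le i)]
    · obtain ⟨P, hP⟩ := henum m c hc hord
      have h1 := (hEG m i c hc hord P hP).1 Q hQ hQ0
      rw [hP, sum_enum P fun P => Real.log (dstv V i (X.fv m1 P) (X.fv m1 Q))]
      exact h1
  · -- lc
    by_cases hc : c = 0
    · subst hc
      rw [X.elt_zero, X.zs_zero, zero_mul, evp_zero, XD.nrm_zero]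
      simp [Real.log_nonneg ((EG m).one_le i)]
    · obtain ⟨P, hP⟩ := henum m c hc hord
      have h1 := (hEG m i c hc hord P hP).2.1
      rw [hP, sum_enum P fun P => Real.log (X.sz V i P)]
      exact h1
  · -- fx
    by_cases h0 : ∃ a, X.inf.ord (A a) = -((m * X.n0 : ℕ) : ℤ) ∧ A a ≠ 0
    · exact X.exists_fx V m A hA h0 hz
    · -- then `m = 0` and all functions are constant
      push Not at h0
      obtain ⟨a, ha⟩ := hinf
      have ha0 := h0 a ha
      have hm : m = 0 := by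
        rw [ha0] at ha
        simp only [Place.ord_zero] at ha
        have h1 : m * X.n0 = 0 := by omega
        rcases Nat.mul_eq_zero.1 h1 with h | h
        · exact h
        · have := X.n0_pos
          omega
      subst hm
      have hall : ∀ a, A a = 0 := by
        intro a
        by_contra hne
        obtain ⟨c, hc⟩ := X.mem_L_zero (hA a)
        apply hne
        refine h0 a ?_
        rw [← hc, ord_algebraMap]
        simp
      refine ⟨1, fun i Q hQ => ?_⟩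
      obtain ⟨a, ha', -⟩ := hz Q hQ
      exact absurd (hall a) ha'
  · -- kap_le
    have hne : Nonempty (Fin (X.d m1)) := by
      obtain ⟨j, -⟩ := Function.ne_iff.1 (X.fv_ne_zero (m1 := m1) hQ.1)
      exact ⟨j⟩
    obtain ⟨ab, hab⟩ := exists_isup fun ab : Fin (X.d m1) × Fin (X.d m1) =>
      V.v i (X.fv m1 Q ab.1 * X.dfv m1 Q ab.2 - X.fv m1 Q ab.2 * X.dfv m1 Q ab.1)
    refine ⟨ab.1, ab.2, ?_⟩
    rw [hentry Q hQ, hab]
    change kapv V i (X.fv m1 Q) (X.dfv m1 Q) * _ ≤ _ * wdg V i (X.fv m1 Q) (X.dfv m1 Q)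
    have hn := nrm_pos V i (X.fv_ne_zero (m1 := m1) hQ.1)
    have hw := wdg_nonneg V i (X.fv m1 Q) (X.dfv m1 Q)
    have hs := XD.sz_pos (X := X) (V := V) i Q
    unfold kapv
    rw [div_mul_eq_mul_div, div_le_iff₀ (pow_pos hn 2), MC.pow_c, pow_mul', ← pow_mul',
      mul_comm 2 m1, pow_mul]
    have h1 := pow_le_pow_left₀ (pow_pos hs m1).le (hS1 i Q hQ.1) 2
    calc _ ≤ wdg V i (X.fv m1 Q) (X.dfv m1 Q) * (S1.c i * nrm V i (X.fv m1 Q)) ^ 2 :=
          mul_le_mul_of_nonneg_left h1 hw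
      _ = _ := by ring
  · -- kap_ge
    rw [hentry Q hQ]
    have hn := nrm_pos V i (X.fv_ne_zero (m1 := m1) hQ.1)
    have hw := wdg_nonneg V i (X.fv m1 Q) (X.dfv m1 Q)
    refine (le_wdg V i _ _ a b).trans ?_
    have e : wdg V i (X.fv m1 Q) (X.dfv m1 Q) =
        kapv V i (X.fv m1 Q) (X.dfv m1 Q) * nrm V i (X.fv m1 Q) ^ 2 := by
      unfold kapv
      rw [div_mul_cancel₀]
      exact (pow_pos hn 2).ne'
    have hk : 0 ≤ kapv V i (X.fv m1 Q) (X.dfv m1 Q) := div_nonneg hw (by positivity)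
    have h1 := pow_le_pow_left₀ hn.le (hnS2 i Q hQ.1) 2
    rw [e, MC.pow_c]
    calc _ ≤ kapv V i (X.fv m1 Q) (X.dfv m1 Q) * (S2.c i * X.sz V i Q ^ m1) ^ 2 :=
          mul_le_mul_of_nonneg_left h1 hk
      _ = _ := by rw [mul_pow, ← pow_mul, mul_comm m1 2]; ring
  · -- dt
    have hc : c ≠ 0 := by
      rintro rfl
      rw [X.elt_zero] at hQ1
      simp at hQ1
    obtain ⟨P, hP⟩ := henum m c hc hord
    have hQz : X.zs (X.elt m c) Q = 1 := by
      rw [X.zs_ne _ hQ.1, hQ1]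
    have hcard := hQz
    rw [hP, apply_enum] at hcard
    have hcard' : (Finset.univ.filter fun l => P l = Q).card = 1 := by exact_mod_cast hcard
    obtain ⟨l0, hl0⟩ := Finset.card_eq_one.1 hcard'
    have hmem : ∀ l, P l = Q ↔ l = l0 := by
      intro l
      have := Finset.ext_iff.1 hl0 l
      simpa using this
    have hPl0 : P l0 = Q := (hmem l0).2 rfl
    subst hPl0
    have h1 := (hEG m i c hc hord P hP).2.2 l0 hQ fun l hl he => hl ((hmem l).1 he)
    have h2 : ((X.zs (X.elt m c)).erase (P l0)).sum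
        (fun P' n => (n : ℝ) * Real.log (dstv V i (X.fv m1 P') (X.fv m1 (P l0)))) =
        ∑ l ∈ Finset.univ.erase l0, Real.log (dstv V i (X.fv m1 (P l)) (X.fv m1 (P l0))) := by
      have h3 := Finsupp.sum_add_index' (f := Finsupp.single (P l0) (X.zs (X.elt m c) (P l0)))
        (g := (X.zs (X.elt m c)).erase (P l0))
        (h := fun P' n => (n : ℝ) * Real.log (dstv V i (X.fv m1 P') (X.fv m1 (P l0))))
        (fun a => by simp) (fun a b c => by push_cast; ring)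
      rw [Finsupp.single_add_erase, Finsupp.sum_single_index (by simp)] at h3
      rw [hQz] at h3
      have h4 := sum_enum P fun P' => Real.log (dstv V i (X.fv m1 P') (X.fv m1 (P l0)))
      rw [← hP, h3, ← Finset.add_sum_erase Finset.univ _ (Finset.mem_univ l0)] at h4
      push_cast at h4
      linarith
    rw [h2]
    exact h1

end Fermat.Agent.MW
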