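import Fermat.Agent.MW.ChartB1

/-!
# Upper bounds and families without common zeros
-/

set_option autoImplicit false
set_option linter.unusedSectionVars false
set_option linter.style.haveILetI false

noncomputable section

namespace Fermat.Agent.MW

open AlgebraicCurve Module Fermat.Agent.FunField Fermat.Agent.Flat IsDedekindDomain

variable {k F : Type*} [Field k] [Field F] [Algebra k F] [IsAlgClosed k] [CharZero k]
  {g C : ℤ} (V : AV k) (X : XD k F g C)

namespace XD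

theorem ub_mem {m : ℕ} {z : F} (hz : z ∈ X.L m) {v : Place k F} (hv : v ≠ X.inf) :
    z ∈ v.toValuationSubring := by
  by_cases h0 : z = 0
  · rw [h0]; exact zero_mem _
  · exact mem_of_ord_nonneg v (((X.mem_L_ne h0).1 hz).1 v hv)

theorem ub_evp_mul {m n : ℕ} {z : F} (hz : z ∈ X.L m) {v : Place k F} (hv : v ≠ X.inf) {ξ : k}
    (h : evp v X.x ≠ ξ) : evp v (z * X.tx ξ ^ n) = evp v z * evp v (X.tx ξ) ^ n := by
  have h1 : X.tx ξ ∈ v.toValuationSubring := mem_of_ord_nonneg v (X.ord_tx hv h).ge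
  rw [evp_mul (X.rat v) (X.ub_mem hz hv) (pow_mem h1 n), Fermat.Agent.Flat.evp_pow (X.rat v) h1]

/-- The basis of `L m` at a point. -/
theorem exists_ub_basis (m : ℕ) : ∃ Cs : MC V.ι, ∀ i (Q : Place k F), Q ≠ X.inf →
    ∀ j : Fin (X.d m), V.v i (evp Q (X.b m j : F)) ≤ Cs.c i * X.sz V i Q ^ m := by
  classical
  obtain ⟨Ξ, B, hB⟩ := X.exists_sel V 1
  choose D1 h1 using fun p : Ξ × Fin (X.d m) => bdd_rg V (X.sep_tx (p.1 : k)) B (X.yy p.1 m p.2)
  obtain ⟨E1, hE1⟩ := MC.exists_ge_fintype D1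
  choose D2 h2 using fun ξ : Ξ => X.exists_tx_ge V (ξ : k) B
  obtain ⟨E2, hE2⟩ := MC.exists_ge_fintype D2
  refine ⟨E1 * E2.pow m, fun i Q hQ j => ?_⟩
  obtain ⟨ξ, hξ, hnear⟩ := hB i (fun _ => Q) fun _ => hQ
  have hn := hnear 0
  have h3 := (h1 (⟨ξ, hξ⟩, j) i Q hn.chart hn.tx_le).trans (hE1 _ i)
  rw [X.coe_yy, X.ub_evp_mul (X.b m j).2 hQ hn.ne, map_mul, map_pow] at h3
  have h4 := (h2 ⟨ξ, hξ⟩ i Q hn).trans (mul_le_mul_of_nonneg_right (hE2 ⟨ξ, hξ⟩ i)
    (mul_nonneg ((V.v i).nonneg _) (sz_pos (X := X) i Q).le))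
  set T := V.v i (evp Q (X.tx ξ)) with hT
  have hTpos : 0 < T := hn.tx_pos
  have h5 : 1 ≤ (E2.c i * (T * X.sz V i Q)) ^ m := one_le_pow₀ h4
  calc V.v i (evp Q (X.b m j : F))
      ≤ V.v i (evp Q (X.b m j : F)) * (E2.c i * (T * X.sz V i Q)) ^ m :=
        le_mul_of_one_le_right ((V.v i).nonneg _) h5
    _ = (V.v i (evp Q (X.b m j : F)) * T ^ m) * (E2.c i ^ m * X.sz V i Q ^ m) := by
        rw [mul_pow, mul_pow]; ring
    _ ≤ E1.c i * (E2.c i ^ m * X.sz V i Q ^ m) :=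
        mul_le_mul_of_nonneg_right h3 (mul_nonneg (pow_nonneg (E2.pos i).le _)
          (pow_nonneg (sz_pos (X := X) i Q).le _))
    _ = (E1 * E2.pow m).c i * X.sz V i Q ^ m := by rw [MC.mul_c, MC.pow_c]; ring

/-- The field `ub`. -/
theorem exists_ub (m : ℕ) : ∃ Cs : MC V.ι, ∀ i (c : Fin (X.d m) → k) (Q : Place k F),
    Q ≠ X.inf → V.v i (evp Q (X.elt m c)) ≤ Cs.c i * nrm V i c * X.sz V i Q ^ m := by
  obtain ⟨C1, h1⟩ := X.exists_ub_basis V m
  obtain ⟨L, hL⟩ := exists_lin V (fun _ : Fin (X.d m) => (1 : k))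
  refine ⟨L * C1, fun i c Q hQ => ?_⟩
  have e : evp Q (X.elt m c) = ∑ j, 1 * (c j * evp Q (X.b m j : F)) := by
    unfold XD.elt
    rw [evp_sum (X.rat Q) _ _ fun j _ => by
      rw [Algebra.smul_def]
      exact mul_mem (Q.algebraMap_mem' _) (X.ub_mem (X.b m j).2 hQ)]
    refine Finset.sum_congr rfl fun j _ => ?_
    rw [evp_smul (X.rat Q) _ (X.ub_mem (X.b m j).2 hQ), one_mul]
  rw [e]
  refine (hL i _).trans ?_
  rw [MC.mul_c]
  have hpos : 0 ≤ nrm V i c * (C1.c i * X.sz V i Q ^ m) :=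
    mul_nonneg (nrm_nonneg V i c) (mul_nonneg (C1.pos i).le (pow_nonneg (sz_pos (X := X) i Q).le _))
  calc L.c i * nrm V i (fun j => c j * evp Q (X.b m j : F))
      ≤ L.c i * (nrm V i c * (C1.c i * X.sz V i Q ^ m)) := by
        refine mul_le_mul_of_nonneg_left (nrm_le V i hpos fun j => ?_) (L.pos i).le
        rw [map_mul]
        exact mul_le_mul (le_nrm V i c j) (h1 i Q hQ j) ((V.v i).nonneg _) (nrm_nonneg V i c)
    _ = L.c i * C1.c i * nrm V i c * X.sz V i Q ^ m := by ring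

/-- The field `fx`. -/
theorem exists_fx (m : ℕ) {α : Type} [Finite α] (A : α → F) (hA : ∀ a, A a ∈ X.L m)
    (hinf : ∃ a, X.inf.ord (A a) = -((m * X.n0 : ℕ) : ℤ))
    (hz : ∀ Q, Q ≠ X.inf → ∃ a, A a ≠ 0 ∧ Q.ord (A a) = 0) :
    ∃ Cs : MC V.ι, ∀ i Q, Q ≠ X.inf → ∃ a, X.sz V i Q ^ m ≤ Cs.c i * V.v i (evp Q (A a)) := by
  classical
  haveI := Fintype.ofFinite α
  obtain ⟨Ξ, B, hB⟩ := X.exists_sel V 1
  -- a nonzero element
  have hne : ∃ a, A a ≠ 0 ∧ X.inf.ord (A a) = -((m * X.n0 : ℕ) : ℤ) := by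
    obtain ⟨a, ha⟩ := hinf
    by_cases h0 : A a = 0
    · rw [h0, X.inf.ord_zero] at ha
      -- then `m = 0` and any nonzero element is a unit at infinity
      have hm : m = 0 := by
        have h1 : (m * X.n0 : ℕ) = 0 := by omega
        rcases Nat.mul_eq_zero.1 h1 with h | h
        · exact h
        · exact absurd h X.n0_pos.ne'
      subst hm
      by_cases hQ : ∃ Q : Place k F, Q ≠ X.inf
      · obtain ⟨Q, hQ⟩ := hQ
        obtain ⟨b, hb, -⟩ := hz Q hQ
        refine ⟨b, hb, ?_⟩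
        have h2 := (X.mem_L_ne hb).1 (hA b)
        have h3 : ∀ v : Place k F, 0 ≤ v.ord (A b) := by
          intro v
          by_cases hv : v = X.inf
          · subst hv; have := h2.2; simpa using this
          · exact h2.1 v hv
        obtain ⟨c, hc⟩ := X.crv.const _ h3
        rw [← hc, ord_algebraMap]
        simp
      · -- no affine place: impossible, but harmless
        exfalso
        push Not at hQ
        obtain ⟨s, hs, hsum, -⟩ := X.sep.above 0
        have h5 : s = ∅ := by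
          ext v
          simp only [Finset.notMem_empty, iff_false]
          intro hv
          rw [hs, map_zero, sub_zero, hQ v, X.ord_inf] at hv
          omega
        rw [h5, Finset.sum_empty] at hsum
        haveI := X.sep.fd
        have := Module.finrank_pos (R := IntermediateField.adjoin k {X.x}) (M := F)
        omega
    · exact ⟨a, h0, ha⟩
  obtain ⟨a0, ha0, ha0i⟩ := hne
  -- the partition of unity
  have key : ∀ ξ : k, ∃ q : α → rg k (X.tx ξ),
      ∑ a, q a * X.ch ξ m ⟨A a, hA a⟩ = 1 := by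
    intro ξ
    haveI := rg_isDedekindDomain (X.sep_tx ξ)
    set y : α → rg k (X.tx ξ) := fun a => X.ch ξ m ⟨A a, hA a⟩ with hy
    have hy0 : y a0 ≠ 0 := by
      intro h
      have h1 : (y a0 : F) = 0 := by rw [h]; rfl
      rw [hy] at h1
      simp only [X.coe_ch] at h1
      exact mul_ne_zero ha0 (pow_ne_zero _ (X.tx_ne ξ)) h1
    have htop : Ideal.span (Set.range y) = ⊤ := by
      by_contra hcon
      obtain ⟨M, hM, hle⟩ := Ideal.exists_le_maximal _ hcon
      have hMne : M ≠ ⊥ := by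
        intro h
        rw [h] at hle
        have h1 := hle (Ideal.subset_span ⟨a0, rfl⟩)
        exact hy0 (Ideal.mem_bot.1 h1)
      obtain ⟨v, hv, hv2⟩ := exists_place (X.sep_tx ξ) ⟨M, hM.isPrime, hMne⟩
      have h2 : ∀ a, evp v (y a : F) = 0 := by
        intro a
        have h3 : y a ∈ M := hle (Ideal.subset_span ⟨a, rfl⟩)
        have h4 : y a ∈ RingHom.ker (pt (X.sep_tx ξ) v hv) := by rw [← hv2]; exact h3
        exact h4
      have h5 : ∀ a, (y a : F) = A a * X.tx ξ ^ m := fun a => rfl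
      rcases X.chart_iff.1 hv with hvi | ⟨hvi, hvx⟩
      · have h6 := h2 a0
        have h7 : v.ord (y a0 : F) = 0 := by
          rw [h5, v.ord_mul ha0 (pow_ne_zero _ (X.tx_ne ξ)), ord_pow, hvi, ha0i, X.ord_tx_inf]
          push_cast
          ring
        rw [evp_eq_zero_iff (X.rat v) (mem_of_ord_nonneg v h7.ge)] at h6
        rcases h6 with h6 | h6
        · exact hy0 (Subtype.ext h6)
        · omega
      · obtain ⟨a, ha, ha'⟩ := hz v hvi
        have h6 := h2 a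
        have h7 : v.ord (y a : F) = 0 := by
          rw [h5, v.ord_mul ha (pow_ne_zero _ (X.tx_ne ξ)), ord_pow, X.ord_tx hvi hvx, ha']
          ring
        rw [evp_eq_zero_iff (X.rat v) (mem_of_ord_nonneg v h7.ge)] at h6
        rcases h6 with h6 | h6
        · rw [h5] at h6
          exact mul_ne_zero ha (pow_ne_zero _ (X.tx_ne ξ)) h6
        · omega
    have h1 : (1 : rg k (X.tx ξ)) ∈ Ideal.span (Set.range y) := by rw [htop]; trivial
    obtain ⟨q, hq⟩ := (Ideal.mem_span_range_iff_exists_fun).1 h1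
    exact ⟨q, hq⟩
  choose q hq using key
  have hlow : ∀ ξ : Ξ, ∃ Cs : MC V.ι, ∀ i (v : Place k F), X.Near V B i ξ v → ∃ a,
      1 ≤ Cs.c i * V.v i (evp v (A a * X.tx ξ ^ m)) := by
    intro ξ
    refine AV.exists_lower V (D := Place k F) (reg := fun i v => X.Near V B i ξ v)
      (g := fun a v => evp v (q ξ a : F)) (f := fun a v => evp v (A a * X.tx ξ ^ m))
      (fun a => ?_) ?_
    · obtain ⟨D, hD⟩ := bdd_rg V (X.sep_tx (ξ : k)) B (q ξ a)
      exact ⟨D, fun i v hv => hD i v hv.chart hv.tx_le⟩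
    · intro i v hv
      have h1 := congrArg (pt (X.sep_tx (ξ : k)) v hv.chart) (hq ξ)
      rw [map_one, map_sum] at h1
      rw [← h1]
      refine Finset.sum_congr rfl fun a _ => ?_
      rw [map_mul]
      rfl
  choose C1 h1 using hlow
  obtain ⟨E1, hE1⟩ := MC.exists_ge_fintype C1
  refine ⟨E1 * B.pow m, fun i Q hQ => ?_⟩
  obtain ⟨ξ, hξ, hnear⟩ := hB i (fun _ => Q) fun _ => hQ
  have hn := hnear 0
  obtain ⟨a, ha⟩ := h1 ⟨ξ, hξ⟩ i Q hn
  refine ⟨a, ?_⟩
  rw [X.ub_evp_mul (hA a) hQ hn.ne, map_mul, map_pow] at ha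
  have h2 := hn.tx_mul
  set T := V.v i (evp Q (X.tx ξ)) with hT
  have hTpos : 0 < T := hn.tx_pos
  have hsz := sz_pos (X := X) (V := V) i Q
  have h3 : (T * X.sz V i Q) ^ m ≤ B.c i ^ m := pow_le_pow_left₀ (mul_nonneg hTpos.le hsz.le) h2 m
  calc X.sz V i Q ^ m ≤ X.sz V i Q ^ m * ((C1 ⟨ξ, hξ⟩).c i * (V.v i (evp Q (A a)) * T ^ m)) :=
        le_mul_of_one_le_right (pow_nonneg hsz.le _) ha
    _ ≤ X.sz V i Q ^ m * (E1.c i * (V.v i (evp Q (A a)) * T ^ m)) := by
        refine mul_le_mul_of_nonneg_left ?_ (pow_nonneg hsz.le _)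
        refine mul_le_mul_of_nonneg_right (hE1 _ i) ?_
        exact mul_nonneg ((V.v i).nonneg _) (pow_nonneg hTpos.le _)
    _ = E1.c i * V.v i (evp Q (A a)) * (T * X.sz V i Q) ^ m := by rw [mul_pow]; ring
    _ ≤ E1.c i * V.v i (evp Q (A a)) * B.c i ^ m :=
        mul_le_mul_of_nonneg_left h3 (mul_nonneg (E1.pos i).le ((V.v i).nonneg _))
    _ = (E1 * B.pow m).c i * V.v i (evp Q (A a)) := by rw [MC.mul_c, MC.pow_c]; ring

end XD

end Fermat.Agent.MW
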