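import Mathlib

/-! # Finite generation from a quasi-bilinear pairing -/

set_option autoImplicit false
set_option linter.style.haveILetI false

noncomputable section

namespace Fermat.Agent.MW

open Filter Topology

/-- Quasi-additive functions are close to additive ones. -/
theorem exists_hyers {A : Type*} [AddCommGroup A] (f : A → ℝ) (C : ℝ)
    (hf : ∀ x y, |f (x + y) - f x - f y| ≤ C) :
    ∃ g : A →+ ℝ, (∀ x, |g x - f x| ≤ C) ∧
      ∀ x, Tendsto (fun n : ℕ => f ((2 : ℕ) ^ n • x) / 2 ^ n) atTop (𝓝 (g x)) := by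
  have hC : 0 ≤ C := (abs_nonneg _).trans (hf 0 0)
  have hstep : ∀ x (n : ℕ), dist (f ((2 : ℕ) ^ n • x) / 2 ^ n)
      (f ((2 : ℕ) ^ (n + 1) • x) / 2 ^ (n + 1)) ≤ C / 2 / 2 ^ n := by
    intro x n
    rw [Real.dist_eq, abs_sub_comm]
    have h1 := hf ((2 : ℕ) ^ n • x) ((2 : ℕ) ^ n • x)
    have h2 : (2 : ℕ) ^ n • x + (2 : ℕ) ^ n • x = (2 : ℕ) ^ (n + 1) • x := by
      rw [← add_smul]; congr 1; ring
    rw [h2] at h1
    have h3 : f ((2 : ℕ) ^ (n + 1) • x) / 2 ^ (n + 1) - f ((2 : ℕ) ^ n • x) / 2 ^ n =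
        (f ((2 : ℕ) ^ (n + 1) • x) - f ((2 : ℕ) ^ n • x) - f ((2 : ℕ) ^ n • x)) / 2 ^ (n + 1) := by
      field_simp
      ring
    rw [h3, abs_div, abs_of_pos (show (0 : ℝ) < 2 ^ (n + 1) by positivity)]
    have h4 : C / 2 / 2 ^ n = C / 2 ^ (n + 1) := by
      field_simp
      ring
    rw [h4]
    exact div_le_div_of_nonneg_right h1 (by positivity)
  have hlim : ∀ x, ∃ a, Tendsto (fun n : ℕ => f ((2 : ℕ) ^ n • x) / 2 ^ n) atTop (𝓝 a) :=
    fun x => cauchySeq_tendsto_of_complete (cauchySeq_of_le_geometric_two (hstep x))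
  choose g hg using hlim
  have hadd : ∀ x y, g (x + y) = g x + g y := by
    intro x y
    have h1 : Tendsto (fun n : ℕ => f ((2 : ℕ) ^ n • (x + y)) / 2 ^ n -
        f ((2 : ℕ) ^ n • x) / 2 ^ n - f ((2 : ℕ) ^ n • y) / 2 ^ n) atTop
        (𝓝 (g (x + y) - g x - g y)) := ((hg _).sub (hg _)).sub (hg _)
    have h2 : Tendsto (fun n : ℕ => C / 2 ^ n) atTop (𝓝 0) := by
      have := tendsto_pow_atTop_nhds_zero_of_lt_one (r := (1 / 2 : ℝ)) (by norm_num) (by norm_num)
      have h3 := this.const_mul C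
      rw [mul_zero] at h3
      refine h3.congr fun n => ?_
      rw [one_div, inv_pow]
      rfl
    have h3 : Tendsto (fun n : ℕ => f ((2 : ℕ) ^ n • (x + y)) / 2 ^ n -
        f ((2 : ℕ) ^ n • x) / 2 ^ n - f ((2 : ℕ) ^ n • y) / 2 ^ n) atTop (𝓝 0) := by
      refine squeeze_zero_norm (fun n => ?_) h2
      have h4 : f ((2 : ℕ) ^ n • (x + y)) / 2 ^ n -
          f ((2 : ℕ) ^ n • x) / 2 ^ n - f ((2 : ℕ) ^ n • y) / 2 ^ n =
          (f ((2 : ℕ) ^ n • x + (2 : ℕ) ^ n • y) - f ((2 : ℕ) ^ n • x) -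
            f ((2 : ℕ) ^ n • y)) / 2 ^ n := by
        rw [smul_add]; ring
      rw [h4, Real.norm_eq_abs, abs_div, abs_of_pos (show (0 : ℝ) < 2 ^ n by positivity)]
      exact div_le_div_of_nonneg_right (hf _ _) (by positivity)
    have h4 := tendsto_nhds_unique h1 h3
    linarith
  refine ⟨AddMonoidHom.mk' g hadd, fun x => ?_, hg⟩
  have h1 := dist_le_of_le_geometric_two_of_tendsto₀ (C := C) (hstep x) (hg x)
  rw [Real.dist_eq, abs_sub_comm] at h1
  simpa using h1

/-- Quasi-bilinear functions are close to bilinear ones. -/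
theorem exists_bilin {A : Type*} [AddCommGroup A] (B : A → A → ℝ) (C : ℝ)
    (hadd : ∀ x x' y, |B (x + x') y - B x y - B x' y| ≤ C)
    (hsymm : ∀ x y, |B x y - B y x| ≤ C) :
    ∃ b : A →+ A →+ ℝ, (∀ x y, b x y = b y x) ∧ ∃ C', ∀ x y, |b x y - B x y| ≤ C' := by
  choose g hg1 hg2 using fun y => exists_hyers (fun x => B x y) C (fun x x' => hadd x x' y)
  have hadd2 : ∀ x y y', |g (y + y') x - g y x - g y' x| ≤ 7 * C := by
    intro x y y'
    have h1 := hg1 (y + y') x
    have h2 := hg1 y x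
    have h3 := hg1 y' x
    have h4 := hsymm x (y + y')
    have h5 := hsymm x y
    have h6 := hsymm x y'
    have h7 := hadd y y' x
    rw [abs_le] at *
    constructor <;> linarith [h1.1, h1.2, h2.1, h2.2, h3.1, h3.2, h4.1, h4.2, h5.1, h5.2, h6.1,
      h6.2, h7.1, h7.2]
  choose u hu1 hu2 using fun x => exists_hyers (fun y => g y x) (7 * C) (hadd2 x)
  have hu3 : ∀ x x' y, u (x + x') y = u x y + u x' y := by
    intro x x' y
    refine tendsto_nhds_unique (hu2 (x + x') y) (((hu2 x y).add (hu2 x' y)).congr fun n => ?_)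
    rw [map_add]
    ring
  have hub : ∀ x y, |u x y - B x y| ≤ 8 * C := by
    intro x y
    have h1 := hu1 x y
    have h2 := hg1 y x
    rw [abs_le] at *
    constructor <;> linarith [h1.1, h1.2, h2.1, h2.2]
  refine ⟨AddMonoidHom.mk' u fun x x' => by ext y; exact hu3 x x' y, fun x y => ?_,
    8 * C, hub⟩
  -- symmetry
  change u x y = u y x
  have hd : ∀ x y, |u x y - u y x| ≤ 17 * C := by
    intro x y
    have h1 := hub x y
    have h2 := hub y x
    have h3 := hsymm x y
    rw [abs_le] at *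
    constructor <;> linarith [h1.1, h1.2, h2.1, h2.2, h3.1, h3.2]
  have hn : ∀ n : ℕ, (n : ℝ) * |u x y - u y x| ≤ 17 * C := by
    intro n
    have h1 := hd (n • x) y
    have h2 : u (n • x) y = n * u x y := by
      have : ∀ n : ℕ, u (n • x) y = n * u x y := by
        intro n
        induction n with
        | zero =>
          have := hu3 0 0 y
          rw [add_zero] at this
          simp only [zero_smul, Nat.cast_zero, zero_mul]
          linarith
        | succ n ih => rw [add_smul, one_smul, hu3, ih]; push_cast; ring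
      exact this n
    have h3 : u y (n • x) = n * u y x := by rw [map_nsmul, nsmul_eq_mul]
    rw [h2, h3, ← mul_sub, abs_mul, Nat.abs_cast] at h1
    exact h1
  by_contra hne
  have hpos : 0 < |u x y - u y x| := abs_pos.mpr (sub_ne_zero.mpr hne)
  obtain ⟨n, hn'⟩ := exists_nat_gt (17 * C / |u x y - u y x|)
  rw [div_lt_iff₀ hpos] at hn'
  exact absurd (hn n) (not_le.mpr hn')

/-- Finite generation from a quasi-bilinear pairing. -/
theorem fg_of_pairing {A : Type*} [AddCommGroup A] (B : A → A → ℝ) (C : ℝ)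
    (hadd : ∀ x x' y, |B (x + x') y - B x y - B x' y| ≤ C)
    (hsymm : ∀ x y, |B x y - B y x| ≤ C)
    (H : A → ℝ) (hN : ∀ b, {x | H x ≤ b}.Finite) (hH : ∀ x, 0 ≤ H x)
    (S : Set A) (hS : S.Finite) (hpos : ∀ x, ∃ b ∈ S, H x + B x b - C ≤ B x x)
    (h3 : (nsmulAddMonoidHom (α := A) 3).range.FiniteIndex) : AddGroup.FG A := by
  obtain ⟨b, hb, C', hC'⟩ := exists_bilin B C hadd hsymm
  -- the lower bound
  have hlow : ∀ x, ∃ s ∈ S, H x + b x s - (C + 2 * C') ≤ b x x := by
    intro x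
    obtain ⟨s, hs, h1⟩ := hpos x
    refine ⟨s, hs, ?_⟩
    have h2 := abs_le.mp (hC' x x)
    have h4 := abs_le.mp (hC' x s)
    linarith [h2.1, h2.2, h4.1, h4.2]
  -- positivity
  have hnn : ∀ x, 0 ≤ b x x := by
    intro x
    obtain ⟨M, hM⟩ := (hS.image fun s => |b x s|).bddAbove
    have hM' : ∀ s ∈ S, |b x s| ≤ M := fun s hs => hM ⟨s, hs, rfl⟩
    have h1 : ∀ n : ℕ, -(n * M) - |C + 2 * C'| ≤ n ^ 2 * b x x := by
      intro n
      obtain ⟨s, hs, h2⟩ := hlow (n • x)
      have h4 : b (n • x) s = n * b x s := by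
        rw [map_nsmul, AddMonoidHom.nsmul_apply, nsmul_eq_mul]
      have h5 : b (n • x) (n • x) = n ^ 2 * b x x := by
        simp only [map_nsmul, AddMonoidHom.nsmul_apply, nsmul_eq_mul]
        ring
      rw [h4, h5] at h2
      have h6 : -(n * M) ≤ n * b x s := by
        have := mul_le_mul_of_nonneg_left (neg_le_of_abs_le (hM' s hs)) (Nat.cast_nonneg (α := ℝ) n)
        linarith
      have h7 := hH (n • x)
      have h8 := le_abs_self (C + 2 * C')
      linarith
    by_contra hneg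
    rw [not_le] at hneg
    have hMnn : ∀ n : ℕ, 1 ≤ n → (n : ℝ) * (-(b x x)) ≤ M + |C + 2 * C'| := by
      intro n hn
      have h2 := h1 n
      have h4 : (1 : ℝ) ≤ n := by exact_mod_cast hn
      have h5 : (0 : ℝ) < n := by linarith
      have h6 : |C + 2 * C'| ≤ n * |C + 2 * C'| := le_mul_of_one_le_left (abs_nonneg _) h4
      have h7 : (n : ℝ) * ((n : ℝ) * (-(b x x))) ≤ n * (M + |C + 2 * C'|) := by nlinarith
      exact le_of_mul_le_mul_left h7 h5
    obtain ⟨n, hn⟩ := exists_nat_gt ((M + |C + 2 * C'|) / (-(b x x)))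
    rw [div_lt_iff₀ (by linarith)] at hn
    have h2 := hMnn (n + 1) (by omega)
    push_cast at h2
    nlinarith
  -- the parallelogram law
  have hsub : ∀ x y, b (x - y) (x - y) = b x x + b y y - 2 * b x y := by
    intro x y
    simp only [map_sub, AddMonoidHom.sub_apply, hb y x]
    ring
  have hadd' : ∀ x y, b (x + y) (x + y) = b x x + b y y + 2 * b x y := by
    intro x y
    simp only [map_add, AddMonoidHom.add_apply, hb y x]
    ring
  haveI : Northcott (fun x => b x x) := ⟨fun β => by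
    obtain ⟨M, hM⟩ := (hS.image fun s => b s s).bddAbove
    have hM' : ∀ s ∈ S, b s s ≤ M := fun s hs => hM ⟨s, hs, rfl⟩
    refine (hN (β + (β + M) / 2 + (C + 2 * C'))).subset fun x hx => ?_
    have hx' : b x x ≤ β := hx
    obtain ⟨s, hs, h1⟩ := hlow x
    have h2 : -(b x s) ≤ (b x x + b s s) / 2 := by
      have := hnn (x + s)
      rw [hadd'] at this
      linarith
    have h4 := hM' s hs
    change H x ≤ _
    linarith⟩
  refine AddCommGroup.fg_of_descent (n := 3) (h := fun x => b x x) (a := 2) (b := 9) (c₀ := 0)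
    (c := fun g => 2 * b g g) (by norm_num) (by norm_num) h3 (fun g x => ?_) (fun x => ?_)
  · have h1 : b x x = b (g + x - g) (g + x - g) := by
      rw [add_sub_cancel_left]
    have h2 := hsub (g + x) g
    have h4 := hadd' (g + x) g
    have h5 := hnn (g + x + g)
    rw [h1, h2]
    linarith
  · have : b (3 • x) (3 • x) = 9 * b x x := by
      simp only [map_nsmul, AddMonoidHom.nsmul_apply, nsmul_eq_mul]
      push_cast
      ring
    simp only [this]
    linarith

end Fermat.Agent.MW
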