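import Mathlib

/-!
Absolute values on the field of algebraic numbers: one for every place of `ℚ`.
-/

set_option autoImplicit false

noncomputable section

namespace Fermat.Agent.MW

open Polynomial

local notation "Qb" => AlgebraicClosure ℚ
local notation "GQ" => (Qb ≃ₐ[ℚ] Qb)

/-- Places of `ℚ`; `none` is the archimedean one. -/
abbrev PlQ := Option Nat.Primes

/-- An embedding of the algebraic numbers into an algebraically closed field. -/
def embL (L : Type) [Field L] [IsAlgClosed L] [Algebra ℚ L] : Qb →ₐ[ℚ] L :=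
  haveI : Algebra.IsAlgebraic ℚ Qb := AlgebraicClosure.isAlgebraic ℚ
  IsAlgClosed.lift

/-- The embedding of the algebraic numbers into the algebraic closure of the `p`-adic numbers. -/
def embP (p : Nat.Primes) : haveI : Fact (p : ℕ).Prime := ⟨p.2⟩; Qb →+* PadicAlgCl (p : ℕ) :=
  haveI : Fact (p : ℕ).Prime := ⟨p.2⟩
  (embL (PadicAlgCl (p : ℕ))).toRingHom

/-- The embedding of the algebraic numbers into the complex numbers. -/
def embC : Qb →+* ℂ := (embL ℂ).toRingHom

/-- The absolute value of a normed field. -/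
def nAbs (L : Type*) [NormedField L] : AbsoluteValue L ℝ where
  toFun x := ‖x‖
  map_mul' := norm_mul
  nonneg' := norm_nonneg
  eq_zero' _ := norm_eq_zero
  add_le' := norm_add_le

/-- The chosen extension to `Qb` of the absolute value attached to a place of `ℚ`. -/
def absQ : PlQ → AbsoluteValue Qb ℝ
  | none => (nAbs ℂ).comp embC.injective
  | some p =>
    haveI : Fact (p : ℕ).Prime := ⟨p.2⟩
    (nAbs (PadicAlgCl (p : ℕ))).comp (embP p).injective

theorem absQ_none (a : Qb) : absQ none a = ‖embC a‖ := rfl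

theorem absQ_some (p : Nat.Primes) [Fact (p : ℕ).Prime] (a : Qb) :
    absQ (some p) a = ‖(embP p a : PadicAlgCl (p : ℕ))‖ := rfl

theorem absQ_none_rat (q : ℚ) : absQ none (algebraMap ℚ Qb q) = |(q : ℝ)| := by
  rw [absQ_none]
  have : embC (algebraMap ℚ Qb q) = (q : ℂ) := by simp
  rw [this, Complex.norm_ratCast]

theorem absQ_some_rat (p : Nat.Primes) (q : ℚ) :
    absQ (some p) (algebraMap ℚ Qb q) = (padicNorm p q : ℝ) := by
  haveI : Fact (p : ℕ).Prime := ⟨p.2⟩
  rw [absQ_some]
  have : embP p (algebraMap ℚ Qb q) = algebraMap ℚ_[p] (PadicAlgCl (p : ℕ)) (q : ℚ_[p]) := by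
    simp
  rw [this]
  have h2 := PadicAlgCl.norm_extends (p : ℕ) (q : ℚ_[p])
  rw [← Padic.eq_padicNorm]
  exact h2

theorem absQ_some_nonarch (p : Nat.Primes) : IsNonarchimedean (absQ (some p)) := by
  haveI : Fact (p : ℕ).Prime := ⟨p.2⟩
  intro x y
  rw [absQ_some, absQ_some, absQ_some, map_add]
  exact PadicAlgCl.isNonarchimedean (p : ℕ) _ _

theorem absQ_int_le (p : Nat.Primes) {b : Qb} (hb : IsIntegral ℤ b) : absQ (some p) b ≤ 1 := by
  have hna := absQ_some_nonarch p
  by_contra hcon
  push Not at hcon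
  obtain ⟨f, hf, hfb⟩ := hb
  have hint : ∀ z : ℤ, absQ (some p) (z : Qb) ≤ 1 := by
    intro z
    haveI : Fact (p : ℕ).Prime := ⟨p.2⟩
    have h1 := absQ_some_rat p (z : ℚ)
    have h2 : algebraMap ℚ Qb (z : ℚ) = (z : Qb) := by simp
    rw [h2] at h1
    rw [h1]
    exact_mod_cast padicNorm.of_int (p := (p : ℕ)) z
  have hv0 : 0 < absQ (some p) b := by linarith
  have hdeg : f.natDegree ≠ 0 := by
    intro h0
    rw [hf.natDegree_eq_zero] at h0
    rw [h0] at hfb
    simp at hfb
  have h1 : b ^ f.natDegree = -∑ i ∈ Finset.range f.natDegree, (f.coeff i : Qb) * b ^ i := by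
    rw [Polynomial.eval₂_eq_sum_range, Finset.sum_range_succ, hf.coeff_natDegree] at hfb
    simp only [map_one, one_mul, eq_intCast] at hfb
    linear_combination hfb
  have h2 : absQ (some p) (b ^ f.natDegree) ≤ (absQ (some p) b) ^ (f.natDegree - 1) := by
    rw [h1, AbsoluteValue.map_neg]
    have hne : (Finset.range f.natDegree).Nonempty := by
      rw [Finset.nonempty_range_iff]; exact hdeg
    obtain ⟨i, hi, hi2⟩ := IsNonarchimedean.finset_image_add_of_nonempty hna
      (fun i => (f.coeff i : Qb) * b ^ i) hne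
    refine hi2.trans ?_
    rw [map_mul, map_pow]
    have h3 : absQ (some p) (b) ^ i ≤ absQ (some p) b ^ (f.natDegree - 1) := by
      apply pow_le_pow_right₀ hcon.le
      have := Finset.mem_range.1 hi
      omega
    calc absQ (some p) (f.coeff i : Qb) * absQ (some p) b ^ i ≤ 1 * absQ (some p) b ^ i := by
          apply mul_le_mul_of_nonneg_right (hint _) (by positivity)
      _ ≤ _ := by rw [one_mul]; exact h3
  rw [map_pow] at h2
  have h4 : (absQ (some p) b) ^ (f.natDegree - 1) < absQ (some p) b ^ f.natDegree :=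
    pow_lt_pow_right₀ hcon (by omega)
  linarith

theorem absQ_nat_eq_one (p : Nat.Primes) {n : ℕ} (h : ¬ (p : ℕ) ∣ n) :
    absQ (some p) (n : Qb) = 1 := by
  haveI : Fact (p : ℕ).Prime := ⟨p.2⟩
  have h1 := absQ_some_rat p (n : ℚ)
  have h2 : algebraMap ℚ Qb (n : ℚ) = (n : Qb) := by simp
  rw [h2] at h1
  rw [h1]
  exact_mod_cast (padicNorm.nat_eq_one_iff (p := (p : ℕ)) n).2 h

theorem finite_absQ_gt (a : Qb) : {w : PlQ | 1 < absQ w a}.Finite := by
  haveI : Algebra.IsAlgebraic ℚ Qb := AlgebraicClosure.isAlgebraic ℚ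
  have halg : IsAlgebraic ℤ a := by
    have : IsAlgebraic ℚ a := Algebra.IsAlgebraic.isAlgebraic a
    exact (IsFractionRing.isAlgebraic_iff ℤ ℚ Qb).2 this
  obtain ⟨y, hy0, hy⟩ := halg.exists_integral_multiple
  have hn0 : y.natAbs ≠ 0 := by simpa using hy0
  have hfin : (Set.range fun q : {q : Nat.Primes // (q : ℕ) ∣ y.natAbs} =>
      (some q.1 : PlQ)).Finite := by
    haveI : Finite {q : Nat.Primes // (q : ℕ) ∣ y.natAbs} := by
      have : Finite {q : ℕ // q ∣ y.natAbs} := by
        refine Set.Finite.to_subtype (s := {q | q ∣ y.natAbs}) ?_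
        exact (Set.finite_Icc 0 y.natAbs).subset fun q hq =>
          ⟨Nat.zero_le _, Nat.le_of_dvd (Nat.pos_of_ne_zero hn0) hq⟩
      refine Finite.of_injective (fun q : {q : Nat.Primes // (q : ℕ) ∣ y.natAbs} =>
        (⟨(q.1 : ℕ), q.2⟩ : {q : ℕ // q ∣ y.natAbs})) ?_
      intro q q' h
      have h' : (q.1 : ℕ) = (q'.1 : ℕ) := by simpa using h
      exact Subtype.ext (Subtype.ext h')
    exact Set.finite_range _
  refine (hfin.insert none).subset ?_
  rintro (_ | p) hw
  · exact Set.mem_insert _ _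
  · right
    by_cases hp : (p : ℕ) ∣ y.natAbs
    · exact ⟨⟨p, hp⟩, rfl⟩
    · exfalso
      have h1 := absQ_int_le p hy
      rw [zsmul_eq_mul, map_mul] at h1
      have h2 : absQ (some p) (y : Qb) = 1 := by
        rcases Int.natAbs_eq y with h | h
        · rw [h, Int.cast_natCast]; exact absQ_nat_eq_one p hp
        · rw [h, Int.cast_neg, AbsoluteValue.map_neg, Int.cast_natCast]
          exact absQ_nat_eq_one p hp
      rw [h2, one_mul] at h1
      exact absurd hw (not_lt.2 h1)

theorem finite_absQ {a : Qb} (ha : a ≠ 0) : {w : PlQ | absQ w a ≠ 1}.Finite := by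
  refine ((finite_absQ_gt a).union (finite_absQ_gt a⁻¹)).subset ?_
  intro w hw
  rcases lt_or_gt_of_ne hw with h | h
  · right
    change 1 < absQ w a⁻¹
    rw [map_inv₀]
    exact (one_lt_inv₀ ((absQ w).pos ha)).2 h
  · left; exact h

end Fermat.Agent.MW
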