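import Mathlib
import Fermat.Agent.MW.Places

/-!
The product formula and Northcott's property over `ℚ`.
-/

set_option autoImplicit false

noncomputable section

namespace Fermat.Agent.MW

open Function

local notation "Qb" => AlgebraicClosure ℚ

theorem fs_log {a : Qb} (ha : a ≠ 0) : (support fun w : PlQ => Real.log (absQ w a)).Finite := by
  refine (finite_absQ ha).subset fun w hw => ?_
  intro h
  exact hw (by simp [h])

theorem fs_logmax (a : Qb) :
    (support fun w : PlQ => Real.log (max 1 (absQ w a))).Finite := by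
  refine (finite_absQ_gt a).subset fun w hw => ?_
  by_contra h
  simp only [Set.mem_setOf_eq, not_lt] at h
  exact hw (by simp only [max_eq_left h, Real.log_one])

/-- The sum of the logarithms. -/
def lsum (a : Qb) : ℝ := ∑ᶠ w : PlQ, Real.log (absQ w a)

theorem lsum_mul {a b : Qb} (ha : a ≠ 0) (hb : b ≠ 0) : lsum (a * b) = lsum a + lsum b := by
  unfold lsum
  rw [← finsum_add_distrib (fs_log ha) (fs_log hb)]
  refine finsum_congr fun w => ?_
  rw [map_mul, Real.log_mul ((absQ w).ne_zero ha) ((absQ w).ne_zero hb)]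

theorem lsum_one : lsum 1 = 0 := by
  unfold lsum
  rw [finsum_congr (g := fun _ => 0) fun w => by rw [map_one, Real.log_one], finsum_zero]

theorem lsum_neg (a : Qb) : lsum (-a) = lsum a := by
  unfold lsum
  exact finsum_congr fun w => by rw [AbsoluteValue.map_neg]

theorem lsum_prime (p : ℕ) (hp : p.Prime) : lsum (p : Qb) = 0 := by
  classical
  haveI : Fact p.Prime := ⟨hp⟩
  have hcast : algebraMap ℚ Qb (p : ℚ) = (p : Qb) := by simp
  unfold lsum
  rw [finsum_eq_sum_of_support_subset (s := ({none, some ⟨p, hp⟩} : Finset PlQ))]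
  · rw [Finset.sum_pair (by simp)]
    have h1 := absQ_none_rat (p : ℚ)
    have h2 := absQ_some_rat ⟨p, hp⟩ (p : ℚ)
    rw [hcast] at h1 h2
    rw [h1, h2]
    have h3 : padicNorm (((⟨p, hp⟩ : Nat.Primes) : ℕ)) (p : ℚ) = (p : ℚ)⁻¹ :=
      padicNorm.padicNorm_p_of_prime
    rw [h3]
    push_cast
    rw [Real.log_inv, Nat.abs_cast]
    ring
  · rintro (_ | q) hw
    · simp
    · simp only [Finset.coe_insert, Finset.coe_singleton, Set.mem_insert_iff,
        Set.mem_singleton_iff]
      right
      by_contra hne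
      apply hw
      have hpq : ¬ (q : ℕ) ∣ p := by
        intro h
        apply hne
        have := (Nat.prime_dvd_prime_iff_eq q.2 hp).1 h
        exact congrArg some (Subtype.ext this : q = ⟨p, hp⟩)
      change Real.log (absQ (some q) (p : Qb)) = 0
      rw [absQ_nat_eq_one q hpq, Real.log_one]

theorem lsum_nat : ∀ n : ℕ, n ≠ 0 → lsum (n : Qb) = 0 := by
  intro n
  induction n using Nat.recOnMul with
  | zero => intro h; exact absurd rfl h
  | one => intro _; rw [Nat.cast_one, lsum_one]
  | prime p hp => intro _; exact lsum_prime p hp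
  | mul a b iha ihb =>
    intro h
    have ha : a ≠ 0 := left_ne_zero_of_mul h
    have hb : b ≠ 0 := right_ne_zero_of_mul h
    rw [Nat.cast_mul, lsum_mul (by exact_mod_cast ha) (by exact_mod_cast hb), iha ha, ihb hb,
      add_zero]

/-- The product formula over `ℚ`. -/
theorem lsum_rat {q : ℚ} (hq : q ≠ 0) : lsum (algebraMap ℚ Qb q) = 0 := by
  have hd : (q.den : Qb) ≠ 0 := by exact_mod_cast q.den_nz
  have hn0 : q.num.natAbs ≠ 0 := by simpa using hq
  have h1 : algebraMap ℚ Qb q * (q.den : Qb) = (q.num : Qb) := by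
    have h2 : q * q.den = q.num := Rat.mul_den_eq_num q
    have h3 := congrArg (algebraMap ℚ Qb) h2
    rw [map_mul] at h3
    simpa using h3
  have h3 : lsum (q.num : Qb) = 0 := by
    rcases Int.natAbs_eq q.num with h | h
    · rw [h, Int.cast_natCast]; exact lsum_nat _ hn0
    · rw [h, Int.cast_neg, lsum_neg, Int.cast_natCast]
      exact lsum_nat _ hn0
  have hq' : algebraMap ℚ Qb q ≠ 0 := by
    rw [Ne, map_eq_zero]; exact hq
  have h4 := lsum_mul hq' hd
  rw [h1, h3, lsum_nat _ q.den_nz] at h4
  linarith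

/-- The height over `ℚ`. -/
def hQ (a : Qb) : ℝ := ∑ᶠ w : PlQ, Real.log (max 1 (absQ w a))

theorem hQ_ge (q : ℚ) :
    Real.log q.den + Real.log (max 1 |(q : ℝ)|) ≤ hQ (algebraMap ℚ Qb q) := by
  classical
  have hd : (q.den : Qb) ≠ 0 := by exact_mod_cast q.den_nz
  set g : PlQ → ℝ := fun w => -Real.log (absQ w (q.den : Qb)) +
    (if w = none then Real.log q.den + Real.log (max 1 |(q : ℝ)|) else 0) with hg
  have hs1 : (support fun w : PlQ => -Real.log (absQ w (q.den : Qb))).Finite := by
    refine (fs_log hd).subset fun w hw => ?_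
    intro h
    apply hw
    change Real.log (absQ w (q.den : Qb)) = 0 at h
    change -Real.log (absQ w (q.den : Qb)) = 0
    rw [h, neg_zero]
  have hs2 : (support fun w : PlQ => if w = none then
      Real.log q.den + Real.log (max 1 |(q : ℝ)|) else 0).Finite := by
    refine (Set.finite_singleton (none : PlQ)).subset fun w hw => ?_
    by_contra h
    exact hw (if_neg h)
  have hsum : ∑ᶠ w, g w = Real.log q.den + Real.log (max 1 |(q : ℝ)|) := by
    rw [hg, finsum_add_distrib hs1 hs2]
    have h1 : ∑ᶠ w : PlQ, -Real.log (absQ w (q.den : Qb)) = 0 := by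
      rw [finsum_neg_distrib]
      have := lsum_nat q.den q.den_nz
      unfold lsum at this
      rw [this, neg_zero]
    rw [h1, zero_add, finsum_eq_single _ none (fun w hw => if_neg hw), if_pos rfl]
  rw [← hsum]
  unfold hQ
  refine finsum_le_finsum' ?_ (fs_logmax _) ?_
  · exact (hs1.union hs2).subset (support_add _ _)
  · rintro (_ | p)
    · simp only [hg, if_pos]
      have h1 := absQ_none_rat (q.den : ℚ)
      have h2 : algebraMap ℚ Qb (q.den : ℚ) = (q.den : Qb) := by simp
      rw [h2] at h1
      rw [h1, absQ_none_rat]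
      push_cast
      rw [Nat.abs_cast]
      linarith
    · simp only [hg]
      rw [if_neg (by simp), add_zero]
      haveI : Fact (p : ℕ).Prime := ⟨p.2⟩
      have h1 : algebraMap ℚ Qb q * (q.den : Qb) = (q.num : Qb) := by
        have h2 : q * q.den = q.num := Rat.mul_den_eq_num q
        have h3 := congrArg (algebraMap ℚ Qb) h2
        rw [map_mul] at h3
        simpa using h3
      by_cases hp : (p : ℕ) ∣ q.den
      · have hnum : ¬ (p : ℕ) ∣ q.num.natAbs := by
          intro h
          have := Nat.dvd_gcd h hp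
          rw [q.reduced] at this
          exact p.2.one_lt.ne' (Nat.dvd_one.1 this)
        have h2 : absQ (some p) (q.num : Qb) = 1 := by
          rcases Int.natAbs_eq q.num with h | h
          · rw [h, Int.cast_natCast]; exact absQ_nat_eq_one p hnum
          · rw [h, Int.cast_neg, AbsoluteValue.map_neg, Int.cast_natCast]
            exact absQ_nat_eq_one p hnum
        rw [← h1, map_mul] at h2
        have h3 := (absQ (some p)).pos hd
        have h4 : absQ (some p) (algebraMap ℚ Qb q) = (absQ (some p) (q.den : Qb))⁻¹ :=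
          eq_inv_of_mul_eq_one_left h2
        rw [← Real.log_inv, ← h4]
        apply Real.log_le_log
        · rw [h4]; positivity
        · exact le_max_right _ _
      · rw [absQ_nat_eq_one p hp, Real.log_one, neg_zero]
        exact Real.log_nonneg (le_max_left _ _)

/-- Northcott's property over `ℚ`. -/
theorem finite_hQ (B : ℝ) : {q : ℚ | hQ (algebraMap ℚ Qb q) ≤ B}.Finite := by
  set M : ℕ := ⌈Real.exp B⌉₊ with hM
  have hfin : ((fun x : ℤ × ℕ => (x.1 : ℚ) / x.2) ''
      (Set.Icc (-((M * M : ℕ) : ℤ)) ((M * M : ℕ) : ℤ) ×ˢ Set.Icc 0 M)).Finite :=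
    ((Set.finite_Icc _ _).prod (Set.finite_Icc _ _)).image _
  refine hfin.subset fun q hq => ?_
  have h1 := (hQ_ge q).trans hq
  have hd1 : (1 : ℝ) ≤ q.den := by exact_mod_cast q.den_pos
  have hl1 : 0 ≤ Real.log q.den := Real.log_nonneg hd1
  have hl2 : 0 ≤ Real.log (max 1 |(q : ℝ)|) := Real.log_nonneg (le_max_left _ _)
  have hden : (q.den : ℝ) ≤ M := by
    have h2 : Real.log q.den ≤ B := by linarith
    have h3 : (q.den : ℝ) ≤ Real.exp B := (Real.log_le_iff_le_exp (by linarith)).1 h2
    exact h3.trans (Nat.le_ceil _)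
  have habs : |(q : ℝ)| ≤ M := by
    have h2 : Real.log (max 1 |(q : ℝ)|) ≤ B := by linarith
    have h3 := (Real.log_le_iff_le_exp (lt_of_lt_of_le one_pos (le_max_left _ _))).1 h2
    exact ((le_max_right _ _).trans h3).trans (Nat.le_ceil _)
  have hnum : |(q.num : ℝ)| ≤ (M * M : ℕ) := by
    have h2 : (q : ℝ) * q.den = q.num := by exact_mod_cast Rat.mul_den_eq_num q
    rw [← h2, abs_mul, Nat.abs_cast]
    push_cast
    exact mul_le_mul habs hden (by linarith) (Nat.cast_nonneg _)
  refine ⟨(q.num, q.den), ⟨⟨?_, ?_⟩, ⟨Nat.zero_le _, by exact_mod_cast hden⟩⟩, ?_⟩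
  · have := (abs_le.1 hnum).1
    exact_mod_cast this
  · have := (abs_le.1 hnum).2
    exact_mod_cast this
  · exact Rat.num_div_den q

end Fermat.Agent.MW
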