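import Mathlib
import Fermat.Agent.MW.AV
import Fermat.Agent.MW.PF

/-!
The system of absolute values attached to a subgroup of finite index of the Galois group: product
formula and Northcott's property.
-/

set_option autoImplicit false

noncomputable section

namespace Fermat.Agent.MW

open Function Polynomial

local notation "Qb" => AlgebraicClosure ℚ
local notation "GQ" => (AlgebraicClosure ℚ ≃ₐ[ℚ] AlgebraicClosure ℚ)

/-- Systems of absolute values of `Qb` with the product formula and the Northcott property for the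
elements fixed by `H`. -/
structure AVH (H : Subgroup GQ) extends AV Qb where
  pf : ∀ a : Qb, a ≠ 0 → (∀ σ ∈ H, σ a = a) → ∑ᶠ i, Real.log (v i a) = 0
  northcott : ∀ (n : ℕ) (B : ℝ), {p : Polynomial Qb | p.Monic ∧ p.natDegree = n ∧
    (∀ σ ∈ H, p.map (σ : Qb →+* Qb) = p) ∧
    ∑ᶠ i, Real.log (⨆ j : Fin (n + 1), v i (p.coeff j)) ≤ B}.Finite

/-- The constant of the coefficients of products. -/
def tw : PlQ → ℝ
  | none => 2
  | some _ => 1

theorem tw_ge (w : PlQ) : 1 ≤ tw w := by
  rcases w with _ | p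
  · change (1 : ℝ) ≤ 2; norm_num
  · exact le_rfl

theorem absQ_sub_le (w : PlQ) {a b : Qb} {x : ℝ} (ha : absQ w a ≤ x) (hb : absQ w b ≤ x) :
    absQ w (a - b) ≤ tw w * x := by
  have hb' : absQ w (-b) ≤ x := by rw [AbsoluteValue.map_neg]; exact hb
  rw [sub_eq_add_neg]
  rcases w with _ | p
  · calc absQ none (a + -b) ≤ absQ none a + absQ none (-b) := (absQ none).add_le _ _
      _ ≤ 2 * x := by linarith
  · change absQ (some p) (a + -b) ≤ 1 * x
    rw [one_mul]
    exact (absQ_some_nonarch p a (-b)).trans (max_le ha hb')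

/-- Coefficients of products of linear factors. -/
theorem coeff_prod_le {κ : Type*} (w : PlQ) (s : Finset κ) (f : κ → Qb) (j : ℕ) :
    absQ w ((∏ c ∈ s, (X - C (f c))).coeff j) ≤
      tw w ^ s.card * ∏ c ∈ s, max 1 (absQ w (f c)) := by
  classical
  induction s using Finset.induction_on generalizing j with
  | empty =>
    simp only [Finset.prod_empty, Finset.card_empty, pow_zero, mul_one]
    rw [coeff_one]
    split_ifs <;> simp
  | insert a s ha ih =>
    rw [Finset.prod_insert ha, Finset.prod_insert ha, Finset.card_insert_of_notMem ha]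
    set M := tw w ^ s.card * ∏ c ∈ s, max 1 (absQ w (f c)) with hM
    have hM0 : 0 ≤ M := (AbsoluteValue.nonneg _ _).trans (ih 0)
    have h1 : (1 : ℝ) ≤ max 1 (absQ w (f a)) := le_max_left _ _
    have key : ∀ x y : Qb, absQ w x ≤ M → absQ w y ≤ M →
        absQ w (x - f a * y) ≤ tw w * (max 1 (absQ w (f a)) * M) := by
      intro x y hx hy
      apply absQ_sub_le
      · exact hx.trans (le_mul_of_one_le_left hM0 h1)
      · rw [map_mul]
        exact mul_le_mul (le_max_right _ _) hy (AbsoluteValue.nonneg _ _) (by linarith)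
    have hfin : tw w ^ (s.card + 1) * (max 1 (absQ w (f a)) * ∏ c ∈ s, max 1 (absQ w (f c))) =
        tw w * (max 1 (absQ w (f a)) * M) := by
      rw [hM]; ring
    rw [hfin, sub_mul, coeff_sub, coeff_C_mul]
    rcases j with _ | j
    · rw [coeff_X_mul_zero]
      exact key 0 _ (by rw [map_zero]; exact hM0) (ih 0)
    · rw [coeff_X_mul]
      exact key _ _ (ih j) (ih (j + 1))

variable (H : Subgroup GQ)

/-- The absolute values. -/
def vH (i : PlQ × (GQ ⧸ H)) : AbsoluteValue Qb ℝ :=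
  (absQ i.1).comp (f := ((i.2.out : GQ) : Qb →+* Qb)) (i.2.out : GQ).injective

theorem vH_apply (i : PlQ × (GQ ⧸ H)) (a : Qb) : vH H i a = absQ i.1 ((i.2.out : GQ) a) := rfl

/-- Action on the quotient. -/
theorem out_smul (σ : GQ) (c : GQ ⧸ H) {a : Qb} (ha : ∀ τ ∈ H, τ a = a) :
    ((σ • c).out : GQ) a = σ ((c.out : GQ) a) := by
  have h1 : σ • c = QuotientGroup.mk (σ * c.out) := by
    conv_lhs => rw [← QuotientGroup.out_eq' c]
    rfl
  rw [h1]
  obtain ⟨h, hh⟩ := QuotientGroup.mk_out_eq_mul H (σ * c.out)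
  rw [hh, AlgEquiv.mul_apply, AlgEquiv.mul_apply, ha h h.2]

theorem out_one {a : Qb} (ha : ∀ τ ∈ H, τ a = a) :
    ((QuotientGroup.mk (1 : GQ) : GQ ⧸ H).out : GQ) a = a := by
  obtain ⟨h, hh⟩ := QuotientGroup.mk_out_eq_mul H (1 : GQ)
  rw [hh, AlgEquiv.mul_apply, ha h h.2]
  rfl

theorem mem_rat {a : Qb} (ha : ∀ σ : GQ, σ a = a) : ∃ q : ℚ, algebraMap ℚ Qb q = a := by
  haveI : Algebra.IsAlgebraic ℚ Qb := AlgebraicClosure.isAlgebraic ℚ
  haveI : IsAlgClosure ℚ Qb := { isAlgClosed := inferInstance, isAlgebraic := inferInstance }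
  haveI : Normal ℚ Qb := IsAlgClosure.normal ℚ Qb
  haveI : IsGalois ℚ Qb := ⟨⟩
  exact (InfiniteGalois.mem_range_algebraMap_iff_fixed a).2 ha

variable [H.FiniteIndex]

instance finQ : Finite (GQ ⧸ H) := Subgroup.finite_quotient_of_finiteIndex

instance ftQ : Fintype (GQ ⧸ H) := Fintype.ofFinite _

theorem prod_rat {a : Qb} (ha : ∀ τ ∈ H, τ a = a) :
    ∃ q : ℚ, algebraMap ℚ Qb q = ∏ c : GQ ⧸ H, (c.out : GQ) a := by
  apply mem_rat
  intro σ
  rw [map_prod]
  refine Fintype.prod_equiv (MulAction.toPerm σ) _ _ fun c => ?_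
  rw [MulAction.toPerm_apply, out_smul H σ c ha]

/-- The characteristic polynomial. -/
def chp (a : Qb) : Polynomial Qb := ∏ c : GQ ⧸ H, (X - C ((c.out : GQ) a))

theorem chp_rat {a : Qb} (ha : ∀ τ ∈ H, τ a = a) (j : ℕ) :
    ∃ q : ℚ, algebraMap ℚ Qb q = (chp H a).coeff j := by
  apply mem_rat
  intro σ
  have h1 : (chp H a).map (σ : Qb →+* Qb) = chp H a := by
    unfold chp
    rw [Polynomial.map_prod]
    refine Fintype.prod_equiv (MulAction.toPerm σ) _ _ fun c => ?_
    rw [MulAction.toPerm_apply, out_smul H σ c ha, Polynomial.map_sub, map_X, map_C]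
    rfl
  conv_rhs => rw [← h1]
  rw [coeff_map]
  rfl

theorem fin_vH {a : Qb} (ha : a ≠ 0) : {i | vH H i a ≠ 1}.Finite := by
  have h1 : ∀ c : GQ ⧸ H, ({w : PlQ | absQ w ((c.out : GQ) a) ≠ 1} ×ˢ ({c} : Set (GQ ⧸ H))).Finite :=
    fun c => (finite_absQ (by simpa using ha)).prod (Set.finite_singleton c)
  refine (Set.finite_iUnion h1).subset ?_
  rintro ⟨w, c⟩ h
  exact Set.mem_iUnion.2 ⟨c, ⟨h, rfl⟩⟩

/-- The system of absolute values. -/
def avH : AV Qb where
  ι := PlQ × (GQ ⧸ H)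
  v := vH H
  arch := {i | i.1 = none}
  arch_fin := by
    refine (Set.finite_range fun c : GQ ⧸ H => ((none, c) : PlQ × (GQ ⧸ H))).subset ?_
    rintro ⟨w, c⟩ h
    exact ⟨c, by rw [show w = none from h]⟩
  nonarch := by
    rintro ⟨w, c⟩ h x y
    rcases w with _ | p
    · exact absurd rfl h
    · rw [vH_apply, vH_apply, vH_apply, map_add]
      exact absQ_some_nonarch p _ _
  fin := fun _ ha => fin_vH H ha

theorem sum_vH (g : PlQ → Qb → ℝ) (a : Qb)
    (hs : ∀ c : GQ ⧸ H, (support fun w => g w ((c.out : GQ) a)).Finite) :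
    ∑ᶠ i : PlQ × (GQ ⧸ H), g i.1 ((i.2.out : GQ) a) =
      ∑ c : GQ ⧸ H, ∑ᶠ w, g w ((c.out : GQ) a) := by
  rw [finsum_curry]
  · rw [← finsum_sum_comm Finset.univ _ fun c _ => hs c]
    refine finsum_congr fun w => ?_
    rw [finsum_eq_sum_of_fintype]
  · have h1 : ∀ c : GQ ⧸ H, ((support fun w => g w ((c.out : GQ) a)) ×ˢ
        ({c} : Set (GQ ⧸ H))).Finite := fun c => (hs c).prod (Set.finite_singleton c)
    refine (Set.finite_iUnion h1).subset ?_
    rintro ⟨w, c⟩ h
    exact Set.mem_iUnion.2 ⟨c, ⟨h, rfl⟩⟩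

theorem pf_vH {a : Qb} (ha : a ≠ 0) (hH : ∀ σ ∈ H, σ a = a) :
    ∑ᶠ i, Real.log (vH H i a) = 0 := by
  have ha' : ∀ c : GQ ⧸ H, (c.out : GQ) a ≠ 0 := fun c => by simpa using ha
  have h1 := sum_vH H (fun w b => Real.log (absQ w b)) a fun c => fs_log (ha' c)
  have h2 : ∑ᶠ i, Real.log (vH H i a) =
      ∑ᶠ i : PlQ × (GQ ⧸ H), Real.log (absQ i.1 ((i.2.out : GQ) a)) := rfl
  rw [h2, h1]
  obtain ⟨q, hq⟩ := prod_rat H hH
  have h3 : ∀ s : Finset (GQ ⧸ H), ∑ c ∈ s, ∑ᶠ w, Real.log (absQ w ((c.out : GQ) a)) =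
      lsum (∏ c ∈ s, (c.out : GQ) a) := by
    classical
    intro s
    induction s using Finset.induction_on with
    | empty => rw [Finset.sum_empty, Finset.prod_empty, lsum_one]
    | insert c s hc ih =>
      rw [Finset.sum_insert hc, Finset.prod_insert hc, ih,
        lsum_mul (ha' c) (Finset.prod_ne_zero_iff.2 fun c _ => ha' c)]
      rfl
  rw [h3, ← hq]
  apply lsum_rat
  rintro rfl
  rw [map_zero] at hq
  exact Finset.prod_ne_zero_iff.2 (fun c _ => ha' c) hq.symm

/-- Northcott's property for elements. -/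
theorem northcott_elt (B : ℝ) :
    {a : Qb | (∀ σ ∈ H, σ a = a) ∧ ∑ᶠ i, Real.log (max 1 (vH H i a)) ≤ B}.Finite := by
  classical
  set m := Fintype.card (GQ ⧸ H) with hm
  set U : Set Qb := algebraMap ℚ Qb '' {q | hQ (algebraMap ℚ Qb q) ≤ m * Real.log 2 + B} with hU
  have hUf : U.Finite := (finite_hQ _).image _
  refine (Polynomial.bUnion_roots_finite (RingHom.id Qb) m hUf).subset ?_
  rintro a ⟨ha, hB⟩
  simp only [Set.mem_iUnion]
  refine ⟨chp H a, ⟨?_, ?_⟩, ?_⟩
  · unfold chp
    refine (natDegree_prod_le _ _).trans ?_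
    simp [hm]
  · intro j
    obtain ⟨q, hq⟩ := chp_rat H ha j
    refine ⟨q, ?_, hq⟩
    change hQ (algebraMap ℚ Qb q) ≤ _
    rw [hq]
    have hs : ∀ c : GQ ⧸ H, (support fun w =>
      (fun w b => Real.log (max 1 (absQ w b))) w ((c.out : GQ) a)).Finite := fun c => fs_logmax _
    have h1 := sum_vH H (fun w b => Real.log (max 1 (absQ w b))) a hs
    have h2 : ∑ᶠ i, Real.log (max 1 (vH H i a)) =
      ∑ᶠ i : PlQ × (GQ ⧸ H), Real.log (max 1 (absQ i.1 ((i.2.out : GQ) a))) := rfl
    rw [h2, h1, ← finsum_sum_comm Finset.univ _ fun c _ => hs c] at hB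
    have hs3 : (support fun w : PlQ => (m : ℝ) * Real.log (tw w)).Finite := by
      refine (Set.finite_singleton (none : PlQ)).subset fun w hw => ?_
      rcases w with _ | p
      · rfl
      · exfalso; apply hw
        change (m : ℝ) * Real.log 1 = 0
        rw [Real.log_one, mul_zero]
    have hs4 : (support fun w : PlQ => ∑ c : GQ ⧸ H,
        Real.log (max 1 (absQ w ((c.out : GQ) a)))).Finite := by
      refine (Set.finite_iUnion fun c => hs c).subset fun w hw => ?_
      by_contra h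
      apply hw
      refine Finset.sum_eq_zero fun c _ => ?_
      by_contra h'
      exact h (Set.mem_iUnion.2 ⟨c, h'⟩)
    have h5 : ∑ᶠ w : PlQ, (m : ℝ) * Real.log (tw w) = m * Real.log 2 := by
      rw [finsum_eq_single _ none]
      · rfl
      · rintro (_ | p) hw
        · exact absurd rfl hw
        · change (m : ℝ) * Real.log 1 = 0
          rw [Real.log_one, mul_zero]
    refine le_trans ?_ (add_le_add h5.le hB)
    rw [← finsum_add_distrib hs3 hs4]
    unfold hQ
    refine finsum_le_finsum' (fs_logmax _) ((hs3.union hs4).subset (support_add _ _)) fun w => ?_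
    have h6 := coeff_prod_le w (Finset.univ : Finset (GQ ⧸ H)) (fun c => (c.out : GQ) a) j
    have h7 : (1 : ℝ) ≤ tw w ^ (Finset.univ : Finset (GQ ⧸ H)).card *
        ∏ c : GQ ⧸ H, max 1 (absQ w ((c.out : GQ) a)) := by
      refine one_le_mul_of_one_le_of_one_le (one_le_pow₀ (tw_ge w)) ?_
      calc (1 : ℝ) = ∏ c : GQ ⧸ H, (1 : ℝ) := Finset.prod_const_one.symm
        _ ≤ _ := Finset.prod_le_prod (fun _ _ => zero_le_one) (fun c _ => le_max_left _ _)
    have h8 : Real.log (max 1 (absQ w ((chp H a).coeff j))) ≤ Real.log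
        (tw w ^ (Finset.univ : Finset (GQ ⧸ H)).card *
          ∏ c : GQ ⧸ H, max 1 (absQ w ((c.out : GQ) a))) := by
      apply Real.log_le_log (lt_of_lt_of_le one_pos (le_max_left _ _))
      exact max_le h7 h6
    refine h8.trans ?_
    rw [Real.log_mul, Real.log_pow, Real.log_prod]
    · exact le_of_eq rfl
    · intro c _
      exact (lt_of_lt_of_le one_pos (le_max_left _ _)).ne'
    · exact (pow_pos (lt_of_lt_of_le one_pos (tw_ge w)) _).ne'
    · exact (Finset.prod_pos fun c _ => lt_of_lt_of_le one_pos (le_max_left _ _)).ne'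
  · rw [Polynomial.map_id]
    simp only [Finset.mem_coe, Multiset.mem_toFinset]
    have hmon : (chp H a).Monic := monic_prod_of_monic _ _ fun c _ => monic_X_sub_C _
    rw [mem_roots hmon.ne_zero, IsRoot.def]
    unfold chp
    rw [eval_prod]
    apply Finset.prod_eq_zero (Finset.mem_univ (QuotientGroup.mk (1 : GQ) : GQ ⧸ H))
    rw [eval_sub, eval_X, eval_C, out_one H ha, sub_self]

theorem northcott_pol (n : ℕ) (B : ℝ) : {p : Polynomial Qb | p.Monic ∧ p.natDegree = n ∧
    (∀ σ ∈ H, p.map (σ : Qb →+* Qb) = p) ∧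
    ∑ᶠ i, Real.log (⨆ j : Fin (n + 1), vH H i (p.coeff j)) ≤ B}.Finite := by
  classical
  set U : Set Qb := {a : Qb | (∀ σ ∈ H, σ a = a) ∧ ∑ᶠ i, Real.log (max 1 (vH H i a)) ≤ B} with hU
  have hUf : U.Finite := northcott_elt H B
  have hpi : (Set.pi Set.univ fun _ : Fin (n + 1) => U).Finite := Set.Finite.pi fun _ => hUf
  refine (hpi.image fun c : Fin (n + 1) → Qb => ∑ j : Fin (n + 1), C (c j) * X ^ (j : ℕ)).subset ?_
  rintro p ⟨hmon, hdeg, hfix, hB⟩
  refine ⟨fun j => p.coeff j, ?_, ?_⟩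
  swap
  · conv_rhs => rw [p.as_sum_range_C_mul_X_pow, hdeg]
    exact Fin.sum_univ_eq_sum_range (fun j => C (p.coeff j) * X ^ j) (n + 1)
  intro j _
  have hfx : ∀ σ ∈ H, σ (p.coeff j) = p.coeff j := by
    intro σ hσ
    conv_rhs => rw [← hfix σ hσ]
    rw [coeff_map]
    rfl
  refine ⟨hfx, le_trans ?_ hB⟩
  have hbdd : ∀ i, BddAbove (Set.range fun j : Fin (n + 1) => vH H i (p.coeff j)) :=
    fun i => Set.finite_range _ |>.bddAbove
  have hle : ∀ i, (1 : ℝ) ≤ ⨆ j : Fin (n + 1), vH H i (p.coeff j) := by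
    intro i
    have h1 : vH H i (p.coeff (Fin.last n)) = 1 := by
      rw [Fin.val_last, ← hdeg, hmon.coeff_natDegree, map_one]
    calc (1 : ℝ) = vH H i (p.coeff (Fin.last n)) := h1.symm
      _ ≤ _ := le_ciSup (f := fun j : Fin (n + 1) => vH H i (p.coeff j)) (hbdd i) (Fin.last n)
  have hbig : ∀ b : Qb, {i | 1 < vH H i b}.Finite := by
    intro b
    rcases eq_or_ne b 0 with rfl | hb
    · refine Set.finite_empty.subset fun i hi => ?_
      simp only [map_zero] at hi
      exact absurd hi (by simp)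
    · exact (fin_vH H hb).subset fun i hi => ne_of_gt hi
  refine finsum_le_finsum' ?_ ?_ ?_
  · refine (hbig (p.coeff j)).subset fun i hi => ?_
    by_contra h
    simp only [Set.mem_setOf_eq, not_lt] at h
    exact hi (by simp only [max_eq_left h, Real.log_one])
  · refine (Set.finite_iUnion fun j : Fin (n + 1) => hbig (p.coeff j)).subset fun i hi => ?_
    by_contra h
    simp only [Set.mem_iUnion, Set.mem_setOf_eq, not_exists, not_lt] at h
    apply hi
    have h2 : (⨆ j : Fin (n + 1), vH H i (p.coeff j)) = 1 :=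
      le_antisymm (ciSup_le h) (hle i)
    simp only [h2, Real.log_one]
  · intro i
    apply Real.log_le_log (lt_of_lt_of_le one_pos (le_max_left _ _))
    exact max_le (hle i) (le_ciSup (f := fun j : Fin (n + 1) => vH H i (p.coeff j)) (hbdd i) j)

/-- **The system of absolute values of a number field.** -/
def avh : AVH H where
  toAV := avH H
  pf := fun _ ha hH => pf_vH H ha hH
  northcott := northcott_pol H

end Fermat.Agent.MW
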