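import Mathlib
import Fermat.Agent.MW.Defs
import Fermat.Agent.MW.Inst
import Fermat.Agent.Flat.Points2

/-! # Northcott's property for divisors -/

set_option autoImplicit false
set_option linter.style.haveILetI false
set_option linter.unusedSectionVars false

noncomputable section

open Polynomial Function

namespace Fermat.Agent.MW

open AlgebraicCurve Module Fermat.Agent.Flat Fermat.Agent.FunField

/-! ## Bounds for products of linear factors -/

section Coef

variable {k : Type*} [Field k] (V : AV k)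

theorem coeff_mul_lin (i : V.ι) (a : k) (q : k[X]) {M : ℝ} (hq : ∀ j, V.v i (q.coeff j) ≤ M)
    (j : ℕ) : V.v i (((X - C a) * q).coeff j) ≤ V.two.c i * max 1 (V.v i a) * M := by
  have hM : 0 ≤ M := ((V.v i).nonneg _).trans (hq 0)
  have h1 : (1 : ℝ) ≤ max 1 (V.v i a) := le_max_left _ _
  have h2 : V.v i (-(a * q.coeff j)) ≤ max 1 (V.v i a) * M := by
    rw [AbsoluteValue.map_neg, map_mul]
    exact mul_le_mul (le_max_right _ _) (hq j) ((V.v i).nonneg _) (by linarith)
  rw [sub_mul, coeff_sub, coeff_C_mul, sub_eq_add_neg, mul_assoc]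
  refine V.add_le i _ _ ?_ h2
  rcases j with _ | j
  · rw [coeff_X_mul_zero, map_zero]
    exact mul_nonneg (by linarith) hM
  · rw [coeff_X_mul]
    exact (hq j).trans (le_mul_of_one_le_left hM h1)

theorem coeff_pow_lin (i : V.ι) (a : k) (q : k[X]) {M : ℝ} (hq : ∀ j, V.v i (q.coeff j) ≤ M)
    (n : ℕ) (j : ℕ) :
    V.v i (((X - C a) ^ n * q).coeff j) ≤ (V.two.c i * max 1 (V.v i a)) ^ n * M := by
  induction n generalizing j with
  | zero => simpa using hq j
  | succ n ih =>
    rw [pow_succ', mul_assoc, pow_succ', mul_assoc (V.two.c i * max 1 (V.v i a))]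
    exact coeff_mul_lin V i a _ ih j

theorem coeff_prod_lin (i : V.ι) {α : Type*} (s : Finset α) (f : α → k) (n : α → ℕ) (j : ℕ) :
    V.v i ((∏ a ∈ s, (X - C (f a)) ^ n a).coeff j) ≤
      ∏ a ∈ s, (V.two.c i * max 1 (V.v i (f a))) ^ n a := by
  classical
  induction s using Finset.induction_on generalizing j with
  | empty =>
    simp only [Finset.prod_empty]
    rw [coeff_one]
    split_ifs <;> simp
  | insert a s ha ih =>
    rw [Finset.prod_insert ha, Finset.prod_insert ha]
    exact coeff_pow_lin V i (f a) _ ih (n a) j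

end Coef

/-! ## Finite supports -/

theorem MC.finite_log {ι : Type} (C : MC ι) {u : ι → ℝ} (h1 : ∀ i, 1 ≤ u i) (h2 : ∀ i, u i ≤ C.c i) :
    (support fun i => Real.log (u i)).Finite := by
  refine C.fin.subset fun i hi hC => hi ?_
  have h3 : u i = 1 := le_antisymm (hC ▸ h2 i) (h1 i)
  change Real.log (u i) = 0
  rw [h3, Real.log_one]

local notation "Qb" => AlgebraicClosure ℚ
local notation "GQ" => (AlgebraicClosure ℚ ≃ₐ[ℚ] AlgebraicClosure ℚ)

variable {F : Type*} [Field F] [Algebra (AlgebraicClosure ℚ) F] {g C : ℤ}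

theorem XD.sz_ge (X : XD Qb F g C) (V : AV Qb) (i : V.ι) (Q : Place Qb F) : 1 ≤ X.sz V i Q :=
  le_max_left _ _

theorem XD.sz_bdd (X : XD Qb F g C) (V : AV Qb) (Q : Place Qb F) :
    ∃ C : MC V.ι, ∀ i, X.sz V i Q ≤ C.c i := by
  obtain ⟨D, hD⟩ := V.exists_bound (evp Q X.x)
  exact ⟨D, fun i => max_le (D.one_le i) (hD i)⟩

theorem XD.sz_fin (X : XD Qb F g C) (V : AV Qb) (Q : Place Qb F) :
    (support fun i => Real.log (X.sz V i Q)).Finite := by
  obtain ⟨D, hD⟩ := X.sz_bdd V Q
  exact D.finite_log (X.sz_ge V · Q) hD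

/-- The polynomial attached to a divisor. -/
def XD.pol (X : XD Qb F g C) (D : Divisor Qb F) : Qb[X] :=
  ∏ P ∈ D.support, (Polynomial.X - Polynomial.C (evp P X.x)) ^ (D P).toNat

theorem XD.pol_monic (X : XD Qb F g C) (D : Divisor Qb F) : (X.pol D).Monic :=
  monic_prod_of_monic _ _ fun _ _ => (monic_X_sub_C _).pow _

theorem XD.pol_natDegree (X : XD Qb F g C) {D : Divisor Qb F} (hD : 0 ≤ D) {n : ℕ}
    (hn : dg D = n) : (X.pol D).natDegree = n := by
  rw [XD.pol, natDegree_prod_of_monic _ _ fun P _ => (monic_X_sub_C _).pow _]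
  have h1 : ∀ P ∈ D.support, ((Polynomial.X - Polynomial.C (evp P X.x)) ^ (D P).toNat).natDegree =
      (D P).toNat := fun P _ => by rw [natDegree_pow, natDegree_X_sub_C, mul_one]
  rw [Finset.sum_congr rfl h1]
  have h2 : ((∑ P ∈ D.support, (D P).toNat : ℕ) : ℤ) = n := by
    rw [← hn, dg_apply]
    push_cast
    exact Finset.sum_congr rfl fun P _ => Int.toNat_of_nonneg (hD P)
  exact_mod_cast h2

theorem XD.pol_map (X : XD Qb F g C) (γ : GQ →* SemilinearAut Qb F) (H : Subgroup GQ)
    (hbase : ∀ σ a, SemilinearAut.baseAut (γ σ) a = σ a) (hx : ∀ σ ∈ H, γ σ • X.x = X.x)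
    {D : Divisor Qb F} (hD : ∀ σ ∈ H, γ σ • D = D) (hinf : D X.inf = 0) (σ : GQ) (hσ : σ ∈ H) :
    (X.pol D).map (σ : Qb →+* Qb) = X.pol D := by
  classical
  have hev : ∀ P ∈ D.support, σ (evp P X.x) = evp (γ σ • P) X.x := by
    intro P hP
    have h1 : P ≠ X.inf := by
      rintro rfl
      exact Finsupp.mem_support_iff.mp hP hinf
    have h2 := rational_smul (γ σ) (X.crv.rat P) (mem_of_ord_nonneg P (X.ord_nonneg P h1))
    rw [hx σ hσ, hbase] at h2
    exact h2.symm
  have hDP : ∀ P, D (γ σ • P) = D P := by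
    intro P
    conv_lhs => rw [← hD σ hσ]
    exact SemilinearAut.divisor_smul_apply_smul _ _ _
  rw [XD.pol, Polynomial.map_prod]
  refine Finset.prod_bij (fun P _ => γ σ • P) (fun P hP => ?_) (fun P _ Q _ h => ?_)
    (fun P hP => ?_) (fun P hP => ?_)
  · rw [Finsupp.mem_support_iff, hDP]
    exact Finsupp.mem_support_iff.mp hP
  · exact MulAction.injective (γ σ) h
  · refine ⟨(γ σ)⁻¹ • P, ?_, smul_inv_smul _ _⟩
    rw [Finsupp.mem_support_iff, ← hDP, smul_inv_smul]
    exact Finsupp.mem_support_iff.mp hP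
  · rw [Polynomial.map_pow, Polynomial.map_sub, map_X, map_C, hDP, ← hev P hP]
    rfl

/-- The height of a divisor. -/
def hX (X : XD Qb F g C) (V : AV Qb) (D : Divisor Qb F) : ℝ :=
  ∑ᶠ i, D.sum fun P m => (m : ℝ) * Real.log (X.sz V i P)

theorem XD.hX_fin (X : XD Qb F g C) (V : AV Qb) (D : Divisor Qb F) :
    (support fun i => D.sum fun P m => (m : ℝ) * Real.log (X.sz V i P)).Finite := by
  classical
  refine (D.support.finite_toSet.biUnion fun P _ => X.sz_fin V P).subset fun i hi => ?_
  by_contra h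
  apply hi
  simp only [Set.mem_iUnion, not_exists] at h
  refine Finset.sum_eq_zero fun P hP => ?_
  have h1 := h P hP
  rw [notMem_support] at h1
  simp only at h1 ⊢
  rw [h1, mul_zero]

theorem XD.hX_nonneg (X : XD Qb F g C) (V : AV Qb) {D : Divisor Qb F} (hD : 0 ≤ D) :
    0 ≤ hX X V D := by
  refine finsum_nonneg fun i => Finset.sum_nonneg fun P _ => mul_nonneg ?_ ?_
  · exact_mod_cast hD P
  · exact Real.log_nonneg (X.sz_ge V i P)

/-- The height of the polynomial is bounded by the height of the divisor. -/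
theorem XD.pol_height (X : XD Qb F g C) (V : AV Qb) {D : Divisor Qb F} (hD : 0 ≤ D) {n : ℕ}
    (hn : dg D = n) :
    ∑ᶠ i, Real.log (⨆ j : Fin (n + 1), V.v i ((X.pol D).coeff j)) ≤
      (∑ᶠ i, (n : ℝ) * Real.log (V.two.c i)) + hX X V D := by
  classical
  have hdeg := X.pol_natDegree hD hn
  have hmon := X.pol_monic D
  have hone : ∀ i, 1 ≤ ⨆ j : Fin (n + 1), V.v i ((X.pol D).coeff j) := by
    intro i
    have h1 := le_ciSup (f := fun j : Fin (n + 1) => V.v i ((X.pol D).coeff j))
      (Set.finite_range _).bddAbove (Fin.last n)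
    refine le_trans ?_ h1
    simp only [Fin.val_last]
    rw [← hdeg, hmon.coeff_natDegree, map_one]
  have hle : ∀ i, (⨆ j : Fin (n + 1), V.v i ((X.pol D).coeff j)) ≤
      ∏ P ∈ D.support, (V.two.c i * X.sz V i P) ^ (D P).toNat := fun i =>
    ciSup_le fun j => coeff_prod_lin V i D.support (fun P => evp P X.x) (fun P => (D P).toNat) j
  have hlog : ∀ i, Real.log (∏ P ∈ D.support, (V.two.c i * X.sz V i P) ^ (D P).toNat) =
      (n : ℝ) * Real.log (V.two.c i) + D.sum fun P m => (m : ℝ) * Real.log (X.sz V i P) := by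
    intro i
    have hpos : ∀ P, (0 : ℝ) < V.two.c i * X.sz V i P := fun P =>
      mul_pos (V.two.pos i) (zero_lt_one.trans_le (X.sz_ge V i P))
    rw [Real.log_prod (fun P _ => (pow_pos (hpos P) _).ne')]
    have h1 : ∀ P ∈ D.support, Real.log ((V.two.c i * X.sz V i P) ^ (D P).toNat) =
        ((D P : ℤ) : ℝ) * Real.log (V.two.c i) + ((D P : ℤ) : ℝ) * Real.log (X.sz V i P) := by
      intro P _
      rw [Real.log_pow, Real.log_mul (V.two.pos i).ne'
        (zero_lt_one.trans_le (X.sz_ge V i P)).ne']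
      have h2 : (((D P).toNat : ℕ) : ℝ) = ((D P : ℤ) : ℝ) := by
        have := Int.toNat_of_nonneg (hD P)
        exact_mod_cast congrArg (fun z : ℤ => (z : ℝ)) this
      rw [h2]
      ring
    rw [Finset.sum_congr rfl h1, Finset.sum_add_distrib, ← Finset.sum_mul]
    congr 1
    have h2 : ((∑ P ∈ D.support, D P : ℤ) : ℝ) = n := by
      rw [← dg_apply, hn]
      simp
    rw [← h2]
    push_cast
    rfl
  have hf1 : (support fun i => (n : ℝ) * Real.log (V.two.c i)).Finite := by
    refine V.two.fin.subset fun i hi h => hi ?_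
    simp only [h, Real.log_one, mul_zero]
  have hf2 := X.hX_fin V D
  rw [hX, ← finsum_add_distrib hf1 hf2]
  refine finsum_le_finsum' ?_ ((hf1.union hf2).subset (support_add _ _)) fun i => ?_
  · refine (hf1.union hf2).subset fun i hi => ?_
    by_contra hcon
    simp only [Set.mem_union, not_or, notMem_support] at hcon
    apply hi
    have h1 := Real.log_le_log (zero_lt_one.trans_le (hone i)) (hle i)
    rw [hlog, hcon.1, hcon.2, add_zero] at h1
    exact le_antisymm h1 (Real.log_nonneg (hone i))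
  · rw [← hlog]
    exact Real.log_le_log (zero_lt_one.trans_le (hone i)) (hle i)

/-- The places at which a monic polynomial in `x` vanishes. -/
theorem XD.finite_zeros (X : XD Qb F g C) (p : Qb[X]) (hp : p ≠ 0) :
    {P : Place Qb F | P ≠ X.inf ∧ p.eval (evp P X.x) = 0}.Finite := by
  classical
  have h1 : ∀ c : Qb, {P : Place Qb F | P ≠ X.inf ∧ evp P X.x = c}.Finite := by
    intro c
    have hne : X.x - algebraMap Qb F c ≠ 0 := by
      intro h
      have h2 := X.ord_inf
      rw [sub_eq_zero.mp h, ord_algebraMap] at h2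
      have := X.n0_pos
      omega
    have hfin : {v : Place Qb F | v.ord (X.x - algebraMap Qb F c) ≠ 0}.Finite := X.crv.fin _
    refine hfin.subset fun P hP => ?_
    have hmem := mem_of_ord_nonneg P (X.ord_nonneg P hP.1)
    have h2 := evp_spec (X.crv.rat P) hmem
    rw [hP.2, adicValuation_lt_one_iff] at h2
    rcases h2 with h2 | h2
    · exact absurd h2 hne
    · exact ne_of_gt h2
  refine ((p.roots.toFinset.finite_toSet).biUnion fun c _ => h1 c).subset fun P hP => ?_
  simp only [Set.mem_iUnion]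
  refine ⟨evp P X.x, ?_, hP.1, rfl⟩
  simp only [Finset.mem_coe, Multiset.mem_toFinset]
  exact (mem_roots hp).mpr hP.2

/-- **Northcott's property for divisors.** -/
theorem XD.northcott (X : XD Qb F g C) (γ : GQ →* SemilinearAut Qb F) (H : Subgroup GQ)
    (hbase : ∀ σ a, SemilinearAut.baseAut (γ σ) a = σ a) (hx : ∀ σ ∈ H, γ σ • X.x = X.x)
    (V : AVH H) (n : ℕ) (b : ℝ) :
    {D : Divisor Qb F | 0 ≤ D ∧ (∀ σ ∈ H, γ σ • D = D) ∧ dg D = n ∧ D X.inf = 0 ∧
      hX X V.toAV D ≤ b}.Finite := by
  classical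
  set B : ℝ := (∑ᶠ i, (n : ℝ) * Real.log (V.toAV.two.c i)) + b with hB
  have h1 := V.northcott n B
  have h2 : ∀ p : Qb[X], p.Monic → {D : Divisor Qb F | 0 ≤ D ∧ dg D = n ∧ D X.inf = 0 ∧
      X.pol D = p}.Finite := by
    intro p hp
    have hfin := X.finite_zeros p hp.ne_zero
    refine (Set.finite_Icc (0 : Divisor Qb F)
      (∑ P ∈ hfin.toFinset, Finsupp.single P (n : ℤ))).subset ?_
    rintro D ⟨hD0, hDn, hDinf, hDp⟩
    refine ⟨hD0, fun P => ?_⟩
    rw [Finsupp.finset_sum_apply]
    by_cases hP : P ∈ hfin.toFinset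
    · rw [Finset.sum_eq_single P]
      · rw [Finsupp.single_eq_same, ← hDn]
        by_cases hPs : P ∈ D.support
        · rw [dg_apply]
          exact Finset.single_le_sum (f := fun P => D P) (fun Q _ => hD0 Q) hPs
        · rw [Finsupp.notMem_support_iff.mp hPs]
          exact dg_nonneg hD0
      · intro Q _ hQ
        exact Finsupp.single_eq_of_ne hQ.symm
      · exact fun h => absurd hP h
    · have h3 : D P = 0 := by
        by_contra hne
        apply hP
        rw [Set.Finite.mem_toFinset]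
        refine ⟨?_, ?_⟩
        · rintro rfl
          exact hne hDinf
        · rw [← hDp, XD.pol, eval_prod]
          refine Finset.prod_eq_zero (Finsupp.mem_support_iff.mpr hne) ?_
          rw [eval_pow, eval_sub, eval_X, eval_C, sub_self]
          refine zero_pow ?_
          have := hD0 P
          rw [Finsupp.zero_apply] at this
          omega
      rw [h3]
      refine Finset.sum_nonneg fun Q _ => ?_
      rw [Finsupp.single_apply]
      split_ifs <;> positivity
  refine (h1.biUnion fun p hp => h2 p hp.1).subset ?_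
  rintro D ⟨hD0, hDs, hDn, hDinf, hDb⟩
  simp only [Set.mem_iUnion]
  refine ⟨X.pol D, ⟨X.pol_monic D, X.pol_natDegree hD0 hDn,
    X.pol_map γ H hbase hx hDs hDinf, ?_⟩, hD0, hDn, hDinf, rfl⟩
  have h3 := X.pol_height V.toAV hD0 hDn
  exact h3.trans (by rw [hB]; exact add_le_add_right hDb _)

end Fermat.Agent.MW
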