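import Mathlib
import Fermat.Agent.MW.Desc

/-!
Moving lemma over the fixed field of `H`.
-/

set_option autoImplicit false
set_option linter.unusedSectionVars false

noncomputable section

namespace Fermat.Agent.MW

open AlgebraicCurve Module Fermat.Agent.Flat Fermat.Agent.FunField

local notation "Qb" => AlgebraicClosure ℚ
local notation "GQ" => (AlgebraicClosure ℚ ≃ₐ[ℚ] AlgebraicClosure ℚ)

variable {F : Type*} [Field F] [Algebra Qb F] {g C : ℤ}

section Cl

variable (X : XD Qb F g C)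

/-- The class of `D - deg D · ∞`. -/
def XD.cl : Divisor Qb F →+ Pic0 Qb F where
  toFun D := Pic0.mk ⟨D - Finsupp.single X.inf (dg D), by
    rw [Divisor.mem_degZero, degree_eq_dg X.sep, map_sub, dg_single, sub_self]⟩
  map_zero' := by
    have h1 : (⟨(0 : Divisor Qb F) - Finsupp.single X.inf (dg (0 : Divisor Qb F)), by
      rw [Divisor.mem_degZero, degree_eq_dg X.sep, map_sub, dg_single, sub_self]⟩ :
        Divisor.degZero (K := Qb) (F := F)) = 0 := by
      apply Subtype.ext
      simp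
    rw [h1]
    rfl
  map_add' D E := by
    rw [← Pic0.mk_add]
    congr 1
    apply Subtype.ext
    change D + E - Finsupp.single X.inf (dg (D + E)) =
      (D - Finsupp.single X.inf (dg D)) + (E - Finsupp.single X.inf (dg E))
    rw [map_add, Finsupp.single_add]
    abel

theorem XD.cl_eq_mk {D : Divisor Qb F} {D0 : Divisor.degZero (K := Qb) (F := F)} {f : F}
    (hf : f ≠ 0)
    (h : D - Finsupp.single X.inf (dg D) = (D0 : Divisor Qb F) + dv (K := Qb) f) :
    X.cl D = Pic0.mk D0 := by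
  change Pic0.mk _ = Pic0.mk D0
  unfold Pic0.mk
  rw [QuotientAddGroup.eq_iff_sub_mem, AddSubgroup.mem_addSubgroupOf]
  refine ⟨f, hf, fun v => ?_⟩
  change (D - Finsupp.single X.inf (dg D) - (D0 : Divisor Qb F)) v = _
  rw [h, add_sub_cancel_left, dv_apply (X.crv.fin f)]

theorem XD.cl_eq_zero {D : Divisor Qb F} (h : X.cl D = 0) :
    ∃ f : F, f ≠ 0 ∧ D - Finsupp.single X.inf (dg D) = dv f := by
  change Pic0.mk _ = 0 at h
  unfold Pic0.mk at h
  rw [QuotientAddGroup.eq_zero_iff, AddSubgroup.mem_addSubgroupOf] at h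
  obtain ⟨f, hf, h⟩ := h
  refine ⟨f, hf, Finsupp.ext fun v => ?_⟩
  rw [dv_apply (X.crv.fin f)]
  exact h v

include X in
theorem smul_dv (s : SemilinearAut Qb F) (f : F) : s • dv (K := Qb) f = dv (s • f) := by
  ext v
  rw [SemilinearAut.divisor_smul_apply, dv_apply (X.crv.fin f), dv_apply (X.crv.fin _)]
  have := SemilinearAut.ord_smul s (s⁻¹ • v) f
  rw [smul_inv_smul] at this
  exact this.symm

include X in
theorem dg_smul (s : SemilinearAut Qb F) (D : Divisor Qb F) : dg (s • D) = dg D := by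
  rw [← degree_eq_dg X.sep, ← degree_eq_dg X.sep, SemilinearAut.degree_smul]

theorem smul_mem_rr {s : SemilinearAut Qb F} {W : Divisor Qb F} (hW : s • W = W) {f : F}
    (hf : f ∈ riemannRochSpace W) : s • f ∈ riemannRochSpace W := by
  rw [mem_L] at hf ⊢
  intro v
  rcases hf (s⁻¹ • v) with h | h
  · left; rw [h, smul_zero]
  · right
    have h1 := SemilinearAut.ord_smul s (s⁻¹ • v) f
    rw [smul_inv_smul] at h1
    rw [h1]
    have h2 := SemilinearAut.divisor_smul_apply s W v
    rw [hW] at h2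
    rw [h2]
    exact h

include X in
theorem dg_nonneg_of_memX {D : Divisor Qb F} {f : F} (hf0 : f ≠ 0) (hf : f ∈ riemannRochSpace D) :
    0 ≤ dg D := by
  have h1 : 0 ≤ dv (K := Qb) f + D := by
    intro v
    rw [Finsupp.add_apply, dv_apply (X.crv.fin f)]
    have := (mem_L' hf0).1 hf v
    rw [Finsupp.zero_apply]
    linarith
  have h2 := dg_nonneg h1
  rwa [map_add, X.crv.deg0 f hf0, zero_add] at h2

end Cl

variable {X : XD Qb F g C} {γ : GQ →* SemilinearAut Qb F} {H : Subgroup GQ}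

theorem GalX.smul_inf (hG : GalX X γ H) {σ : GQ} (hσ : σ ∈ H) : γ σ • X.inf = X.inf := by
  by_contra h
  have h1 := X.ord_nonneg _ h
  have h2 := SemilinearAut.ord_smul (γ σ) X.inf X.x
  rw [hG.fx σ hσ] at h2
  rw [h2, X.ord_inf] at h1
  have := X.n0_pos
  omega

theorem GalX.smul_cl (hG : GalX X γ H) {σ : GQ} (hσ : σ ∈ H) (D : Divisor Qb F) :
    γ σ • X.cl D = X.cl (γ σ • D) := by
  change γ σ • Pic0.mk _ = Pic0.mk _
  rw [SemilinearAut.pic0_smul_mk]
  congr 1
  apply Subtype.ext
  rw [SemilinearAut.coe_degZeroSMulHom]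
  change γ σ • (D - Finsupp.single X.inf (dg D)) =
    γ σ • D - Finsupp.single X.inf (dg (γ σ • D))
  rw [smul_sub, SemilinearAut.smul_single, hG.smul_inf hσ, dg_smul X]

/-- Fixed sections with prescribed behaviour at finitely many places. -/
theorem GalX.exists_move (hG : GalX X γ H) (W : Divisor Qb F) (hW : ∀ σ ∈ H, γ σ • W = W)
    (hdeg : C + 1 ≤ dg W) (S : Finset (Place Qb F)) :
    ∃ f : F, f ≠ 0 ∧ (∀ σ ∈ H, γ σ • f = f) ∧ 0 ≤ dv (K := Qb) f + W ∧
      ∀ P ∈ S, (dv (K := Qb) f + W) P = 0 := by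
  classical
  let S' : Finset (Place Qb F) := insert X.inf S
  obtain ⟨f, hf, hfix, hav⟩ := hG.exists_avoid (riemannRochSpace W)
    (fun σ hσ f hf => smul_mem_rr (hW σ hσ) hf)
    (fun P : S' => riemannRochSpace (W - Finsupp.single (P : Place Qb F) 1)) (by
      intro P hle
      have h1 := X.crv.rr W (by omega)
      have h2 := X.crv.rr (W - Finsupp.single (P : Place Qb F) 1) (by
        rw [map_sub, dg_single]; omega)
      have := X.crv.fd (W - Finsupp.single (P : Place Qb F) 1)
      have h3 := Submodule.finrank_mono hle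
      rw [map_sub, dg_single] at h2
      omega)
  have hf0 : f ≠ 0 := by
    rintro rfl
    exact hav ⟨X.inf, Finset.mem_insert_self _ _⟩ (Submodule.zero_mem _)
  have hf' := (mem_L' hf0).1 hf
  refine ⟨f, hf0, hfix, ?_, ?_⟩
  · intro v
    rw [Finsupp.add_apply, dv_apply (X.crv.fin f), Finsupp.zero_apply]
    linarith [hf' v]
  · intro P hP
    rw [Finsupp.add_apply, dv_apply (X.crv.fin f)]
    have h1 := hav ⟨P, Finset.mem_insert_of_mem hP⟩
    rw [mem_L' hf0] at h1
    push Not at h1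
    obtain ⟨v, hv⟩ := h1
    rw [Finsupp.sub_apply] at hv
    by_cases hvP : v = P
    · subst hvP
      rw [Finsupp.single_eq_same] at hv
      have := hf' v
      omega
    · rw [Finsupp.single_eq_of_ne hvP] at hv
      have := hf' v
      omega

/-- Fixed classes are represented by stable divisors. -/
theorem GalX.exists_stable (hG : GalX X γ H) {D0 : Divisor Qb F} (hdg : dg D0 = 0)
    (hfix : ∀ σ ∈ H, ∃ h : F, h ≠ 0 ∧ γ σ • D0 = D0 + dv (K := Qb) h) :
    ∃ f : F, f ≠ 0 ∧ ∀ σ ∈ H, γ σ • (D0 + dv (K := Qb) f) = D0 + dv (K := Qb) f := by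
  classical
  have hex : ∃ n : ℕ, riemannRochSpace (D0 + Finsupp.single X.inf (n : ℤ)) ≠ ⊥ := by
    refine ⟨g.toNat, fun hbot => ?_⟩
    have h1 := X.crv.lb (D0 + Finsupp.single X.inf (g.toNat : ℤ))
    rw [hbot, finrank_bot, map_add, hdg, dg_single] at h1
    have := Int.self_le_toNat g
    push_cast at h1
    omega
  set n := Nat.find hex with hn
  have hne := Nat.find_spec hex
  rw [← hn] at hne
  have hsmall : riemannRochSpace (D0 + Finsupp.single X.inf ((n : ℤ) - 1)) = ⊥ := by
    rcases Nat.eq_zero_or_pos n with h0 | h0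
    · rw [Submodule.eq_bot_iff]
      intro f hf
      by_contra hf0
      have h1 := dg_nonneg_of_memX X hf0 hf
      rw [map_add, hdg, dg_single, h0] at h1
      simp at h1
    · have h1 := Nat.find_min hex (m := n - 1) (by omega)
      rw [not_not] at h1
      have h2 : ((n - 1 : ℕ) : ℤ) = (n : ℤ) - 1 := by omega
      rw [h2] at h1
      exact h1
  obtain ⟨f, hf, hf0⟩ := (Submodule.ne_bot_iff _).1 hne
  -- order at infinity
  have hord : ∀ u : F, u ≠ 0 → u ∈ riemannRochSpace (D0 + Finsupp.single X.inf (n : ℤ)) →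
      X.inf.ord u = -(D0 X.inf + n) := by
    intro u hu0 hu
    have h1 := (mem_L' hu0).1 hu
    have h2 : u ∉ riemannRochSpace (D0 + Finsupp.single X.inf ((n : ℤ) - 1)) := by
      rw [hsmall, Submodule.mem_bot]; exact hu0
    rw [mem_L' hu0] at h2
    push Not at h2
    obtain ⟨v, hv⟩ := h2
    have h3 := h1 v
    rw [Finsupp.add_apply] at hv h3
    by_cases hvi : v = X.inf
    · subst hvi
      rw [Finsupp.single_eq_same] at hv h3
      omega
    · rw [Finsupp.single_eq_of_ne hvi] at hv h3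
      omega
  have hone : ∀ u : F, u ∈ riemannRochSpace (D0 + Finsupp.single X.inf (n : ℤ)) →
      ∃ c : Qb, u = c • f := by
    intro u hu
    rcases eq_or_ne u 0 with rfl | hu0
    · exact ⟨0, by rw [zero_smul]⟩
    have h0 : X.inf.ord (u * f⁻¹) = 0 := by
      rw [X.inf.ord_mul hu0 (inv_ne_zero hf0), X.inf.ord_inv, hord u hu0 hu, hord f hf0 hf]
      ring
    have hmem : u * f⁻¹ ∈ X.inf.toValuationSubring := mem_of_ord_nonneg _ h0.ge
    have hsp := evp_spec (X.crv.rat X.inf) hmem
    set c := evp X.inf (u * f⁻¹) with hc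
    refine ⟨c, ?_⟩
    have hmem2 : u - c • f ∈ riemannRochSpace (D0 + Finsupp.single X.inf ((n : ℤ) - 1)) := by
      rcases eq_or_ne (u - c • f) 0 with hz | hz
      · rw [hz]; exact Submodule.zero_mem _
      have hm3 : u - c • f ∈ riemannRochSpace (D0 + Finsupp.single X.inf (n : ℤ)) :=
        Submodule.sub_mem _ hu (Submodule.smul_mem _ _ hf)
      have h4 := (mem_L' hz).1 hm3
      rw [mem_L' hz]
      intro v
      have h5 := h4 v
      rw [Finsupp.add_apply] at h5 ⊢
      by_cases hvi : v = X.inf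
      · subst hvi
        rw [Finsupp.single_eq_same] at h5 ⊢
        have h6 : u - c • f = (u * f⁻¹ - algebraMap Qb F c) * f := by
          rw [Algebra.smul_def, sub_mul, mul_assoc, inv_mul_cancel₀ hf0, mul_one]
        have h7 : u * f⁻¹ - algebraMap Qb F c ≠ 0 := by
          intro h8
          rw [h6, h8, zero_mul] at hz
          exact hz rfl
        have h9 : 0 < X.inf.ord (u * f⁻¹ - algebraMap Qb F c) :=
          (((adicValuation_lt_one_iff _).1 hsp)).resolve_left h7
        rw [h6, X.inf.ord_mul h7 hf0, hord f hf0 hf]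
        omega
      · rw [Finsupp.single_eq_of_ne hvi] at h5 ⊢
        exact h5
    rw [hsmall, Submodule.mem_bot] at hmem2
    exact sub_eq_zero.1 hmem2
  refine ⟨f, hf0, fun σ hσ => ?_⟩
  obtain ⟨h, hh0, hh⟩ := hfix σ hσ
  have hsf0 : γ σ • f ≠ 0 := by
    intro h1
    apply hf0
    have h2 := congrArg (fun y => (γ σ)⁻¹ • y) h1
    simpa only [inv_smul_smul, smul_zero] using h2
  have hu0 : h * (γ σ • f) ≠ 0 := mul_ne_zero hh0 hsf0
  have hdvu : dv (K := Qb) (h * (γ σ • f)) = dv h + γ σ • dv f := by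
    rw [smul_dv X]
    ext v
    rw [Finsupp.add_apply, dv_apply (X.crv.fin _), dv_apply (X.crv.fin _),
      dv_apply (X.crv.fin _), v.ord_mul hh0 hsf0]
  have hum : h * (γ σ • f) ∈ riemannRochSpace (D0 + Finsupp.single X.inf (n : ℤ)) := by
    rw [mem_L' hu0]
    intro v
    have h1 := (mem_L' hf0).1 hf ((γ σ)⁻¹ • v)
    have h2 : (γ σ • (D0 + Finsupp.single X.inf (n : ℤ))) v =
        (D0 + Finsupp.single X.inf (n : ℤ)) ((γ σ)⁻¹ • v) :=
      SemilinearAut.divisor_smul_apply _ _ _
    rw [smul_add, SemilinearAut.smul_single, hG.smul_inf hσ, hh] at h2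
    have h3 : v.ord (γ σ • f) = ((γ σ)⁻¹ • v).ord f := by
      have := SemilinearAut.ord_smul (γ σ) ((γ σ)⁻¹ • v) f
      rwa [smul_inv_smul] at this
    rw [v.ord_mul hh0 hsf0, h3]
    simp only [Finsupp.add_apply] at h1 h2 ⊢
    rw [dv_apply (X.crv.fin _)] at h2
    linarith
  obtain ⟨c, hc⟩ := hone _ hum
  have hc0 : c ≠ 0 := by
    rintro rfl
    rw [zero_smul] at hc
    exact hu0 hc
  rw [smul_add, hh, add_assoc, ← hdvu, hc]
  congr 1
  ext v
  rw [dv_apply (X.crv.fin _), dv_apply (X.crv.fin _), Algebra.smul_def,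
    v.ord_mul (by simpa using hc0) hf0, ord_algebraMap, zero_add]

/-- **Moving lemma**: fixed classes have stable effective representatives away from any finite
set. -/
theorem GalX.exists_rep (hG : GalX X γ H) {z : Pic0 Qb F} (hz : ∀ σ ∈ H, γ σ • z = z) (d : ℤ)
    (hd : C + 1 ≤ d) (S : Finset (Place Qb F)) :
    ∃ E : Divisor Qb F, 0 ≤ E ∧ (∀ σ ∈ H, γ σ • E = E) ∧ dg E = d ∧ E X.inf = 0 ∧
      (∀ P ∈ S, E P = 0) ∧ X.cl E = z := by
  classical
  obtain ⟨⟨D0, hD0⟩, rfl⟩ := Pic0.mk_surjective z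
  have hdg : dg D0 = 0 := by
    rw [← degree_eq_dg X.sep]; exact hD0
  obtain ⟨f, hf0, hf⟩ := hG.exists_stable hdg (by
    intro σ hσ
    have h1 := hz σ hσ
    rw [SemilinearAut.pic0_smul_mk] at h1
    unfold Pic0.mk at h1
    rw [QuotientAddGroup.eq_iff_sub_mem, AddSubgroup.mem_addSubgroupOf] at h1
    obtain ⟨h, hh0, hh⟩ := h1
    refine ⟨h, hh0, Finsupp.ext fun v => ?_⟩
    rw [Finsupp.add_apply, dv_apply (X.crv.fin _), ← hh v]
    change (γ σ • D0) v = D0 v + (γ σ • D0 - D0) v
    rw [Finsupp.sub_apply]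
    ring)
  obtain ⟨f', hf'0, hf'fix, hpos, havoid⟩ := hG.exists_move
    (D0 + dv f + Finsupp.single X.inf d) (by
      intro σ hσ
      rw [smul_add, hf σ hσ, SemilinearAut.smul_single, hG.smul_inf hσ])
    (by rw [map_add, map_add, hdg, X.crv.deg0 f hf0, dg_single]; omega) (insert X.inf S)
  refine ⟨dv f' + (D0 + dv f + Finsupp.single X.inf d), hpos, ?_, ?_, ?_, ?_, ?_⟩
  · intro σ hσ
    rw [smul_add, smul_dv X, hf'fix σ hσ, smul_add, hf σ hσ, SemilinearAut.smul_single,
      hG.smul_inf hσ]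
  · rw [map_add, map_add, map_add, hdg, X.crv.deg0 f hf0, X.crv.deg0 f' hf'0, dg_single]
    ring
  · exact havoid _ (Finset.mem_insert_self _ _)
  · exact fun P hP => havoid P (Finset.mem_insert_of_mem hP)
  · apply X.cl_eq_mk (f := f' * f) (mul_ne_zero hf'0 hf0)
    have h1 : dg (dv (K := Qb) f' + (D0 + dv f + Finsupp.single X.inf d)) = d := by
      rw [map_add, map_add, map_add, hdg, X.crv.deg0 f hf0, X.crv.deg0 f' hf'0, dg_single]
      ring
    rw [h1]
    change dv f' + (D0 + dv f + Finsupp.single X.inf d) - Finsupp.single X.inf d =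
      D0 + dv (f' * f)
    have h2 : dv (K := Qb) (f' * f) = dv f' + dv f := by
      ext v
      rw [Finsupp.add_apply, dv_apply (X.crv.fin _), dv_apply (X.crv.fin _),
        dv_apply (X.crv.fin _), v.ord_mul hf'0 hf0]
    rw [h2]
    abel

end Fermat.Agent.MW
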