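import Mathlib
import Fermat.Agent.MW.Move

/-!
Definitions for the quasi-bilinear pairing.
-/

set_option autoImplicit false
set_option linter.unusedSectionVars false

noncomputable section

namespace Fermat.Agent.MW

open AlgebraicCurve Module Fermat.Agent.Flat Fermat.Agent.FunField

local notation "Qb" => AlgebraicClosure ℚ
local notation "GQ" => (AlgebraicClosure ℚ ≃ₐ[ℚ] AlgebraicClosure ℚ)

section Gen

variable {k F : Type*} [Field k] [Field F] [Algebra k F] {g C : ℤ}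

/-- Disjoint supports. -/
def Disj (D E : Divisor k F) : Prop := ∀ P, D P = 0 ∨ E P = 0

/-- The height of a divisor with respect to `x`. -/
def hx (V : AV k) (X : XD k F g C) (D : Divisor k F) : ℝ :=
  ∑ᶠ i, D.sum fun P n => (n : ℝ) * Real.log (X.sz V i P)

/-- The intersection number. -/
def II {V : AV k} {X : XD k F g C} (Pk : Pkg V X) (D E : Divisor k F) : ℝ :=
  ∑ᶠ i, D.sum fun P n => E.sum fun Q m => -((n : ℝ) * (m : ℝ) * Real.log (Pk.dist i P Q))

/-- The pairing for disjoint divisors. -/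
def B0 {V : AV k} {X : XD k F g C} (Pk : Pkg V X) (D E : Divisor k F) : ℝ :=
  (dg D : ℝ) / X.n0 * hx V X E + (dg E : ℝ) / X.n0 * hx V X D - II Pk D E

end Gen

variable {F : Type*} [Field F] [Algebra Qb F] {g C : ℤ}

/-- Stable effective divisors of the affine part. -/
structure Gd (X : XD Qb F g C) (γ : GQ →* SemilinearAut Qb F) (H : Subgroup GQ)
    (D : Divisor Qb F) : Prop where
  nn : 0 ≤ D
  st : ∀ σ ∈ H, γ σ • D = D
  af : D X.inf = 0

/-- The fixed classes. -/
def JH (γ : GQ →* SemilinearAut Qb F) (H : Subgroup GQ) : AddSubgroup (Pic0 Qb F) where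
  carrier := {z | ∀ σ ∈ H, γ σ • z = z}
  zero_mem' := fun σ _ => smul_zero (A := Pic0 Qb F) (γ σ)
  add_mem' := fun ha hb σ hσ => by rw [smul_add, ha σ hσ, hb σ hσ]
  neg_mem' := fun ha σ hσ => by rw [smul_neg, ha σ hσ]

theorem Gd.mem {X : XD Qb F g C} {γ : GQ →* SemilinearAut Qb F} {H : Subgroup GQ}
    (hG : GalX X γ H) {D : Divisor Qb F} (hD : Gd X γ H D) : X.cl D ∈ JH γ H := by
  intro σ hσ
  rw [hG.smul_cl hσ, hD.st σ hσ]

/-- A quasi-bilinear symmetric pairing computed by `B0`. -/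
structure IsPair {X : XD Qb F g C} (γ : GQ →* SemilinearAut Qb F) (H : Subgroup GQ)
    {V : AV Qb} (Pk : Pkg V X) (B : JH γ H → JH γ H → ℝ) : Prop where
  add : ∃ K : ℝ, ∀ x x' y : JH γ H, |B (x + x') y - B x y - B x' y| ≤ K
  symm : ∃ K : ℝ, ∀ x y : JH γ H, |B x y - B y x| ≤ K
  disj : ∀ δ : ℕ, ∃ K : ℝ, ∀ (D E : Divisor Qb F) (x y : JH γ H), Gd X γ H D → Gd X γ H E →
    Disj D E → dg D ≤ δ → dg E ≤ δ → X.cl D = x → X.cl E = y → |B x y - B0 Pk D E| ≤ K

end Fermat.Agent.MW
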