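import Mathlib
import Fermat.Agent.MW.PairDef
import Fermat.Agent.MW.Gen
import Fermat.Agent.MW.North
import Fermat.Agent.MW.Fin1

/-! # The abstract Mordell-Weil theorem -/

set_option autoImplicit false
set_option linter.style.haveILetI false
set_option linter.unusedSectionVars false

noncomputable section

namespace Fermat.Agent.MW

open AlgebraicCurve Module Fermat.Agent.Flat Fermat.Agent.FunField
open Fermat.Agent.ER (dvs dvs_cons dvs_add dg_dvs dvs_replicate)

local notation "Qb" => AlgebraicClosure ℚ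
local notation "GQ" => (AlgebraicClosure ℚ ≃ₐ[ℚ] AlgebraicClosure ℚ)

variable {F : Type*} [Field F] [Algebra Qb F] {g C : ℤ}
variable {X : XD Qb F g C} {γ : GQ →* SemilinearAut Qb F} {H : Subgroup GQ}

/-- Sums of fixed places are stable. -/
theorem smul_dvs {s : Multiset (Place Qb F)} {σ : SemilinearAut Qb F}
    (hs : ∀ v ∈ s, σ • v = v) : σ • dvs s = dvs s := by
  induction s using Multiset.induction_on with
  | empty => exact smul_zero (A := Divisor Qb F) σ
  | cons v s ih =>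
    rw [dvs_cons, smul_add, ih fun w hw => hs w (Multiset.mem_cons_of_mem hw),
      SemilinearAut.smul_single, hs v (Multiset.mem_cons_self v s)]

/-- Principal divisors have trivial class. -/
theorem XD.cl_principal (X : XD Qb F g C) {D : Divisor Qb F} (h : Divisor.IsPrincipal D) :
    X.cl D = 0 := by
  obtain ⟨f, hf, hD⟩ := h
  have hDf : D = dv (K := Qb) f := by
    ext v
    rw [hD v, dv_apply (X.crv.fin f)]
  have hdg : dg D = 0 := by rw [hDf, X.crv.deg0 f hf]
  rw [X.cl_eq_mk (D0 := 0) hf (by rw [hdg, Finsupp.single_zero, sub_zero, hDf]; simp)]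
  rfl

theorem XD.cl_single_inf (X : XD Qb F g C) (n : ℤ) : X.cl (Finsupp.single X.inf n) = 0 := by
  rw [X.cl_eq_mk (D0 := 0) (f := 1) one_ne_zero (by
    rw [dg_single, sub_self, dv_one]; simp)]
  rfl

/-- Effective divisors without moving functions are determined by their class. -/
theorem XD.eq_of_cl (X : XD Qb F g C) {D D' : Divisor Qb F} (hD : 0 ≤ D) (hD' : 0 ≤ D')
    (hdg : dg D = dg D') (h : X.cl D = X.cl D')
    (h1 : finrank Qb (riemannRochSpace D) = 1) : D' = D := by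
  have h2 : X.cl (D' - D) = 0 := by rw [map_sub, h, sub_self]
  obtain ⟨f, hf, h3⟩ := X.cl_eq_zero h2
  rw [map_sub, hdg, sub_self, Finsupp.single_zero, sub_zero] at h3
  have h4 : f ∈ riemannRochSpace D := by
    rw [mem_L' hf]
    intro v
    have h5 := DFunLike.congr_fun h3 v
    rw [Finsupp.sub_apply, dv_apply (X.crv.fin f)] at h5
    have h6 := hD' v
    rw [Finsupp.zero_apply] at h6
    omega
  obtain ⟨a, ha⟩ := eq_const_of_ll X.crv hD (by change finrank _ _ ≤ 1; omega) h4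
  have h5 : dv (K := Qb) f = 0 := by
    ext v
    rw [dv_apply (X.crv.fin f), ← ha, ord_algebraMap, Finsupp.zero_apply]
  rw [h5] at h3
  exact sub_eq_zero.mp h3

/-- General position. -/
theorem exists_gp (hG : GalX X γ H) (R : Finset (Place Qb F))
    (hR : (exists_gen X).choose ≤ R.card) (hRH : ∀ v ∈ R, ∀ σ ∈ H, γ σ • v = v) :
    ∃ A : Set (JH γ H), A.Finite ∧ ∀ z : JH γ H, ∃ a ∈ A, ∃ D : Divisor Qb F,
      Gd X γ H D ∧ dg D = g ∧ (∀ v, D v ≤ 1) ∧ (∀ v, D v ≠ 0 → X.Unr v) ∧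
        finrank Qb (riemannRochSpace D) = 1 ∧ X.cl D = ((z + a : JH γ H) : Pic0 Qb F) := by
  classical
  obtain ⟨m, hm⟩ := (exists_gen X).choose_spec R hR
  have hfin : {s : Multiset (Place Qb F) | (∀ v ∈ s, v ∈ R) ∧ Multiset.card s = m}.Finite := by
    have h1 := (Finset.finite_toSet (R.sym m))
    refine (h1.image fun s : Sym (Place Qb F) m => (s : Multiset (Place Qb F))).subset ?_
    rintro s ⟨hs1, hs2⟩
    exact ⟨(⟨s, hs2⟩ : Sym (Place Qb F) m), Finset.mem_coe.mpr (Finset.mem_sym_iff.mpr hs1), rfl⟩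
  set A0 : Set (Pic0 Qb F) := (fun p : Multiset (Place Qb F) × Multiset (Place Qb F) =>
    X.cl (dvs p.1) - X.cl (dvs p.2)) ''
      ({s | (∀ v ∈ s, v ∈ R) ∧ Multiset.card s = m} ×ˢ
        {s | (∀ v ∈ s, v ∈ R) ∧ Multiset.card s = m}) with hA0
  have hA0f : A0.Finite := (hfin.prod hfin).image _
  refine ⟨(fun a : JH γ H => (a : Pic0 Qb F)) ⁻¹' A0,
    hA0f.preimage Subtype.val_injective.injOn, fun z => ?_⟩
  have hdgE : ∀ E0 : Divisor.degZero (K := Qb) (F := F), dg (E0 : Divisor Qb F) = 0 := by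
    intro E0
    rw [← degree_eq_dg X.sep]
    exact E0.2
  obtain ⟨E0, hE0⟩ := Pic0.mk_surjective (z : Pic0 Qb F)
  set E : Divisor Qb F := (E0 : Divisor Qb F) + Finsupp.single X.inf g with hE
  have hdE : dg E = g := by rw [hE, map_add, dg_single, hdgE, zero_add]
  have hclE : X.cl E = (z : Pic0 Qb F) := by
    rw [← hE0]
    refine X.cl_eq_mk (f := 1) one_ne_zero ?_
    rw [hdE, hE, add_sub_cancel_right, dv_one, add_zero]
  obtain ⟨s, s', hs, hs', hcs, hcs', D, hD0, hDg, hDp, hD1, hDu, hDl⟩ := hm E hdE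
  have hcl : X.cl D = (z : Pic0 Qb F) + (X.cl (dvs s) - X.cl (dvs s')) := by
    have h1 := X.cl_principal hDp
    rw [map_sub, map_sub, map_add, hclE] at h1
    rw [sub_eq_zero.mp h1 |>.symm]
    abel
  have hsH : ∀ σ ∈ H, γ σ • dvs s = dvs s := fun σ hσ => smul_dvs fun v hv => hRH v (hs v hv) σ hσ
  have hsH' : ∀ σ ∈ H, γ σ • dvs s' = dvs s' :=
    fun σ hσ => smul_dvs fun v hv => hRH v (hs' v hv) σ hσ
  have haH : X.cl (dvs s) - X.cl (dvs s') ∈ JH γ H := by
    refine AddSubgroup.sub_mem _ (fun σ hσ => ?_) (fun σ hσ => ?_)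
    · rw [hG.smul_cl hσ, hsH σ hσ]
    · rw [hG.smul_cl hσ, hsH' σ hσ]
  have hDst : ∀ σ ∈ H, γ σ • D = D := by
    intro σ hσ
    refine X.eq_of_cl hD0 ?_ (by rw [dg_smul X]) ?_ hDl
    · intro v
      rw [SemilinearAut.divisor_smul_apply]
      exact hD0 _
    · rw [← hG.smul_cl hσ, hcl]
      exact ((JH γ H).add_mem z.2 haH σ hσ).symm
  refine ⟨⟨X.cl (dvs s) - X.cl (dvs s'), haH⟩, ⟨(s, s'), ⟨⟨hs, hcs⟩, ⟨hs', hcs'⟩⟩, rfl⟩,
    D, ⟨hD0, hDst, ?_⟩, hDg, hD1, hDu, hDl, hcl⟩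
  by_contra hne
  exact (hDu _ hne).1 rfl

theorem XD.g_nonneg (X : XD Qb F g C) : 0 ≤ g := by
  have hC := X.crv
  have h1 := hC.lb 0
  have h2 : ll (0 : Divisor Qb F) ≤ 1 := by
    have h3 : riemannRochSpace (0 : Divisor Qb F) ≤ Submodule.span Qb {(1 : F)} := by
      intro z hz
      obtain ⟨a, ha⟩ := hC.const z fun v => by
        by_cases hz0 : z = 0
        · rw [hz0, v.ord_zero]
        · simpa using (mem_L' hz0).mp hz v
      rw [Submodule.mem_span_singleton]
      exact ⟨a, by rw [← ha, Algebra.algebraMap_eq_smul_one]⟩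
    refine (Submodule.finrank_mono h3).trans ?_
    exact (finrank_span_le_card _).trans (by simp)
  rw [map_zero] at h1
  change (0 : ℤ) + 1 - g ≤ ((ll (0 : Divisor Qb F) : ℕ) : ℤ) at h1
  omega

/-- The positivity statement. -/
def Posit (X : XD Qb F g C) (γ : GQ →* SemilinearAut Qb F) (H : Subgroup GQ) (V : AV Qb)
    (B : JH γ H → JH γ H → ℝ) : Prop :=
  ∃ (κ0 : JH γ H) (K : ℝ), ∀ (D : Divisor Qb F) (x : JH γ H), Gd X γ H D → dg D = g →
    (∀ v, D v ≤ 1) → (∀ v, D v ≠ 0 → X.Unr v) → finrank Qb (riemannRochSpace D) = 1 →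
    X.cl D = x → 2 / X.n0 * hx V X D + B x κ0 - K ≤ B x x

/-- **The abstract Mordell-Weil theorem.** -/
theorem mw_abs (hG : GalX X γ H) (V : AVH H) (B : JH γ H → JH γ H → ℝ)
    (hadd : ∃ K : ℝ, ∀ x x' y : JH γ H, |B (x + x') y - B x y - B x' y| ≤ K)
    (hsymm : ∃ K : ℝ, ∀ x y : JH γ H, |B x y - B y x| ≤ K)
    (hpos : Posit X γ H V.toAV B) (R : Finset (Place Qb F))
    (hR : (exists_gen X).choose ≤ R.card) (hRH : ∀ v ∈ R, ∀ σ ∈ H, γ σ • v = v)
    (h3 : (nsmulAddMonoidHom (α := JH γ H) 3).range.FiniteIndex) :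
    AddGroup.FG (JH γ H) := by
  classical
  have hg : 0 ≤ g := X.g_nonneg
  obtain ⟨A, hA, hgp⟩ := exists_gp hG R hR hRH
  obtain ⟨K1, hK1⟩ := hadd
  obtain ⟨K2, hK2⟩ := hsymm
  obtain ⟨κ0, K3, hK3⟩ := hpos
  choose a haA D hGd hDg hD1 hDu hDl hcl using hgp
  have hn0 : (0 : ℝ) < X.n0 := by exact_mod_cast X.n0_pos
  -- a bound for `B a a`, `B a κ0`
  obtain ⟨M1, hM1⟩ := (hA.image fun a => |B a a|).bddAbove
  have hM1' : ∀ a ∈ A, |B a a| ≤ M1 := fun a ha => hM1 ⟨a, ha, rfl⟩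
  obtain ⟨M2, hM2⟩ := (hA.image fun a => |B a κ0|).bddAbove
  have hM2' : ∀ a ∈ A, |B a κ0| ≤ M2 := fun a ha => hM2 ⟨a, ha, rfl⟩
  set K : ℝ := |K1| + |K2| with hK
  have hK1K : K1 ≤ K := (le_abs_self K1).trans (le_add_of_nonneg_right (abs_nonneg _))
  have hK2K : K2 ≤ K := (le_abs_self K2).trans (le_add_of_nonneg_left (abs_nonneg _))
  refine fg_of_pairing B (K + |K3| + |M1| + |M2| + 30 * K) (fun x x' y => ?_) (fun x y => ?_)
    (fun z => 2 / X.n0 * hx V.toAV X (D z)) (fun b => ?_) (fun z => ?_)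
    ((fun a => κ0 - a - a) '' A) (hA.image _) (fun z => ?_) h3
  · have h1 := hK1 x x' y
    have h2 := abs_nonneg K3
    have h4 := abs_nonneg M1
    have h5 := abs_nonneg M2
    have h6 : 0 ≤ K := add_nonneg (abs_nonneg _) (abs_nonneg _)
    linarith
  · have h1 := hK2 x y
    have h2 := abs_nonneg K3
    have h4 := abs_nonneg M1
    have h5 := abs_nonneg M2
    have h6 : 0 ≤ K := add_nonneg (abs_nonneg _) (abs_nonneg _)
    linarith
  · -- Northcott
    have h1 := X.northcott γ H hG.base hG.fx V g.toNat (b * X.n0 / 2)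
    have h2 : Set.MapsTo (fun z => (D z, a z)) {z | 2 / X.n0 * hx V.toAV X (D z) ≤ b}
        ({D : Divisor Qb F | 0 ≤ D ∧ (∀ σ ∈ H, γ σ • D = D) ∧ dg D = (g.toNat : ℕ) ∧
          D X.inf = 0 ∧ hX X V.toAV D ≤ b * X.n0 / 2} ×ˢ A) := by
      intro z hz
      refine ⟨⟨(hGd z).nn, (hGd z).st, ?_, (hGd z).af, ?_⟩, haA z⟩
      · rw [hDg z, Int.toNat_of_nonneg hg]
      · have h4 : 2 / X.n0 * hx V.toAV X (D z) ≤ b := hz
        change hx V.toAV X (D z) ≤ _
        rw [div_mul_eq_mul_div, div_le_iff₀ hn0] at h4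
        linarith
    refine Set.Finite.of_injOn h2 ?_ (h1.prod hA)
    intro z _ z' _ hzz
    simp only [Prod.mk.injEq] at hzz
    have h4 : ((z + a z : JH γ H) : Pic0 Qb F) = ((z' + a z' : JH γ H) : Pic0 Qb F) := by
      rw [← hcl z, ← hcl z', hzz.1]
    have h5 := Subtype.ext h4
    rw [hzz.2] at h5
    exact add_right_cancel h5
  · exact mul_nonneg (by positivity) (X.hX_nonneg V.toAV (hGd z).nn)
  · refine ⟨κ0 - a z - a z, ⟨a z, haA z, rfl⟩, ?_⟩
    set w := a z with hw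
    have hp := hK3 (D z) (z + w) (hGd z) (hDg z) (hD1 z) (hDu z) (hDl z) (hcl z)
    have hK0 : 0 ≤ K := add_nonneg (abs_nonneg _) (abs_nonneg _)
    -- additivity in the first variable
    have add1 : ∀ x x' y, |B (x + x') y - B x y - B x' y| ≤ K := fun x x' y =>
      (hK1 x x' y).trans hK1K
    have sym : ∀ x y, |B x y - B y x| ≤ K := fun x y => (hK2 x y).trans hK2K
    have add2 : ∀ x y y', |B x (y + y') - B x y - B x y'| ≤ 4 * K := by
      intro x y y'
      have e1 := abs_le.mp (sym x (y + y'))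
      have e2 := abs_le.mp (sym x y)
      have e3 := abs_le.mp (sym x y')
      have e4 := abs_le.mp (add1 y y' x)
      rw [abs_le]
      constructor <;> linarith [e1.1, e1.2, e2.1, e2.2, e3.1, e3.2, e4.1, e4.2]
    -- expand
    have f1 := abs_le.mp (add1 z w (z + w))
    have f2 := abs_le.mp (add2 z z w)
    have f3 := abs_le.mp (add2 w z w)
    have f4 := abs_le.mp (sym w z)
    have f5 := abs_le.mp (add1 z w κ0)
    have f6 := abs_le.mp (add2 z (κ0 - w - w) (w + w))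
    have f7 := abs_le.mp (add2 z w w)
    have f8 : κ0 - w - w + (w + w) = κ0 := by abel
    rw [f8] at f6
    have f9 := abs_le.mp (hM1' w (haA z))
    have f10 := abs_le.mp (hM2' w (haA z))
    have f11 := le_abs_self K3
    have f12 := le_abs_self M1
    have f13 := le_abs_self M2
    linarith [f1.1, f1.2, f2.1, f2.2, f3.1, f3.2, f4.1, f4.2, f5.1, f5.2, f6.1, f6.2, f7.1,
      f7.2, f9.1, f9.2, f10.1, f10.2]

end Fermat.Agent.MW
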