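import Mathlib
import Fermat.Agent.MW.Fin2
import Fermat.Agent.GCFT.Mod
import Fermat.Agent.S24
import Fermat.Agent.Flat.Gal

/-! # From the inputs to the final statement -/

set_option autoImplicit false
set_option linter.style.haveILetI false
set_option linter.unusedSectionVars false

noncomputable section

namespace Fermat.Agent.MW

open AlgebraicCurve Module Fermat.Agent.Flat Fermat.Agent.FunField
open Fermat.Agent.LG Fermat.Agent.ModFun Fermat.Agent.Geo

local notation "Qb" => AlgebraicClosure ℚ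
local notation "GQ" => (AlgebraicClosure ℚ ≃ₐ[ℚ] AlgebraicClosure ℚ)

/-- Subgroups of finitely generated abelian groups. -/
theorem fg_of_le {A : Type*} [AddCommGroup A] {S T : AddSubgroup A} (h : S ≤ T)
    (hT : AddGroup.FG T) : AddGroup.FG S := by
  have h1 : Module.Finite ℤ T := Module.Finite.iff_addGroup_fg.mpr hT
  have h2 : IsNoetherian ℤ T := isNoetherian_of_isNoetherianRing_of_finite ℤ T
  have h3 : Module.Finite ℤ S :=
    Module.Finite.of_injective (AddSubgroup.inclusion h).toIntLinearMap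
      (AddSubgroup.inclusion_injective h)
  exact Module.Finite.iff_addGroup_fg.mp h3

theorem JH_mono {F : Type*} [Field F] [Algebra Qb F] (γ : GQ →* SemilinearAut Qb F)
    {H H' : Subgroup GQ} (h : H ≤ H') : JH γ H' ≤ JH γ H := fun _ hz σ hσ => hz σ (h hσ)

/-- The transfer to `JZero`. -/
theorem fg_of_eq {N : ℕ} [NeZero N] {L : IntermediateField Qb (LaurentSeries Qb)}
    (hL : L = F0 Qb N) (γ : GQ →* SemilinearAut Qb L)
    (hγ : ∀ (σ : GQ) (x : L), ((γ σ • x : L) : LaurentSeries Qb) =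
      ModularCurve.coeffMap ((σ.toRingEquiv : Qb ≃+* Qb) : Qb →+* Qb) x)
    (hb : ∀ (σ : GQ) (a : Qb), SemilinearAut.baseAut (γ σ) a = σ a)
    (h : AddGroup.FG (JH (galF0 N) ⊤)) : AddGroup.FG (JH γ ⊤) := by
  subst hL
  have h1 : γ = galF0 N := by
    ext1 σ
    refine Subtype.ext (Prod.ext (RingEquiv.ext fun x => Subtype.ext ?_)
      (RingEquiv.ext fun a => hb σ a))
    exact hγ σ x
  rw [h1]
  exact h

theorem fg_JZero {N : ℕ} [NeZero N] (h : AddGroup.FG (JH (galF0 N) ⊤)) :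
    AddGroup.FG ↥(FixedPoints.addSubgroup ((AlgebraicClosure ℚ) ≃ₐ[ℚ] (AlgebraicClosure ℚ))
      (ModularCurve.JZero N)) := by
  have h1 := fg_of_eq (Fermat.Agent.S24.modularFunctionFieldBar_eq N)
    (ModularCurve.arithmeticGalois (ModularCurve.modularFunctionFieldFull N))
    (fun σ x => rfl) (fun σ a => rfl) h
  refine fg_of_le (T := JH (ModularCurve.arithmeticGalois
    (ModularCurve.modularFunctionFieldFull N)) ⊤) (fun z hz σ _ => ?_) h1
  exact hz σ

/-- The final theorem from its inputs. -/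
theorem fg_of_inputs {N : ℕ} [NeZero N] {g C : ℤ} (X : XD Qb (F0 Qb N) g C)
    (hx : ∀ σ : GQ, galF0 N σ • X.x = X.x)
    (hplaces : ∀ n : ℕ, ∃ (R : Finset (Place Qb (F0 Qb N))) (H : Subgroup GQ),
      IsOpen (H : Set GQ) ∧ n ≤ R.card ∧ ∀ v ∈ R, ∀ σ ∈ H, galF0 N σ • v = v)
    (hpos : ∀ (H : Subgroup GQ), H.FiniteIndex → GalX X (galF0 N) H →
      ∃ (V : AVH H) (B : JH (galF0 N) H → JH (galF0 N) H → ℝ),
        (∃ K : ℝ, ∀ x x' y, |B (x + x') y - B x y - B x' y| ≤ K) ∧
        (∃ K : ℝ, ∀ x y, |B x y - B y x| ≤ K) ∧ Posit X (galF0 N) H V.toAV B)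
    (hweak : ∀ H : Subgroup GQ, IsOpen (H : Set GQ) →
      (nsmulAddMonoidHom (α := JH (galF0 N) H) 3).range.FiniteIndex) :
    AddGroup.FG (JH (galF0 N) ⊤) := by
  obtain ⟨R, H, hH, hR, hRH⟩ := hplaces (exists_gen X).choose
  have hfi : H.FiniteIndex := Fermat.Agent.GCFT.finiteIndex_of_isOpen hH
  have hG : GalX X (galF0 N) H := ⟨fun σ a => rfl, smooth_F0, fun σ _ => hx σ⟩
  obtain ⟨V, B, h1, h2, h3⟩ := hpos H hfi hG
  exact fg_of_le (JH_mono _ le_top) (mw_abs hG V B h1 h2 h3 R hR hRH (hweak H hH))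

end Fermat.Agent.MW
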