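import Mathlib
import Fermat.Agent.MW.PairDef

/-!
Formal properties of the pairing of disjoint divisors.
-/

set_option autoImplicit false
set_option linter.unusedSectionVars false

noncomputable section

namespace Fermat.Agent.MW

open AlgebraicCurve Module Fermat.Agent.Flat Fermat.Agent.FunField Function

variable {k F : Type*} [Field k] [Field F] [Algebra k F] {g C : ℤ} {V : AV k} {X : XD k F g C}

/-- The local intersection number. -/
def lI (Pk : Pkg V X) (i : V.ι) (D E : Divisor k F) : ℝ :=
  D.sum fun P n => E.sum fun Q m => -((n : ℝ) * (m : ℝ) * Real.log (Pk.dist i P Q))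

variable (V X) in
/-- The local height. -/
def lh (i : V.ι) (D : Divisor k F) : ℝ := D.sum fun P n => (n : ℝ) * Real.log (X.sz V i P)

variable (V X) in
theorem sz_fin (P : Place k F) : {i | X.sz V i P ≠ 1}.Finite := by
  by_cases h : evp P X.x = 0
  · refine Set.finite_empty.subset fun i hi => ?_
    apply hi
    unfold XD.sz
    rw [h, map_zero]
    exact max_eq_left zero_le_one
  · refine (V.fin _ h).subset fun i hi h1 => hi ?_
    unfold XD.sz
    rw [h1, max_self]

variable (V X) in
theorem sz_ge (i : V.ι) (P : Place k F) : 1 ≤ X.sz V i P := le_max_left _ _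

variable (V X) in
theorem lh_fs (D : Divisor k F) : (support fun i => lh V X i D).Finite := by
  refine (Set.Finite.biUnion D.support.finite_toSet fun P _ => sz_fin V X P).subset
    fun i hi => ?_
  by_contra h
  apply hi
  simp only [Set.mem_iUnion, not_exists] at h
  refine Finset.sum_eq_zero fun P hP => ?_
  have h1 := h P hP
  have h2 : X.sz V i P = 1 := not_not.1 h1
  change (D P : ℝ) * Real.log (X.sz V i P) = 0
  rw [h2, Real.log_one, mul_zero]

theorem lI_fs (Pk : Pkg V X) {D E : Divisor k F} (hD : D X.inf = 0) (hE : E X.inf = 0)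
    (hd : Disj D E) : (support fun i => lI Pk i D E).Finite := by
  have hne : ∀ P ∈ D.support, ∀ Q ∈ E.support, P ≠ X.inf ∧ Q ≠ X.inf ∧ P ≠ Q := by
    intro P hP Q hQ
    rw [Finsupp.mem_support_iff] at hP hQ
    refine ⟨?_, ?_, ?_⟩
    · rintro rfl; exact hP hD
    · rintro rfl; exact hQ hE
    · rintro rfl
      rcases hd P with h | h
      · exact hP h
      · exact hQ h
  have hfin : (⋃ P ∈ (D.support : Set (Place k F)), ⋃ Q ∈ (E.support : Set (Place k F)),
      {i | Pk.dist i P Q ≠ 1}).Finite := by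
    refine Set.Finite.biUnion D.support.finite_toSet fun P hP =>
      Set.Finite.biUnion E.support.finite_toSet fun Q hQ => ?_
    obtain ⟨h1, h2, h3⟩ := hne P hP Q hQ
    exact Pk.fin P Q h1 h2 h3
  refine hfin.subset fun i hi => ?_
  by_contra h
  apply hi
  simp only [Set.mem_iUnion, not_exists] at h
  refine Finset.sum_eq_zero fun P hP => Finset.sum_eq_zero fun Q hQ => ?_
  have h2 : Pk.dist i P Q = 1 := not_not.1 (h P hP Q hQ)
  change -((D P : ℝ) * (E Q : ℝ) * Real.log (Pk.dist i P Q)) = 0
  rw [h2, Real.log_one, mul_zero, neg_zero]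

theorem lI_add_left (Pk : Pkg V X) (i : V.ι) (D D' E : Divisor k F) :
    lI Pk i (D + D') E = lI Pk i D E + lI Pk i D' E := by
  unfold lI
  rw [Finsupp.sum_add_index']
  · intro P
    simp
  · intro P a b
    rw [← Finsupp.sum_add]
    refine Finsupp.sum_congr fun Q _ => ?_
    push_cast
    ring

theorem lI_symm (Pk : Pkg V X) (i : V.ι) (D E : Divisor k F) :
    lI Pk i D E = lI Pk i E D := by
  unfold lI
  rw [Finsupp.sum_comm]
  refine Finsupp.sum_congr fun Q _ => Finsupp.sum_congr fun P _ => ?_
  rw [Pk.symm i P Q]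
  ring

variable (V X) in
theorem lh_add (i : V.ι) (D D' : Divisor k F) : lh V X i (D + D') = lh V X i D + lh V X i D' := by
  unfold lh
  rw [Finsupp.sum_add_index']
  · intro P
    simp
  · intro P a b
    push_cast
    ring

variable (V X) in
theorem hx_add (D D' : Divisor k F) : hx V X (D + D') = hx V X D + hx V X D' := by
  change ∑ᶠ i, lh V X i (D + D') = ∑ᶠ i, lh V X i D + ∑ᶠ i, lh V X i D'
  rw [← finsum_add_distrib (lh_fs V X D) (lh_fs V X D')]
  exact finsum_congr fun i => lh_add V X i D D'

theorem II_add_left (Pk : Pkg V X) {D D' E : Divisor k F} (hD : D X.inf = 0)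
    (hD' : D' X.inf = 0) (hE : E X.inf = 0) (h : Disj D E) (h' : Disj D' E) :
    II Pk (D + D') E = II Pk D E + II Pk D' E := by
  change ∑ᶠ i, lI Pk i (D + D') E = ∑ᶠ i, lI Pk i D E + ∑ᶠ i, lI Pk i D' E
  rw [← finsum_add_distrib (lI_fs Pk hD hE h) (lI_fs Pk hD' hE h')]
  exact finsum_congr fun i => lI_add_left Pk i D D' E

theorem II_symm (Pk : Pkg V X) (D E : Divisor k F) : II Pk D E = II Pk E D :=
  finsum_congr fun i => lI_symm Pk i D E

theorem B0_symm (Pk : Pkg V X) (D E : Divisor k F) : B0 Pk D E = B0 Pk E D := by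
  unfold B0
  rw [II_symm Pk D E]
  ring

theorem Disj.symm {D E : Divisor k F} (h : Disj D E) : Disj E D := fun P => (h P).symm

theorem Disj.add {D D' E : Divisor k F} (h : Disj D E) (h' : Disj D' E) : Disj (D + D') E := by
  intro P
  rcases h P with h1 | h1
  · rcases h' P with h2 | h2
    · left; rw [Finsupp.add_apply, h1, h2, add_zero]
    · exact Or.inr h2
  · exact Or.inr h1

theorem B0_add_left (Pk : Pkg V X) {D D' E : Divisor k F} (hD : D X.inf = 0)
    (hD' : D' X.inf = 0) (hE : E X.inf = 0) (h : Disj D E) (h' : Disj D' E) :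
    B0 Pk (D + D') E = B0 Pk D E + B0 Pk D' E := by
  unfold B0
  rw [II_add_left Pk hD hD' hE h h', hx_add, map_add]
  push_cast
  ring

theorem B0_add_right (Pk : Pkg V X) {D E E' : Divisor k F} (hD : D X.inf = 0)
    (hE : E X.inf = 0) (hE' : E' X.inf = 0) (h : Disj D E) (h' : Disj D E') :
    B0 Pk D (E + E') = B0 Pk D E + B0 Pk D E' := by
  rw [B0_symm, B0_add_left Pk hE hE' hD h.symm h'.symm, B0_symm Pk E D, B0_symm Pk E' D]

theorem B0_zero_left (Pk : Pkg V X) (E : Divisor k F) : B0 Pk 0 E = 0 := by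
  unfold B0 II hx
  simp

theorem B0_nsmul_left (Pk : Pkg V X) {D E : Divisor k F} (hD : D X.inf = 0)
    (hE : E X.inf = 0) (h : Disj D E) (n : ℕ) : B0 Pk (n • D) E = n * B0 Pk D E := by
  induction n with
  | zero => rw [zero_smul, B0_zero_left, Nat.cast_zero, zero_mul]
  | succ n ih =>
    have h1 : Disj (n • D) E := by
      intro P
      rcases h P with h1 | h1
      · left; rw [Finsupp.smul_apply, h1, smul_zero]
      · exact Or.inr h1
    rw [succ_nsmul, B0_add_left Pk (by rw [Finsupp.smul_apply, hD, smul_zero]) hD hE h1 h, ih]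
    push_cast
    ring

/-- Bounding global sums. -/
theorem abs_finsum_le {ι : Type*} {f u : ι → ℝ} (hf : (support f).Finite)
    (hu : (support u).Finite) (h : ∀ i, |f i| ≤ u i) : |∑ᶠ i, f i| ≤ ∑ᶠ i, u i := by
  rw [abs_le]
  constructor
  · rw [← finsum_neg_distrib]
    refine finsum_le_finsum' ?_ hf fun i => (abs_le.1 (h i)).1
    refine hu.subset fun i hi h0 => hi ?_
    change -u i = 0
    rw [h0, neg_zero]
  · exact finsum_le_finsum' hf hu fun i => (abs_le.1 (h i)).2

theorem MC.fs {ι : Type} (c : MC ι) : (support fun i => Real.log (c.c i)).Finite := by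
  refine c.fin.subset fun i hi h => hi ?_
  change Real.log (c.c i) = 0
  rw [h, Real.log_one]

end Fermat.Agent.MW
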