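import Mathlib
import Fermat.Agent.MW.PairA
import Fermat.Agent.MW.Inst

/-!
The pairing vanishes, up to a bounded amount, on the divisors of functions.
-/

set_option autoImplicit false
set_option linter.unusedSectionVars false

noncomputable section

namespace Fermat.Agent.MW

open AlgebraicCurve Module Fermat.Agent.Flat Fermat.Agent.FunField Function

local notation "Qb" => AlgebraicClosure ℚ
local notation "GQ" => (AlgebraicClosure ℚ ≃ₐ[ℚ] AlgebraicClosure ℚ)

variable {F : Type*} [Field F] [Algebra Qb F] {g C : ℤ} {X : XD Qb F g C}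
  {γ : GQ →* SemilinearAut Qb F} {H : Subgroup GQ}

/-- Fixed functions with a given fixed divisor. -/
theorem GalX.exists_fixed_dv (hG : GalX X γ H) {W : Divisor Qb F}
    (hW : ∀ σ ∈ H, γ σ • W = W) {f : F} (hf0 : f ≠ 0) (hf : W = dv f) :
    ∃ f' : F, f' ≠ 0 ∧ (∀ σ ∈ H, γ σ • f' = f') ∧ W = dv f' := by
  have hmem : f ∈ riemannRochSpace (-W) := by
    rw [mem_L' hf0]
    intro v
    rw [Finsupp.neg_apply, neg_neg, hf, dv_apply (X.crv.fin f)]
  obtain ⟨f', hf', hfix, hav⟩ := hG.exists_avoid (riemannRochSpace (-W))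
    (fun σ hσ u hu => smul_mem_rr (by rw [smul_neg, hW σ hσ]) hu)
    (fun _ : Unit => (⊥ : Submodule Qb F)) (fun _ hle => hf0 (by simpa using hle hmem))
  have hf'0 : f' ≠ 0 := by simpa using hav ()
  refine ⟨f', hf'0, hfix, ?_⟩
  have h1 : 0 ≤ dv (K := Qb) f' - W := by
    intro v
    have h2 := (mem_L' hf'0).1 hf' v
    rw [Finsupp.neg_apply, neg_neg] at h2
    rw [Finsupp.sub_apply, dv_apply (X.crv.fin f'), Finsupp.zero_apply]
    linarith
  have h2 : dg (dv (K := Qb) f' - W) = 0 := by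
    rw [map_sub, X.crv.deg0 f' hf'0, hf, X.crv.deg0 f hf0, sub_zero]
  have h3 : dv (K := Qb) f' - W = 0 := by
    rw [dg_apply] at h2
    ext v
    by_contra hv
    have h4 := (Finset.sum_eq_zero_iff_of_nonneg fun w _ => h1 w).1 h2 v
      (Finsupp.mem_support_iff.2 hv)
    exact hv h4
  exact (sub_eq_zero.1 h3).symm

/-- Values of fixed functions at stable divisors are fixed. -/
theorem GalX.smul_evp (hG : GalX X γ H) {σ : GQ} {A : F} (hA : γ σ • A = A) {Q : Place Qb F}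
    (hQ : A ∈ Q.toValuationSubring) : evp (γ σ • Q) A = σ (evp Q A) := by
  have h1 := rational_smul (γ σ) (X.crv.rat Q) hQ
  rw [hA, hG.base] at h1
  exact h1

/-- The norm of a function along a stable effective divisor. -/
theorem GalX.prod_evp (hG : GalX X γ H) {σ : GQ} {A : F} (hA : γ σ • A = A)
    {E : Divisor Qb F} (hE : γ σ • E = E) (hm : ∀ Q ∈ E.support, A ∈ Q.toValuationSubring) :
    σ (∏ Q ∈ E.support, evp Q A ^ (E Q).toNat) = ∏ Q ∈ E.support, evp Q A ^ (E Q).toNat := by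
  classical
  have hEs : ∀ Q : Place Qb F, E (γ σ • Q) = E Q := by
    intro Q
    have h1 := SemilinearAut.divisor_smul_apply_smul (γ σ) E Q
    rwa [hE] at h1
  rw [map_prod]
  refine Finset.prod_bij (fun Q _ => γ σ • Q) ?_ ?_ ?_ ?_
  · intro Q hQ
    rw [Finsupp.mem_support_iff] at hQ ⊢
    rwa [hEs]
  · intro Q _ Q' _ h
    exact MulAction.injective (γ σ) h
  · intro Q hQ
    refine ⟨(γ σ)⁻¹ • Q, ?_, smul_inv_smul _ _⟩
    rw [Finsupp.mem_support_iff] at hQ ⊢
    rwa [← hEs, smul_inv_smul]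
  · intro Q hQ
    rw [map_pow, hEs, hG.smul_evp hA (hm Q hQ)]

variable (V : AVH H) (Pk : Pkg V.toAV X)

/-- the sum of the logarithms of the values -/
theorem GalX.sum_log (hG : GalX X γ H) {A : F} (hA : ∀ σ ∈ H, γ σ • A = A)
    {E : Divisor Qb F} (hE : ∀ σ ∈ H, γ σ • E = E) (hE0 : 0 ≤ E)
    (hm : ∀ Q ∈ E.support, Q.ord A = 0) (hA0 : A ≠ 0) :
    (support fun i => ∑ Q ∈ E.support, (E Q : ℝ) * Real.log (V.v i (evp Q A))).Finite ∧
    ∑ᶠ i, ∑ Q ∈ E.support, (E Q : ℝ) * Real.log (V.v i (evp Q A)) = 0 := by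
  classical
  have hmem : ∀ Q ∈ E.support, A ∈ Q.toValuationSubring := fun Q hQ =>
    mem_of_ord_nonneg _ (hm Q hQ).ge
  have hval : ∀ Q ∈ E.support, evp Q A ≠ 0 := by
    intro Q hQ
    rw [evp_ne_zero_iff (X.crv.rat Q) (hmem Q hQ)]
    exact ⟨hA0, hm Q hQ⟩
  have hEn : ∀ Q, ((E Q).toNat : ℝ) = (E Q : ℝ) := by
    intro Q
    have h1 : ((E Q).toNat : ℤ) = E Q := Int.toNat_of_nonneg (hE0 Q)
    exact_mod_cast h1
  set a : Qb := ∏ Q ∈ E.support, evp Q A ^ (E Q).toNat with ha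
  have ha0 : a ≠ 0 := Finset.prod_ne_zero_iff.2 fun Q hQ => pow_ne_zero _ (hval Q hQ)
  have hlog : ∀ i, ∑ Q ∈ E.support, (E Q : ℝ) * Real.log (V.v i (evp Q A)) =
      Real.log (V.v i a) := by
    intro i
    rw [ha, map_prod, Real.log_prod fun Q hQ => by
      rw [map_pow]; exact pow_ne_zero _ ((V.v i).ne_zero (hval Q hQ))]
    refine Finset.sum_congr rfl fun Q _ => ?_
    rw [map_pow, Real.log_pow, hEn]
  have hfun : (fun i => ∑ Q ∈ E.support, (E Q : ℝ) * Real.log (V.v i (evp Q A))) =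
      fun i => Real.log (V.v i a) := funext hlog
  rw [hfun]
  constructor
  · refine (V.fin a ha0).subset fun i hi h => hi ?_
    change Real.log (V.v i a) = 0
    rw [h, Real.log_one]
  · exact V.pf a ha0 fun σ hσ => hG.prod_evp (hA σ hσ) (hE σ hσ) hmem

end Fermat.Agent.MW
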