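import Mathlib
import Fermat.Agent.MW.PairB

/-!
The pairing vanishes, up to a bounded amount, on principal classes.
-/

set_option autoImplicit false
set_option linter.unusedSectionVars false

noncomputable section

namespace Fermat.Agent.MW

open AlgebraicCurve Module Fermat.Agent.Flat Fermat.Agent.FunField Function

local notation "Qb" => AlgebraicClosure ℚ
local notation "GQ" => (AlgebraicClosure ℚ ≃ₐ[ℚ] AlgebraicClosure ℚ)

theorem nrm_fs {k : Type*} [Field k] (V : AV k) {r : ℕ} {c : Fin r → k} (hc : c ≠ 0) :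
    (support fun i => Real.log (nrm V i c)).Finite := by
  classical
  obtain ⟨j0, hj0⟩ := Function.ne_iff.1 hc
  refine (Set.Finite.biUnion (Set.toFinite {j | c j ≠ 0}) fun j hj => V.fin (c j) hj).subset
    fun i hi => ?_
  by_contra h
  simp only [Set.mem_iUnion, not_exists] at h
  apply hi
  have h1 : ∀ j, c j ≠ 0 → V.v i (c j) = 1 := fun j hj => not_not.1 (h j hj)
  have h2 : nrm V i c = 1 := by
    unfold nrm
    haveI : Nonempty (Fin r) := ⟨j0⟩
    apply le_antisymm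
    · refine ciSup_le fun j => ?_
      by_cases hj : c j = 0
      · rw [hj, map_zero]; exact zero_le_one
      · exact (h1 j hj).le
    · rw [← h1 j0 hj0]
      exact le_ciSup (f := fun j => V.v i (c j)) (Set.finite_range _).bddAbove j0
  change Real.log (nrm V i c) = 0
  rw [h2, Real.log_one]

theorem ord_pow' {k F : Type*} [Field k] [Field F] [Algebra k F] (v : Place k F) {f : F}
    (hf : f ≠ 0) (n : ℕ) : v.ord (f ^ n) = n * v.ord f := by
  induction n with
  | zero => simp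
  | succ n ih =>
    rw [pow_succ, v.ord_mul (pow_ne_zero _ hf) hf, ih]
    push_cast
    ring

theorem gsum_lin {ι : Type*} {f1 f2 f3 f4 : ι → ℝ} (h1 : (support f1).Finite)
    (h2 : (support f2).Finite) (h3 : (support f3).Finite) (h4 : (support f4).Finite) (a b : ℝ) :
    (support fun i => f1 i - a * f2 i - b * f3 i + f4 i).Finite ∧
    ∑ᶠ i, (f1 i - a * f2 i - b * f3 i + f4 i) =
      ∑ᶠ i, f1 i - a * ∑ᶠ i, f2 i - b * ∑ᶠ i, f3 i + ∑ᶠ i, f4 i := by
  classical
  have hfin := ((h1.union h2).union h3).union h4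
  set s := hfin.toFinset with hs
  have hz : ∀ i, i ∉ s → f1 i = 0 ∧ f2 i = 0 ∧ f3 i = 0 ∧ f4 i = 0 := by
    intro i hi
    rw [hs, Set.Finite.mem_toFinset] at hi
    simp only [Set.mem_union, mem_support, not_or, not_not] at hi
    exact ⟨hi.1.1.1, hi.1.1.2, hi.1.2, hi.2⟩
  have hsub : ∀ f : ι → ℝ, (∀ i, i ∉ s → f i = 0) → support f ⊆ (s : Set ι) := by
    intro f hf i hi
    by_contra h
    exact hi (hf i h)
  have h5 : ∀ i, i ∉ s → f1 i - a * f2 i - b * f3 i + f4 i = 0 := by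
    intro i hi
    obtain ⟨e1, e2, e3, e4⟩ := hz i hi
    rw [e1, e2, e3, e4]; ring
  constructor
  · exact s.finite_toSet.subset (hsub _ h5)
  · rw [finsum_eq_sum_of_support_subset _ (hsub _ h5),
      finsum_eq_sum_of_support_subset _ (hsub _ fun i hi => (hz i hi).1),
      finsum_eq_sum_of_support_subset _ (hsub _ fun i hi => (hz i hi).2.1),
      finsum_eq_sum_of_support_subset _ (hsub _ fun i hi => (hz i hi).2.2.1),
      finsum_eq_sum_of_support_subset _ (hsub _ fun i hi => (hz i hi).2.2.2),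
      Finset.sum_add_distrib, Finset.sum_sub_distrib, Finset.sum_sub_distrib, Finset.mul_sum,
      Finset.mul_sum]

variable {F : Type*} [Field F] [Algebra Qb F] {g C : ℤ} {X : XD Qb F g C}
  {γ : GQ →* SemilinearAut Qb F} {H : Subgroup GQ}

/-- The degree of the affine zeros. -/
theorem XD.dg_zs (X : XD Qb F g C) {A : F} (hA : A ≠ 0) : dg (X.zs A) = -X.inf.ord A := by
  have h1 : dv (K := Qb) A = X.zs A + Finsupp.single X.inf (X.inf.ord A) := by
    unfold XD.zs
    ext v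
    rw [Finsupp.add_apply]
    by_cases hv : v = X.inf
    · subst hv
      rw [Finsupp.erase_same, Finsupp.single_eq_same, zero_add, dv_apply (X.crv.fin A)]
    · rw [Finsupp.erase_ne hv, Finsupp.single_eq_of_ne hv, add_zero]
  have h2 := congrArg dg h1
  rw [X.crv.deg0 A hA, map_add, dg_single] at h2
  linarith

theorem GalX.vanish1 (hG : GalX X γ H) (V : AVH H) (Pk : Pkg V.toAV X) (m : ℕ) :
    ∃ K : ℝ, 0 ≤ K ∧ ∀ (c : Fin (X.d m) → Qb) (E : Divisor Qb F), X.elt m c ≠ 0 →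
      X.inf.ord (X.elt m c) = -((m * X.n0 : ℕ) : ℤ) →
      (∀ σ ∈ H, γ σ • X.elt m c = X.elt m c) → Gd X γ H E → Disj (X.zs (X.elt m c)) E →
      |B0 Pk (X.zs (X.elt m c)) E| ≤ (dg E : ℝ) * K := by
  classical
  obtain ⟨C1, hC1⟩ := Pk.lt m
  obtain ⟨C2, hC2⟩ := Pk.lc m
  set L1 := ∑ᶠ i, Real.log (C1.c i) with hL1
  set L2 := ∑ᶠ i, Real.log (C2.c i) with hL2
  have hL10 : 0 ≤ L1 := finsum_nonneg fun i => Real.log_nonneg (C1.one_le i)
  have hL20 : 0 ≤ L2 := finsum_nonneg fun i => Real.log_nonneg (C2.one_le i)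
  refine ⟨L1 + L2, by linarith, fun c E hA0 hord hfix hE hd => ?_⟩
  set A := X.elt m c with hA
  have hc0 : c ≠ 0 := by
    rintro rfl
    apply hA0
    rw [hA]
    unfold XD.elt
    simp
  set D := X.zs A with hD
  have hDaf : D X.inf = 0 := by rw [hD]; unfold XD.zs; exact Finsupp.erase_same
  have hdgD : dg D = ((m * X.n0 : ℕ) : ℤ) := by rw [hD, X.dg_zs hA0, hord, neg_neg]
  have hn0 : (1 : ℝ) ≤ X.n0 := by exact_mod_cast X.n0_pos
  have hQ : ∀ Q ∈ E.support, Q ≠ X.inf ∧ Q.ord A = 0 := by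
    intro Q hQ
    rw [Finsupp.mem_support_iff] at hQ
    have h1 : Q ≠ X.inf := by
      rintro rfl; exact hQ hE.af
    refine ⟨h1, ?_⟩
    rcases hd Q with h2 | h2
    · rw [hD] at h2
      unfold XD.zs at h2
      rw [Finsupp.erase_ne h1, dv_apply (X.crv.fin A)] at h2
      exact h2
    · exact absurd h2 hQ
  have he : (dg E : ℝ) = ∑ Q ∈ E.support, (E Q : ℝ) := by
    rw [dg_apply]; push_cast; rfl
  have hEnn : ∀ Q, (0 : ℝ) ≤ E Q := fun Q => by exact_mod_cast hE.nn Q
  have he0 : (0 : ℝ) ≤ dg E := by rw [he]; exact Finset.sum_nonneg fun Q _ => hEnn Q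
  -- the first estimate
  obtain ⟨hf1, hs1⟩ := hG.sum_log V hfix hE.st hE.nn (fun Q hQ' => (hQ Q hQ').2) hA0
  have hf2 := nrm_fs V.toAV hc0
  have hf3 := lh_fs V.toAV X E
  have hf4 := lI_fs Pk hDaf hE.af hd
  obtain ⟨hfT, hsT⟩ := gsum_lin hf1 hf2 hf3 hf4 (dg E : ℝ) (m : ℝ)
  have hfC1 : (support fun i => (dg E : ℝ) * Real.log (C1.c i)).Finite :=
    C1.fs.subset fun i hi h => hi (by
      change (dg E : ℝ) * Real.log (C1.c i) = 0
      change Real.log (C1.c i) = 0 at h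
      rw [h, mul_zero])
  have hb1 := abs_finsum_le hfT hfC1 (by
    intro i
    have h1 : (∑ Q ∈ E.support, (E Q : ℝ) * Real.log (V.v i (evp Q A))) -
        (dg E : ℝ) * Real.log (nrm V.toAV i c) - m * lh V.toAV X i E + lI Pk i D E =
        ∑ Q ∈ E.support, (E Q : ℝ) * (Real.log (V.v i (evp Q A)) - Real.log (nrm V.toAV i c)
          - m * Real.log (X.sz V.toAV i Q) - D.sum (fun P n => (n : ℝ) *
            Real.log (Pk.dist i P Q))) := by
      have h2 : lI Pk i D E = -∑ Q ∈ E.support, (E Q : ℝ) * D.sum (fun P n => (n : ℝ) *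
            Real.log (Pk.dist i P Q)) := by
        rw [lI_symm]
        unfold lI Finsupp.sum
        rw [← Finset.sum_neg_distrib]
        refine Finset.sum_congr rfl fun Q _ => ?_
        rw [Finset.mul_sum, ← Finset.sum_neg_distrib]
        refine Finset.sum_congr rfl fun P _ => ?_
        change -((E Q : ℝ) * (D P : ℝ) * Real.log (Pk.dist i Q P)) =
          -((E Q : ℝ) * ((D P : ℝ) * Real.log (Pk.dist i P Q)))
        rw [Pk.symm i Q P]
        ring
      have h3 : lh V.toAV X i E = ∑ Q ∈ E.support, (E Q : ℝ) * Real.log (X.sz V.toAV i Q) := rfl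
      rw [h2, h3, he, Finset.sum_mul, Finset.mul_sum, ← sub_eq_add_neg,
        ← Finset.sum_sub_distrib, ← Finset.sum_sub_distrib, ← Finset.sum_sub_distrib]
      refine Finset.sum_congr rfl fun Q _ => ?_
      ring
    change |(∑ Q ∈ E.support, (E Q : ℝ) * Real.log (V.v i (evp Q A))) -
        (dg E : ℝ) * Real.log (nrm V.toAV i c) - m * lh V.toAV X i E + lI Pk i D E| ≤ _
    rw [h1, he, Finset.sum_mul]
    refine (Finset.abs_sum_le_sum_abs _ _).trans (Finset.sum_le_sum fun Q hQ' => ?_)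
    rw [abs_mul, abs_of_nonneg (hEnn Q)]
    exact mul_le_mul_of_nonneg_left (hC1 i c hord Q (hQ Q hQ').1 (hQ Q hQ').2) (hEnn Q))
  -- the second estimate
  set a : Qb := evp X.inf (A * X.x⁻¹ ^ m) with ha
  have hx0 : X.x ≠ 0 := X.sep.ne_zero
  have hxm : X.x⁻¹ ^ m ≠ 0 := pow_ne_zero _ (inv_ne_zero hx0)
  have hordA : X.inf.ord (A * X.x⁻¹ ^ m) = 0 := by
    rw [X.inf.ord_mul hA0 hxm, ord_pow' X.inf (inv_ne_zero hx0), X.inf.ord_inv, X.ord_inf, hord]
    push_cast
    ring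
  have hmemA : A * X.x⁻¹ ^ m ∈ X.inf.toValuationSubring := mem_of_ord_nonneg _ hordA.ge
  have ha0 : a ≠ 0 := by
    rw [ha, evp_ne_zero_iff (X.crv.rat _) hmemA]
    exact ⟨mul_ne_zero hA0 hxm, hordA⟩
  have hafix : ∀ σ ∈ H, σ a = a := by
    intro σ hσ
    have h1 : γ σ • (A * X.x⁻¹ ^ m) = A * X.x⁻¹ ^ m := by
      rw [smul_mul', smul_pow', smul_inv'', hfix σ hσ, hG.fx σ hσ]
    have h2 := hG.smul_evp h1 hmemA
    rw [hG.smul_inf hσ] at h2
    exact h2.symm
  have hpa : ∑ᶠ i, Real.log (V.v i a) = 0 := V.pf a ha0 hafix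
  have hfa : (support fun i => Real.log (V.v i a)).Finite := (V.fin a ha0).subset fun i hi h =>
    hi (by
      change Real.log (V.v i a) = 0
      rw [h, Real.log_one])
  have hfn : (support fun i => (X.n0 : ℝ) * Real.log (nrm V.toAV i c)).Finite :=
    hf2.subset fun i hi h => hi (by
      change (X.n0 : ℝ) * Real.log (nrm V.toAV i c) = 0
      change Real.log (nrm V.toAV i c) = 0 at h
      rw [h, mul_zero])
  obtain ⟨hfU, hsU⟩ := gsum_lin hfn hfa (lh_fs V.toAV X D)
    (by rw [support_zero]; exact Set.finite_empty : (support (0 : V.ι → ℝ)).Finite) (X.n0 : ℝ) 1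
  have hb2 := abs_finsum_le hfU C2.fs (by
    intro i
    have := hC2 i c hord
    change |(X.n0 : ℝ) * Real.log (nrm V.toAV i c) - X.n0 * Real.log (V.v i a) -
      1 * lh V.toAV X i D + 0| ≤ _
    rw [one_mul, add_zero]
    exact this)
  rw [hsT, hs1] at hb1
  rw [hsU, hpa] at hb2
  have hz0 : ∑ᶠ i : V.ι, (0 : V.ι → ℝ) i = 0 := by
    simp
  rw [hz0, ← mul_finsum] at hb2
  rw [← mul_finsum] at hb1
  change |0 - (dg E : ℝ) * (∑ᶠ i, Real.log (nrm V.toAV i c)) - m * hx V.toAV X E +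
    II Pk D E| ≤ (dg E : ℝ) * L1 at hb1
  change |(X.n0 : ℝ) * (∑ᶠ i, Real.log (nrm V.toAV i c)) - X.n0 * 0 - 1 * hx V.toAV X D + 0| ≤ L2
    at hb2
  set h := ∑ᶠ i, Real.log (nrm V.toAV i c) with hh
  have hB : B0 Pk D E = -((dg E : ℝ) / X.n0 * (X.n0 * h - X.n0 * 0 - 1 * hx V.toAV X D + 0)) -
      (0 - (dg E : ℝ) * h - m * hx V.toAV X E + II Pk D E) := by
    unfold B0
    rw [hdgD]
    have : (X.n0 : ℝ) ≠ 0 := by linarith
    push_cast
    field_simp
    ring
  rw [hB]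
  refine (abs_sub _ _).trans ?_
  rw [abs_neg, abs_mul, abs_of_nonneg (div_nonneg he0 (by linarith))]
  have h5 : (dg E : ℝ) / X.n0 ≤ dg E := div_le_self he0 hn0
  calc (dg E : ℝ) / X.n0 * |X.n0 * h - X.n0 * 0 - 1 * hx V.toAV X D + 0| +
        |0 - (dg E : ℝ) * h - m * hx V.toAV X E + II Pk D E|
      ≤ (dg E : ℝ) * L2 + (dg E : ℝ) * L1 := by
        refine add_le_add ?_ hb1
        exact mul_le_mul h5 hb2 (abs_nonneg _) he0
    _ = (dg E : ℝ) * (L1 + L2) := by ring

end Fermat.Agent.MW
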