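import Mathlib
import Fermat.Agent.MW.PairC

/-!
The quasi-bilinear pairing on the Mordell-Weil group.
-/

set_option autoImplicit false
set_option linter.unusedSectionVars false

noncomputable section

namespace Fermat.Agent.MW

open AlgebraicCurve Module Fermat.Agent.Flat Fermat.Agent.FunField Function

local notation "Qb" => AlgebraicClosure ℚ
local notation "GQ" => (AlgebraicClosure ℚ ≃ₐ[ℚ] AlgebraicClosure ℚ)

variable {F : Type*} [Field F] [Algebra Qb F] {g C : ℤ} {X : XD Qb F g C}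
  {γ : GQ →* SemilinearAut Qb F} {H : Subgroup GQ}

theorem Gd.add {D E : Divisor Qb F} (hD : Gd X γ H D) (hE : Gd X γ H E) : Gd X γ H (D + E) :=
  ⟨add_nonneg hD.nn hE.nn, fun σ hσ => by rw [smul_add, hD.st σ hσ, hE.st σ hσ],
    by rw [Finsupp.add_apply, hD.af, hE.af, add_zero]⟩

theorem exists_bound_fin (K : ℕ → ℝ) (δ : ℕ) : ∃ L : ℝ, ∀ m ≤ δ, K m ≤ L := by
  classical
  refine ⟨∑ m ∈ Finset.range (δ + 1), |K m|, fun m hm => ?_⟩
  refine (le_abs_self _).trans ?_
  exact Finset.single_le_sum (f := fun m => |K m|) (fun _ _ => abs_nonneg _)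
    (Finset.mem_range.2 (by omega))

/-- The pairing is bounded on principal classes. -/
theorem GalX.vanish2 (hG : GalX X γ H) (V : AVH H) (Pk : Pkg V.toAV X) (δ : ℕ) :
    ∃ K : ℝ, ∀ D E : Divisor Qb F, Gd X γ H D → Gd X γ H E → Disj D E → dg D ≤ δ →
      dg E ≤ δ → X.cl D = 0 → |B0 Pk D E| ≤ K := by
  classical
  choose K hK0 hK using fun m => hG.vanish1 V Pk m
  obtain ⟨L, hL⟩ := exists_bound_fin K δ
  refine ⟨δ * L, fun D E hD hE hd hdD hdE hcl => ?_⟩
  obtain ⟨f, hf0, hf⟩ := X.cl_eq_zero hcl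
  obtain ⟨f', hf'0, hfix, hf'⟩ := hG.exists_fixed_dv (W := D - Finsupp.single X.inf (dg D))
    (fun σ hσ => by
      rw [smul_sub, hD.st σ hσ, SemilinearAut.smul_single, hG.smul_inf hσ]) hf0 hf
  set m := (dg D).toNat with hm
  have hdg0 : 0 ≤ dg D := dg_nonneg hD.nn
  have hmd : (m : ℤ) = dg D := Int.toNat_of_nonneg hdg0
  set A := f' ^ X.n0 with hA
  have hA0 : A ≠ 0 := pow_ne_zero _ hf'0
  have hordf : ∀ v : Place Qb F, v.ord f' = D v - (Finsupp.single X.inf (dg D) :
      Divisor Qb F) v := by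
    intro v
    have h1 := DFunLike.congr_fun hf' v
    rw [dv_apply (X.crv.fin f'), Finsupp.sub_apply] at h1
    exact h1.symm
  have hordA : ∀ v : Place Qb F, v.ord A = X.n0 * (D v - (Finsupp.single X.inf (dg D) :
      Divisor Qb F) v) := by
    intro v
    rw [hA, ord_pow' v hf'0, hordf]
  have hordinf : X.inf.ord A = -((m * X.n0 : ℕ) : ℤ) := by
    rw [hordA, hD.af, Finsupp.single_eq_same, ← hmd]
    push_cast
    ring
  have hmem : A ∈ X.L m := by
    unfold XD.L
    rw [mem_L' hA0]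
    intro v
    unfold XD.dm
    by_cases hv : v = X.inf
    · subst hv
      rw [Finsupp.single_eq_same, hordinf]
    · rw [Finsupp.single_eq_of_ne hv, hordA, Finsupp.single_eq_of_ne hv, sub_zero]
      have h1 := hD.nn v
      rw [Finsupp.zero_apply] at h1
      have h2 : (0 : ℤ) ≤ X.n0 := Int.natCast_nonneg _
      have := mul_nonneg h2 h1
      simpa using this
  set c : Fin (X.d m) → Qb := fun j => (X.b m).repr ⟨A, hmem⟩ j with hc
  have helt : X.elt m c = A := by
    have h1 := (X.b m).sum_repr ⟨A, hmem⟩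
    have h2 := congrArg (X.L m).subtype h1
    rw [map_sum] at h2
    exact h2
  have hzs : X.zs A = X.n0 • D := by
    unfold XD.zs
    ext v
    by_cases hv : v = X.inf
    · subst hv
      rw [Finsupp.erase_same, Finsupp.smul_apply, hD.af, smul_zero]
    · rw [Finsupp.erase_ne hv, dv_apply (X.crv.fin A), hordA, Finsupp.single_eq_of_ne hv, sub_zero,
        Finsupp.smul_apply, nsmul_eq_mul]
  have hd' : Disj (X.n0 • D) E := by
    intro P
    rcases hd P with h | h
    · left; rw [Finsupp.smul_apply, h, smul_zero]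
    · exact Or.inr h
  have h1 := hK m c E (by rw [helt]; exact hA0) (by rw [helt]; exact hordinf)
    (fun σ hσ => by rw [helt, hA, smul_pow', hfix σ hσ]) hE (by rw [helt, hzs]; exact hd')
  rw [helt, hzs, B0_nsmul_left Pk hD.af hE.af hd, abs_mul, Nat.abs_cast] at h1
  have hn0 : (1 : ℝ) ≤ X.n0 := by exact_mod_cast X.n0_pos
  have hmδ : m ≤ δ := by omega
  have hLm := hL m hmδ
  have he0 : (0 : ℝ) ≤ dg E := by exact_mod_cast dg_nonneg hE.nn
  have heδ : (dg E : ℝ) ≤ δ := by exact_mod_cast hdE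
  calc |B0 Pk D E| ≤ X.n0 * |B0 Pk D E| := le_mul_of_one_le_left (abs_nonneg _) hn0
    _ ≤ (dg E : ℝ) * K m := h1
    _ ≤ δ * L := mul_le_mul heδ hLm (hK0 m) (Nat.cast_nonneg _)

/-- The pairing depends, up to a bounded amount, only on the class of the second divisor. -/
theorem GalX.indep (hG : GalX X γ H) (V : AVH H) (Pk : Pkg V.toAV X) (δ : ℕ) :
    ∃ K : ℝ, ∀ D E E' : Divisor Qb F, Gd X γ H D → Gd X γ H E → Gd X γ H E' → Disj D E →
      Disj D E' → dg D ≤ δ → dg E ≤ δ → dg E' ≤ δ → X.cl E = X.cl E' →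
      |B0 Pk D E - B0 Pk D E'| ≤ K := by
  classical
  obtain ⟨K, hK⟩ := hG.vanish2 V Pk (δ + (C + 1).toNat)
  refine ⟨K + K, fun D E E' hD hE hE' hd hd' hdD hdE hdE' hcl => ?_⟩
  have hcl1 : ∀ σ ∈ H, γ σ • (-X.cl E) = -X.cl E := fun σ hσ => by
    rw [smul_neg, hE.mem hG σ hσ]
  obtain ⟨T, hT0, hTs, hTd, hTi, hTS, hTc⟩ := hG.exists_rep hcl1 (max (C + 1) 0)
    (le_max_left _ _) D.support
  have hT : Gd X γ H T := ⟨hT0, hTs, hTi⟩
  have hdT : Disj D T := by
    intro P
    by_cases hP : P ∈ D.support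
    · right; exact hTS P hP
    · left; exact Finsupp.notMem_support_iff.1 hP
  have hTδ : dg T ≤ ((C + 1).toNat : ℤ) := by
    rw [hTd]; omega
  have h1 := hK (E + T) D (hE.add hT) hD (hd.symm.add hdT.symm) (by
    rw [map_add]; push_cast; omega) (by push_cast; omega) (by
    rw [map_add, hTc, add_neg_cancel])
  have h2 := hK (E' + T) D (hE'.add hT) hD (hd'.symm.add hdT.symm) (by
    rw [map_add]; push_cast; omega) (by push_cast; omega) (by
    rw [map_add, hTc, hcl, add_neg_cancel])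
  rw [B0_add_left Pk hE.af hT.af hD.af hd.symm hdT.symm, B0_symm Pk E D, B0_symm Pk T D] at h1
  rw [B0_add_left Pk hE'.af hT.af hD.af hd'.symm hdT.symm, B0_symm Pk E' D, B0_symm Pk T D] at h2
  have h3 : B0 Pk D E - B0 Pk D E' = (B0 Pk D E + B0 Pk D T) - (B0 Pk D E' + B0 Pk D T) := by ring
  rw [h3]
  exact (abs_sub _ _).trans (add_le_add h1 h2)

/-- **The pairing.** -/
theorem GalX.exists_pair (hG : GalX X γ H) (V : AVH H) (Pk : Pkg V.toAV X) :
    ∃ B : JH γ H → JH γ H → ℝ, IsPair γ H Pk B := by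
  classical
  set d0 : ℤ := max (C + 1) 0 with hd0
  set N0 : ℕ := (C + 1).toNat with hN0
  have hdN : d0 = N0 := by omega
  have hrep : ∀ (x : JH γ H) (S : Finset (Place Qb F)), ∃ E : Divisor Qb F, Gd X γ H E ∧
      dg E = d0 ∧ (∀ P ∈ S, E P = 0) ∧ X.cl E = x := by
    intro x S
    obtain ⟨T, hT0, hTs, hTd, hTi, hTS, hTc⟩ := hG.exists_rep x.2 d0 (le_max_left _ _) S
    exact ⟨T, ⟨hT0, hTs, hTi⟩, hTd, hTS, hTc⟩
  have hdisj : ∀ {D E : Divisor Qb F}, (∀ P ∈ D.support, E P = 0) → Disj D E := by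
    intro D E h P
    by_cases hP : P ∈ D.support
    · exact Or.inr (h P hP)
    · exact Or.inl (Finsupp.notMem_support_iff.1 hP)
  choose r hrG hrd hrS hrc using hrep
  set R1 : JH γ H → Divisor Qb F := fun x => r x ∅ with hR1
  set R2 : JH γ H → JH γ H → Divisor Qb F := fun x y => r y (R1 x).support with hR2
  let B : JH γ H → JH γ H → ℝ := fun x y => B0 Pk (R1 x) (R2 x y)
  have hB : ∀ δ : ℕ, ∃ K : ℝ, ∀ (D E : Divisor Qb F) (x y : JH γ H), Gd X γ H D → Gd X γ H E →
      Disj D E → dg D ≤ δ → dg E ≤ δ → X.cl D = x → X.cl E = y →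
      |B x y - B0 Pk D E| ≤ K := by
    intro δ
    obtain ⟨K, hK⟩ := hG.indep V Pk (δ + N0)
    refine ⟨K + K + K, fun D E x y hD hE hd hdD hdE hcD hcE => ?_⟩
    set T := r y ((R1 x).support ∪ D.support) with hT
    have hT1 : Disj (R1 x) T := hdisj fun P hP => hrS _ _ P (Finset.mem_union_left _ hP)
    have hT2 : Disj D T := hdisj fun P hP => hrS _ _ P (Finset.mem_union_right _ hP)
    have e1 := hK (R1 x) (R2 x y) T (hrG _ _) (hrG _ _) (hrG _ _)
      (hdisj fun P hP => hrS _ _ P hP) hT1 (by rw [hrd]; push_cast; omega)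
      (by rw [hrd]; push_cast; omega) (by rw [hrd]; push_cast; omega)
      (by rw [hrc, hrc])
    have e2 := hK T (R1 x) D (hrG _ _) (hrG _ _) hD hT1.symm hT2.symm
      (by rw [hrd]; push_cast; omega) (by rw [hrd]; push_cast; omega) (by push_cast; omega)
      (by rw [hrc, hcD])
    have e3 := hK D T E hD (hrG _ _) hE hT2 hd (by push_cast; omega)
      (by rw [hrd]; push_cast; omega) (by push_cast; omega) (by rw [hrc, hcE])
    rw [B0_symm Pk T (R1 x), B0_symm Pk T D] at e2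
    have h4 : B x y - B0 Pk D E = (B0 Pk (R1 x) (R2 x y) - B0 Pk (R1 x) T) +
        (B0 Pk (R1 x) T - B0 Pk D T) + (B0 Pk D T - B0 Pk D E) := by
      change B0 Pk (R1 x) (R2 x y) - B0 Pk D E = _
      ring
    rw [h4]
    refine (abs_add_le _ _).trans (add_le_add ?_ e3)
    exact (abs_add_le _ _).trans (add_le_add e1 e2)
  refine ⟨B, ⟨?_, ?_, hB⟩⟩
  · obtain ⟨K, hK⟩ := hB (2 * N0)
    refine ⟨K + K + K, fun x x' y => ?_⟩
    set D := r x ∅ with hD
    set D' := r x' ∅ with hD'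
    set E := r y (D.support ∪ D'.support) with hE
    have h1 : Disj D E := hdisj fun P hP => hrS _ _ P (Finset.mem_union_left _ hP)
    have h2 : Disj D' E := hdisj fun P hP => hrS _ _ P (Finset.mem_union_right _ hP)
    have e1 := hK (D + D') E (x + x') y ((hrG _ _).add (hrG _ _)) (hrG _ _) (h1.add h2)
      (by rw [map_add, hrd, hrd]; push_cast; omega) (by rw [hrd]; push_cast; omega)
      (by rw [map_add, hrc, hrc]; rfl) (hrc _ _)
    have e2 := hK D E x y (hrG _ _) (hrG _ _) h1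
      (by rw [hrd]; push_cast; omega) (by rw [hrd]; push_cast; omega) (hrc _ _) (hrc _ _)
    have e3 := hK D' E x' y (hrG _ _) (hrG _ _) h2
      (by rw [hrd]; push_cast; omega) (by rw [hrd]; push_cast; omega) (hrc _ _) (hrc _ _)
    rw [B0_add_left Pk (hrG _ _).af (hrG _ _).af (hrG _ _).af h1 h2] at e1
    have h4 : B (x + x') y - B x y - B x' y = (B (x + x') y - (B0 Pk D E + B0 Pk D' E)) -
        (B x y - B0 Pk D E) - (B x' y - B0 Pk D' E) := by ring
    rw [h4]
    refine (abs_sub _ _).trans (add_le_add ?_ e3)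
    exact (abs_sub _ _).trans (add_le_add e1 e2)
  · obtain ⟨K, hK⟩ := hB (2 * N0)
    refine ⟨K + K, fun x y => ?_⟩
    have h1 : Disj (R1 x) (R2 x y) := hdisj fun P hP => hrS _ _ P hP
    have e1 := hK (R1 x) (R2 x y) x y (hrG _ _) (hrG _ _) h1
      (by rw [hrd]; push_cast; omega) (by rw [hrd]; push_cast; omega) (hrc _ _) (hrc _ _)
    have e2 := hK (R2 x y) (R1 x) y x (hrG _ _) (hrG _ _) h1.symm
      (by rw [hrd]; push_cast; omega) (by rw [hrd]; push_cast; omega) (hrc _ _) (hrc _ _)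
    rw [B0_symm Pk (R2 x y) (R1 x)] at e2
    have h4 : B x y - B y x = (B x y - B0 Pk (R1 x) (R2 x y)) -
        (B y x - B0 Pk (R1 x) (R2 x y)) := by ring
    rw [h4]
    exact (abs_sub _ _).trans (add_le_add e1 e2)

end Fermat.Agent.MW
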