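import Mathlib
import Fermat.Agent.MW.Gen
import Fermat.Agent.MW.DerC

/-!
# Positivity of the height, linear algebra: non special divisors
-/

set_option autoImplicit false
set_option linter.unusedSectionVars false

noncomputable section

namespace Fermat.Agent.MW

open AlgebraicCurve Module Fermat.Agent.Flat Fermat.Agent.FunField

variable {k F : Type*} [Field k] [Field F] [Algebra k F] [IsAlgClosed k] {g C : ℤ}

section Pd

/-- the divisor of a family of points -/
def pd {r : ℕ} (P : Fin r → Place k F) : Divisor k F := ∑ j, Finsupp.single (P j) (1 : ℤ)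

variable {r : ℕ} {P : Fin r → Place k F}

theorem pd_apply (v : Place k F) : pd P v = ∑ j, (Finsupp.single (P j) (1 : ℤ) : Divisor k F) v := by
  rw [pd, Finsupp.finset_sum_apply]

theorem pd_self (hP : Function.Injective P) (j : Fin r) : pd P (P j) = 1 := by
  classical
  rw [pd_apply, Finset.sum_eq_single j]
  · rw [Finsupp.single_eq_same]
  · intro b _ hb
    rw [Finsupp.single_apply, if_neg fun h => hb (hP h)]
  · intro h
    exact absurd (Finset.mem_univ j) h

theorem pd_other {v : Place k F} (hv : ∀ j, P j ≠ v) : pd P v = 0 := by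
  classical
  rw [pd_apply]
  refine Finset.sum_eq_zero fun j _ => ?_
  rw [Finsupp.single_apply, if_neg (hv j)]

theorem pd_nonneg : 0 ≤ pd P := Finset.sum_nonneg fun j _ => single_nonneg' (P j)

theorem dg_pd : dg (pd P) = r := by
  rw [pd, map_sum, Finset.sum_congr rfl fun j _ => dg_single (P j) 1]
  simp

theorem pd_cases (hP : Function.Injective P) (v : Place k F) :
    (∃ j, P j = v ∧ pd P v = 1) ∨ ((∀ j, P j ≠ v) ∧ pd P v = 0) := by
  by_cases h : ∃ j, P j = v
  · obtain ⟨j, rfl⟩ := h
    exact Or.inl ⟨j, rfl, pd_self hP j⟩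
  · push Not at h
    exact Or.inr ⟨h, pd_other h⟩

end Pd

variable (hC : Flat.Crv k F g C)

include hC

theorem ll_le_add {D D' : Divisor k F} (hle : D ≤ D') :
    (ll D' : ℤ) ≤ ll D + (dg D' - dg D) := by
  have := finrank_le_of_le hC.rat hle (hC.fd D)
  unfold ll
  omega

/-- special divisors -/
theorem ll_le_of_special {K D : Divisor k F} {φ : F} (hφ0 : φ ≠ 0)
    (hφ : φ ∈ riemannRochSpace (K - D)) : (ll K : ℤ) ≤ ll D + (dg K - dg D) := by
  have h1 : D ≤ K + dv φ := by
    intro v
    have := (mem_L' hφ0).mp hφ v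
    rw [Finsupp.add_apply, dv_apply (hC.fin φ)]
    rw [Finsupp.sub_apply] at this
    omega
  have h2 := ll_le_add hC h1
  rw [ll_add_dv hC K hφ0, map_add, hC.deg0 φ hφ0, add_zero] at h2
  exact h2

/-- The values of a basis of the space of differentials at the points of a non special divisor. -/
theorem det_ne_zero {K : Divisor k F} (hKd : dg K = 2 * g - 2) (hKr : (ll K : ℤ) = g) {r : ℕ}
    (hr : (r : ℤ) = g) (φ : Basis (Fin r) k (riemannRochSpace K)) {P : Fin r → Place k F}
    (hP : Function.Injective P) (hK0 : ∀ j, K (P j) = 0) (hD : ll (pd P) = 1) :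
    (Matrix.of fun a j => evp (P j) (φ a : F)).det ≠ 0 := by
  classical
  intro hdet
  obtain ⟨c, hc0, hc⟩ := Matrix.exists_vecMul_eq_zero_iff.mpr hdet
  set f : riemannRochSpace K := ∑ a, c a • φ a with hf
  have hf0 : f ≠ 0 := by
    intro h
    apply hc0
    funext a
    exact Fintype.linearIndependent_iff.mp φ.linearIndependent c h a
  have hf0' : (f : F) ≠ 0 := fun h => hf0 (Subtype.ext h)
  have hmem : ∀ (z : riemannRochSpace K) (j : Fin r), (z : F) ∈ (P j).toValuationSubring := by
    intro z j
    rcases mem_L.mp z.2 (P j) with h | h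
    · rw [h]
      exact zero_mem _
    · rw [hK0 j, neg_zero] at h
      exact mem_of_ord_nonneg _ h
  have hval : ∀ j, evp (P j) (f : F) = 0 := by
    intro j
    have h1 := congrFun hc j
    have h2 : (f : F) = ∑ a, c a • (φ a : F) := by
      rw [hf]
      push_cast
      rfl
    rw [h2, evp_sum (hC.rat _) _ _ fun a _ => by
      have := hmem (c a • φ a) j
      exact this]
    rw [Pi.zero_apply, Matrix.vecMul, dotProduct] at h1
    rw [← h1]
    exact Finset.sum_congr rfl fun a _ => evp_smul (hC.rat _) _ (hmem _ _)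
  have hL : (f : F) ∈ riemannRochSpace (K - pd P) := by
    rw [mem_L' hf0']
    intro v
    rw [Finsupp.sub_apply]
    have h1 := (mem_L' hf0').mp f.2 v
    rcases pd_cases hP v with ⟨j, rfl, h2⟩ | ⟨-, h2⟩
    · have h3 := (evp_eq_zero_iff (hC.rat _) (hmem f j)).mp (hval j)
      have h4 := h3.resolve_left hf0'
      rw [h2, hK0 j]
      omega
    · rw [h2]
      omega
  have h5 := ll_le_of_special hC hf0' hL
  rw [dg_pd, hKr, hKd, hD, hr] at h5
  omega

/-- The canonical divisor has no base point at infinity. -/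
theorem exists_ord_inf {K : Divisor k F} (hKd : dg K = 2 * g - 2) (hKr : (ll K : ℤ) = g)
    {r : ℕ} (hr : (r : ℤ) = g) (hr0 : 0 < r) {P : Fin r → Place k F}
    (hP : Function.Injective P) (hD : ll (pd P) = 1) {w : Place k F} (hw : ∀ j, P j ≠ w) :
    ∃ φ ∈ riemannRochSpace K, φ ≠ 0 ∧ w.ord φ = -K w := by
  classical
  by_contra hcon
  push Not at hcon
  set j0 : Fin r := ⟨0, hr0⟩
  set D1 : Divisor k F := pd P - Finsupp.single (P j0) 1 with hD1
  have hD1' : 0 ≤ D1 := by
    intro v
    rw [hD1, Finsupp.sub_apply, Finsupp.zero_apply, Finsupp.single_apply]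
    split_ifs with h
    · rw [← h, pd_self hP]
      omega
    · have := pd_nonneg (P := P) v
      rw [Finsupp.zero_apply] at this
      omega
  have hD1l : ll D1 ≤ 1 := by
    rw [← hD]
    exact ll_mono hC (by
      rw [hD1, sub_le_self_iff]
      exact single_nonneg' _)
  have hD1w : D1 w = 0 := by
    rw [hD1, Finsupp.sub_apply, pd_other hw, Finsupp.single_apply, if_neg (hw j0), sub_zero]
  have hdg1 : dg D1 = g - 1 := by rw [hD1, map_sub, dg_pd, dg_single, hr]
  -- a differential vanishing on `D1`
  have h1 : (ll K : ℤ) ≤ ll (K - D1) + (dg K - dg (K - D1)) :=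
    ll_le_add hC (by rw [sub_le_self_iff]; exact hD1')
  rw [hKr, map_sub, hdg1] at h1
  obtain ⟨φ, hφ, hφ0⟩ := exists_mem_of_ll hC (E := K - D1) (by omega)
  have hφK : φ ∈ riemannRochSpace K := L_mono (by rw [sub_le_self_iff]; exact hD1') hφ
  have hwK := hcon
  have hsub : riemannRochSpace K ≤ riemannRochSpace (K - Finsupp.single w 1) := by
    intro z hz
    by_cases hz0 : z = 0
    · rw [hz0]
      exact zero_mem _
    rw [mem_L' hz0]
    intro v
    have h2 := (mem_L' hz0).mp hz v
    rw [Finsupp.sub_apply, Finsupp.single_apply]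
    split_ifs with h
    · subst h
      have h3 := hcon z hz hz0
      omega
    · omega
  have hKw : (ll (K - Finsupp.single w 1) : ℤ) = g := by
    apply le_antisymm
    · rw [← hKr]
      exact_mod_cast ll_mono hC (by rw [sub_le_self_iff]; exact single_nonneg' _)
    · rw [← hKr]
      have h3 := hC.fd (K - Finsupp.single w 1)
      exact_mod_cast Submodule.finrank_mono hsub
  have hφ' : φ ∈ riemannRochSpace (K - Finsupp.single w 1 - D1) := by
    rw [mem_L' hφ0]
    intro v
    have h2 := (mem_L' hφ0).mp hφ v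
    have h3 := (mem_L' hφ0).mp (hsub hφK) v
    rw [Finsupp.sub_apply] at h2 h3 ⊢
    rw [Finsupp.sub_apply]
    by_cases h : v = w
    · subst h
      rw [hD1w]
      omega
    · rw [Finsupp.single_apply, if_neg (Ne.symm h)] at h3 ⊢
      omega
  have h4 := ll_le_of_special hC hφ0 hφ'
  rw [hKw, hdg1, map_sub, dg_single, hKd] at h4
  omega

end Fermat.Agent.MW
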