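import Mathlib
import Fermat.Agent.MW.PosA
import Fermat.Agent.MW.PairDef
import Fermat.Agent.MW.Inst

/-!
# Positivity of the height, Galois action
-/

set_option autoImplicit false
set_option linter.unusedSectionVars false

noncomputable section

namespace Fermat.Agent.MW

open AlgebraicCurve Module Fermat.Agent.Flat Fermat.Agent.FunField

local notation "Qb" => AlgebraicClosure ℚ
local notation "GQ" => (AlgebraicClosure ℚ ≃ₐ[ℚ] AlgebraicClosure ℚ)

variable {F : Type*} [Field F] [Algebra Qb F] {g C : ℤ}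

theorem smul_smulF (s : SemilinearAut Qb F) (a : Qb) (z : F) :
    s • (a • z) = SemilinearAut.baseAut s a • (s • z) := by
  rw [Algebra.smul_def, Algebra.smul_def, smul_mul', SemilinearAut.smul_algebraMap]

/-- derivations are determined by their value at `x` -/
theorem XD.der_unique (X : XD Qb F g C) {δ : Derivation Qb F F} (h : δ X.x = 1) (z : F) :
    δ z = X.D z := by
  have := X.sep.sep
  obtain ⟨δ₀, -, h0⟩ := exists_derivation (F := F) X.sep.trans
  have key : ∀ δ : Derivation Qb F F, δ X.x = 1 → δ z = δ₀ z := by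
    intro δ h
    have h1 := congrArg δ.liftKaehlerDifferential (h0 z)
    rw [map_smul, Derivation.liftKaehlerDifferential_comp_D,
      Derivation.liftKaehlerDifferential_comp_D, smul_eq_mul, h, mul_one] at h1
    exact h1
  rw [key δ h, key X.D X.D_x]

/-- the conjugate of a derivation -/
def twD (s : SemilinearAut Qb F) (δ : Derivation Qb F F) : Derivation Qb F F :=
  Derivation.mk'
    { toFun := fun z => s⁻¹ • δ (s • z)
      map_add' := fun x y => by rw [smul_add, map_add, smul_add]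
      map_smul' := fun a z => by
        rw [smul_smulF, Derivation.map_smul, smul_smulF, SemilinearAut.baseAut_inv,
          RingEquiv.symm_apply_apply]
        rfl }
    fun x y => by
      change s⁻¹ • δ (s • (x * y)) = x • (s⁻¹ • δ (s • y)) + y • (s⁻¹ • δ (s • x))
      rw [smul_mul', Derivation.leibniz, smul_add, smul_eq_mul, smul_eq_mul, smul_mul', smul_mul',
        inv_smul_smul, inv_smul_smul, smul_eq_mul, smul_eq_mul]

variable {X : XD Qb F g C} {γ : GQ →* SemilinearAut Qb F} {H : Subgroup GQ} (hG : GalX X γ H)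

include hG

theorem GalX.smul_D {σ : GQ} (hσ : σ ∈ H) (z : F) : γ σ • X.D z = X.D (γ σ • z) := by
  have h1 : twD (γ σ) X.D X.x = 1 := by
    change (γ σ)⁻¹ • X.D (γ σ • X.x) = 1
    rw [hG.fx σ hσ, X.D_x, smul_one]
  have h2 := X.der_unique h1 z
  change (γ σ)⁻¹ • X.D (γ σ • z) = X.D z at h2
  rw [← h2, smul_inv_smul]

theorem GalX.ord_smul' (σ : GQ) (v : Place Qb F) (z : F) :
    (γ σ • v).ord (γ σ • z) = v.ord z := SemilinearAut.ord_smul _ _ _

theorem GalX.evp_smul (σ : GQ) {v : Place Qb F} {z : F} (hz : z ∈ v.toValuationSubring) :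
    evp (γ σ • v) (γ σ • z) = σ (evp v z) := by
  rw [rational_smul (γ σ) (X.crv.rat v) hz, hG.base]

/-- the canonical divisor is stable -/
theorem GalX.smul_K (c : Can X) {σ : GQ} (hσ : σ ∈ H) : γ σ • c.K = c.K := by
  ext w
  rw [SemilinearAut.divisor_smul_apply]
  obtain ⟨π, hπ⟩ := XD.exists_unif ((γ σ)⁻¹ • w)
  have h1 := c.hK _ π hπ
  have h2 : w.ord (γ σ • π) = 1 := by
    have := SemilinearAut.ord_smul (γ σ) ((γ σ)⁻¹ • w) π
    rw [smul_inv_smul] at this
    rw [this, hπ]
  have h3 := c.hK _ _ h2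
  rw [← hG.smul_D hσ] at h3
  have h4 := SemilinearAut.ord_smul (γ σ) ((γ σ)⁻¹ • w) (X.D π)
  rw [smul_inv_smul] at h4
  omega

omit hG in
/-- the permutation of the points -/
theorem exists_perm {r : ℕ} {P : Fin r → Place Qb F} (hP : Function.Injective P)
    {s : SemilinearAut Qb F} (hs : s • pd P = pd P) :
    ∃ π : Equiv.Perm (Fin r), ∀ j, s • P j = P (π j) := by
  have h1 : ∀ j, ∃ i, s • P j = P i := by
    intro j
    rcases pd_cases hP (s • P j) with ⟨i, hi, -⟩ | ⟨-, h⟩
    · exact ⟨i, hi.symm⟩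
    · rw [← hs, SemilinearAut.divisor_smul_apply_smul, pd_self hP] at h
      exact absurd h one_ne_zero
  choose f hf using h1
  have hinj : Function.Injective f := by
    intro a b hab
    have h2 : s • P a = s • P b := by rw [hf, hf, hab]
    exact hP (MulAction.injective s h2)
  exact ⟨Equiv.ofBijective f (Finite.injective_iff_bijective.mp hinj), hf⟩

/-- norms of functions are fixed -/
theorem GalX.prod_fixed {r : ℕ} {P : Fin r → Place Qb F} (hP : Function.Injective P)
    {σ : GQ} (hs : γ σ • pd P = pd P) {z : F} (hz : γ σ • z = z)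
    (hreg : ∀ j, z ∈ (P j).toValuationSubring) :
    σ (∏ j, evp (P j) z) = ∏ j, evp (P j) z := by
  obtain ⟨π, hπ⟩ := exists_perm hP hs
  rw [map_prod, ← Equiv.prod_comp π fun j => evp (P j) z]
  refine Finset.prod_congr rfl fun j _ => ?_
  rw [← hG.evp_smul σ (hreg j), hz, hπ]

/-- squares of determinants are fixed -/
theorem GalX.det_fixed {r : ℕ} {P : Fin r → Place Qb F} (hP : Function.Injective P)
    {σ : GQ} (hs : γ σ • pd P = pd P) {φ : Fin r → F} (hφ : ∀ a, γ σ • φ a = φ a)
    (hreg : ∀ a j, φ a ∈ (P j).toValuationSubring) :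
    σ ((Matrix.of fun a j => evp (P j) (φ a)).det ^ 2) =
      (Matrix.of fun a j => evp (P j) (φ a)).det ^ 2 := by
  obtain ⟨π, hπ⟩ := exists_perm hP hs
  have h1 : σ (Matrix.of fun a j => evp (P j) (φ a)).det =
      ((Matrix.of fun a j => evp (P j) (φ a)).submatrix id π).det := by
    have h2 := RingHom.map_det (σ : Qb →+* Qb) (Matrix.of fun a j => evp (P j) (φ a))
    refine h2.trans ?_
    congr 1
    ext a j
    change σ (evp (P j) (φ a)) = evp (P (π j)) (φ a)
    rw [← hG.evp_smul σ (hreg a j), hφ, hπ]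
  rw [map_pow, h1, Matrix.det_permute', mul_pow]
  have h3 : ((Equiv.Perm.sign π : ℤˣ) : ℤ) ^ 2 = 1 := by
    rw [← Units.val_pow_eq_pow_val, Int.units_sq, Units.val_one]
  have h4 : (((Equiv.Perm.sign π : ℤˣ) : ℤ) : Qb) ^ 2 = 1 := by exact_mod_cast congrArg (Int.cast (R := Qb)) h3
  rw [h4, one_mul]

/-- leading coefficients are fixed -/
theorem GalX.lc_fixed {σ : GQ} (hσ : σ ∈ H) {z : F} (hz : γ σ • z = z)
    (hreg : z ∈ X.inf.toValuationSubring) : σ (evp X.inf z) = evp X.inf z := by
  rw [← hG.evp_smul σ hreg, hz, hG.smul_inf hσ]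

/-- a basis of fixed elements -/
theorem GalX.exists_fixed_basis (W : Submodule Qb F) [FiniteDimensional Qb W]
    (hW : ∀ σ ∈ H, ∀ f ∈ W, γ σ • f ∈ W) {r : ℕ} (hr : finrank Qb W = r) :
    ∃ φ : Basis (Fin r) Qb W, ∀ a, ∀ σ ∈ H, γ σ • (φ a : F) = φ a := by
  subst hr
  set S : Set W := {f | ∀ σ ∈ H, γ σ • (f : F) = f} with hS
  have hspan : Submodule.span Qb S = ⊤ := by
    rw [eq_top_iff]
    intro f _
    have h1 := hG.span_fixed W hW f.2
    have h2 : Submodule.span Qb {f | f ∈ W ∧ ∀ σ ∈ H, γ σ • f = f} =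
        (Submodule.span Qb S).map W.subtype := by
      rw [Submodule.map_span]
      congr 1
      ext z
      constructor
      · rintro ⟨hz1, hz2⟩
        exact ⟨⟨z, hz1⟩, hz2, rfl⟩
      · rintro ⟨z, hz, rfl⟩
        exact ⟨z.2, hz⟩
    rw [h2] at h1
    obtain ⟨z, hz, hzf⟩ := h1
    have : z = f := Subtype.ext hzf
    rwa [← this]
  obtain ⟨f, hf1, hf2, hf3⟩ := Submodule.exists_fun_fin_finrank_span_eq Qb S
  have hfr : Set.finrank Qb S = finrank Qb W := by
    rw [Set.finrank, hspan, finrank_top]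
  let b := Basis.mk hf3 (hf2.trans hspan).ge
  refine ⟨b.reindex (finCongr hfr), fun a σ hσ => ?_⟩
  rw [Basis.reindex_apply, Basis.mk_apply]
  exact hf1 _ σ hσ

end Fermat.Agent.MW
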