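import Fermat.Agent.MW.Kan2

/-!
# The lower bound for a fixed differential
-/

set_option autoImplicit false
set_option linter.unusedSectionVars false
set_option linter.unusedVariables false

noncomputable section

namespace Fermat.Agent.MW

open AlgebraicCurve Module Fermat.Agent.Flat Fermat.Agent.FunField WithZero

variable {k F : Type*} [Field k] [Field F] [Algebra k F] [IsAlgClosed k] [CharZero k]
  {g C : ℤ} {V : AV k} {X : XD k F g C}

/-- Fixed nonzero vectors have norm bounded below. -/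
theorem kan_exists_nrm_low (V : AV k) {r : ℕ} {c : Fin r → k} (hc : c ≠ 0) :
    ∃ Cs : MC V.ι, ∀ i, -Real.log (Cs.c i) ≤ Real.log (nrm V i c) := by
  obtain ⟨j, hj⟩ := Function.ne_iff.1 hc
  obtain ⟨Cs, hCs⟩ := V.exists_bound (c j)⁻¹
  refine ⟨Cs, fun i => ?_⟩
  have h1 := hCs i
  rw [map_inv₀] at h1
  have h2 : 0 < V.v i (c j) := (V.v i).pos hj
  rw [← Real.log_inv]
  refine Real.log_le_log (inv_pos.2 (Cs.pos i)) ?_
  refine le_trans ?_ (kan_le_nrm V i c j)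
  rw [inv_le_comm₀ (Cs.pos i) h2]
  exact h1

/-- Fixed vectors are bounded. -/
theorem kan_exists_nrm_up (V : AV k) {r : ℕ} (c : Fin r → k) :
    ∃ Cs : MC V.ι, ∀ i, nrm V i c ≤ Cs.c i := by
  choose C1 h1 using fun j => V.exists_bound (c j)
  obtain ⟨E, hE⟩ := MC.exists_ge_fintype C1
  exact ⟨E, fun i => kan_nrm_le_of V (E.pos i).le fun j => (h1 j i).trans (hE j i)⟩

theorem XD.kan_exists_coord (X : XD k F g C) {m : ℕ} {f : F} (hf : f ∈ X.L m) :
    ∃ c, X.elt m c = f := by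
  refine ⟨(X.b m).equivFun ⟨f, hf⟩, ?_⟩
  rw [X.kan_elt_eq, LinearEquiv.symm_apply_apply]

/-- **Klow.** The lower bound for a fixed differential. -/
theorem Can.Klow (Kn : Can X) (Pk : Pkg V X) {φ : F} (hφ : φ ∈ riemannRochSpace Kn.K)
    (hφ0 : φ ≠ 0) (hinf : X.inf.ord φ = -Kn.K X.inf) : ∃ Cs : MC V.ι, ∀ i Q, X.Unr Q →
      Q.ord φ = 0 → Real.log (Pk.kap i Q) + Pk.ls i Q (dv φ + Kn.K) ≤
        Real.log (Cs.c i) + Real.log (V.v i (evp Q φ)) := by
  classical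
  obtain ⟨A⟩ := Kn.exists_aux
  -- the functions `φ e_j`
  have hmem : ∀ j, φ * A.e j ∈ X.L A.m := by
    intro j
    have h6 := mul_mem_L hφ (A.mem j)
    rwa [add_sub_cancel] at h6
  choose c hc using fun j => X.kan_exists_coord (hmem j)
  have hne : ∀ j, φ * A.e j ≠ 0 := fun j => mul_ne_zero hφ0 (A.ne j)
  have hc0 : ∀ j, c j ≠ 0 := by
    intro j h0
    apply hne j
    rw [← hc, h0]
    simp [XD.elt]
  have hord : ∀ j, X.inf.ord (φ * A.e j) = -((A.m * X.n0 : ℕ) : ℤ) := by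
    intro j
    rw [X.inf.ord_mul hφ0 (A.ne j), hinf, A.inf]
    ring
  obtain ⟨C1, h1⟩ := Pk.lt A.m
  choose C2 h2 using fun j => kan_exists_nrm_low V (hc0 j)
  obtain ⟨E2, hE2⟩ := MC.exists_ge_fintype C2
  -- the functions `W e_j`
  choose w hw using fun (t : Fin (X.d Pk.m1) × Fin (X.d Pk.m1) × Fin A.n) =>
    X.kan_exists_coord (A.We_mem Pk.m1 t.1 t.2.1 t.2.2)
  choose C3 h3 using fun t => kan_exists_nrm_up V (w t)
  obtain ⟨E3, hE3⟩ := MC.exists_ge_fintype C3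
  obtain ⟨C4, h4⟩ := Pk.UB (A.m + 2 * Pk.m1)
  obtain ⟨C5, h5⟩ := Pk.kap_le
  refine ⟨(C1 * E2) * (C5 * (C4 * E3)), fun i Q hQ hQφ => ?_⟩
  obtain ⟨j, hj⟩ := A.ex Q
  rw [Finsupp.sub_apply, X.dm_ne _ hQ.1, Kn.K_unr hQ, sub_zero, neg_zero] at hj
  -- the divisor of `e_j`
  set Zj : Divisor k F := dv (A.e j) + (X.dm A.m - Kn.K) with hZj
  have hZj_apply : ∀ P, Zj P = P.ord (A.e j) + (X.dm A.m - Kn.K) P := by
    intro P
    rw [hZj, Finsupp.add_apply, dv_apply (X.crv.fin _)]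
  have hZj0 : 0 ≤ Zj := by
    intro P
    rw [hZj_apply, Finsupp.zero_apply]
    have := (mem_L' (A.ne j)).1 (A.mem j) P
    omega
  have hZji : Zj X.inf = 0 := by
    rw [hZj_apply, A.inf, Finsupp.sub_apply, X.dm_inf]
    ring
  have hZjQ : Zj Q = 0 := by
    rw [hZj_apply, hj, Finsupp.sub_apply, X.dm_ne _ hQ.1, Kn.K_unr hQ]
    ring
  have hzs : X.zs (φ * A.e j) = (dv φ + Kn.K) + Zj := by
    ext P
    rw [Finsupp.add_apply, hZj_apply, Finsupp.add_apply, dv_apply (X.crv.fin _)]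
    by_cases hP : P = X.inf
    · rw [hP, X.kan_zs_inf, hinf, A.inf, Finsupp.sub_apply, X.dm_inf]
      ring
    · rw [X.kan_zs_apply _ hP, P.ord_mul hφ0 (A.ne j), Finsupp.sub_apply, X.dm_ne _ hP]
      ring
  -- the lower bound for `φ e_j`
  have hQm := Kn.mem_unr hφ hQ
  have hQe := A.mem_unr_e j hQ
  have hevφ : evp Q φ ≠ 0 := by
    intro h0
    rw [evp_eq_zero_iff (X.crv.rat Q) hQm] at h0
    rcases h0 with h0 | h0
    · exact hφ0 h0
    · omega
  have heve : evp Q (A.e j) ≠ 0 := by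
    intro h0
    rw [evp_eq_zero_iff (X.crv.rat Q) hQe] at h0
    rcases h0 with h0 | h0
    · exact A.ne j h0
    · omega
  have hl1 := (abs_le.1 (h1 i (c j) (by rw [hc, hord]) Q hQ.1 (by
    rw [hc, Q.ord_mul hφ0 (A.ne j), hQφ, hj, add_zero]))).1
  rw [hc, hzs, evp_mul (X.crv.rat Q) hQm hQe, map_mul,
    Real.log_mul ((V.v i).pos hevφ).ne' ((V.v i).pos heve).ne'] at hl1
  have hl1' : ((dv φ + Kn.K) + Zj).sum (fun P n => (n : ℝ) * Real.log (Pk.dist i P Q)) =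
      Pk.ls i Q (dv φ + Kn.K) + Pk.ls i Q Zj := Pk.ls_add i Q _ _
  rw [hl1'] at hl1
  have hl2 := (neg_le_neg (Real.log_le_log (MC.pos _ i) (hE2 j i))).trans (h2 j i)
  -- the upper bound for `kap e_j`
  obtain ⟨a, b, hab⟩ := h5 i Q hQ
  change Pk.kap i Q * X.sz V i Q ^ (2 * Pk.m1) ≤ C5.c i * V.v i (evp Q (X.W Pk.m1 a b)) at hab
  have hu := h4 i (w (a, b, j)) Zj hZj0 hZji (by
    intro P hP
    rw [hw, hZj_apply]
    have h6 := (Kn.ge_W Pk.m1 a b P).mul (show Ge P (P.ord (A.e j)) (A.e j) from Or.inr le_rfl)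
    refine h6.mono ?_
    rw [Finsupp.sub_apply, X.dm_ne _ hP, X.dm_ne _ hP]
    omega) Q hQ.1 hZjQ
  rw [hw, evp_mul (X.crv.rat Q) (Aux.mem_unr_W a b hQ) hQe, map_mul] at hu
  have hkap := Pk.kap_pos i Q hQ
  have hszp : 0 < X.sz V i Q ^ (2 * Pk.m1) := pow_pos (X.kan_sz_pos i Q) _
  have hszm : 0 < X.sz V i Q ^ A.m := pow_pos (X.kan_sz_pos i Q) _
  have hwn : nrm V i (w (a, b, j)) ≤ E3.c i := (h3 _ i).trans (hE3 _ i)
  have hkey : Pk.kap i Q * V.v i (evp Q (A.e j)) ≤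
      (C5 * (C4 * E3)).c i * X.sz V i Q ^ A.m * Real.exp (Pk.ls i Q Zj) := by
    refine le_of_mul_le_mul_right ?_ hszp
    calc Pk.kap i Q * V.v i (evp Q (A.e j)) * X.sz V i Q ^ (2 * Pk.m1)
        = Pk.kap i Q * X.sz V i Q ^ (2 * Pk.m1) * V.v i (evp Q (A.e j)) := by ring
      _ ≤ C5.c i * V.v i (evp Q (X.W Pk.m1 a b)) * V.v i (evp Q (A.e j)) :=
          mul_le_mul_of_nonneg_right hab ((V.v i).nonneg _)
      _ = C5.c i * (V.v i (evp Q (X.W Pk.m1 a b)) * V.v i (evp Q (A.e j))) := by ring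
      _ ≤ C5.c i * (C4.c i * nrm V i (w (a, b, j)) * X.sz V i Q ^ (A.m + 2 * Pk.m1) *
            Real.exp (Pk.ls i Q Zj)) := mul_le_mul_of_nonneg_left hu (C5.pos i).le
      _ ≤ C5.c i * (C4.c i * E3.c i * X.sz V i Q ^ (A.m + 2 * Pk.m1) *
            Real.exp (Pk.ls i Q Zj)) := by
          refine mul_le_mul_of_nonneg_left ?_ (C5.pos i).le
          refine mul_le_mul_of_nonneg_right ?_ (Real.exp_pos _).le
          refine mul_le_mul_of_nonneg_right ?_ (pow_nonneg (X.kan_sz_pos i Q).le _)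
          exact mul_le_mul_of_nonneg_left hwn (C4.pos i).le
      _ = (C5 * (C4 * E3)).c i * X.sz V i Q ^ A.m * Real.exp (Pk.ls i Q Zj) *
            X.sz V i Q ^ (2 * Pk.m1) := by
          rw [MC.mul_c, MC.mul_c, pow_add]; ring
  have hkl := Real.log_le_log (mul_pos hkap ((V.v i).pos heve)) hkey
  rw [Real.log_mul hkap.ne' ((V.v i).pos heve).ne',
    Real.log_mul (mul_pos (MC.pos _ i) hszm).ne' (Real.exp_pos _).ne',
    Real.log_mul (MC.pos _ i).ne' hszm.ne', Real.log_exp, Real.log_pow] at hkl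
  rw [MC.mul_c (C1 * E2), Real.log_mul (MC.pos _ i).ne' (MC.pos _ i).ne', MC.mul_c C1,
    Real.log_mul (MC.pos _ i).ne' (MC.pos _ i).ne']
  linarith

end Fermat.Agent.MW
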