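import Mathlib
import Fermat.Agent.MW.PosA
import Fermat.Agent.MW.Kan3
import Fermat.Agent.MW.PairDef

/-!
# Positivity of the height, the local inequality
-/

set_option autoImplicit false
set_option linter.unusedSectionVars false

noncomputable section

namespace Fermat.Agent.MW

open AlgebraicCurve Module Fermat.Agent.Flat Fermat.Agent.FunField

section tri

/-- symmetric double sums -/
theorem sum_ne_eq {r : ℕ} (a : Fin r → Fin r → ℝ) (ha : ∀ i j, a i j = a j i) :
    ∑ j, ∑ l ∈ Finset.univ.erase j, a l j =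
      2 * ∑ j, ∑ l ∈ Finset.univ.filter (fun l => l < j), a l j := by
  classical
  have h1 : ∀ j : Fin r, ∑ l ∈ Finset.univ.erase j, a l j =
      ∑ l ∈ Finset.univ.filter (fun l => l < j), a l j +
        ∑ l ∈ Finset.univ.filter (fun l => j < l), a l j := by
    intro j
    rw [← Finset.sum_union]
    · refine Finset.sum_congr ?_ fun _ _ => rfl
      ext l
      simp only [Finset.mem_erase, Finset.mem_univ, and_true, Finset.mem_union,
        Finset.mem_filter, true_and]
      exact ne_iff_lt_or_gt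
    · rw [Finset.disjoint_filter]
      intro l _ h h'
      exact absurd (h.trans h') (lt_irrefl _)
  rw [Finset.sum_congr rfl fun j _ => h1 j, Finset.sum_add_distrib, two_mul]
  congr 1
  simp only [Finset.sum_filter]
  rw [Finset.sum_comm]
  refine Finset.sum_congr rfl fun l _ => Finset.sum_congr rfl fun j _ => ?_
  rw [ha]

end tri

variable {k F : Type*} [Field k] [Field F] [Algebra k F] [IsAlgClosed k] [CharZero k] {g C : ℤ}
  {V : AV k} {X : XD k F g C}

section hxi

/-- the local height -/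
def hxi (V : AV k) (X : XD k F g C) (i : V.ι) (D : Divisor k F) : ℝ :=
  D.sum fun P n => (n : ℝ) * Real.log (X.sz V i P)

theorem hx_eq (V : AV k) (X : XD k F g C) (D : Divisor k F) : hx V X D = ∑ᶠ i, hxi V X i D := rfl

theorem hxi_add (i : V.ι) (D E : Divisor k F) : hxi V X i (D + E) = hxi V X i D + hxi V X i E := by
  unfold hxi
  rw [Finsupp.sum_add_index' (by simp) (by intros; push_cast; ring)]

theorem hxi_single (i : V.ι) (P : Place k F) :
    hxi V X i (Finsupp.single P 1) = Real.log (X.sz V i P) := by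
  unfold hxi
  rw [Finsupp.sum_single_index (by simp)]
  simp

theorem hxi_sum (i : V.ι) {α : Type*} (s : Finset α) (P : α → Place k F) :
    hxi V X i (∑ l ∈ s, Finsupp.single (P l) 1) = ∑ l ∈ s, Real.log (X.sz V i (P l)) := by
  classical
  induction s using Finset.induction_on with
  | empty => simp [hxi]
  | insert a s ha ih => rw [Finset.sum_insert ha, Finset.sum_insert ha, hxi_add, hxi_single, ih]

theorem ls_single (Pk : Pkg V X) (i : V.ι) (Q P : Place k F) :
    Pk.ls i Q (Finsupp.single P 1) = Real.log (Pk.dist i P Q) := by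
  unfold Pkg.ls
  rw [Finsupp.sum_single_index (by simp)]
  simp

theorem ls_zero (Pk : Pkg V X) (i : V.ι) (Q : Place k F) : Pk.ls i Q 0 = 0 := by
  simp [Pkg.ls]

theorem ls_sum (Pk : Pkg V X) (i : V.ι) (Q : Place k F) {α : Type*} (s : Finset α)
    (P : α → Place k F) :
    Pk.ls i Q (∑ l ∈ s, Finsupp.single (P l) 1) = ∑ l ∈ s, Real.log (Pk.dist i (P l) Q) := by
  classical
  induction s using Finset.induction_on with
  | empty => rw [Finset.sum_empty, Finset.sum_empty, ls_zero]
  | insert a s ha ih => rw [Finset.sum_insert ha, Finset.sum_insert ha, Pk.ls_add, ls_single, ih]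

theorem pd_erase {r : ℕ} {P : Fin r → Place k F} (hP : Function.Injective P) (j : Fin r) :
    (pd P).erase (P j) = ∑ l ∈ Finset.univ.erase j, Finsupp.single (P l) (1 : ℤ) := by
  classical
  have h1 : pd P = Finsupp.single (P j) 1 + ∑ l ∈ Finset.univ.erase j, Finsupp.single (P l) 1 := by
    rw [pd, Finset.add_sum_erase _ (fun l => Finsupp.single (P l) (1 : ℤ)) (Finset.mem_univ j)]
  have h2 : (∑ l ∈ Finset.univ.erase j, Finsupp.single (P l) (1 : ℤ) : Divisor k F) (P j) = 0 := by
    rw [Finsupp.finset_sum_apply]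
    refine Finset.sum_eq_zero fun l hl => ?_
    rw [Finsupp.single_apply, if_neg fun h => (Finset.ne_of_mem_erase hl) (hP h)]
  rw [h1, Finsupp.erase_add, Finsupp.erase_single, zero_add]
  exact Finsupp.erase_of_notMem_support (by simpa using h2)

end hxi

/-- **The local inequality.** -/
theorem exists_local (Pk : Pkg V X) (Kn : Can X) {r : ℕ}
    (B : Basis (Fin r) k (riemannRochSpace Kn.K)) (m : ℕ) {φ : F}
    (hφ : φ ∈ riemannRochSpace Kn.K) (hφ0 : φ ≠ 0) (hφi : X.inf.ord φ = -Kn.K X.inf) :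
    ∃ Cs : MC V.ι, ∀ (i : V.ι) (P : Fin r → Place k F) (E : Divisor k F)
      (c : Fin (X.d m) → k), Function.Injective P → (∀ j, X.Unr (P j)) → (∀ j, E (P j) = 0) →
      X.inf.ord (X.elt m c) = -((m * X.n0 : ℕ) : ℤ) → X.zs (X.elt m c) = pd P + E →
      (∀ j, (P j).ord φ = 0) → (Matrix.of fun a j => evp (P j) (B a : F)).det ≠ 0 →
      (∀ j, evp (P j) (X.D (X.elt m c)) ≠ 0) →
      ((r : ℝ) + X.n0 * m) * hxi V X i (pd P) + r * hxi V X i E +
          X.n0 * ∑ j, Pk.ls i (P j) E + X.n0 * ∑ j, Pk.ls i (P j) (dv φ + Kn.K) ≤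
        Real.log (Cs.c i) + X.n0 * Real.log (V.v i (∏ j, evp (P j) (X.D (X.elt m c)))) -
          r * X.n0 * Real.log (V.v i (evp X.inf (X.elt m c * X.x⁻¹ ^ m))) -
          2 * X.n0 * Real.log (V.v i (Matrix.of fun a j => evp (P j) (B a : F)).det) +
          X.n0 * Real.log (V.v i (∏ j, evp (P j) φ)) := by
  classical
  obtain ⟨C1, h1⟩ := Pk.dt m
  obtain ⟨C2, h2⟩ := Pk.lc m
  obtain ⟨C3, h3⟩ := Kn.N Pk B r
  obtain ⟨C4, h4⟩ := Kn.Klow Pk hφ hφ0 hφi
  refine ⟨C1.pow (X.n0 * r) * C2.pow r * C3.pow (2 * X.n0) * C4.pow (X.n0 * r), ?_⟩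
  intro i P E c hP hunr hE hinf hzs hφP hdet hDA
  set A := X.elt m c with hA
  have hn0 : (0 : ℝ) < X.n0 := by exact_mod_cast X.n0_pos
  have hne : ∀ j, P j ≠ X.inf := fun j => (hunr j).1
  have hV : ∀ {a : k}, a ≠ 0 → 0 < V.v i a := fun ha => (V.v i).pos ha
  -- the derivative estimate
  have e1 : ∀ j, Real.log (nrm V i c) + m * Real.log (X.sz V i (P j)) +
      Real.log (Pk.kap i (P j)) + (∑ l ∈ Finset.univ.erase j, Real.log (Pk.dist i (P l) (P j)) +
        Pk.ls i (P j) E) ≤ Real.log (C1.c i) + Real.log (V.v i (evp (P j) (X.D A))) := by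
    intro j
    have hord : (P j).ord A = 1 := by
      rw [← X.kan_zs_apply A (hne j), hzs, Finsupp.add_apply, pd_self hP, hE, add_zero]
    have h5 := h1 i c hinf (P j) (hunr j) hord
    rw [hzs, Finsupp.erase_add, pd_erase hP,
      Finsupp.erase_of_notMem_support (by simpa using hE j)] at h5
    change _ + Pk.ls i (P j) _ ≤ _ at h5
    rw [Pk.ls_add, ls_sum] at h5
    exact h5
  have e1' := Finset.sum_le_sum fun j (_ : j ∈ (Finset.univ : Finset (Fin r))) => e1 j
  simp only [Finset.sum_add_distrib, Finset.sum_const, Finset.card_univ, Fintype.card_fin,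
    nsmul_eq_mul] at e1'
  rw [sum_ne_eq (fun l j => Real.log (Pk.dist i (P l) (P j))) fun l j => by rw [Pk.symm]] at e1'
  -- the leading coefficient
  have e2 := (abs_le.mp (h2 i c hinf)).1
  have e2' : (X.zs (X.elt m c)).sum (fun P n => (n : ℝ) * Real.log (X.sz V i P)) =
      hxi V X i (pd P) + hxi V X i E := by
    rw [hzs]
    exact hxi_add i _ _
  rw [e2'] at e2
  -- the determinant
  have e3 := h3 i id P hP hunr
  have e3' : Real.log (V.v i (Matrix.of fun a j => evp (P j) (B a : F)).det) ≤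
      Real.log (C3.c i) + ∑ j, Real.log (Pk.kap i (P j)) +
        ∑ j, ∑ l ∈ Finset.univ.filter (fun l => l < j), Real.log (Pk.dist i (P l) (P j)) := by
    have hk : ∀ j, 0 < Pk.kap i (P j) := fun j => Pk.kap_pos i _ (hunr j)
    have hd : ∀ j, ∀ l ∈ Finset.univ.filter (fun l => l < j), 0 < Pk.dist i (P l) (P j) := by
      intro j l hl
      exact Pk.pos i _ _ (hne l) (hne j) fun h => ((Finset.mem_filter.mp hl).2.ne (hP h))
    have h5 := Real.log_le_log (hV hdet) e3
    rw [Real.log_mul (mul_pos (C3.pos i) (Finset.prod_pos fun j _ => hk j)).ne'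
      (Finset.prod_pos fun j _ => Finset.prod_pos (hd j)).ne',
      Real.log_mul (C3.pos i).ne' (Finset.prod_pos fun j _ => hk j).ne',
      Real.log_prod fun j _ => (hk j).ne',
      Real.log_prod fun j _ => (Finset.prod_pos (hd j)).ne'] at h5
    rw [Finset.sum_congr rfl fun j _ => (Real.log_prod fun l hl => (hd j l hl).ne').symm]
    exact h5
  -- the fixed differential
  have e4 := Finset.sum_le_sum fun j (_ : j ∈ (Finset.univ : Finset (Fin r))) =>
    h4 i (P j) (hunr j) (hφP j)
  simp only [Finset.sum_add_distrib, Finset.sum_const, Finset.card_univ, Fintype.card_fin,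
    nsmul_eq_mul] at e4
  have hφne : ∀ j, evp (P j) φ ≠ 0 := fun j => by
    have := (evp_ne_zero_iff (X.crv.rat (P j)) (Kn.mem_unr hφ (hunr j))).mpr ⟨hφ0, hφP j⟩
    exact this
  have l1 : Real.log (V.v i (∏ j, evp (P j) (X.D A))) =
      ∑ j, Real.log (V.v i (evp (P j) (X.D A))) := by
    rw [map_prod, Real.log_prod fun j _ => (hV (hDA j)).ne']
  have l2 : Real.log (V.v i (∏ j, evp (P j) φ)) = ∑ j, Real.log (V.v i (evp (P j) φ)) := by
    rw [map_prod, Real.log_prod fun j _ => (hV (hφne j)).ne']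
  have l3 : Real.log ((C1.pow (X.n0 * r) * C2.pow r * C3.pow (2 * X.n0) *
      C4.pow (X.n0 * r)).c i) = (X.n0 * r) * Real.log (C1.c i) + r * Real.log (C2.c i) +
        (2 * X.n0) * Real.log (C3.c i) + (X.n0 * r) * Real.log (C4.c i) := by
    simp only [MC.mul_c, MC.pow_c]
    rw [Real.log_mul, Real.log_mul, Real.log_mul, Real.log_pow, Real.log_pow, Real.log_pow,
      Real.log_pow]
    · push_cast
      ring
    all_goals first
      | exact (pow_pos (C1.pos i) _).ne'
      | exact (pow_pos (C2.pos i) _).ne'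
      | exact (pow_pos (C3.pos i) _).ne'
      | exact (pow_pos (C4.pos i) _).ne'
      | exact (mul_pos (pow_pos (C1.pos i) _) (pow_pos (C2.pos i) _)).ne'
      | exact (mul_pos (mul_pos (pow_pos (C1.pos i) _) (pow_pos (C2.pos i) _))
          (pow_pos (C3.pos i) _)).ne'
  have l4 : hxi V X i (pd P) = ∑ j, Real.log (X.sz V i (P j)) := hxi_sum i _ P
  rw [← Finset.mul_sum, ← l4, ← l1] at e1'
  rw [← l2] at e4
  rw [l3]
  set N := Real.log (nrm V i c)
  set S1 := hxi V X i (pd P)
  set hEE := hxi V X i E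
  set κ := ∑ j, Real.log (Pk.kap i (P j))
  set T := ∑ j, ∑ l ∈ Finset.univ.filter (fun l => l < j), Real.log (Pk.dist i (P l) (P j))
  set LE := ∑ j, Pk.ls i (P j) E
  set LK := ∑ j, Pk.ls i (P j) (dv φ + Kn.K)
  set a1 := Real.log (V.v i (∏ j, evp (P j) (X.D A)))
  set a4 := Real.log (V.v i (∏ j, evp (P j) φ))
  set lc := Real.log (V.v i (evp X.inf (A * X.x⁻¹ ^ m)))
  set d := Real.log (V.v i (Matrix.of fun a j => evp (P j) (B a : F)).det)
  set c1 := Real.log (C1.c i)
  set c2 := Real.log (C2.c i)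
  set c3 := Real.log (C3.c i)
  set c4 := Real.log (C4.c i)
  have hr0 : (0 : ℝ) ≤ r := Nat.cast_nonneg r
  have f1 := mul_le_mul_of_nonneg_left e1' hn0.le
  have f2 := mul_le_mul_of_nonneg_left e2 hr0
  have f3 := mul_le_mul_of_nonneg_left e3' (by positivity : (0 : ℝ) ≤ 2 * X.n0)
  have f4 := mul_le_mul_of_nonneg_left e4 hn0.le
  nlinarith [f1, f2, f3, f4]

end Fermat.Agent.MW
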