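import Mathlib
import Fermat.Agent.MW.PosB
import Fermat.Agent.MW.PosC
import Fermat.Agent.MW.Pair
import Fermat.Agent.MW.Fin2

/-!
# Positivity of the height, the global inequality
-/

set_option autoImplicit false
set_option linter.unusedSectionVars false

noncomputable section

namespace Fermat.Agent.MW

open AlgebraicCurve Module Fermat.Agent.Flat Fermat.Agent.FunField Function

local notation "Qb" => AlgebraicClosure ℚ
local notation "GQ" => (AlgebraicClosure ℚ ≃ₐ[ℚ] AlgebraicClosure ℚ)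

section gen

variable {k F : Type*} [Field k] [Field F] [Algebra k F] [IsAlgClosed k] [CharZero k] {g C : ℤ}
  {V : AV k} {X : XD k F g C}

theorem lI_pd (Pk : Pkg V X) (i : V.ι) {r : ℕ} (P : Fin r → Place k F) (E : Divisor k F) :
    lI Pk i (pd P) E = -∑ j, Pk.ls i (P j) E := by
  classical
  unfold lI pd
  rw [← Finsupp.sum_finsetSum_index (fun a => by simp) (fun a b₁ b₂ => by
    rw [← Finsupp.sum_add]
    refine Finsupp.sum_congr fun Q _ => ?_
    push_cast
    ring), ← Finset.sum_neg_distrib]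
  refine Finset.sum_congr rfl fun j _ => ?_
  rw [Finsupp.sum_single_index (by simp), Pkg.ls, Finsupp.sum, Finsupp.sum,
    ← Finset.sum_neg_distrib]
  refine Finset.sum_congr rfl fun Q _ => ?_
  rw [Int.cast_one, one_mul, Pk.symm]

theorem exists_pd {D : Divisor k F} (h0 : 0 ≤ D) (h1 : ∀ v, D v ≤ 1) {r : ℕ} (hr : dg D = r) :
    ∃ P : Fin r → Place k F, Injective P ∧ pd P = D ∧ ∀ j, D (P j) ≠ 0 := by
  classical
  have h2 : ∀ v ∈ D.support, D v = 1 := by
    intro v hv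
    have h3 := h0 v
    have h4 := h1 v
    have h5 := Finsupp.mem_support_iff.mp hv
    rw [Finsupp.zero_apply] at h3
    omega
  have h3 : D.support.card = r := by
    rw [dg_apply, Finset.sum_congr rfl h2] at hr
    simpa using hr
  let e := D.support.equivFinOfCardEq h3
  have hinj : Injective fun j => ((e.symm j : D.support) : Place k F) :=
    Subtype.val_injective.comp e.symm.injective
  refine ⟨fun j => ((e.symm j : D.support) : Place k F), hinj, ?_,
    fun j => Finsupp.mem_support_iff.mp (e.symm j).2⟩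
  ext v
  rcases pd_cases hinj v with ⟨j, hj, h4⟩ | ⟨h4, h5⟩
  · rw [h4, ← hj, h2 _ (e.symm j).2]
  · rw [h5]
    by_contra hne
    have h6 : v ∈ D.support := Finsupp.mem_support_iff.mpr (Ne.symm hne)
    apply h4 (e ⟨v, h6⟩)
    simp

end gen

section pf

variable {V : AV Qb}

theorem fs_logv (V : AV Qb) {a : Qb} (ha : a ≠ 0) :
    (support fun i => Real.log (V.v i a)).Finite := by
  refine (V.fin a ha).subset fun i hi h => hi ?_
  change Real.log (V.v i a) = 0
  rw [h, Real.log_one]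

end pf

variable {F : Type*} [Field F] [Algebra Qb F] {g C : ℤ} {X : XD Qb F g C}
  {γ : GQ →* SemilinearAut Qb F} {H : Subgroup GQ}

/-- the auxiliary function -/
theorem GalX.exists_aux (hG : GalX X γ H) {r m : ℕ} (hm : C + 1 ≤ ((m * X.n0 : ℕ) : ℤ) - r)
    {P : Fin r → Place Qb F} (hP : Injective P) (hinf : ∀ j, P j ≠ X.inf)
    (hst : ∀ σ ∈ H, γ σ • pd P = pd P) :
    ∃ (c : Fin (X.d m) → Qb) (E : Divisor Qb F), Gd X γ H E ∧
      dg E = ((m * X.n0 : ℕ) : ℤ) - r ∧ (∀ j, E (P j) = 0) ∧ X.cl E = -X.cl (pd P) ∧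
      X.inf.ord (X.elt m c) = -((m * X.n0 : ℕ) : ℤ) ∧ X.zs (X.elt m c) = pd P + E ∧
      X.elt m c ≠ 0 ∧ ∀ σ ∈ H, γ σ • X.elt m c = X.elt m c := by
  classical
  have hdm : ∀ σ ∈ H, γ σ • X.dm m = X.dm m := by
    intro σ hσ
    rw [XD.dm, SemilinearAut.smul_single, hG.smul_inf hσ]
  obtain ⟨f, hf0, hfix, hnn, hzero⟩ := hG.exists_move (X.dm m - pd P)
    (fun σ hσ => by rw [smul_sub, hdm σ hσ, hst σ hσ])
    (by rw [map_sub, dg_pd, XD.dm, dg_single]; exact hm)
    (insert X.inf (Finset.univ.image P))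
  set E : Divisor Qb F := dv (K := Qb) f + (X.dm m - pd P) with hE
  have hEv : ∀ v, E v = v.ord f + X.dm m v - pd P v := by
    intro v
    rw [hE, Finsupp.add_apply, Finsupp.sub_apply, dv_apply (X.crv.fin f)]
    ring
  have hpi : pd P X.inf = 0 := pd_other hinf
  have hdi : X.dm m X.inf = ((m * X.n0 : ℕ) : ℤ) := by rw [XD.dm, Finsupp.single_eq_same]
  have hdv : ∀ v, v ≠ X.inf → X.dm m v = 0 := fun v hv => by
    rw [XD.dm, Finsupp.single_eq_of_ne hv]
  have hEi : E X.inf = 0 := hzero _ (Finset.mem_insert_self _ _)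
  have hEP : ∀ j, E (P j) = 0 := fun j => hzero _ (Finset.mem_insert_of_mem
    (Finset.mem_image_of_mem _ (Finset.mem_univ j)))
  have hfL : f ∈ X.L m := by
    rw [XD.L, mem_L' hf0]
    intro v
    have h1 := hnn v
    have h2 := pd_nonneg (P := P) v
    rw [Finsupp.zero_apply] at h1 h2
    rw [hEv] at h1
    omega
  obtain ⟨c, hc⟩ : ∃ c, X.elt m c = f := X.kan_exists_coord hfL
  have hord : X.inf.ord f = -((m * X.n0 : ℕ) : ℤ) := by
    have := hEv X.inf
    rw [hEi, hpi, hdi] at this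
    omega
  refine ⟨c, E, ⟨hnn, ?_, hEi⟩, ?_, hEP, ?_, by rw [hc, hord], ?_, by rwa [hc], by rwa [hc]⟩
  · intro σ hσ
    rw [hE, smul_add, smul_dv X, hfix σ hσ, smul_sub, hdm σ hσ, hst σ hσ]
  · rw [hE, map_add, X.crv.deg0 f hf0, map_sub, dg_pd, XD.dm, dg_single, zero_add]
  · have h1 : X.cl (dv (K := Qb) f) = 0 := by
      have h2 := X.cl_eq_mk (D := dv (K := Qb) f) (D0 := 0) hf0 (by
        rw [X.crv.deg0 f hf0, Finsupp.single_zero, sub_zero]
        change _ = (0 : Divisor Qb F) + _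
        rw [zero_add])
      rw [h2, Pic0.mk]
      exact QuotientAddGroup.mk_zero _
    have h3 : X.cl (X.dm m) = 0 := by
      have h2 := X.cl_eq_mk (D := X.dm m) (D0 := 0) (f := 1) one_ne_zero (by
        rw [XD.dm, dg_single, sub_self]
        change _ = (0 : Divisor Qb F) + _
        rw [zero_add]
        ext v
        rw [dv_apply (X.crv.fin 1), v.ord_one, Finsupp.zero_apply])
      rw [h2, Pic0.mk]
      exact QuotientAddGroup.mk_zero _
    rw [hE, map_add, map_sub, h1, h3, zero_add, zero_sub]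
  · rw [hc]
    ext v
    by_cases hv : v = X.inf
    · subst hv
      rw [X.kan_zs_inf, Finsupp.add_apply, hpi, hEi, add_zero]
    · rw [X.kan_zs_apply f hv, Finsupp.add_apply, hEv, hdv v hv]
      ring

/-- **The global inequality.** -/
theorem GalX.exists_global (hG : GalX X γ H) (V : AVH H) (Pk : Pkg V.toAV X) (Kn : Can X) {r : ℕ}
    (B : Basis (Fin r) Qb (riemannRochSpace Kn.K)) (hB : ∀ a, ∀ σ ∈ H, γ σ • (B a : F) = B a)
    {m : ℕ} (hm : C + 1 ≤ ((m * X.n0 : ℕ) : ℤ) - r) {φ : F}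
    (hφ : φ ∈ riemannRochSpace Kn.K) (hφ0 : φ ≠ 0) (hφi : X.inf.ord φ = -Kn.K X.inf)
    (hφH : ∀ σ ∈ H, γ σ • φ = φ) :
    ∃ K1 : ℝ, ∀ P : Fin r → Place Qb F, Injective P → (∀ j, X.Unr (P j)) →
      (∀ σ ∈ H, γ σ • pd P = pd P) → (Matrix.of fun a j => evp (P j) (B a : F)).det ≠ 0 →
      (∀ j, (P j).ord φ = 0) → ∃ E : Divisor Qb F, Gd X γ H E ∧
        dg E = ((m * X.n0 : ℕ) : ℤ) - r ∧ Disj (pd P) E ∧ X.cl E = -X.cl (pd P) ∧
        ((r : ℝ) + X.n0 * m) * hx V.toAV X (pd P) + r * hx V.toAV X E -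
          X.n0 * II Pk (pd P) E - X.n0 * II Pk (pd P) (dv φ + Kn.K) ≤ K1 := by
  classical
  obtain ⟨Cs, hCs⟩ := exists_local Pk Kn B m hφ hφ0 hφi
  refine ⟨∑ᶠ i, Real.log (Cs.c i), fun P hP hunr hst hdet hφP => ?_⟩
  have hne : ∀ j, P j ≠ X.inf := fun j => (hunr j).1
  obtain ⟨c, E, hGd, hdgE, hEP, hcl, hord, hzs, hA0, hAH⟩ := hG.exists_aux hm hP hne hst
  set A := X.elt m c with hA
  have hdisj : Disj (pd P) E := by
    intro v
    rcases pd_cases hP v with ⟨j, rfl, -⟩ | ⟨-, h⟩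
    · exact Or.inr (hEP j)
    · exact Or.inl h
  have hdisj2 : Disj (pd P) (dv φ + Kn.K) := by
    intro v
    rcases pd_cases hP v with ⟨j, rfl, -⟩ | ⟨-, h⟩
    · right
      rw [Finsupp.add_apply, dv_apply (X.crv.fin φ), hφP j, Kn.K_unr (hunr j), add_zero]
    · exact Or.inl h
  refine ⟨E, hGd, hdgE, hdisj, hcl, ?_⟩
  -- the derivative
  have hordA : ∀ j, (P j).ord A = 1 := by
    intro j
    rw [← X.kan_zs_apply A (hne j), hzs, Finsupp.add_apply, pd_self hP, hEP, add_zero]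
  have hDreg : ∀ j, X.D A ∈ (P j).toValuationSubring := fun j =>
    mem_of_ord_nonneg _ (X.ord_D_nonneg_of_unr (hunr j) (by rw [hordA j]; norm_num))
  have hDA : ∀ j, evp (P j) (X.D A) ≠ 0 := by
    intro j
    obtain ⟨h1, h2⟩ := X.ord_D_of_unr (hunr j) (f := A) (by rw [hordA j]; norm_num)
    refine (evp_ne_zero_iff (X.crv.rat _) (hDreg j)).mpr ⟨h1, ?_⟩
    rw [h2, hordA j, sub_self]
  have hDH : ∀ σ ∈ H, γ σ • X.D A = X.D A := fun σ hσ => by rw [hG.smul_D hσ, hAH σ hσ]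
  -- products
  have p1 : (∏ j, evp (P j) (X.D A)) ≠ 0 := Finset.prod_ne_zero_iff.mpr fun j _ => hDA j
  have q1 := V.pf _ p1 fun σ hσ => hG.prod_fixed hP (hst σ hσ) (hDH σ hσ) hDreg
  have hφreg : ∀ j, φ ∈ (P j).toValuationSubring := fun j => mem_of_ord_nonneg _ (hφP j).ge
  have p4 : (∏ j, evp (P j) φ) ≠ 0 := Finset.prod_ne_zero_iff.mpr fun j _ =>
    (evp_ne_zero_iff (X.crv.rat _) (hφreg j)).mpr ⟨hφ0, hφP j⟩
  have q4 := V.pf _ p4 fun σ hσ => hG.prod_fixed hP (hst σ hσ) (hφH σ hσ) hφreg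
  -- the leading coefficient
  have hx0 : X.x ≠ 0 := by
    intro h
    have h1 := X.ord_inf
    rw [h, X.inf.ord_zero] at h1
    have := X.n0_pos
    omega
  have hlz : A * X.x⁻¹ ^ m ≠ 0 := mul_ne_zero hA0 (pow_ne_zero _ (inv_ne_zero hx0))
  have hl0 : X.inf.ord (A * X.x⁻¹ ^ m) = 0 := by
    rw [X.inf.ord_mul hA0 (pow_ne_zero _ (inv_ne_zero hx0)), hord, ← zpow_natCast,
      X.inf.ord_zpow, X.inf.ord_inv, X.ord_inf]
    push_cast
    ring
  have hlreg : A * X.x⁻¹ ^ m ∈ X.inf.toValuationSubring := mem_of_ord_nonneg _ hl0.ge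
  have p2 : evp X.inf (A * X.x⁻¹ ^ m) ≠ 0 :=
    (evp_ne_zero_iff (X.crv.rat _) hlreg).mpr ⟨hlz, hl0⟩
  have hlH : ∀ σ ∈ H, γ σ • (A * X.x⁻¹ ^ m) = A * X.x⁻¹ ^ m := by
    intro σ hσ
    rw [smul_mul', smul_pow', smul_inv'', hAH σ hσ, hG.fx σ hσ]
  have q2 := V.pf _ p2 fun σ hσ => hG.lc_fixed hσ (hlH σ hσ) hlreg
  -- the determinant
  have hBreg : ∀ a j, (B a : F) ∈ (P j).toValuationSubring := fun a j =>
    Kn.mem_unr (B a).2 (hunr j)
  have q3 := V.pf _ (pow_ne_zero 2 hdet) fun σ hσ =>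
    hG.det_fixed hP (hst σ hσ) (φ := fun a => (B a : F)) (fun a => hB a σ hσ) hBreg
  have q3' : ∑ᶠ i, Real.log (V.v i (Matrix.of fun a j => evp (P j) (B a : F)).det) = 0 := by
    have h1 : ∀ i, Real.log (V.v i ((Matrix.of fun a j => evp (P j) (B a : F)).det ^ 2)) =
        2 * Real.log (V.v i (Matrix.of fun a j => evp (P j) (B a : F)).det) := by
      intro i
      rw [map_pow, Real.log_pow]
      norm_num
    rw [finsum_congr h1, ← mul_finsum] at q3
    linarith
  -- the supports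
  have hpi : pd P X.inf = 0 := pd_other hne
  have hKi : (dv (K := Qb) φ + Kn.K) X.inf = 0 := by
    rw [Finsupp.add_apply, dv_apply (X.crv.fin φ), hφi, neg_add_cancel]
  have s1 := lh_fs V.toAV X (pd P)
  have s2 := lh_fs V.toAV X E
  have s3 := lI_fs Pk hpi hGd.af hdisj
  have s4 := lI_fs Pk hpi hKi hdisj2
  have s5 := Cs.fs
  have s6 := fs_logv V.toAV p1
  have s7 := fs_logv V.toAV p2
  have s8 := fs_logv V.toAV hdet
  have s9 := fs_logv V.toAV p4
  have hfin := ((((((((s1.union s2).union s3).union s4).union s5).union s6).union s7).union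
    s8).union s9)
  set U := hfin.toFinset with hU
  have hsub : ∀ {f : V.ι → ℝ}, support f ⊆ _ → ∑ᶠ i, f i = ∑ i ∈ U, f i := fun {f} hf =>
    finsum_eq_sum_of_support_subset f (by rw [hU, Set.Finite.coe_toFinset]; exact hf)
  have t1 : hx V.toAV X (pd P) = ∑ i ∈ U, lh V.toAV X i (pd P) := hsub (by
    intro i hi
    simp only [Set.mem_union]
    tauto)
  have t2 : hx V.toAV X E = ∑ i ∈ U, lh V.toAV X i E := hsub (by
    intro i hi
    simp only [Set.mem_union]
    tauto)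
  have t3 : II Pk (pd P) E = ∑ i ∈ U, lI Pk i (pd P) E := hsub (by
    intro i hi
    simp only [Set.mem_union]
    tauto)
  have t4 : II Pk (pd P) (dv φ + Kn.K) = ∑ i ∈ U, lI Pk i (pd P) (dv φ + Kn.K) := hsub (by
    intro i hi
    simp only [Set.mem_union]
    tauto)
  have t5 : ∑ᶠ i, Real.log (Cs.c i) = ∑ i ∈ U, Real.log (Cs.c i) := hsub (by
    intro i hi
    simp only [Set.mem_union]
    tauto)
  have t6 := hsub (f := fun i => Real.log (V.v i (∏ j, evp (P j) (X.D A)))) (by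
    intro i hi
    simp only [Set.mem_union]
    tauto)
  have t7 := hsub (f := fun i => Real.log (V.v i (evp X.inf (A * X.x⁻¹ ^ m)))) (by
    intro i hi
    simp only [Set.mem_union]
    tauto)
  have t8 := hsub (f := fun i => Real.log (V.v i
    (Matrix.of fun a j => evp (P j) (B a : F)).det)) (by
    intro i hi
    simp only [Set.mem_union]
    tauto)
  have t9 := hsub (f := fun i => Real.log (V.v i (∏ j, evp (P j) φ))) (by
    intro i hi
    simp only [Set.mem_union]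
    tauto)
  rw [q1] at t6
  rw [q2] at t7
  rw [q3'] at t8
  rw [q4] at t9
  have hloc := Finset.sum_le_sum fun i (_ : i ∈ U) =>
    hCs i P E c hP hunr hEP hord hzs hφP hdet hDA
  simp only [Finset.sum_add_distrib, Finset.sum_sub_distrib, ← Finset.mul_sum] at hloc
  rw [← t5, ← t6, ← t7, ← t8, ← t9] at hloc
  have u3 : ∑ i ∈ U, ∑ j, Pk.ls i (P j) E = -II Pk (pd P) E := by
    rw [t3, ← Finset.sum_neg_distrib]
    exact Finset.sum_congr rfl fun i _ => by rw [lI_pd, neg_neg]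
  have u4 : ∑ i ∈ U, ∑ j, Pk.ls i (P j) (dv φ + Kn.K) = -II Pk (pd P) (dv φ + Kn.K) := by
    rw [t4, ← Finset.sum_neg_distrib]
    exact Finset.sum_congr rfl fun i _ => by rw [lI_pd, neg_neg]
  have u1 : ∑ i ∈ U, hxi V.toAV X i (pd P) = hx V.toAV X (pd P) := t1.symm
  have u2 : ∑ i ∈ U, hxi V.toAV X i E = hx V.toAV X E := t2.symm
  rw [u1, u2, u3, u4] at hloc
  linarith

end Fermat.Agent.MW
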