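import Fermat.Agent.MW.Kan

/-!
# Bounds for differentials
-/

set_option autoImplicit false
set_option linter.unusedSectionVars false
set_option linter.unusedVariables false

noncomputable section

namespace Fermat.Agent.MW

open AlgebraicCurve Module Fermat.Agent.Flat Fermat.Agent.FunField WithZero

variable {k F : Type*} [Field k] [Field F] [Algebra k F] [IsAlgClosed k] [CharZero k]
  {g C : ℤ} {V : AV k} {X : XD k F g C}

theorem Can.K_unr (Kn : Can X) {Q : Place k F} (hQ : X.Unr Q) : Kn.K Q = 0 := by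
  have h1 := Kn.hK Q _ hQ.2
  have h2 : X.D (X.x - algebraMap k F (evp Q X.x)) = 1 := by
    rw [map_sub, X.D_x, Derivation.map_algebraMap, sub_zero]
  rw [h2, Q.ord_one] at h1
  omega

/-- The Wronskians of the basis. -/
def XD.W (X : XD k F g C) (m : ℕ) (a b : Fin (X.d m)) : F := X.wro (X.b m a) (X.b m b)

theorem Can.ge_W (Kn : Can X) (m : ℕ) (a b : Fin (X.d m)) (v : Place k F) :
    Ge v (-Kn.K v - 2 * X.dm m v) (X.W m a b) := by
  obtain ⟨π, hπ⟩ := XD.exists_unif v
  have h1 := X.ge_wro hπ (n := -X.dm m v) (mem_L_ge.1 (X.b m a).2 v) (mem_L_ge.1 (X.b m b).2 v)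
  rw [Kn.hK v π hπ] at h1
  exact h1.mono (by omega)

theorem XD.wro_sum (X : XD k F g C) {α : Type*} (s : Finset α) (p q : α → k) (f : α → F) :
    X.wro (∑ a ∈ s, p a • f a) (∑ b ∈ s, q b • f b) =
      ∑ a ∈ s, ∑ b ∈ s, (p a * q b) • X.wro (f a) (f b) := by
  unfold XD.wro
  rw [map_sum, map_sum, Finset.sum_mul_sum, Finset.sum_mul_sum]
  have h1 : ∑ b ∈ s, ∑ a ∈ s, q b • f b * X.D (p a • f a) =
      ∑ a ∈ s, ∑ b ∈ s, q b • f b * X.D (p a • f a) := Finset.sum_comm
  rw [h1, ← Finset.sum_sub_distrib]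
  refine Finset.sum_congr rfl fun a _ => ?_
  rw [← Finset.sum_sub_distrib]
  refine Finset.sum_congr rfl fun b _ => ?_
  rw [Derivation.map_smul, Derivation.map_smul, smul_mul_smul_comm, smul_mul_smul_comm, smul_sub,
    mul_comm (q b)]

theorem Can.exists_W (Kn : Can X) (m : ℕ) (hm : C + 2 ≤ ((m * X.n0 : ℕ) : ℤ)) (v : Place k F) :
    ∃ a b, X.W m a b ≠ 0 ∧ v.ord (X.W m a b) = -Kn.K v - 2 * X.dm m v := by
  classical
  obtain ⟨π, hπ⟩ := XD.exists_unif v
  have hd : dg (X.dm m) = ((m * X.n0 : ℕ) : ℤ) := by rw [XD.dm, dg_single]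
  obtain ⟨a0, ha0, ha00, hva⟩ := exists_exact X.crv (X.dm m) (by omega) v
  obtain ⟨b0, hb0, hb00, hvb⟩ := exists_exact X.crv (X.dm m - Finsupp.single v 1) (by
    rw [map_sub, dg_single, hd]; omega) v
  rw [Finsupp.sub_apply, Finsupp.single_eq_same] at hvb
  have hb0' : b0 ∈ X.L m := by
    refine L_mono ?_ hb0
    intro w
    rw [Finsupp.sub_apply]
    have : 0 ≤ Finsupp.single v (1 : ℤ) w := by
      rw [Finsupp.single_apply]; split_ifs <;> omega
    omega
  obtain ⟨h1, h2⟩ := X.ord_wro hπ ha00 hb00 hva (by rw [hvb]; ring)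
  rw [Kn.hK v π hπ] at h2
  by_contra hcon
  push Not at hcon
  have hge : ∀ a b, Ge v (-Kn.K v - 2 * X.dm m v + 1) (X.W m a b) := by
    intro a b
    by_contra h
    rw [not_ge_iff] at h
    have h3 := (Kn.ge_W m a b v).resolve_left h.1
    exact hcon a b h.1 (by omega)
  have ea : a0 = ∑ a, (X.b m).repr ⟨a0, ha0⟩ a • (X.b m a : F) := by
    have := congrArg Subtype.val ((X.b m).sum_repr ⟨a0, ha0⟩)
    rw [Submodule.coe_sum] at this
    exact this.symm
  have eb : b0 = ∑ a, (X.b m).repr ⟨b0, hb0'⟩ a • (X.b m a : F) := by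
    have := congrArg Subtype.val ((X.b m).sum_repr ⟨b0, hb0'⟩)
    rw [Submodule.coe_sum] at this
    exact this.symm
  have hW : Ge v (-Kn.K v - 2 * X.dm m v + 1) (X.wro a0 b0) := by
    rw [ea, eb, XD.wro_sum]
    exact Ge.sum _ fun a _ => Ge.sum _ fun b _ => (hge a b).smul _
  have := hW.resolve_left h1
  omega

/-- The auxiliary family. -/
structure Aux (Kn : Can X) where
  m : ℕ
  n : ℕ
  e : Fin n → F
  mem : ∀ j, e j ∈ riemannRochSpace (X.dm m - Kn.K)
  ne : ∀ j, e j ≠ 0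
  inf : ∀ j, X.inf.ord (e j) = -((m * X.n0 : ℕ) : ℤ) + Kn.K X.inf
  ex : ∀ v, ∃ j, v.ord (e j) = -(X.dm m - Kn.K) v

theorem Can.exists_aux (Kn : Can X) : Nonempty (Aux Kn) := by
  set m : ℕ := (C + 2 * g).toNat with hm
  have h1 : C + 2 * g ≤ (m : ℤ) := Int.self_le_toNat _
  have h2 : (m : ℤ) ≤ ((m * X.n0 : ℕ) : ℤ) := by
    exact_mod_cast Nat.le_mul_of_pos_right m X.n0_pos
  obtain ⟨n, e, h3, h4, h5, h6⟩ := exists_family X.crv (X.dm m - Kn.K) (by
    rw [map_sub, Kn.dgK, XD.dm, dg_single]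
    omega) X.inf
  exact ⟨⟨m, n, e, h3, h4, fun j => by
    rw [h5, Finsupp.sub_apply, X.dm_inf]; ring, h6⟩⟩

namespace Aux

variable {Kn : Can X} (A : Aux Kn)

theorem ge_e (j : Fin A.n) (v : Place k F) : Ge v (-X.dm A.m v + Kn.K v) (A.e j) := by
  have := mem_L_ge.1 (A.mem j) v
  rw [Finsupp.sub_apply] at this
  exact this.mono (by omega)

theorem We_mem (m : ℕ) (a b : Fin (X.d m)) (j : Fin A.n) :
    X.W m a b * A.e j ∈ X.L (A.m + 2 * m) := by
  rw [XD.L, mem_L_ge]
  intro v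
  have h1 := (Kn.ge_W m a b v).mul (A.ge_e j v)
  refine h1.mono ?_
  by_cases hv : v = X.inf
  · subst hv
    rw [X.dm_inf, X.dm_inf, X.dm_inf]
    push_cast
    linarith
  · rw [X.dm_ne _ hv, X.dm_ne _ hv, X.dm_ne _ hv]
    omega

theorem mem_unr_W {m : ℕ} (a b : Fin (X.d m)) {Q : Place k F} (hQ : X.Unr Q) :
    X.W m a b ∈ Q.toValuationSubring := by
  obtain ⟨π, hπ⟩ := XD.exists_unif Q
  have h2 : X.D (X.x - algebraMap k F (evp Q X.x)) = 1 := by
    rw [map_sub, X.D_x, Derivation.map_algebraMap, sub_zero]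
  have h0 : Q.ord (X.D (X.x - algebraMap k F (evp Q X.x))) = 0 := by rw [h2, Q.ord_one]
  have h1 := X.ge_wro hQ.2 (n := 0) ((mem_L_ge.1 (X.b m a).2 Q).mono (by
    rw [X.dm_ne _ hQ.1, neg_zero])) ((mem_L_ge.1 (X.b m b).2 Q).mono (by
    rw [X.dm_ne _ hQ.1, neg_zero]))
  rw [h0] at h1
  exact ge_mem.1 (h1.mono (by omega))

theorem mem_unr_e (j : Fin A.n) {Q : Place k F} (hQ : X.Unr Q) :
    A.e j ∈ Q.toValuationSubring := by
  refine ge_mem.1 ((A.ge_e j Q).mono ?_)
  rw [Kn.K_unr hQ, X.dm_ne _ hQ.1]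
  omega

/-- The lower bound for the auxiliary family. -/
theorem kap_low (Pk : Pkg V X) : ∃ Cs : MC V.ι, ∀ i Q, X.Unr Q → ∃ j,
    X.sz V i Q ^ A.m ≤ Cs.c i * Pk.kap i Q * V.v i (evp Q (A.e j)) := by
  obtain ⟨C1, h1⟩ := Pk.fx (A.m + 2 * Pk.m1)
    (fun t : Fin (X.d Pk.m1) × Fin (X.d Pk.m1) × Fin A.n => X.W Pk.m1 t.1 t.2.1 * A.e t.2.2)
    (fun t => A.We_mem Pk.m1 t.1 t.2.1 t.2.2) (by
      obtain ⟨a, b, h2, h3⟩ := Kn.exists_W Pk.m1 Pk.m1_big X.inf
      obtain ⟨j, hj⟩ := A.ex X.inf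
      refine ⟨(a, b, j), ?_⟩
      rw [X.inf.ord_mul h2 (A.ne j), h3, A.inf, X.dm_inf]
      push_cast
      ring) (by
      intro Q hQ
      obtain ⟨a, b, h2, h3⟩ := Kn.exists_W Pk.m1 Pk.m1_big Q
      obtain ⟨j, hj⟩ := A.ex Q
      refine ⟨(a, b, j), mul_ne_zero h2 (A.ne j), ?_⟩
      rw [Q.ord_mul h2 (A.ne j), h3, hj, Finsupp.sub_apply, X.dm_ne _ hQ, X.dm_ne _ hQ]
      ring)
  obtain ⟨C2, h2⟩ := Pk.kap_ge
  refine ⟨C1 * C2, fun i Q hQ => ?_⟩
  obtain ⟨⟨a, b, j⟩, h3⟩ := h1 i Q hQ.1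
  refine ⟨j, ?_⟩
  rw [evp_mul (X.crv.rat Q) (mem_unr_W a b hQ) (A.mem_unr_e j hQ), map_mul] at h3
  have h4 : V.v i (evp Q (X.W Pk.m1 a b)) ≤ C2.c i * Pk.kap i Q * X.sz V i Q ^ (2 * Pk.m1) :=
    h2 i Q hQ a b
  refine le_of_mul_le_mul_right ?_ (pow_pos (X.kan_sz_pos (V := V) i Q) (2 * Pk.m1))
  calc X.sz V i Q ^ A.m * X.sz V i Q ^ (2 * Pk.m1) = X.sz V i Q ^ (A.m + 2 * Pk.m1) := by
        rw [pow_add]
    _ ≤ C1.c i * (V.v i (evp Q (X.W Pk.m1 a b)) * V.v i (evp Q (A.e j))) := h3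
    _ ≤ C1.c i * ((C2.c i * Pk.kap i Q * X.sz V i Q ^ (2 * Pk.m1)) * V.v i (evp Q (A.e j))) := by
        refine mul_le_mul_of_nonneg_left ?_ (C1.pos i).le
        exact mul_le_mul_of_nonneg_right h4 ((V.v i).nonneg _)
    _ = (C1 * C2).c i * Pk.kap i Q * V.v i (evp Q (A.e j)) * X.sz V i Q ^ (2 * Pk.m1) := by
        rw [MC.mul_c]; ring

end Aux

/-- The sections of the canonical sheaf. -/
def Can.φ (Kn : Can X) {r : ℕ} (B : Basis (Fin r) k (riemannRochSpace Kn.K))
    (c : Fin r → k) : F := ∑ a, c a • (B a : F)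

theorem Can.φ_mem (Kn : Can X) {r : ℕ} (B : Basis (Fin r) k (riemannRochSpace Kn.K))
    (c : Fin r → k) : Kn.φ B c ∈ riemannRochSpace Kn.K :=
  Submodule.sum_mem _ fun a _ => Submodule.smul_mem _ _ (B a).2

theorem Can.mem_unr (Kn : Can X) {f : F} (hf : f ∈ riemannRochSpace Kn.K) {Q : Place k F}
    (hQ : X.Unr Q) : f ∈ Q.toValuationSubring := by
  refine ge_mem.1 ((mem_L_ge.1 hf Q).mono ?_)
  rw [Kn.K_unr hQ]
  omega

/-- **N0.** The upper bound for differentials with given zeros. -/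
theorem Can.N0 (Kn : Can X) (Pk : Pkg V X) {r : ℕ}
    (B : Basis (Fin r) k (riemannRochSpace Kn.K)) : ∃ Cs : MC V.ι, ∀ i (c : Fin r → k)
      (S : Finset (Place k F)), (∀ P ∈ S, X.Unr P ∧ evp P (Kn.φ B c) = 0) → ∀ Q, X.Unr Q →
        Q ∉ S → V.v i (evp Q (Kn.φ B c)) ≤
          Cs.c i * nrm V i c * Pk.kap i Q * ∏ P ∈ S, Pk.dist i P Q := by
  classical
  obtain ⟨A⟩ := Kn.exists_aux
  obtain ⟨C1, h1⟩ := A.kap_low Pk
  obtain ⟨C2, h2⟩ := Pk.UB A.m
  let ev : (Fin r → k) →ₗ[k] F :=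
    (riemannRochSpace Kn.K).subtype.comp
      (B.equivFun.symm : (Fin r → k) →ₗ[k] riemannRochSpace Kn.K)
  have hev : ∀ c, ev c = Kn.φ B c := by
    intro c
    change ((B.equivFun.symm c : riemannRochSpace Kn.K) : F) = _
    rw [Basis.equivFun_symm_apply, Can.φ]
    simp
  choose C3 hC3 using fun j => kan_exists_mul_bd V X ev (A.e j) A.m
  obtain ⟨E3, hE3⟩ := MC.exists_ge_fintype C3
  refine ⟨C1 * (C2 * E3), fun i c S hS Q hQ hQS => ?_⟩
  have hdist : ∀ P ∈ S, 0 < Pk.dist i P Q := fun P hP =>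
    Pk.pos i P Q (hS P hP).1.1 hQ.1 (by rintro rfl; exact hQS hP)
  have hprodpos : 0 < ∏ P ∈ S, Pk.dist i P Q := Finset.prod_pos hdist
  set Z : Divisor k F := ∑ P ∈ S, Finsupp.single P 1 with hZdef
  have hZ_apply : ∀ P, Z P = if P ∈ S then 1 else 0 := by
    intro P
    rw [hZdef, Finsupp.finsetSum_apply]
    simp only [Finsupp.single_apply]
    simp
  have hls : Real.exp (Pk.ls i Q Z) = ∏ P ∈ S, Pk.dist i P Q := by
    have h5 : Pk.ls i Q Z = ∑ P ∈ S, Real.log (Pk.dist i P Q) := by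
      rw [hZdef]
      have : ∀ T : Finset (Place k F), Pk.ls i Q (∑ P ∈ T, Finsupp.single P 1) =
          ∑ P ∈ T, Real.log (Pk.dist i P Q) := by
        intro T
        induction T using Finset.induction with
        | empty => simp [Pkg.ls]
        | insert P T hP ih =>
          rw [Finset.sum_insert hP, Finset.sum_insert hP, Pk.ls_add, ih]
          simp [Pkg.ls]
      exact this S
    rw [h5, Real.exp_sum]
    exact Finset.prod_congr rfl fun P hP => Real.exp_log (hdist P hP)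
  have hφ := Kn.φ_mem B c
  obtain ⟨j, hj⟩ := h1 i Q hQ
  have hmem : ev c * A.e j ∈ X.L A.m := by
    rw [hev]
    have h6 := mul_mem_L hφ (A.mem j)
    rwa [add_sub_cancel] at h6
  obtain ⟨c', hc', hn⟩ := hC3 j c hmem
  have h7 := h2 i c' Z (by
      intro P
      rw [hZ_apply, Finsupp.zero_apply]
      split_ifs <;> omega) (by
      rw [hZ_apply, if_neg]
      exact fun h => (hS _ h).1.1 rfl) (by
      intro P hP
      rw [hc', hev, hZ_apply]
      split_ifs with hPS
      · obtain ⟨hPu, hP0⟩ := hS P hPS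
        rw [evp_eq_zero_iff (X.crv.rat P) (Kn.mem_unr hφ hPu)] at hP0
        have h8 : Ge P 1 (Kn.φ B c) := by
          rcases hP0 with h | h
          · exact Or.inl h
          · exact Or.inr (by omega)
        have h9 : Ge P 0 (A.e j) := ge_mem.2 (A.mem_unr_e j hPu)
        have h10 := h8.mul h9
        rwa [add_zero] at h10
      · have h11 := mem_L_ge.1 hmem P
        rw [hev] at h11
        refine h11.mono ?_
        rw [X.dm_ne _ hP]
        simp) Q hQ.1 (by rw [hZ_apply, if_neg hQS])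
  rw [hc', hev, hls, evp_mul (X.crv.rat Q) (Kn.mem_unr hφ hQ) (A.mem_unr_e j hQ), map_mul] at h7
  have hn' : nrm V i c' ≤ E3.c i * nrm V i c :=
    (hn i).trans (mul_le_mul_of_nonneg_right (hE3 j i) (kan_nrm_nonneg' V i c))
  have hkap := Pk.kap_pos i Q hQ
  refine le_of_mul_le_mul_right ?_ (pow_pos (X.kan_sz_pos (V := V) i Q) A.m)
  calc V.v i (evp Q (Kn.φ B c)) * X.sz V i Q ^ A.m
      ≤ V.v i (evp Q (Kn.φ B c)) * (C1.c i * Pk.kap i Q * V.v i (evp Q (A.e j))) :=
        mul_le_mul_of_nonneg_left hj ((V.v i).nonneg _)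
    _ = C1.c i * Pk.kap i Q * (V.v i (evp Q (Kn.φ B c)) * V.v i (evp Q (A.e j))) := by ring
    _ ≤ C1.c i * Pk.kap i Q * (C2.c i * nrm V i c' * X.sz V i Q ^ A.m *
          ∏ P ∈ S, Pk.dist i P Q) :=
        mul_le_mul_of_nonneg_left h7 (mul_pos (C1.pos i) hkap).le
    _ ≤ C1.c i * Pk.kap i Q * (C2.c i * (E3.c i * nrm V i c) * X.sz V i Q ^ A.m *
          ∏ P ∈ S, Pk.dist i P Q) := by
        refine mul_le_mul_of_nonneg_left ?_ (mul_pos (C1.pos i) hkap).le
        refine mul_le_mul_of_nonneg_right ?_ hprodpos.le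
        refine mul_le_mul_of_nonneg_right ?_ (pow_nonneg (X.kan_sz_pos i Q).le _)
        exact mul_le_mul_of_nonneg_left hn' (C2.pos i).le
    _ = (C1 * (C2 * E3)).c i * nrm V i c * Pk.kap i Q * (∏ P ∈ S, Pk.dist i P Q) *
          X.sz V i Q ^ A.m := by
        rw [MC.mul_c, MC.mul_c]; ring

/-- The determinant of the values of sections. -/
def Can.mat (Kn : Can X) {r : ℕ} (B : Basis (Fin r) k (riemannRochSpace Kn.K)) {s : ℕ}
    (τ : Fin s → Fin r) (P : Fin s → Place k F) : Matrix (Fin s) (Fin s) k :=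
  Matrix.of fun a j => evp (P j) (B (τ a) : F)

theorem Can.evp_φ (Kn : Can X) {r : ℕ} (B : Basis (Fin r) k (riemannRochSpace Kn.K))
    (c : Fin r → k) {Q : Place k F} (hQ : X.Unr Q) :
    evp Q (Kn.φ B c) = ∑ a, c a * evp Q (B a : F) := by
  unfold Can.φ
  rw [evp_sum (X.crv.rat Q) _ _ fun a _ => ge_mem.1 ((ge_mem.2 (Kn.mem_unr (B a).2 hQ)).smul _)]
  exact Finset.sum_congr rfl fun a _ => evp_smul (X.crv.rat Q) _ (Kn.mem_unr (B a).2 hQ)

/-- **N.** The upper bound for the determinants. -/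
theorem Can.N (Kn : Can X) (Pk : Pkg V X) {r : ℕ}
    (B : Basis (Fin r) k (riemannRochSpace Kn.K)) (s : ℕ) : ∃ Cs : MC V.ι, ∀ i
      (τ : Fin s → Fin r) (P : Fin s → Place k F), Function.Injective P → (∀ j, X.Unr (P j)) →
        V.v i (Kn.mat B τ P).det ≤ Cs.c i * (∏ j, Pk.kap i (P j)) *
          ∏ j, ∏ l ∈ Finset.univ.filter (fun l => l < j), Pk.dist i (P l) (P j) := by
  classical
  induction s with
  | zero =>
    refine ⟨1, fun i τ P _ _ => ?_⟩
    simp
  | succ s ih =>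
    obtain ⟨C1, h1⟩ := ih
    obtain ⟨C2, h2⟩ := Kn.N0 Pk B
    -- the coefficients
    have hT : ∀ τ : Fin (s + 1) → Fin r, ∃ Cs : MC V.ι, ∀ i (m : Fin (s + 1) → k),
        nrm V i (fun b : Fin r => ∑ a, if τ a = b then (-1) ^ ((a : ℕ) + s) * m a else 0) ≤
          Cs.c i * nrm V i m := by
      intro τ
      let T : (Fin (s + 1) → k) →ₗ[k] (Fin r → k) := LinearMap.pi fun b =>
        ∑ a, (if τ a = b then (-1) ^ ((a : ℕ) + s) else 0 : k) • LinearMap.proj a
      obtain ⟨Cs, hCs⟩ := kan_exists_lin V T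
      refine ⟨Cs, fun i m => ?_⟩
      have : T m = fun b : Fin r => ∑ a, if τ a = b then (-1) ^ ((a : ℕ) + s) * m a else 0 := by
        ext b
        simp only [T, LinearMap.pi_apply, LinearMap.sum_apply, LinearMap.smul_apply,
          LinearMap.proj_apply, smul_eq_mul, ite_mul, zero_mul]
      rw [← this]
      exact hCs i m
    choose C3 hC3 using hT
    obtain ⟨E3, hE3⟩ := MC.exists_ge_fintype C3
    refine ⟨C2 * (E3 * C1), fun i τ P hP hu => ?_⟩
    set D1 : ℝ := (∏ j : Fin s, Pk.kap i (P j.castSucc)) * ∏ j : Fin s,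
      ∏ l ∈ Finset.univ.filter (fun l => l < j), Pk.dist i (P l.castSucc) (P j.castSucc) with hD1
    have hdist : ∀ l j, l ≠ j → 0 < Pk.dist i (P l) (P j) := fun l j hlj =>
      Pk.pos i _ _ (hu l).1 (hu j).1 fun h => hlj (hP h)
    have hD1pos : 0 < D1 := by
      refine mul_pos (Finset.prod_pos fun j _ => Pk.kap_pos i _ (hu _)) (Finset.prod_pos fun j _ =>
        Finset.prod_pos fun l hl => hdist _ _ fun h => ?_)
      rw [Finset.mem_filter] at hl
      have := Fin.castSucc_injective _ h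
      exact absurd hl.2 (by rw [this]; exact lt_irrefl _)
    -- the minors
    let mi : Fin (s + 1) → k := fun a =>
      (Kn.mat B (fun x => τ (a.succAbove x)) fun j : Fin s => P j.castSucc).det
    have hmi : nrm V i mi ≤ C1.c i * D1 := by
      refine kan_nrm_le_of V (mul_pos (C1.pos i) hD1pos).le fun a => ?_
      have := h1 i (fun x => τ (a.succAbove x)) (fun j : Fin s => P j.castSucc)
        (hP.comp (Fin.castSucc_injective _)) fun j => hu _
      rw [hD1, ← mul_assoc]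
      exact this
    let c : Fin r → k := fun b => ∑ a, if τ a = b then (-1) ^ ((a : ℕ) + s) * mi a else 0
    have hc : nrm V i c ≤ E3.c i * (C1.c i * D1) :=
      ((hC3 τ i mi).trans (mul_le_mul_of_nonneg_right (hE3 τ i) (kan_nrm_nonneg' V i mi))).trans
        (mul_le_mul_of_nonneg_left hmi (E3.pos i).le)
    have hval : ∀ Q, X.Unr Q → evp Q (Kn.φ B c) =
        (Kn.mat B τ (Fin.snoc (fun j : Fin s => P j.castSucc) Q)).det := by
      intro Q hQ
      rw [Kn.evp_φ B c hQ, Matrix.det_succ_column _ (Fin.last s)]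
      have e1 : ∑ b, c b * evp Q (B b : F) =
          ∑ a : Fin (s + 1), (-1) ^ ((a : ℕ) + s) * mi a * evp Q (B (τ a) : F) := by
        simp only [c, Finset.sum_mul]
        rw [Finset.sum_comm]
        refine Finset.sum_congr rfl fun a _ => ?_
        simp only [ite_mul, zero_mul]
        rw [Finset.sum_ite_eq]
        simp
      rw [e1]
      refine Finset.sum_congr rfl fun a _ => ?_
      have e2 : (Kn.mat B τ (Fin.snoc (fun j : Fin s => P j.castSucc) Q) :
          Matrix _ _ k) a (Fin.last s) = evp Q (B (τ a) : F) := by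
        simp only [Can.mat, Matrix.of_apply, Fin.snoc_last]
      have e3 : ((Kn.mat B τ (Fin.snoc (fun j : Fin s => P j.castSucc) Q)).submatrix
          a.succAbove (Fin.last s).succAbove).det = mi a := by
        simp only [mi]
        congr 1
        ext x y
        simp only [Can.mat, Matrix.submatrix_apply, Matrix.of_apply, Fin.succAbove_last,
          Fin.snoc_castSucc]
      rw [e2, e3, Fin.val_last]
      ring
    have hmain := h2 i c (Finset.univ.image fun j : Fin s => P j.castSucc) (by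
      intro Q hQ
      obtain ⟨j, -, rfl⟩ := Finset.mem_image.1 hQ
      refine ⟨hu _, ?_⟩
      rw [hval _ (hu _)]
      refine Matrix.det_zero_of_column_eq (i := j.castSucc) (j := Fin.last s)
        (Fin.castSucc_lt_last j).ne fun a => ?_
      simp only [Can.mat, Matrix.of_apply, Fin.snoc_last, Fin.snoc_castSucc]) (P (Fin.last s))
      (hu _) (by
      intro h
      obtain ⟨j, -, hj⟩ := Finset.mem_image.1 h
      exact (Fin.castSucc_lt_last j).ne (hP hj))
    rw [hval _ (hu _)] at hmain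
    have e4 : Fin.snoc (fun j : Fin s => P j.castSucc) (P (Fin.last s)) = P := by
      ext j
      refine Fin.lastCases ?_ (fun j => ?_) j
      · rw [Fin.snoc_last]
      · rw [Fin.snoc_castSucc]
    have e4' : (Fin.snoc (fun j : Fin s => P j.castSucc) (P (Fin.last s)) :
        Fin (s + 1) → Place k F) = P := Fin.snoc_init_self P
    rw [e4', Finset.prod_image fun a _ b _ h => Fin.castSucc_injective _ (hP h)] at hmain
    have hkap := Pk.kap_pos i _ (hu (Fin.last s))
    have hpr : 0 < ∏ j : Fin s, Pk.dist i (P j.castSucc) (P (Fin.last s)) :=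
      Finset.prod_pos fun j _ => hdist _ _ (Fin.castSucc_lt_last j).ne
    refine hmain.trans ?_
    have e5 : ∏ j : Fin (s + 1), ∏ l ∈ Finset.univ.filter (fun l => l < j),
        Pk.dist i (P l) (P j) = (∏ j : Fin s, ∏ l ∈ Finset.univ.filter (fun l => l < j),
          Pk.dist i (P l.castSucc) (P j.castSucc)) *
          ∏ j : Fin s, Pk.dist i (P j.castSucc) (P (Fin.last s)) := by
      rw [Fin.prod_univ_castSucc]
      congr 1
      · refine Finset.prod_congr rfl fun j _ => ?_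
        rw [Finset.prod_filter, Finset.prod_filter, Fin.prod_univ_castSucc]
        rw [if_neg (by exact not_lt.2 (Fin.castSucc_lt_last j).le), mul_one]
        rfl
      · rw [Finset.prod_filter, Fin.prod_univ_castSucc, if_neg (lt_irrefl _), mul_one]
        exact Finset.prod_congr rfl fun j _ => if_pos (Fin.castSucc_lt_last j)
    rw [e5, Fin.prod_univ_castSucc]
    calc C2.c i * nrm V i c * Pk.kap i (P (Fin.last s)) *
          ∏ j : Fin s, Pk.dist i (P j.castSucc) (P (Fin.last s))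
        ≤ C2.c i * (E3.c i * (C1.c i * D1)) * Pk.kap i (P (Fin.last s)) *
          ∏ j : Fin s, Pk.dist i (P j.castSucc) (P (Fin.last s)) := by
          refine mul_le_mul_of_nonneg_right ?_ hpr.le
          refine mul_le_mul_of_nonneg_right ?_ hkap.le
          exact mul_le_mul_of_nonneg_left hc (C2.pos i).le
      _ = _ := by
          rw [hD1, MC.mul_c, MC.mul_c]
          ring

end Fermat.Agent.MW
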