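import Mathlib
import Fermat.Agent.MW.Kan2

/-!
A differential without zeros at finitely many given points.
-/

set_option autoImplicit false
set_option linter.unusedSectionVars false

noncomputable section

namespace Fermat.Agent.MW

open AlgebraicCurve Module Fermat.Agent.Flat Fermat.Agent.FunField

/-- the polynomial of a vector -/
def vpol {k : Type*} [Field k] {r : ℕ} (w : Fin r → k) : Polynomial k :=
  ∑ a : Fin r, Polynomial.C (w a) * Polynomial.X ^ (a : ℕ)

theorem vpol_ne_zero {k : Type*} [Field k] {r : ℕ} {w : Fin r → k} (hw : w ≠ 0) : vpol w ≠ 0 := by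
  obtain ⟨a, ha⟩ := Function.ne_iff.1 hw
  intro h
  apply ha
  have h1 := congrArg (fun p : Polynomial k => p.coeff (a : ℕ)) h
  unfold vpol at h1
  simp only [Polynomial.finset_sum_coeff, Polynomial.coeff_C_mul, Polynomial.coeff_X_pow,
    Polynomial.coeff_zero] at h1
  rw [Finset.sum_eq_single a] at h1
  · simpa using h1
  · intro b _ hb
    rw [if_neg (fun h2 => hb (Fin.ext h2.symm)), mul_zero]
  · intro h2
    exact absurd (Finset.mem_univ a) h2

theorem vpol_natDegree {k : Type*} [Field k] {r : ℕ} (w : Fin r → k) :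
    (vpol w).natDegree ≤ r := by
  refine Polynomial.natDegree_sum_le_of_forall_le _ _ fun a _ => ?_
  refine (Polynomial.natDegree_C_mul_X_pow_le _ _).trans ?_
  omega

theorem vpol_eval {k : Type*} [Field k] {r : ℕ} (w : Fin r → k) (t : k) :
    (vpol w).eval t = ∑ a : Fin r, w a * t ^ (a : ℕ) := by
  unfold vpol
  simp [Polynomial.eval_finset_sum]

/-- A common non-root. -/
theorem exists_vpol {k : Type*} [Field k] [CharZero k] {r n : ℕ} (w : Fin n → Fin r → k)
    (hw : ∀ j, w j ≠ 0) : ∃ t ∈ Finset.range (n * r + 1),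
      ∀ j, ∑ a : Fin r, w j a * (t : k) ^ (a : ℕ) ≠ 0 := by
  classical
  set q : Polynomial k := ∏ j, vpol (w j) with hq
  have hq0 : q ≠ 0 := Finset.prod_ne_zero_iff.2 fun j _ => vpol_ne_zero (hw j)
  have hdeg : q.natDegree ≤ n * r := by
    refine (Polynomial.natDegree_prod_le _ _).trans ?_
    refine (Finset.sum_le_card_nsmul _ _ r fun j _ => vpol_natDegree _).trans ?_
    simp
  by_contra hcon
  push Not at hcon
  apply hq0
  have hinj : Function.Injective (fun t : Fin (n * r + 1) => ((t : ℕ) : k)) := by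
    intro a b h
    exact Fin.ext (Nat.cast_injective h)
  refine Polynomial.eq_zero_of_natDegree_lt_card_of_eval_eq_zero q hinj (fun t => ?_)
    (by rw [Fintype.card_fin]; omega)
  obtain ⟨j, hj⟩ := hcon (t : ℕ) (Finset.mem_range.2 t.2)
  rw [hq, Polynomial.eval_prod]
  apply Finset.prod_eq_zero (Finset.mem_univ j)
  rw [vpol_eval]
  exact hj

variable {k F : Type*} [Field k] [Field F] [Algebra k F] [IsAlgClosed k] [CharZero k]
  {g C : ℤ} {X : XD k F g C}

theorem Can.exists_t (Kn : Can X) {r : ℕ} (B : Basis (Fin r) k (riemannRochSpace Kn.K))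
    (hinf : ∃ φ ∈ riemannRochSpace Kn.K, φ ≠ 0 ∧ X.inf.ord φ = -Kn.K X.inf)
    (P : Fin r → Place k F) (hunr : ∀ j, X.Unr (P j))
    (hdet : (Matrix.of fun a j => evp (P j) (B a : F)).det ≠ 0) :
    ∃ t ∈ Finset.range ((r + 1) * r + 1),
      (∀ j, (P j).ord (Kn.φ B fun a => (t : k) ^ (a : ℕ)) = 0) ∧
      Kn.φ B (fun a => (t : k) ^ (a : ℕ)) ≠ 0 ∧
      X.inf.ord (Kn.φ B fun a => (t : k) ^ (a : ℕ)) = -Kn.K X.inf := by
  classical
  obtain ⟨φ, hφ, hφ0, hφi⟩ := hinf
  have hBord : ∀ a : Fin r, φ⁻¹ * (B a : F) ∈ X.inf.toValuationSubring := by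
    intro a
    have hB0 : (B a : F) ≠ 0 := fun h => B.ne_zero a (Subtype.ext h)
    apply mem_of_ord_nonneg
    rw [X.inf.ord_mul (inv_ne_zero hφ0) hB0, X.inf.ord_inv, hφi]
    have := (mem_L' hB0).1 (B a).2 X.inf
    omega
  let w : Fin (r + 1) → Fin r → k := Fin.cons (fun a => evp X.inf (φ⁻¹ * (B a : F)))
    (fun j a => evp (P j) (B a : F))
  have hsumi : ∀ c : Fin r → k, evp X.inf (φ⁻¹ * Kn.φ B c) =
      ∑ a, c a * evp X.inf (φ⁻¹ * (B a : F)) := by
    intro c
    have h1 : φ⁻¹ * Kn.φ B c = ∑ a, c a • (φ⁻¹ * (B a : F)) := by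
      unfold Can.φ
      rw [Finset.mul_sum]
      exact Finset.sum_congr rfl fun a _ => by rw [mul_smul_comm]
    rw [h1, evp_sum (X.crv.rat _) _ _ fun a _ => by
      rw [Algebra.smul_def]
      exact mul_mem (X.inf.algebraMap_mem' _) (hBord a)]
    exact Finset.sum_congr rfl fun a _ => evp_smul (X.crv.rat _) _ (hBord a)
  have hw : ∀ j, w j ≠ 0 := by
    intro j
    refine Fin.cases ?_ (fun j => ?_) j
    · intro h
      have h2 : (fun a => evp X.inf (φ⁻¹ * (B a : F))) = 0 := h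
      have h1 : Kn.φ B (fun a => B.repr ⟨φ, hφ⟩ a) = φ := by
        have h3 := congrArg (riemannRochSpace Kn.K).subtype (B.sum_repr ⟨φ, hφ⟩)
        rw [map_sum] at h3
        exact h3
      have h4 := hsumi (fun a => B.repr ⟨φ, hφ⟩ a)
      rw [h1, inv_mul_cancel₀ hφ0, evp_one] at h4
      have h5 : ∀ a, evp X.inf (φ⁻¹ * (B a : F)) = 0 := fun a => congrFun h2 a
      simp only [h5, mul_zero, Finset.sum_const_zero] at h4
      exact one_ne_zero h4
    · intro h
      apply hdet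
      have h2 : (fun a => evp (P j) (B a : F)) = 0 := h
      exact Matrix.det_eq_zero_of_column_eq_zero j fun a => congrFun h2 a
  obtain ⟨t, ht, hval⟩ := exists_vpol w hw
  refine ⟨t, ht, ?_⟩
  have hi : evp X.inf (φ⁻¹ * Kn.φ B fun a => (t : k) ^ (a : ℕ)) ≠ 0 := by
    rw [hsumi]
    have h1 : ∑ a : Fin r, evp X.inf (φ⁻¹ * (B a : F)) * (t : k) ^ (a : ℕ) ≠ 0 := hval 0
    intro h2
    apply h1
    rw [← h2]
    exact Finset.sum_congr rfl fun a _ => mul_comm _ _
  have hmi : (φ⁻¹ * Kn.φ B fun a => (t : k) ^ (a : ℕ)) ∈ X.inf.toValuationSubring := by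
    have h1 : (φ⁻¹ * Kn.φ B fun a => (t : k) ^ (a : ℕ)) =
        ∑ a : Fin r, ((t : k) ^ (a : ℕ)) • (φ⁻¹ * (B a : F)) := by
      unfold Can.φ
      rw [Finset.mul_sum]
      exact Finset.sum_congr rfl fun a _ => by rw [mul_smul_comm]
    rw [h1]
    refine sum_mem fun a _ => ?_
    rw [Algebra.smul_def]
    exact mul_mem (X.inf.algebraMap_mem' _) (hBord a)
  rw [evp_ne_zero_iff (X.crv.rat _) hmi] at hi
  have hne : Kn.φ B (fun a => (t : k) ^ (a : ℕ)) ≠ 0 := right_ne_zero_of_mul hi.1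
  refine ⟨fun j => ?_, hne, ?_⟩
  · have h1 : evp (P j) (Kn.φ B fun a => (t : k) ^ (a : ℕ)) ≠ 0 := by
      rw [Kn.evp_φ B _ (hunr j)]
      have h1 : ∑ a : Fin r, evp (P j) (B a : F) * (t : k) ^ (a : ℕ) ≠ 0 := hval j.succ
      intro h2
      apply h1
      rw [← h2]
      exact Finset.sum_congr rfl fun a _ => mul_comm _ _
    rw [evp_ne_zero_iff (X.crv.rat _) (Kn.mem_unr (Kn.φ_mem B _) (hunr j))] at h1
    exact h1.2
  · have h1 := hi.2
    rw [X.inf.ord_mul (inv_ne_zero hφ0) hne, X.inf.ord_inv, hφi] at h1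
    omega

end Fermat.Agent.MW
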