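import Mathlib
import Fermat.Agent.MW.PosD
import Fermat.Agent.MW.PosT

/-!
# Positivity of the height
-/

set_option autoImplicit false
set_option linter.unusedSectionVars false

noncomputable section

namespace Fermat.Agent.MW

open AlgebraicCurve Module Fermat.Agent.Flat Fermat.Agent.FunField Function

local notation "Qb" => AlgebraicClosure ℚ
local notation "GQ" => (AlgebraicClosure ℚ ≃ₐ[ℚ] AlgebraicClosure ℚ)

variable {F : Type*} [Field F] [Algebra Qb F] {g C : ℤ} {X : XD Qb F g C}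
  {γ : GQ →* SemilinearAut Qb F} {H : Subgroup GQ}

theorem IsPair.exists_neg {V : AV Qb} {Pk : Pkg V X} {B : JH γ H → JH γ H → ℝ}
    (hB : IsPair γ H Pk B) : ∃ K3 : ℝ, ∀ x : JH γ H, |B x x + B x (-x)| ≤ K3 := by
  obtain ⟨Ka, hKa⟩ := hB.add
  obtain ⟨Ks, hKs⟩ := hB.symm
  refine ⟨Ka + Ka + Ks, fun x => ?_⟩
  have h1 := abs_le.mp (hKa x (-x) x)
  have h2 := abs_le.mp (hKa 0 0 x)
  have h3 := abs_le.mp (hKs x (-x))
  rw [add_neg_cancel] at h1
  rw [add_zero] at h2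
  rw [abs_le]
  constructor <;> linarith [h1.1, h1.2, h2.1, h2.2, h3.1, h3.2]

theorem cl_dv {f : F} (hf0 : f ≠ 0) : X.cl (dv (K := Qb) f) = 0 := by
  have h2 := X.cl_eq_mk (D := dv (K := Qb) f) (D0 := 0) hf0 (by
    rw [X.crv.deg0 f hf0, Finsupp.single_zero, sub_zero]
    change _ = (0 : Divisor Qb F) + _
    rw [zero_add])
  rw [h2, Pic0.mk]
  exact QuotientAddGroup.mk_zero _

theorem GalX.smul_φ (hG : GalX X γ H) (Kn : Can X) {r : ℕ}
    (B : Basis (Fin r) Qb (riemannRochSpace Kn.K)) (hB : ∀ a, ∀ σ ∈ H, γ σ • (B a : F) = B a)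
    (t : ℕ) {σ : GQ} (hσ : σ ∈ H) :
    γ σ • Kn.φ B (fun a => (t : Qb) ^ (a : ℕ)) = Kn.φ B (fun a => (t : Qb) ^ (a : ℕ)) := by
  unfold Can.φ
  rw [Finset.smul_sum]
  refine Finset.sum_congr rfl fun a _ => ?_
  rw [hG.smul_smul_vec, hB a σ hσ, map_pow, map_natCast]

/-- **Positivity.** -/
theorem posit (hG : GalX X γ H) (V : AVH H) (Pk : Pkg V.toAV X) (Kn : Can X)
    (B : JH γ H → JH γ H → ℝ) (hB : IsPair γ H Pk B) : Posit X γ H V.toAV B := by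
  classical
  obtain ⟨K3, hK3⟩ := hB.exists_neg
  set r : ℕ := finrank Qb (riemannRochSpace Kn.K) with hrdef
  have hr : (r : ℤ) = g := Kn.fr
  have hn0 : (0 : ℝ) < X.n0 := by exact_mod_cast X.n0_pos
  by_cases hex : ∃ D : Divisor Qb F, Gd X γ H D ∧ dg D = g ∧ (∀ v, D v ≤ 1) ∧
    (∀ v, D v ≠ 0 → X.Unr v) ∧ finrank Qb (riemannRochSpace D) = 1
  swap
  · exact ⟨0, 0, fun D x h1 h2 h3 h4 h5 _ => absurd ⟨D, h1, h2, h3, h4, h5⟩ hex⟩
  obtain ⟨D0, hGd0, hdg0, hle0, hunr0, hl0⟩ := hex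
  rcases Nat.eq_zero_or_pos r with hr0 | hrpos
  · refine ⟨0, 0, fun D x hGd hdg hle _ _ hx' => ?_⟩
    obtain ⟨P, hP, hPD, -⟩ := exists_pd hGd.nn hle (r := r) (by rw [hdg, hr])
    have hD : D = 0 := by
      rw [← hPD, pd]
      exact Finset.sum_eq_zero fun j _ => absurd j.2 (by omega)
    subst hD
    rw [map_zero] at hx'
    have hx0 : x = 0 := Subtype.ext hx'.symm
    subst hx0
    have hh : hx V.toAV X 0 = 0 := by
      unfold hx
      simp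
    rw [hh, mul_zero, zero_add, sub_zero]
  -- no base point at infinity
  obtain ⟨P0, hP0, hPD0, hPne0⟩ := exists_pd hGd0.nn hle0 (r := r) (by rw [hdg0, hr])
  have hinf := exists_ord_inf X.crv Kn.dgK Kn.fr hr hrpos hP0
    (by rw [hPD0]; exact hl0) (w := X.inf) fun j => (hunr0 _ (hPne0 j)).1
  -- a fixed basis
  haveI := X.crv.fd Kn.K
  obtain ⟨Bs, hBs⟩ := hG.exists_fixed_basis (riemannRochSpace Kn.K)
    (fun σ hσ f hf => smul_mem_rr (hG.smul_K Kn hσ) hf) hrdef.symm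
  set φ : ℕ → F := fun t => Kn.φ Bs fun a => (t : Qb) ^ (a : ℕ) with hφdef
  have hφL : ∀ t, φ t ∈ riemannRochSpace Kn.K := fun t => Kn.φ_mem Bs _
  have hφH : ∀ t, ∀ σ ∈ H, γ σ • φ t = φ t := fun t σ hσ => hG.smul_φ Kn Bs hBs t hσ
  obtain ⟨m, hm⟩ : ∃ m : ℕ, C + 1 ≤ ((m * X.n0 : ℕ) : ℤ) - r := by
    refine ⟨(C + 1 + r).toNat, ?_⟩
    have h1 : C + 1 + r ≤ ((C + 1 + r).toNat : ℤ) := Int.self_le_toNat _
    have h2 : ((C + 1 + r).toNat : ℤ) ≤ (((C + 1 + r).toNat * X.n0 : ℕ) : ℤ) := by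
      exact_mod_cast Nat.le_mul_of_pos_right _ X.n0_pos
    omega
  -- the constants
  have hK1 : ∀ t : ℕ, ∃ K1 : ℝ, φ t ≠ 0 → X.inf.ord (φ t) = -Kn.K X.inf →
      ∀ P : Fin r → Place Qb F, Injective P → (∀ j, X.Unr (P j)) →
      (∀ σ ∈ H, γ σ • pd P = pd P) → (Matrix.of fun a j => evp (P j) (Bs a : F)).det ≠ 0 →
      (∀ j, (P j).ord (φ t) = 0) → ∃ E : Divisor Qb F, Gd X γ H E ∧
        dg E = ((m * X.n0 : ℕ) : ℤ) - r ∧ Disj (pd P) E ∧ X.cl E = -X.cl (pd P) ∧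
        ((r : ℝ) + X.n0 * m) * hx V.toAV X (pd P) + r * hx V.toAV X E -
          X.n0 * II Pk (pd P) E - X.n0 * II Pk (pd P) (dv (φ t) + Kn.K) ≤ K1 := by
    intro t
    by_cases h : φ t ≠ 0 ∧ X.inf.ord (φ t) = -Kn.K X.inf
    · obtain ⟨K1, hK1⟩ := hG.exists_global V Pk Kn Bs hBs hm (hφL t) h.1 h.2 (hφH t)
      exact ⟨K1, fun _ _ => hK1⟩
    · exact ⟨0, fun h1 h2 => absurd ⟨h1, h2⟩ h⟩
  choose K1 hK1 using hK1
  set T := Finset.range ((r + 1) * r + 1) with hT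
  set M1 : ℝ := ∑ t ∈ T, |K1 t| with hM1
  set M2 : ℝ := ∑ t ∈ T, |hx V.toAV X (dv (φ t) + Kn.K)| with hM2
  have hM1' : ∀ t ∈ T, K1 t ≤ M1 := fun t ht => (le_abs_self _).trans
    (Finset.single_le_sum (f := fun t => |K1 t|) (fun _ _ => abs_nonneg _) ht)
  have hM2' : ∀ t ∈ T, hx V.toAV X (dv (φ t) + Kn.K) ≤ M2 := fun t ht => (le_abs_self _).trans
    (Finset.single_le_sum (f := fun t => |hx V.toAV X (dv (φ t) + Kn.K)|)
      (fun _ _ => abs_nonneg _) ht)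
  obtain ⟨K2, hK2⟩ := hB.disj (r + 2 * r + m * X.n0)
  have hκ : X.cl Kn.K ∈ JH γ H := by
    intro σ hσ
    rw [hG.smul_cl hσ, hG.smul_K Kn hσ]
  refine ⟨⟨X.cl Kn.K, hκ⟩, M1 / X.n0 + 2 * K2 + K3 + r / X.n0 * M2, ?_⟩
  intro D x hGd hdg hle hunr hl hcl
  obtain ⟨P, hP, hPD, hPne⟩ := exists_pd hGd.nn hle (r := r) (by rw [hdg, hr])
  have hunrP : ∀ j, X.Unr (P j) := fun j => hunr _ (hPne j)
  have hdet := det_ne_zero X.crv Kn.dgK Kn.fr hr Bs hP (fun j => Kn.K_unr (hunrP j))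
    (by rw [hPD]; exact hl)
  obtain ⟨t, ht, ht1, ht2, ht3⟩ := Kn.exists_t Bs hinf P hunrP hdet
  obtain ⟨E, hGE, hdgE, hdisj, hclE, hmain⟩ := hK1 t ht2 ht3 P hP hunrP
    (fun σ hσ => by rw [hPD]; exact hGd.st σ hσ) hdet ht1
  rw [hPD] at hdisj hclE hmain
  -- the canonical divisor
  set K0 : Divisor Qb F := dv (φ t) + Kn.K with hK0
  have hGK : Gd X γ H K0 := by
    refine ⟨?_, ?_, ?_⟩
    · intro v
      have h1 := (mem_L' ht2).mp (hφL t) v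
      rw [hK0, Finsupp.add_apply, dv_apply (X.crv.fin _), Finsupp.zero_apply]
      change -Kn.K v ≤ v.ord (φ t) at h1
      omega
    · intro σ hσ
      rw [hK0, smul_add, smul_dv X, hφH t σ hσ, hG.smul_K Kn hσ]
    · rw [hK0, Finsupp.add_apply, dv_apply (X.crv.fin _)]
      change X.inf.ord (φ t) = _ at ht3
      rw [ht3, neg_add_cancel]
  have hdgK0 : dg K0 = 2 * g - 2 := by
    rw [hK0, map_add, X.crv.deg0 _ ht2, Kn.dgK, zero_add]
  have hclK : X.cl K0 = X.cl Kn.K := by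
    rw [hK0, map_add, cl_dv ht2, zero_add]
  have hdisjK : Disj D K0 := by
    intro v
    rw [← hPD]
    rcases pd_cases hP v with ⟨j, rfl, -⟩ | ⟨-, h⟩
    · right
      rw [hK0, Finsupp.add_apply, dv_apply (X.crv.fin _), Kn.K_unr (hunrP j), add_zero]
      exact ht1 j
    · exact Or.inl h
  have hdgr : dg D = (r : ℤ) := hdg.trans hr.symm
  have hdgKr : dg K0 = 2 * (r : ℤ) - 2 := by rw [hdgK0]; omega
  have hmn : (0 : ℤ) ≤ (m : ℤ) * X.n0 := by positivity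
  have e1 := abs_le.mp (hK2 D E x (-x) hGd hGE hdisj (by rw [hdgr]; push_cast; omega)
    (by rw [hdgE]; push_cast; omega) hcl (by rw [hclE, hcl]; rfl))
  have e2 := abs_le.mp (hK2 D K0 x ⟨X.cl Kn.K, hκ⟩ hGd hGK hdisjK
    (by rw [hdgr]; push_cast; omega) (by rw [hdgKr]; push_cast; omega) hcl hclK)
  have e3 := abs_le.mp (hK3 x)
  have e4 := hM1' t ht
  have e5 := hM2' t ht
  unfold B0 at e1 e2
  rw [hdgr, hdgE] at e1
  rw [hdgr, hdgKr] at e2
  push_cast at e1 e2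
  have hR : (0 : ℝ) ≤ r := Nat.cast_nonneg r
  set n : ℝ := (X.n0 : ℝ) with hn
  set hD := hx V.toAV X D with hhD
  set hE := hx V.toAV X E with hhE
  set hK := hx V.toAV X K0 with hhK
  set IE := II Pk D E
  set IK := II Pk D K0
  have a1 : (r : ℝ) / n * hE = r * (hE / n) := by ring
  have a2 : ((m : ℝ) * n - r) / n * hD = (m : ℝ) * n * (hD / n) - r * (hD / n) := by
    field_simp
  have a3 : (r : ℝ) / n * hK = r / n * hK := rfl
  have a4 : (2 * (r : ℝ) - 2) / n * hD = 2 * (r * (hD / n)) - 2 * (hD / n) := by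
    field_simp
  have a5 : 2 / n * hD = 2 * (hD / n) := by ring
  have a6 : (r : ℝ) * (hD / n) + (m : ℝ) * n * (hD / n) + r * (hE / n) - IE - IK ≤ M1 / n := by
    rw [le_div_iff₀ hn0]
    have h1 : ((r : ℝ) * (hD / n) + (m : ℝ) * n * (hD / n) + r * (hE / n) - IE - IK) * n =
        (r + n * m) * hD + r * hE - n * IE - n * IK := by
      field_simp
    rw [h1]
    exact hmain.trans e4
  have a7 : (r : ℝ) / n * hK ≤ r / n * M2 := mul_le_mul_of_nonneg_left e5 (by positivity)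
  rw [a1, a2] at e1
  rw [a4] at e2
  rw [a5]
  linarith [e1.1, e1.2, e2.1, e2.2, e3.1, e3.2, a6, a7]

end Fermat.Agent.MW
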