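import Fermat.Agent.GCFT.Mod
import Fermat.Agent.ESCore.Cyclo

/-!
# Finite extensions of `ℚ` are unramified almost everywhere
-/

set_option autoImplicit false
set_option linter.unusedSectionVars false

namespace Fermat.Agent.MW

open Fermat.Agent.Coh Fermat.Agent.GCFT

/-- The field of algebraic numbers. -/
local notation "Qb" => AlgebraicClosure ℚ
/-- The absolute Galois group. -/
local notation "GQ" => (AlgebraicClosure ℚ ≃ₐ[ℚ] AlgebraicClosure ℚ)

theorem mem_of_isIntegral {A : ValuationSubring Qb} {x : Qb} (hx : IsIntegral ℤ x) : x ∈ A := by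
  have h1 : IsIntegral A x := hx.tower_top
  obtain ⟨y, hy⟩ := (IsIntegrallyClosed.isIntegral_iff (R := A) (K := Qb)).mp h1
  rw [← hy]
  exact y.2

theorem val_natCast_of_not_dvd {A : ValuationSubring Qb} {q : ℕ} (hq : q.Prime)
    (hA : A.LiesOverPrime q) {n : ℕ} (hn : ¬ q ∣ n) : A.valuation (n : Qb) = 1 := by
  have hle : ∀ m : ℤ, A.valuation (m : Qb) ≤ 1 := fun m =>
    (A.valuation_le_one_iff _).mpr (mem_of_isIntegral (isIntegral_algebraMap (A := Qb) (x := m)))
  have hle' : A.valuation (n : Qb) ≤ 1 := by exact_mod_cast hle n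
  refine le_antisymm hle' (not_lt.mp fun hlt => ?_)
  have hq1 : A.valuation (q : Qb) < 1 := hA
  have hco : IsCoprime (n : ℤ) (q : ℤ) :=
    Nat.isCoprime_iff_coprime.mpr ((Nat.Prime.coprime_iff_not_dvd hq).mpr hn).symm
  obtain ⟨u, v, huv⟩ := hco
  have h1 : (u : Qb) * (n : Qb) + (v : Qb) * (q : Qb) = 1 := by
    exact_mod_cast congrArg (fun z : ℤ => (z : Qb)) huv
  have h2 : A.valuation ((u : Qb) * (n : Qb) + (v : Qb) * (q : Qb)) < 1 := by
    refine lt_of_le_of_lt (A.valuation.map_add _ _) (max_lt ?_ ?_)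
    · rw [map_mul]
      exact lt_of_le_of_lt (mul_le_mul_left (hle u) _) (by rwa [one_mul])
    · rw [map_mul]
      exact lt_of_le_of_lt (mul_le_mul_left (hle v) _) (by rwa [one_mul])
  rw [h1, map_one] at h2
  exact lt_irrefl _ h2

/-- algebraic numbers are integral at almost all places -/
theorem exists_nat_mem (a : Qb) : ∃ n : ℕ, n ≠ 0 ∧ ∀ q : ℕ, q.Prime → ¬ q ∣ n →
    ∀ A : ValuationSubring Qb, A.LiesOverPrime q → a ∈ A := by
  have h0 : IsAlgebraic ℤ a :=
    (IsFractionRing.isAlgebraic_iff ℤ ℚ Qb).mpr (Algebra.IsAlgebraic.isAlgebraic a)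
  obtain ⟨y, hy, hi⟩ := h0.exists_integral_multiple
  refine ⟨y.natAbs, Int.natAbs_ne_zero.mpr hy, fun q hq hqn A hA => ?_⟩
  have h1 := val_natCast_of_not_dvd hq hA hqn
  have h2 : A.valuation (y : Qb) = 1 := by
    rcases Int.natAbs_eq y with h | h
    · have h4 : (y : Qb) = ((y.natAbs : ℕ) : Qb) := by
        conv_lhs => rw [h]
        exact Int.cast_natCast _
      rw [h4, h1]
    · have h4 : (y : Qb) = -((y.natAbs : ℕ) : Qb) := by
        conv_lhs => rw [h]
        rw [Int.cast_neg, Int.cast_natCast]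
      rw [h4, Valuation.map_neg, h1]
  have h3 : A.valuation (y • a) ≤ 1 := (A.valuation_le_one_iff _).mpr (mem_of_isIntegral hi)
  rw [zsmul_eq_mul, map_mul, h2, one_mul] at h3
  exact (A.valuation_le_one_iff _).mp h3

theorem exists_nat_val (a : Qb) (ha : a ≠ 0) : ∃ n : ℕ, n ≠ 0 ∧ ∀ q : ℕ, q.Prime → ¬ q ∣ n →
    ∀ A : ValuationSubring Qb, A.LiesOverPrime q → A.valuation a = 1 := by
  obtain ⟨n, hn, h⟩ := exists_nat_mem a
  obtain ⟨m, hm, h'⟩ := exists_nat_mem a⁻¹
  refine ⟨n * m, mul_ne_zero hn hm, fun q hq hd A hA => le_antisymm ?_ ?_⟩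
  · exact (A.valuation_le_one_iff _).mpr (h q hq (fun hh => hd (hh.mul_right m)) A hA)
  · have h1 := (A.valuation_le_one_iff _).mpr (h' q hq (fun hh => hd (hh.mul_left n)) A hA)
    rw [map_inv₀] at h1
    exact (inv_le_one₀ (by rw [zero_lt_iff]; exact (Valuation.ne_zero_iff _).mpr ha)).mp h1

theorem exists_nat_forall {ι : Type*} (t : Finset ι) (P : ι → ℕ → Prop)
    (h : ∀ i ∈ t, ∃ n : ℕ, n ≠ 0 ∧ ∀ q : ℕ, q.Prime → ¬ q ∣ n → P i q) :
    ∃ n : ℕ, n ≠ 0 ∧ ∀ q : ℕ, q.Prime → ¬ q ∣ n → ∀ i ∈ t, P i q := by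
  classical
  induction t using Finset.induction_on with
  | empty => exact ⟨1, one_ne_zero, fun _ _ _ i hi => absurd hi (Finset.notMem_empty i)⟩
  | insert a t hat ih =>
    obtain ⟨n, hn, h1⟩ := h a (Finset.mem_insert_self a t)
    obtain ⟨m, hm, h2⟩ := ih fun i hi => h i (Finset.mem_insert_of_mem hi)
    refine ⟨n * m, mul_ne_zero hn hm, fun q hq hd i hi => ?_⟩
    rcases Finset.mem_insert.mp hi with rfl | hi
    · exact h1 q hq fun hh => hd (hh.mul_right m)
    · exact h2 q hq (fun hh => hd (hh.mul_left n)) i hi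

/-- almost all inertia groups fix a given algebraic number -/
theorem exists_nat_fix (a : Qb) : ∃ n : ℕ, n ≠ 0 ∧ ∀ q : ℕ, q.Prime → ¬ q ∣ n →
    ∀ A : ValuationSubring Qb, A.LiesOverPrime q → ∀ σ ∈ A.inertiaSubgroupIn ℚ, σ a = a := by
  classical
  set f := minpoly ℚ a with hf
  have hf0 : f ≠ 0 := minpoly.ne_zero (Algebra.IsIntegral.isIntegral a)
  set t : Finset Qb := (f.aroots Qb).toFinset with ht
  have hmem : ∀ σ : GQ, σ a ∈ t := by
    intro σ
    rw [ht, Multiset.mem_toFinset, Polynomial.mem_aroots]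
    refine ⟨hf0, ?_⟩
    have h1 : Polynomial.aeval a f = 0 := minpoly.aeval ℚ a
    have h2 := Polynomial.aeval_algHom_apply (σ : Qb →ₐ[ℚ] Qb) a f
    rw [h1, map_zero] at h2
    exact h2
  obtain ⟨n, hn, h1⟩ := exists_nat_forall (t.filter fun b => b ≠ a)
    (fun b q => ∀ A : ValuationSubring Qb, A.LiesOverPrime q → A.valuation (b - a) = 1)
    (fun b hb => exists_nat_val (b - a) (sub_ne_zero.mpr (Finset.mem_filter.mp hb).2))
  obtain ⟨m, hm, h2⟩ := exists_nat_mem a
  refine ⟨n * m, mul_ne_zero hn hm, fun q hq hd A hA σ hσ => ?_⟩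
  by_contra hne
  have h3 := h1 q hq (fun hh => hd (hh.mul_right m)) (σ a)
    (Finset.mem_filter.mpr ⟨hmem σ, hne⟩) A hA
  have h4 := Fermat.Agent.ESCore.inertia_val hσ (h2 q hq (fun hh => hd (hh.mul_left n)) A hA)
  rw [h3] at h4
  exact lt_irrefl _ h4

/-- almost all inertia groups are contained in a given open subgroup -/
theorem exists_nat_inertia_le {U : Subgroup GQ} (hU : IsOpen (U : Set GQ)) :
    ∃ n : ℕ, n ≠ 0 ∧ ∀ q : ℕ, q.Prime → ¬ q ∣ n →
      ∀ A : ValuationSubring Qb, A.LiesOverPrime q → A.inertiaSubgroupIn ℚ ≤ U := by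
  classical
  haveI := Fermat.Agent.GCFT.galQ
  set E : IntermediateField ℚ Qb := IntermediateField.fixedField U with hE
  have hcl : IsClosed (U : Set GQ) := Subgroup.isClosed_of_isOpen U hU
  have h1 : E.fixingSubgroup = U :=
    InfiniteGalois.fixingSubgroup_fixedField (k := ℚ) (K := Qb) ⟨U, hcl⟩
  haveI : FiniteDimensional ℚ E := by
    rw [← InfiniteGalois.isOpen_iff_finite (k := ℚ) (K := Qb) E, h1]
    exact hU
  let b := Module.finBasis ℚ E
  obtain ⟨n, hn, h2⟩ := exists_nat_forall Finset.univ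
    (fun (i : Fin (Module.finrank ℚ E)) q => ∀ A : ValuationSubring Qb, A.LiesOverPrime q →
      ∀ σ ∈ A.inertiaSubgroupIn ℚ, σ (b i : Qb) = (b i : Qb))
      (fun i _ => exists_nat_fix (b i : Qb))
  refine ⟨n, hn, fun q hq hd A hA σ hσ => ?_⟩
  rw [← h1, IntermediateField.mem_fixingSubgroup_iff]
  intro x hx
  obtain ⟨c, h3⟩ : ∃ c : Fin (Module.finrank ℚ E) → ℚ,
      x = ∑ i, algebraMap ℚ Qb (c i) * (b i : Qb) := by
    refine ⟨b.repr ⟨x, hx⟩, ?_⟩
    have h4 := b.sum_repr ⟨x, hx⟩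
    have h5 := congrArg (fun z : E => (z : Qb)) h4
    refine h5.symm.trans ?_
    simp [Algebra.smul_def]
  rw [h3, map_sum]
  refine Finset.sum_congr rfl fun i _ => ?_
  rw [map_mul, AlgEquiv.commutes, h2 q hq hd i (Finset.mem_univ i) A hA σ hσ]

/-- an open subgroup is open at some finite level -/
theorem exists_famS {U : Subgroup GQ} (hU : IsOpen (U : Set GQ)) (S₀ : Finset Nat.Primes) :
    ∃ S : Finset Nat.Primes, S₀ ⊆ S ∧ (famS S).IsOpen U := by
  classical
  haveI : U.FiniteIndex := finiteIndex_of_isOpen hU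
  have hcl : IsClosed (U.normalCore : Set GQ) :=
    Subgroup.normalCore_isClosed U (Subgroup.isClosed_of_isOpen U hU)
  have hop : IsOpen (U.normalCore : Set GQ) := Subgroup.isOpen_of_isClosed_of_finiteIndex _ hcl
  obtain ⟨n, hn, h⟩ := exists_nat_inertia_le hop
  refine ⟨S₀ ∪ n.primeFactors.attach.image
    (fun q => (⟨q.1, Nat.prime_of_mem_primeFactors q.2⟩ : Nat.Primes)), Finset.subset_union_left,
    U.normalCore, ⟨inferInstance, hop, fun q hq A hA => h q q.2 (fun hd => hq ?_) A hA⟩,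
    Subgroup.normalCore_le U⟩
  refine Finset.mem_union_right _ (Finset.mem_image.mpr ⟨⟨q.1, ?_⟩, Finset.mem_attach _ _, rfl⟩)
  exact Nat.mem_primeFactors.mpr ⟨q.2, hd, hn⟩

end Fermat.Agent.MW
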