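import Fermat.Agent.PT.PTC4
import Fermat.Agent.MW.WkS

/-!
# The weak Mordell–Weil theorem for abstract Galois modules
-/

set_option autoImplicit false
set_option linter.unusedSectionVars false
set_option linter.style.haveILetI false

namespace Fermat.Agent.MW

open Fermat.Agent.Coh Fermat.Agent.GCFT Fermat.Agent.PT ExtCitation

/-- The field of algebraic numbers. -/
local notation "Qb" => AlgebraicClosure ℚ
/-- The absolute Galois group. -/
local notation "GQ" => (AlgebraicClosure ℚ ≃ₐ[ℚ] AlgebraicClosure ℚ)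

noncomputable section

variable (J : Type) [AddCommGroup J]
  [DistribMulAction (AlgebraicClosure ℚ ≃ₐ[ℚ] AlgebraicClosure ℚ) J] (p : ℕ)

/-- the `p`-torsion subgroup -/
def TJ : AddSubgroup J := (nsmulAddMonoidHom (α := J) p).ker

variable {J p}

theorem mem_TJ {x : J} : x ∈ TJ J p ↔ p • x = 0 := Iff.rfl

theorem smul_mem_TJ {x : J} (hx : x ∈ TJ J p) (g : GQ) : g • x ∈ TJ J p := by
  rw [mem_TJ] at hx ⊢
  rw [← smul_comm g p x, hx, smul_zero]

instance TJ.module : Module (ZMod p) (TJ J p) :=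
  AddCommGroup.zmodModule fun x => Subtype.ext (mem_TJ.mp x.2)

/-- the action of a group element -/
def TJ.act (g : GQ) : TJ J p →+ TJ J p where
  toFun x := ⟨g • (x : J), smul_mem_TJ x.2 g⟩
  map_zero' := Subtype.ext (smul_zero g)
  map_add' x y := Subtype.ext (smul_add g (x : J) (y : J))

variable (J p)

/-- the representation on the `p`-torsion -/
def tRep (H : Subgroup GQ) : Representation (ZMod p) H (TJ J p) where
  toFun h := (TJ.act (h : GQ)).toZModLinearMap p
  map_one' := LinearMap.ext fun x => Subtype.ext (one_smul GQ (x : J))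
  map_mul' g h := LinearMap.ext fun x => Subtype.ext (mul_smul (g : GQ) (h : GQ) (x : J))

variable {J p}

theorem coe_tRep (H : Subgroup GQ) (h : H) (x : TJ J p) :
    ((tRep J p H h x : TJ J p) : J) = (h : GQ) • (x : J) := rfl

/-- the stabiliser of a point whose multiple is rational contains an open subgroup of level `S` -/
theorem normalCore_mem (hsm : ∀ x : J, ∃ U : Subgroup GQ, IsOpen (U : Set GQ) ∧ ∀ u ∈ U, u • x = x)
    {S : Finset Nat.Primes}
    (hin : ∀ l : Nat.Primes, l ∉ S → ∀ A : ValuationSubring Qb, A.LiesOverPrime (l : ℕ) →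
      ∀ σ ∈ A.inertiaSubgroupIn ℚ, ∀ y : J, p • (σ • y - y) = 0 → σ • y = y)
    {H : Subgroup GQ} (hH : (famS S).IsOpen H) {y : J} (hy : ∀ h ∈ H, h • (p • y) = p • y) :
    (MulAction.stabilizer GQ y).normalCore ∈ famS S := by
  obtain ⟨U₀, hU₀, hle⟩ := hH
  obtain ⟨U, hU, hUy⟩ := hsm y
  have h1 : IsOpen (MulAction.stabilizer GQ y : Set GQ) :=
    Subgroup.isOpen_mono (H₁ := U) (fun u hu => hUy u hu) hU
  haveI := finiteIndex_of_isOpen h1
  have hcl : IsClosed ((MulAction.stabilizer GQ y).normalCore : Set GQ) :=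
    Subgroup.normalCore_isClosed _ (Subgroup.isClosed_of_isOpen _ h1)
  refine ⟨inferInstance, Subgroup.isOpen_of_isClosed_of_finiteIndex _ hcl,
    fun q hq A hA σ hσ g => ?_⟩
  have hσU : σ ∈ U₀ := hU₀.2.2 q hq A hA hσ
  have hc : g * σ * g⁻¹ ∈ H := hle (hU₀.1.conj_mem σ hσU g)
  have h2 : σ • g⁻¹ • y = g⁻¹ • y := by
    refine hin q hq A hA σ hσ _ ?_
    rw [smul_sub, ← smul_comm σ p (g⁻¹ • y), ← smul_comm g⁻¹ p y, sub_eq_zero]
    have h3 := hy _ hc
    rw [mul_smul, mul_smul] at h3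
    have h4 := congrArg (fun z => g⁻¹ • z) h3
    simp only [inv_smul_smul] at h4
    exact h4
  change (g * σ * g⁻¹) • y = y
  rw [mul_smul, mul_smul, h2, smul_inv_smul]

variable [hp : Fact p.Prime]

/-- **The weak Mordell–Weil theorem** for abstract modules -/
theorem finiteIndex_abs (hp2 : p ≠ 2) (hdiv : ∀ x : J, ∃ y, p • y = x)
    (hfin : {x : J | p • x = 0}.Finite)
    (hsm : ∀ x : J, ∃ U : Subgroup GQ, IsOpen (U : Set GQ) ∧ ∀ u ∈ U, u • x = x)
    (S₀ : Finset Nat.Primes)
    (hin : ∀ l : Nat.Primes, l ∉ S₀ → ∀ A : ValuationSubring Qb, A.LiesOverPrime (l : ℕ) →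
      ∀ σ ∈ A.inertiaSubgroupIn ℚ, ∀ y : J, p • (σ • y - y) = 0 → σ • y = y)
    (H : Subgroup GQ) (hH : IsOpen (H : Set GQ)) :
    (nsmulAddMonoidHom (α := ↥(FixedPoints.addSubgroup H J)) p).range.FiniteIndex := by
  classical
  obtain ⟨S, hS, hHS⟩ := exists_famS hH (insert (pPrime p) S₀)
  have hpS : pPrime p ∈ S := hS (Finset.mem_insert_self _ _)
  have hin' : ∀ l : Nat.Primes, l ∉ S → ∀ A : ValuationSubring Qb, A.LiesOverPrime (l : ℕ) →
      ∀ σ ∈ A.inertiaSubgroupIn ℚ, ∀ y : J, p • (σ • y - y) = 0 → σ • y = y :=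
    fun l hl => hin l fun h => hl (hS (Finset.mem_insert_of_mem h))
  have key : ∀ y : J, (∀ h ∈ H, h • (p • y) = p • y) →
      (MulAction.stabilizer GQ y).normalCore ∈ famS S := fun y hy =>
    normalCore_mem hsm hin' hHS hy
  -- the module
  haveI : Finite (TJ J p) := hfin.to_subtype
  haveI : Module.Finite (ZMod p) (TJ J p) := Module.Finite.of_finite
  have hsmR : SmRep ((famS S).res H) (tRep J p H) := by
    intro v
    refine ⟨_, ⟨_, key (v : J) (fun h _ => ?_), rfl⟩, fun u hu => Subtype.ext ?_⟩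
    · rw [mem_TJ.mp v.2, smul_zero]
    · rw [coe_tRep]
      exact Subgroup.normalCore_le _ hu
  have hF := finAll_res (χ := (1 : GQ →* (ZMod p)ˣ))
    ⟨_, (famS S).nonempty.choose_spec, fun _ _ => rfl⟩ (finAll_fr (S := S) hp2 hpS) hHS
  haveI := (hF _ (tRep J p H) hsmR).1
  haveI : Finite (H1 ((famS S).res H) (tRep J p H)) := Module.finite_of_finite (ZMod p)
  -- the cocycles
  have hz : ∀ x : ↥(FixedPoints.addSubgroup H J), ∃ (y : J) (z : ↥(Z1 ((famS S).res H) (tRep J p H))),
      p • y = (x : J) ∧ ∀ h : H, ((z : H → TJ J p) h : J) = (h : GQ) • y - y := by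
    intro x
    obtain ⟨y, hy⟩ := hdiv (x : J)
    have hx : ∀ h ∈ H, h • (p • y) = p • y := by
      intro h hh
      rw [hy]
      exact x.2 ⟨h, hh⟩
    refine ⟨y, ⟨fun h => ⟨(h : GQ) • y - y, ?_⟩, ?_, ?_⟩, hy, fun h => rfl⟩
    · rw [mem_TJ, smul_sub, ← smul_comm (h : GQ) p y, hx _ h.2, sub_self]
    · refine ⟨_, ⟨_, key y hx, rfl⟩, fun g u hu => Subtype.ext ?_⟩
      change ((g * u : H) : GQ) • y - y = (g : GQ) • y - y
      have hu' : (u : GQ) • y = y := Subgroup.normalCore_le _ hu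
      rw [Subgroup.coe_mul, mul_smul, hu']
    · intro g h
      apply Subtype.ext
      change ((g * h : H) : GQ) • y - y = (g : GQ) • ((h : GQ) • y - y) + ((g : GQ) • y - y)
      rw [Subgroup.coe_mul, mul_smul, smul_sub]
      abel
  choose Y Z hY hZ using hz
  set R := (nsmulAddMonoidHom (α := ↥(FixedPoints.addSubgroup H J)) p).range with hR
  have hinj : ∀ x x' : ↥(FixedPoints.addSubgroup H J),
      H1.mk ((famS S).res H) (tRep J p H) (Z x) = H1.mk ((famS S).res H) (tRep J p H) (Z x') →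
        x - x' ∈ R := by
    intro x x' h
    obtain ⟨v, hv⟩ := H1.mk_eq_mk.mp h
    have hfix : ∀ h : H, (h : GQ) • (Y x - Y x' - (v : J)) = Y x - Y x' - (v : J) := by
      intro h
      have h1 := congrArg (fun z : TJ J p => (z : J)) (hv h)
      simp only [AddSubgroup.coe_add, AddSubgroup.coe_sub, hZ, coe_tRep] at h1
      rw [smul_sub, smul_sub]
      have h2 : (h : GQ) • Y x = (h : GQ) • Y x' - Y x' + ((h : GQ) • (v : J) - (v : J)) + Y x := by
        rw [← h1]
        abel
      rw [h2]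
      abel
    refine ⟨⟨Y x - Y x' - (v : J), fun h => hfix h⟩, Subtype.ext ?_⟩
    change p • (Y x - Y x' - (v : J)) = (x : J) - (x' : J)
    rw [smul_sub, smul_sub, hY, hY, mem_TJ.mp v.2, sub_zero]
  haveI : Finite (↥(FixedPoints.addSubgroup H J) ⧸ R) := by
    refine Finite.of_injective (fun c : ↥(FixedPoints.addSubgroup H J) ⧸ R =>
      H1.mk ((famS S).res H) (tRep J p H) (Z c.out)) fun c c' h => ?_
    have h1 := hinj _ _ h
    rw [← QuotientAddGroup.out_eq' c, ← QuotientAddGroup.out_eq' c', eq_comm,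
      QuotientAddGroup.eq]
    rw [neg_add_eq_sub]
    exact h1
  exact AddSubgroup.finiteIndex_of_finite_quotient

end

end Fermat.Agent.MW
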