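import Fermat.Agent.MW.WkA
import Fermat.Agent.MW.WkB
import Fermat.Agent.MW.PairDef

/-!
# The weak Mordell–Weil theorem for the class group of `F0`
-/

set_option autoImplicit false
set_option linter.unusedSectionVars false
set_option linter.style.haveILetI false

noncomputable section

namespace Fermat.Agent.MW

open AlgebraicCurve Fermat.Agent.Flat Fermat.Agent.ModFun
open ExtCitation

/-- The field of algebraic numbers. -/
local notation "Qb" => AlgebraicClosure ℚ
/-- The absolute Galois group. -/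
local notation "GQ" => (AlgebraicClosure ℚ ≃ₐ[ℚ] AlgebraicClosure ℚ)

/-- **Weak Mordell–Weil** (`p` odd) for the fixed classes -/
theorem finiteIndex_JH (N : ℕ) [NeZero N] (p : ℕ) [hp : Fact p.Prime] (hp2 : p ≠ 2)
    (hdiv : ∀ x : Pic0 Qb (F0 Qb N), ∃ y, p • y = x) (H : Subgroup GQ)
    (hH : IsOpen (H : Set GQ)) :
    (nsmulAddMonoidHom (α := JH (galF0 N) H) p).range.FiniteIndex := by
  classical
  letI : DistribMulAction GQ (Pic0 Qb (F0 Qb N)) := DistribMulAction.compHom _ (galF0 N)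
  have h := finiteIndex_abs (J := Pic0 Qb (F0 Qb N)) hp2 hdiv (wk_finite_torsion hp.out.pos)
    (fun x => wk_exists_open_pic x)
    ((2 * p * N).primeFactors.attach.image
      (fun q => (⟨q.1, Nat.prime_of_mem_primeFactors q.2⟩ : Nat.Primes)))
    (fun l hl A hA σ hσ y hy => ?_) H hH
  · have e : FixedPoints.addSubgroup H (Pic0 Qb (F0 Qb N)) = JH (galF0 N) H := by
      ext x
      exact ⟨fun hx σ hσ => hx ⟨σ, hσ⟩, fun hx σ => hx σ σ.2⟩
    rw [e] at h
    exact h
  · have hd : ¬ (l : ℕ) ∣ 2 * p * N := by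
      intro hd
      refine hl (Finset.mem_image.mpr ⟨⟨l.1, ?_⟩, Finset.mem_attach _ _, rfl⟩)
      exact Nat.mem_primeFactors.mpr ⟨l.2, hd,
        mul_ne_zero (mul_ne_zero two_ne_zero hp.out.ne_zero) (NeZero.ne N)⟩
    refine inertia_fix_pic l.2 (fun h => hd ?_) hA (fun h => hd (h.mul_left _)) (fun h => hd ?_)
      hσ y hy
    · rw [h]
      exact (dvd_mul_right 2 p).mul_right N
    · exact (h.mul_left 2).mul_right N

/-- **Weak Mordell–Weil** for the prime `3` -/
theorem finiteIndex_JH3 (N : ℕ) [NeZero N]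
    (hdiv : ∀ x : Pic0 Qb (F0 Qb N), ∃ y, 3 • y = x) (H : Subgroup GQ)
    (hH : IsOpen (H : Set GQ)) :
    (nsmulAddMonoidHom (α := JH (galF0 N) H) 3).range.FiniteIndex :=
  haveI : Fact (Nat.Prime 3) := ⟨Nat.prime_three⟩
  finiteIndex_JH N 3 (by norm_num) hdiv H hH

end Fermat.Agent.MW
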