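import Mathlib
import Fermat.Agent.MW.Desc
import Fermat.Agent.MW.Gen
import Fermat.Agent.WP.Cusp

/-! # `X₀(N)` as a curve with a totally ramified rational function -/

set_option autoImplicit false
set_option linter.unusedSectionVars false
set_option linter.style.haveILetI false

noncomputable section

namespace Fermat.Agent.MW

open AlgebraicCurve Module Fermat.Agent.Flat Fermat.Agent.FunField IntermediateField
open Fermat.Agent.LG Fermat.Agent.ModFun Fermat.Agent.Geo

local notation "Qb" => AlgebraicClosure ℚ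
local notation "GQ" => (AlgebraicClosure ℚ ≃ₐ[ℚ] AlgebraicClosure ℚ)

section Desc

variable {F : Type*} [Field F] [Algebra Qb F]

/-- **Galois descent**: stable subspaces are spanned by fixed vectors. -/
theorem span_fixed_of {γ : GQ →* SemilinearAut Qb F} {H : Subgroup GQ}
    (hbase : ∀ (σ : GQ) (a : Qb), SemilinearAut.baseAut (γ σ) a = σ a)
    (hsmooth : ∀ z : F, ∃ S : Finset Qb, ∀ σ : GQ, (∀ a ∈ S, σ a = a) → γ σ • z = z)
    (V : Submodule Qb F) (hV : ∀ σ ∈ H, ∀ f ∈ V, γ σ • f ∈ V) :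
    V ≤ Submodule.span Qb {f | f ∈ V ∧ ∀ σ ∈ H, γ σ • f = f} := by
  classical
  have hsv : ∀ (σ : GQ) (a : Qb) (v : F), γ σ • (a • v) = σ a • (γ σ • v) := by
    intro σ a v
    rw [Algebra.smul_def, Algebra.smul_def, smul_mul', SemilinearAut.smul_algebraMap, hbase]
  haveI : Algebra.IsAlgebraic ℚ Qb := AlgebraicClosure.isAlgebraic ℚ
  intro v hv
  by_contra hcon
  obtain ⟨l, hlv, hl⟩ := Submodule.exists_le_ker_of_notMem hcon
  obtain ⟨S, hS⟩ := hsmooth v
  set K1 : IntermediateField ℚ Qb := IntermediateField.adjoin ℚ (S : Set Qb) with hK1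
  haveI : FiniteDimensional ℚ K1 := IntermediateField.finiteDimensional_adjoin
    fun x _ => (Algebra.IsAlgebraic.isAlgebraic x).isIntegral
  have hSK : ∀ a ∈ S, a ∈ K1 := fun a ha => IntermediateField.subset_adjoin ℚ _ ha
  let res : H → (K1 →ₐ[ℚ] Qb) := fun σ => ((σ : GQ) : Qb →ₐ[ℚ] Qb).comp K1.val
  have hres : ∀ (σ : H) (a : K1), res σ a = (σ : GQ) (a : Qb) := fun _ _ => rfl
  have hfix : ∀ σ τ : GQ, (∀ a : K1, σ a = τ a) → ∀ a : K1,
      γ σ • ((a : Qb) • v) = γ τ • ((a : Qb) • v) := by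
    intro σ τ h a
    have h1 : ∀ b : K1, (τ⁻¹ * σ) (b : Qb) = b := by
      intro b
      rw [AlgEquiv.mul_apply, h b]
      exact τ.symm_apply_apply _
    have h2 : γ (τ⁻¹ * σ) • ((a : Qb) • v) = (a : Qb) • v := by
      rw [hsv, h1 a, hS (τ⁻¹ * σ) fun b hb => h1 ⟨b, hSK b hb⟩]
    conv_rhs => rw [← h2]
    rw [smul_smul, ← map_mul, mul_inv_cancel_left]
  let E := Set.range res
  haveI : Finite E := Subtype.finite
  haveI : Fintype E := Fintype.ofFinite E
  let lift : E → H := fun τ => τ.2.choose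
  have hlift : ∀ τ : E, res (lift τ) = τ.1 := fun τ => τ.2.choose_spec
  let T : K1 → F := fun a => ∑ τ : E, γ (lift τ : GQ) • ((a : Qb) • v)
  have hT : ∀ a : K1, T a ∈ V ∧ ∀ σ ∈ H, γ σ • T a = T a := by
    intro a
    refine ⟨Submodule.sum_mem _ fun τ _ => hV _ (lift τ).2 _ (V.smul_mem _ hv), ?_⟩
    intro σ hσ
    let m : E → E := fun τ => ⟨res (⟨σ, hσ⟩ * lift τ), ⟨_, rfl⟩⟩
    have hm : Function.Injective m := by
      intro τ τ' h
      have h1 : res (⟨σ, hσ⟩ * lift τ) = res (⟨σ, hσ⟩ * lift τ') := congrArg Subtype.val h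
      apply Subtype.ext
      rw [← hlift τ, ← hlift τ']
      ext b
      have h2 := DFunLike.congr_fun h1 b
      rw [hres, hres] at h2 ⊢
      exact σ.injective h2
    have hbij : Function.Bijective m := Finite.injective_iff_bijective.1 hm
    change γ σ • (∑ τ : E, γ (lift τ : GQ) • ((a : Qb) • v)) = _
    rw [Finset.smul_sum]
    refine Fintype.sum_bijective m hbij _ _ fun τ => ?_
    rw [smul_smul, ← map_mul]
    refine hfix _ _ (fun b => ?_) a
    have h3 := DFunLike.congr_fun (hlift (m τ)) b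
    rw [hres] at h3
    rw [h3]
    rfl
  have hlT : ∀ a : K1, ∑ τ : E, l (γ (lift τ : GQ) • v) * (τ.1 a) = 0 := by
    intro a
    have h1 : l (T a) = 0 := hl (Submodule.subset_span (hT a))
    change l (∑ τ : E, γ (lift τ : GQ) • ((a : Qb) • v)) = 0 at h1
    rw [map_sum] at h1
    rw [← h1]
    refine Finset.sum_congr rfl fun τ _ => ?_
    rw [hsv, l.map_smul, smul_eq_mul, mul_comm]
    congr 1
    have h3 := DFunLike.congr_fun (hlift τ) a
    rw [hres] at h3
    exact h3.symm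
  have hind : LinearIndependent Qb (fun τ : E => ((τ.1 : K1 →* Qb) : K1 → Qb)) := by
    refine (linearIndependent_monoidHom K1 Qb).comp (fun τ : E => (τ.1 : K1 →* Qb)) ?_
    intro τ τ' h
    apply Subtype.ext
    ext b
    exact DFunLike.congr_fun h b
  rw [Fintype.linearIndependent_iff] at hind
  have h4 := hind (fun τ => l (γ (lift τ : GQ) • v)) (by
    ext a
    simp only [Finset.sum_apply, Pi.smul_apply, smul_eq_mul, Pi.zero_apply]
    exact hlT a) ⟨res 1, ⟨1, rfl⟩⟩
  apply hlv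
  have h5 := hfix (lift ⟨res 1, ⟨1, rfl⟩⟩ : H) 1 (fun b => by
    have h6 := DFunLike.congr_fun (hlift ⟨res 1, ⟨1, rfl⟩⟩) b
    rw [hres] at h6
    rw [h6]
    rfl) 1
  simp only [OneMemClass.coe_one, one_smul, map_one] at h5
  rw [← h5]
  exact h4

end Desc

theorem sepX_of_trans {k F : Type*} [Field k] [IsAlgClosed k] [CharZero k] [Field F] [Algebra k F]
    {s x : F} (hs : Sep k s) (hx : Transcendental k x) : Sep k x := by
  haveI := hs.fd
  haveI hfd := finiteDimensional_adjoin hs.trans hx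
  haveI : CharZero k⟮x⟯ :=
    charZero_of_injective_algebraMap (algebraMap k k⟮x⟯).injective
  exact ⟨hx, hfd, Algebra.IsAlgebraic.isSeparable_of_perfectField⟩

/-- `X₀(N)` with a rational function having a single pole at the cusp `∞`. -/
theorem exists_XD (N : ℕ) [NeZero N] : ∃ (g C : ℤ) (X : XD Qb (F0 Qb N) g C),
    X.inf = WP.cInf N ∧ ∀ H : Subgroup GQ, GalX X (galF0 N) H := by
  classical
  have hs := sep_F0 N
  obtain ⟨g, C, hC⟩ := hs.exists_crv
  set c := WP.cInf N with hc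
  let n : ℕ := (C + 1).toNat + 1
  have hn : C + 1 ≤ (n : ℤ) := by
    have h1 : C + 1 ≤ ((C + 1).toNat : ℤ) := Int.self_le_toNat _
    change C + 1 ≤ (((C + 1).toNat + 1 : ℕ) : ℤ)
    push_cast
    omega
  have hinv : ∀ (σ : GQ) (w : Place Qb (F0 Qb N)) (z : F0 Qb N),
      w.ord (galF0 N σ • z) = ((galF0 N σ)⁻¹ • w).ord z := by
    intro σ w z
    have h1 := SemilinearAut.ord_smul (galF0 N σ) ((galF0 N σ)⁻¹ • w) z
    rw [smul_inv_smul] at h1
    exact h1
  have hcinv : ∀ (σ : GQ) (w : Place Qb (F0 Qb N)), (galF0 N σ)⁻¹ • w = c ↔ w = c := by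
    intro σ w
    rw [inv_smul_eq_iff, hc, WP.galF0_cInf]
  have hfin := span_fixed_of (γ := galF0 N) (H := ⊤) (fun σ a => rfl)
    (fun z => smooth_F0 z) (riemannRochSpace (Finsupp.single c (n : ℤ))) fun σ _ f hf => by
      rw [mem_L] at hf ⊢
      intro w
      by_cases hf0 : f = 0
      · left; rw [hf0, smul_zero]
      right
      have h1 := (hf ((galF0 N σ)⁻¹ • w)).resolve_left hf0
      rw [hinv]
      refine le_trans (le_of_eq ?_) h1
      rw [Finsupp.single_apply, Finsupp.single_apply]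
      congr 1
      by_cases hw : c = w
      · rw [if_pos hw, if_pos ((hcinv σ w).mpr hw.symm).symm]
      · rw [if_neg hw, if_neg fun h => hw ((hcinv σ w).mp h.symm).symm]
  obtain ⟨f₀, hf₀, hf₀0, hf₀c⟩ := ER.exists_exact hC (Finsupp.single c (n : ℤ))
    (by rw [dg_single]; exact hn) c
  obtain ⟨x, ⟨hxV, hxfix⟩, hxU⟩ : ∃ x ∈ {f : F0 Qb N | f ∈ riemannRochSpace
      (Finsupp.single c (n : ℤ)) ∧ ∀ σ ∈ (⊤ : Subgroup GQ), galF0 N σ • f = f},
      x ∉ riemannRochSpace (Finsupp.single c ((n : ℤ) - 1)) := by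
    by_contra hcon
    push Not at hcon
    have h1 := hfin hf₀
    have h2 := Submodule.span_le.mpr (fun x hx => hcon x hx) h1
    have h3 := (mem_L' hf₀0).mp h2 c
    rw [hf₀c, Finsupp.single_eq_same, Finsupp.single_eq_same] at h3
    omega
  have hx0 : x ≠ 0 := by
    rintro rfl
    exact hxU (zero_mem _)
  have hxV' := (mem_L' hx0).mp hxV
  have hxo : ∀ w, w ≠ c → 0 ≤ w.ord x := by
    intro w hw
    have h1 := hxV' w
    rwa [Finsupp.single_eq_of_ne hw, neg_zero] at h1
  have hxc : c.ord x = -(n : ℤ) := by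
    by_contra hne
    apply hxU
    rw [mem_L' hx0]
    intro w
    by_cases hw : w = c
    · have h1 := hxV' w
      rw [hw, Finsupp.single_eq_same] at h1 ⊢
      omega
    · rw [Finsupp.single_eq_of_ne hw, neg_zero]
      exact hxo w hw
  have htr : Transcendental Qb x := transcendental_of_ord_ne_zero c (by
    rw [hxc]
    have : (0 : ℤ) < n := by exact_mod_cast Nat.succ_pos _
    omega)
  have hsx : Sep Qb x := sepX_of_trans hs htr
  haveI := hsx.sep
  obtain ⟨δ, hδ, -⟩ := exists_derivation htr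
  refine ⟨g, C, ⟨hC, c, x, n, Nat.succ_pos _, hxc, hxo, hsx, δ, hδ⟩, rfl, fun H => ?_⟩
  exact ⟨fun σ a => rfl, fun z => smooth_F0 z, fun σ _ => hxfix σ trivial⟩

end Fermat.Agent.MW
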