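import Mathlib
import Fermat.Agent.MW.Fin3
import Fermat.Agent.MW.ChartB4
import Fermat.Agent.MW.Pair
import Fermat.Agent.MW.Pos
import Fermat.Agent.MW.CanD
import Fermat.Agent.MW.GalPl
import Fermat.Agent.MW.X0
import Fermat.Agent.MW.WeakJH

/-! # The Mordell-Weil theorem for `J_0(N)`, from divisibility by three -/

set_option autoImplicit false
set_option linter.style.haveILetI false
set_option linter.unusedSectionVars false

noncomputable section

namespace Fermat.Agent.MW

open AlgebraicCurve Module Fermat.Agent.Flat Fermat.Agent.FunField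
open Fermat.Agent.LG Fermat.Agent.ModFun Fermat.Agent.Geo

local notation "Qb" => AlgebraicClosure ℚ
local notation "GQ" => (AlgebraicClosure ℚ ≃ₐ[ℚ] AlgebraicClosure ℚ)

/-- Mordell-Weil from divisibility. -/
theorem mordell_weil (N : ℕ) [NeZero N]
    (hdiv : ∀ x : Pic0 Qb (F0 Qb N), ∃ y : Pic0 Qb (F0 Qb N), 3 • y = x) :
    AddGroup.FG ↥(FixedPoints.addSubgroup ((AlgebraicClosure ℚ) ≃ₐ[ℚ] (AlgebraicClosure ℚ))
      (ModularCurve.JZero N)) := by
  obtain ⟨g, C, X, -, hG⟩ := exists_XD N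
  refine fg_JZero (fg_of_inputs X (fun σ => (hG ⊤).fx σ (Subgroup.mem_top σ)) (fun n => ?_)
    (fun H hfi hGX => ?_) fun H hH => finiteIndex_JH3 N hdiv H hH)
  · exact exists_fixed_places X.crv X.sep (galF0 N) (hG ⊤).smooth n
  · haveI := hfi
    obtain ⟨Pk⟩ := exists_pkg X (avh H).toAV
    obtain ⟨Kn⟩ := exists_can X
    obtain ⟨B, hB⟩ := hGX.exists_pair (avh H) Pk
    exact ⟨avh H, B, hB.add, hB.symm, posit hGX (avh H) Pk Kn B hB⟩

end Fermat.Agent.MW
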