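import Fermat.Agent.MW.DerC
import Fermat.Agent.MW.Gen1

/-!
# Upper bounds with prescribed zeros
-/

set_option autoImplicit false
set_option linter.unusedSectionVars false
set_option linter.unusedVariables false

noncomputable section

namespace Fermat.Agent.MW

open AlgebraicCurve Module Fermat.Agent.Flat Fermat.Agent.FunField WithZero

section norm

variable {k : Type*} [Field k] (V : AV k)

theorem kan_nrm_le_of {i : V.ι} {r : ℕ} {c : Fin r → k} {x : ℝ} (hx : 0 ≤ x)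
    (h : ∀ j, V.v i (c j) ≤ x) : nrm V i c ≤ x := Real.iSup_le h hx

theorem kan_le_nrm (i : V.ι) {r : ℕ} (c : Fin r → k) (j : Fin r) : V.v i (c j) ≤ nrm V i c :=
  le_ciSup (f := fun j => V.v i (c j)) (Set.finite_range _).bddAbove j

theorem kan_nrm_nonneg' (i : V.ι) {r : ℕ} (c : Fin r → k) : 0 ≤ nrm V i c :=
  Real.iSup_nonneg fun j => (V.v i).nonneg _

theorem kan_nrm_pos_of {i : V.ι} {r : ℕ} {c : Fin r → k} (hc : c ≠ 0) : 0 < nrm V i c := by
  obtain ⟨j, hj⟩ := Function.ne_iff.1 hc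
  exact ((V.v i).pos hj).trans_le (kan_le_nrm V i c j)

/-- Linear maps are bounded. -/
theorem kan_exists_lin {r s : ℕ} (T : (Fin r → k) →ₗ[k] (Fin s → k)) :
    ∃ C : MC V.ι, ∀ i c, nrm V i (T c) ≤ C.c i * nrm V i c := by
  classical
  have h : ∀ j : Fin s, ∃ C : MC V.ι, ∀ i (_ : Unit), True → ∀ (y : Fin r → k) (x : ℝ), 0 ≤ x →
      (∀ a, V.v i (y a) ≤ x) → V.v i (∑ a, T (fun b => if a = b then 1 else 0) j * y a) ≤
        C.c i * x := fun j =>
    V.exists_sum_le (reg := fun _ _ => True)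
      (g := fun a (_ : Unit) => T (fun b => if a = b then 1 else 0) j) fun a => Bdd.const _
  choose C hC using h
  obtain ⟨E, hE⟩ := MC.exists_ge_fintype C
  refine ⟨E, fun i c => kan_nrm_le_of V (mul_nonneg (E.pos i).le (kan_nrm_nonneg' V i c)) fun j => ?_⟩
  have h1 : T c j = ∑ a, T (fun b => if a = b then 1 else 0) j * c a := by
    conv_lhs => rw [LinearMap.pi_apply_eq_sum_univ T c]
    rw [Finset.sum_apply]
    exact Finset.sum_congr rfl fun a _ => by rw [Pi.smul_apply, smul_eq_mul, mul_comm]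
  rw [h1]
  exact (hC j i () trivial c _ (kan_nrm_nonneg' V i c) (kan_le_nrm V i c)).trans
    (mul_le_mul_of_nonneg_right (hE j i) (kan_nrm_nonneg' V i c))

end norm

section main

variable {k F : Type*} [Field k] [Field F] [Algebra k F] {g C : ℤ} {V : AV k} {X : XD k F g C}

theorem XD.kan_elt_eq (X : XD k F g C) (m : ℕ) (c : Fin (X.d m) → k) :
    X.elt m c = (((X.b m).equivFun.symm c : X.L m) : F) := by
  rw [Basis.equivFun_symm_apply, XD.elt]
  simp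

theorem XD.kan_elt_mem (X : XD k F g C) (m : ℕ) (c : Fin (X.d m) → k) : X.elt m c ∈ X.L m := by
  rw [X.kan_elt_eq]
  exact Submodule.coe_mem _

/-- Multiplication by a fixed function. -/
theorem kan_exists_mul_bd (V : AV k) (X : XD k F g C) {r : ℕ} (e : (Fin r → k) →ₗ[k] F) (f : F)
    (m : ℕ) : ∃ Cs : MC V.ι, ∀ c, e c * f ∈ X.L m → ∃ c' : Fin (X.d m) → k,
      X.elt m c' = e c * f ∧ ∀ i, nrm V i c' ≤ Cs.c i * nrm V i c := by
  let φ : (Fin r → k) →ₗ[k] F := (LinearMap.mulRight k f).comp e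
  let W : Submodule k (Fin r → k) := (X.L m).comap φ
  let T0 : W →ₗ[k] X.L m := LinearMap.codRestrict (X.L m) (φ.comp W.subtype) fun w => w.2
  obtain ⟨T, hT⟩ := LinearMap.exists_extend T0
  obtain ⟨Cs, hCs⟩ := kan_exists_lin V ((X.b m).equivFun.toLinearMap.comp T)
  refine ⟨Cs, fun c hc => ⟨(X.b m).equivFun (T c), ?_, fun i => hCs i c⟩⟩
  rw [X.kan_elt_eq, LinearEquiv.symm_apply_apply]
  have h1 := LinearMap.congr_fun hT (⟨c, hc⟩ : W)
  have h2 : T c = T0 ⟨c, hc⟩ := h1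
  rw [h2]
  rfl

variable (Pk : Pkg V X)

/-- The sum of the logarithms of the distances. -/
def Pkg.ls (i : V.ι) (Q : Place k F) (Z : Divisor k F) : ℝ :=
  Z.sum fun P n => (n : ℝ) * Real.log (Pk.dist i P Q)

theorem Pkg.ls_add (i : V.ι) (Q : Place k F) (Z Z' : Divisor k F) :
    Pk.ls i Q (Z + Z') = Pk.ls i Q Z + Pk.ls i Q Z' := by
  unfold Pkg.ls
  rw [Finsupp.sum_add_index' (by simp) (by intros; push_cast; ring)]

theorem Pkg.exists_ls_le : ∃ Cs : MC V.ι, ∀ i Q (Z : Divisor k F), Q ≠ X.inf → 0 ≤ Z →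
    Z X.inf = 0 → Z Q = 0 → Pk.ls i Q Z ≤ (dg Z : ℝ) * Real.log (Cs.c i) := by
  obtain ⟨Cs, hCs⟩ := Pk.bd
  refine ⟨Cs, fun i Q Z hQ hZ hinf hZQ => ?_⟩
  rw [Pkg.ls, Finsupp.sum, dg_apply]
  push_cast
  rw [Finset.sum_mul]
  refine Finset.sum_le_sum fun P hP => ?_
  have hP0 : Z P ≠ 0 := Finsupp.mem_support_iff.1 hP
  have hPi : P ≠ X.inf := by rintro rfl; exact hP0 hinf
  have hPQ : P ≠ Q := by rintro rfl; exact hP0 hZQ
  refine mul_le_mul_of_nonneg_left ?_ (by exact_mod_cast hZ P)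
  exact Real.log_le_log (Pk.pos i P Q hPi hQ hPQ) (hCs i P Q hPi hQ)

theorem XD.kan_sz_pos (X : XD k F g C) (i : V.ι) (Q : Place k F) : 0 < X.sz V i Q :=
  zero_lt_one.trans_le (le_max_left _ _)

theorem XD.kan_one_le_sz (X : XD k F g C) (i : V.ι) (Q : Place k F) : 1 ≤ X.sz V i Q :=
  le_max_left _ _

theorem XD.kan_zs_apply (X : XD k F g C) (A : F) {P : Place k F} (hP : P ≠ X.inf) :
    X.zs A P = P.ord A := by
  rw [XD.zs, Finsupp.erase_ne hP, dv_apply (X.crv.fin A)]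

theorem XD.kan_zs_inf (X : XD k F g C) (A : F) : X.zs A X.inf = 0 := by
  rw [XD.zs, Finsupp.erase_same]

theorem XD.kan_dg_zs (X : XD k F g C) {A : F} (hA : A ≠ 0) : dg (X.zs A) = -X.inf.ord A := by
  classical
  have h1 := X.crv.deg0 A hA
  have h2 : dv (K := k) A = X.zs A + Finsupp.single X.inf (X.inf.ord A) := by
    ext P
    rw [Finsupp.add_apply]
    by_cases hP : P = X.inf
    · subst hP
      rw [X.kan_zs_inf, Finsupp.single_eq_same, zero_add, dv_apply (X.crv.fin A)]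
    · rw [X.kan_zs_apply A hP, Finsupp.single_eq_of_ne hP, add_zero, dv_apply (X.crv.fin A)]
  rw [h2, map_add, dg_single] at h1
  omega

/-- The upper bound for functions of exact pole order. -/
theorem Pkg.ub_exact (m : ℕ) : ∃ Cs : MC V.ι, ∀ i (c : Fin (X.d m) → k),
    X.inf.ord (X.elt m c) = -((m * X.n0 : ℕ) : ℤ) → ∀ Z : Divisor k F, 0 ≤ Z → Z X.inf = 0 →
      (∀ P, P ≠ X.inf → Ge P (Z P) (X.elt m c)) → ∀ Q, Q ≠ X.inf → Z Q = 0 →
        V.v i (evp Q (X.elt m c)) ≤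
          Cs.c i * nrm V i c * X.sz V i Q ^ m * Real.exp (Pk.ls i Q Z) := by
  obtain ⟨C1, h1⟩ := Pk.lt m
  obtain ⟨C2, h2⟩ := Pk.exists_ls_le
  refine ⟨C1 * C2.pow (m * X.n0), fun i c hc Z hZ hZi hZA Q hQ hZQ => ?_⟩
  have hpos : 0 ≤ (C1 * C2.pow (m * X.n0)).c i * nrm V i c * X.sz V i Q ^ m *
      Real.exp (Pk.ls i Q Z) :=
    mul_nonneg (mul_nonneg (mul_nonneg (MC.pos _ i).le (kan_nrm_nonneg' V i c))
      (pow_nonneg (X.kan_sz_pos i Q).le _)) (Real.exp_pos _).le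
  by_cases hA : X.elt m c = 0
  · rw [hA, evp_zero, map_zero]; exact hpos
  have hmem := (X.mem_L_iff m _).1 (X.kan_elt_mem m c)
  have hQ0 := (hmem.resolve_left hA).2 Q hQ
  by_cases hQA : Q.ord (X.elt m c) = 0
  swap
  · have h0 : evp Q (X.elt m c) = 0 := by
      rw [evp_eq_zero_iff (X.crv.rat Q) (mem_of_ord_nonneg Q hQ0)]
      right
      omega
    rw [h0, map_zero]; exact hpos
  have hev : evp Q (X.elt m c) ≠ 0 := by
    intro h0
    rw [evp_eq_zero_iff (X.crv.rat Q) (mem_of_ord_nonneg Q hQ0)] at h0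
    rcases h0 with h0 | h0
    · exact hA h0
    · omega
  have hvpos : 0 < V.v i (evp Q (X.elt m c)) := (V.v i).pos hev
  have hc0 : c ≠ 0 := by
    rintro rfl
    apply hA
    simp [XD.elt]
  have hnpos : 0 < nrm V i c := kan_nrm_pos_of V hc0
  have h3 := (abs_le.1 (h1 i c hc Q hQ hQA)).2
  have hsplit : X.zs (X.elt m c) = Z + (X.zs (X.elt m c) - Z) := by abel
  have hge : 0 ≤ X.zs (X.elt m c) - Z := by
    intro P
    rw [Finsupp.sub_apply, Finsupp.zero_apply]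
    by_cases hP : P = X.inf
    · rw [hP, X.kan_zs_inf, hZi, sub_zero]
    · rw [X.kan_zs_apply _ hP]
      have := (hZA P hP).resolve_left hA
      omega
  have h4 : Pk.ls i Q (X.zs (X.elt m c)) ≤ Pk.ls i Q Z + (m * X.n0 : ℕ) * Real.log (C2.c i) := by
    rw [hsplit, Pk.ls_add]
    have h5 := h2 i Q (X.zs (X.elt m c) - Z) hQ hge
      (by rw [Finsupp.sub_apply, X.kan_zs_inf, hZi, sub_zero])
      (by rw [Finsupp.sub_apply, X.kan_zs_apply _ hQ, hQA, hZQ, sub_zero])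
    have h6 : dg (X.zs (X.elt m c) - Z) ≤ ((m * X.n0 : ℕ) : ℤ) := by
      rw [map_sub, X.kan_dg_zs hA, hc, neg_neg]
      have := dg_nonneg hZ
      omega
    have h7 : (dg (X.zs (X.elt m c) - Z) : ℝ) ≤ (m * X.n0 : ℕ) := by exact_mod_cast h6
    have h8 := mul_le_mul_of_nonneg_right h7 (Real.log_nonneg (C2.one_le i))
    linarith
  have h5 : Real.log (V.v i (evp Q (X.elt m c))) ≤ Real.log ((C1 * C2.pow (m * X.n0)).c i *
      nrm V i c * X.sz V i Q ^ m * Real.exp (Pk.ls i Q Z)) := by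
    rw [Real.log_mul (mul_pos (mul_pos (MC.pos _ i) hnpos) (pow_pos (X.kan_sz_pos i Q) _)).ne'
      (Real.exp_pos _).ne', Real.log_mul (mul_pos (MC.pos _ i) hnpos).ne'
      (pow_pos (X.kan_sz_pos i Q) _).ne', Real.log_mul (MC.pos _ i).ne' hnpos.ne', Real.log_exp,
      Real.log_pow, MC.mul_c, MC.pow_c, Real.log_mul (MC.pos _ i).ne'
      (pow_pos (MC.pos _ i) _).ne', Real.log_pow]
    have h6 : (X.zs (X.elt m c)).sum (fun P n => (n : ℝ) * Real.log (Pk.dist i P Q)) =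
      Pk.ls i Q (X.zs (X.elt m c)) := rfl
    rw [h6] at h3
    linarith
  exact (Real.log_le_log_iff hvpos (mul_pos (mul_pos (mul_pos (MC.pos _ i) hnpos)
    (pow_pos (X.kan_sz_pos i Q) _)) (Real.exp_pos _))).1 h5

theorem kan_evp_pow {v : Place k F} (hv : Rational v) {x : F} (hx : x ∈ v.toValuationSubring)
    (n : ℕ) : evp v (x ^ n) = evp v x ^ n := by
  induction n with
  | zero => rw [pow_zero, pow_zero, evp_one]
  | succ n ih => rw [pow_succ, pow_succ, evp_mul hv (pow_mem hx n) hx, ih]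

include Pk in
/-- Lower bounds for families without common zeros. -/
theorem Pkg.exists_low {n : ℕ} (f : Fin n → F) (p m : ℕ) (hmp : m * X.n0 ≤ p)
    (hf : ∀ j, f j ∈ riemannRochSpace (Finsupp.single X.inf (p : ℤ) : Divisor k F))
    (hf0 : ∀ j, f j ≠ 0) (hinf : ∀ j, X.inf.ord (f j) = -(p : ℤ))
    (hz : ∀ Q, Q ≠ X.inf → ∃ j, Q.ord (f j) = 0) :
    ∃ Cs : MC V.ι, ∀ i Q, Q ≠ X.inf → ∃ j, X.sz V i Q ^ m ≤ Cs.c i * V.v i (evp Q (f j)) := by
  have hord : ∀ j Q, Q ≠ X.inf → 0 ≤ Q.ord (f j) := by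
    intro j Q hQ
    have := (mem_L' (hf0 j)).1 (hf j) Q
    rwa [Finsupp.single_eq_of_ne hQ, neg_zero] at this
  have hne : ∃ Q : Place k F, Q ≠ X.inf → True := ⟨X.inf, fun _ => trivial⟩
  by_cases hn : n = 0
  · subst hn
    refine ⟨1, fun i Q hQ => ?_⟩
    obtain ⟨j, -⟩ := hz Q hQ
    exact j.elim0
  obtain ⟨Cs, hCs⟩ := Pk.fx p (fun j : Fin n => f j ^ X.n0) (by
    intro j
    rw [X.mem_L_iff]
    right
    refine ⟨?_, fun v hv => ?_⟩
    · rw [ord_pow, hinf]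
      push_cast
      nlinarith
    · rw [ord_pow]
      exact mul_nonneg (by positivity) (hord j v hv)) ⟨⟨0, Nat.pos_of_ne_zero hn⟩, by
    rw [ord_pow, hinf]
    push_cast
    ring⟩ (by
    intro Q hQ
    obtain ⟨j, hj⟩ := hz Q hQ
    exact ⟨j, pow_ne_zero _ (hf0 j), by rw [ord_pow, hj, mul_zero]⟩)
  refine ⟨Cs, fun i Q hQ => ?_⟩
  obtain ⟨j, hj⟩ := hCs i Q hQ
  refine ⟨j, ?_⟩
  rw [kan_evp_pow (X.crv.rat Q) (mem_of_ord_nonneg Q (hord j Q hQ)), map_pow] at hj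
  have h1 : (X.sz V i Q ^ m) ^ X.n0 ≤ (Cs.c i * V.v i (evp Q (f j))) ^ X.n0 := by
    rw [← pow_mul, mul_pow]
    refine (pow_le_pow_right₀ (X.kan_one_le_sz i Q) hmp).trans (hj.trans ?_)
    refine mul_le_mul_of_nonneg_right ?_ (pow_nonneg ((V.v i).nonneg _) _)
    exact le_self_pow₀ (Cs.one_le i) X.n0_pos.ne'
  exact (pow_le_pow_iff_left₀ (pow_nonneg (X.kan_sz_pos i Q).le _)
    (mul_nonneg (Cs.pos i).le ((V.v i).nonneg _)) X.n0_pos.ne').1 h1

/-- The upper bound. -/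
theorem Pkg.UB (m : ℕ) : ∃ Cs : MC V.ι, ∀ i (c : Fin (X.d m) → k) (Z : Divisor k F), 0 ≤ Z →
    Z X.inf = 0 → (∀ P, P ≠ X.inf → Ge P (Z P) (X.elt m c)) → ∀ Q, Q ≠ X.inf → Z Q = 0 →
      V.v i (evp Q (X.elt m c)) ≤
        Cs.c i * nrm V i c * X.sz V i Q ^ m * Real.exp (Pk.ls i Q Z) := by
  classical
  set m' : ℕ := (C + 1).toNat with hm'
  have hn0 := X.n0_pos
  have hm'n : C + 1 ≤ ((m' * X.n0 : ℕ) : ℤ) := by
    have h1 : C + 1 ≤ (m' : ℤ) := Int.self_le_toNat _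
    have h2 : (m' : ℤ) ≤ ((m' * X.n0 : ℕ) : ℤ) := by
      exact_mod_cast Nat.le_mul_of_pos_right m' hn0
    omega
  -- the families
  have hfam : ∀ r : Fin (m * X.n0 + 1), ∃ (n : ℕ) (f : Fin n → F),
      (∀ j, f j ∈ riemannRochSpace (Finsupp.single X.inf ((m' * X.n0 + r : ℕ) : ℤ) : Divisor k F))
      ∧ (∀ j, f j ≠ 0) ∧ (∀ j, X.inf.ord (f j) = -((m' * X.n0 + r : ℕ) : ℤ)) ∧
      ∀ v, v ≠ X.inf → ∃ j, v.ord (f j) = 0 := by
    intro r
    obtain ⟨n, f, h1, h2, h3, h4⟩ := exists_family X.crv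
      (Finsupp.single X.inf ((m' * X.n0 + r : ℕ) : ℤ)) (by
        rw [dg_single]
        push_cast at hm'n ⊢
        omega) X.inf
    refine ⟨n, f, h1, h2, fun j => by rw [h3, Finsupp.single_eq_same], fun v hv => ?_⟩
    obtain ⟨j, hj⟩ := h4 v
    exact ⟨j, by rw [hj, Finsupp.single_eq_of_ne hv, neg_zero]⟩
  choose n f hf hf0 hinf hz using hfam
  have hlow : ∀ r, ∃ Cs : MC V.ι, ∀ i Q, Q ≠ X.inf → ∃ j,
      X.sz V i Q ^ m' ≤ Cs.c i * V.v i (evp Q (f r j)) := fun r =>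
    Pk.exists_low (f r) (m' * X.n0 + r) m' (Nat.le_add_right _ _) (hf r) (hf0 r) (hinf r) (hz r)
  choose C1 hC1 using hlow
  obtain ⟨E1, hE1⟩ := MC.exists_ge_fintype C1
  let e : (Fin (X.d m) → k) →ₗ[k] F :=
    (X.L m).subtype.comp ((X.b m).equivFun.symm : (Fin (X.d m) → k) →ₗ[k] X.L m)
  have he : ∀ c, e c = X.elt m c := fun c => (X.kan_elt_eq m c).symm
  have hmul : ∀ a : (Σ r : Fin (m * X.n0 + 1), Fin (n r)), ∃ Cs : MC V.ι, ∀ c,
      e c * f a.1 a.2 ∈ X.L (m + m') → ∃ c' : Fin (X.d (m + m')) → k,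
      X.elt (m + m') c' = e c * f a.1 a.2 ∧ ∀ i, nrm V i c' ≤ Cs.c i * nrm V i c := fun a =>
    kan_exists_mul_bd V X e (f a.1 a.2) (m + m')
  choose C2 hC2 using hmul
  obtain ⟨E2, hE2⟩ := MC.exists_ge_fintype C2
  obtain ⟨C3, hC3⟩ := Pk.ub_exact (m + m')
  refine ⟨E1 * (C3 * E2), fun i c Z hZ hZi hZA Q hQ hZQ => ?_⟩
  have hpos : 0 ≤ (E1 * (C3 * E2)).c i * nrm V i c * X.sz V i Q ^ m *
      Real.exp (Pk.ls i Q Z) :=
    mul_nonneg (mul_nonneg (mul_nonneg (MC.pos _ i).le (kan_nrm_nonneg' V i c))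
      (pow_nonneg (X.kan_sz_pos i Q).le _)) (Real.exp_pos _).le
  by_cases hA : X.elt m c = 0
  · rw [hA, evp_zero, map_zero]; exact hpos
  have hmem := ((X.mem_L_iff m _).1 (X.kan_elt_mem m c)).resolve_left hA
  have hle : X.inf.ord (X.elt m c) ≤ 0 := by
    have h1 := X.kan_dg_zs hA
    have h2 : 0 ≤ X.zs (X.elt m c) := by
      intro P
      rw [Finsupp.zero_apply]
      by_cases hP : P = X.inf
      · rw [hP, X.kan_zs_inf]
      · rw [X.kan_zs_apply _ hP]; exact hmem.2 P hP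
    have := dg_nonneg h2
    omega
  obtain ⟨r, hr⟩ : ∃ r : Fin (m * X.n0 + 1),
      X.inf.ord (X.elt m c) = -((m * X.n0 : ℕ) : ℤ) + (r : ℕ) := by
    have h0 := hmem.1
    refine ⟨⟨(X.inf.ord (X.elt m c) + (m * X.n0 : ℕ)).toNat, ?_⟩, ?_⟩
    · omega
    · change _ = _ + ((X.inf.ord (X.elt m c) + (m * X.n0 : ℕ)).toNat : ℤ)
      rw [Int.toNat_of_nonneg (by omega)]
      ring
  obtain ⟨j, hj⟩ := hC1 r i Q hQ
  have hford : ∀ v, v ≠ X.inf → 0 ≤ v.ord (f r j) := by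
    intro v hv
    have := (mem_L' (hf0 r j)).1 (hf r j) v
    rwa [Finsupp.single_eq_of_ne hv, neg_zero] at this
  have hprod0 : e c * f r j ≠ 0 := by
    rw [he]; exact mul_ne_zero hA (hf0 r j)
  have hprod : X.inf.ord (e c * f r j) = -(((m + m') * X.n0 : ℕ) : ℤ) := by
    rw [he, X.inf.ord_mul hA (hf0 r j), hr, hinf]
    push_cast
    ring
  obtain ⟨c', hc', hc'n⟩ := hC2 ⟨r, j⟩ c (by
    rw [X.mem_L_iff]
    right
    refine ⟨hprod.ge, fun v hv => ?_⟩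
    change 0 ≤ v.ord (e c * f r j)
    rw [he, v.ord_mul hA (hf0 r j)]
    exact add_nonneg (hmem.2 v hv) (hford v hv))
  change X.elt (m + m') c' = e c * f r j at hc'
  have h1 := hC3 i c' (by rw [hc', hprod]) Z hZ hZi (by
    intro P hP
    rw [hc', he]
    have h2 : Ge P 0 (f r j) := Or.inr (hford P hP)
    have h3 := (hZA P hP).mul h2
    rwa [add_zero] at h3) Q hQ hZQ
  rw [hc', he, evp_mul (X.crv.rat Q) (mem_of_ord_nonneg Q (hmem.2 Q hQ))
    (mem_of_ord_nonneg Q (hford Q hQ)), map_mul] at h1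
  have hszpos : 0 < X.sz V i Q ^ m' := pow_pos (X.kan_sz_pos i Q) _
  have hjE : X.sz V i Q ^ m' ≤ E1.c i * V.v i (evp Q (f r j)) :=
    hj.trans (mul_le_mul_of_nonneg_right (hE1 r i) ((V.v i).nonneg _))
  have hnE : nrm V i c' ≤ E2.c i * nrm V i c :=
    (hc'n i).trans (mul_le_mul_of_nonneg_right (hE2 ⟨r, j⟩ i) (kan_nrm_nonneg' V i c))
  refine le_of_mul_le_mul_right ?_ hszpos
  calc V.v i (evp Q (X.elt m c)) * X.sz V i Q ^ m'
      ≤ V.v i (evp Q (X.elt m c)) * (E1.c i * V.v i (evp Q (f r j))) :=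
        mul_le_mul_of_nonneg_left hjE ((V.v i).nonneg _)
    _ = E1.c i * (V.v i (evp Q (X.elt m c)) * V.v i (evp Q (f r j))) := by ring
    _ ≤ E1.c i * (C3.c i * nrm V i c' * X.sz V i Q ^ (m + m') * Real.exp (Pk.ls i Q Z)) :=
        mul_le_mul_of_nonneg_left h1 (E1.pos i).le
    _ ≤ E1.c i * (C3.c i * (E2.c i * nrm V i c) * X.sz V i Q ^ (m + m') *
          Real.exp (Pk.ls i Q Z)) := by
        refine mul_le_mul_of_nonneg_left ?_ (E1.pos i).le
        refine mul_le_mul_of_nonneg_right ?_ (Real.exp_pos _).le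
        refine mul_le_mul_of_nonneg_right ?_ (pow_nonneg (X.kan_sz_pos i Q).le _)
        exact mul_le_mul_of_nonneg_left hnE (C3.pos i).le
    _ = (E1 * (C3 * E2)).c i * nrm V i c * X.sz V i Q ^ m * Real.exp (Pk.ls i Q Z) *
          X.sz V i Q ^ m' := by
        rw [MC.mul_c, MC.mul_c, pow_add]
        ring

end main

end Fermat.Agent.MW
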