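import Fermat.Agent.MW.WkA
import Fermat.Agent.MW.WkB

/-!
# The weak Mordell–Weil theorem for `J₀(N)`
-/

set_option autoImplicit false
set_option linter.unusedSectionVars false
set_option linter.style.haveILetI false

namespace Fermat.Agent.MW

open ModularCurve (JZero)
open ExtCitation

/-- The field of algebraic numbers. -/
local notation "Qb" => AlgebraicClosure ℚ
/-- The absolute Galois group. -/
local notation "GQ" => (AlgebraicClosure ℚ ≃ₐ[ℚ] AlgebraicClosure ℚ)

/-- **Weak Mordell–Weil** (`p` odd) -/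
theorem finiteIndex_of (N : ℕ) [NeZero N] (p : ℕ) [hp : Fact p.Prime] (hp2 : p ≠ 2)
    (hdiv : ∀ x : JZero N, ∃ y, p • y = x) (H : Subgroup GQ) (hH : IsOpen (H : Set GQ)) :
    (nsmulAddMonoidHom (α := ↥(FixedPoints.addSubgroup H (JZero N))) p).range.FiniteIndex := by
  classical
  refine finiteIndex_abs hp2 hdiv (jzero_torsion hp.out.pos) jzero_smooth
    ((2 * p * N).primeFactors.attach.image
      (fun q => (⟨q.1, Nat.prime_of_mem_primeFactors q.2⟩ : Nat.Primes)))
    (fun l hl A hA σ hσ y hy => ?_) H hH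
  have hd : ¬ (l : ℕ) ∣ 2 * p * N := by
    intro hd
    refine hl (Finset.mem_image.mpr ⟨⟨l.1, ?_⟩, Finset.mem_attach _ _, rfl⟩)
    exact Nat.mem_primeFactors.mpr ⟨l.2, hd,
      mul_ne_zero (mul_ne_zero two_ne_zero hp.out.ne_zero) (NeZero.ne N)⟩
  refine jzero_inertia l.2 (fun h => hd ?_) hA (fun h => hd (h.mul_left _)) (fun h => hd ?_) hσ y hy
  · rw [h]
    exact (dvd_mul_right 2 p).mul_right N
  · exact (h.mul_left 2).mul_right N

/-- **Weak Mordell–Weil** for `J₀(N)` and the prime `3` -/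
theorem finiteIndex_three (N : ℕ) [NeZero N]
    (hdiv : ∀ x : JZero N, ∃ y, 3 • y = x) (H : Subgroup GQ) (hH : IsOpen (H : Set GQ)) :
    (nsmulAddMonoidHom (α := ↥(FixedPoints.addSubgroup H (JZero N))) 3).range.FiniteIndex :=
  haveI : Fact (Nat.Prime 3) := ⟨Nat.prime_three⟩
  finiteIndex_of N 3 (by norm_num) hdiv H hH

end Fermat.Agent.MW
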